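import Fermat.Agent.Star.PlaceEval

/-!
# The two-component model

An abstract structure recording what we need to know about the reduction of `X₀(pm)` modulo `p`.
-/

set_option autoImplicit false

noncomputable section

open AlgebraicCurve WithZero Module
open Fermat.Agent.RR Fermat.Agent.FF

namespace Fermat.Agent.Star

section Res

variable {F κ : Type*} [Field F] [Field κ] (O : ValuationSubring F) (ρ : O →+* κ)

open Classical in
/-- total residue map -/
def tred (a : F) : κ := if h : a ∈ O then ρ ⟨a, h⟩ else 0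

variable {O ρ}

theorem tred_of_mem {a : F} (h : a ∈ O) : tred O ρ a = ρ ⟨a, h⟩ := dif_pos h

theorem tred_one : tred O ρ 1 = 1 := by
  rw [tred_of_mem O.one_mem]; exact map_one ρ

theorem tred_zero : tred O ρ 0 = 0 := by
  rw [tred_of_mem O.zero_mem]; exact map_zero ρ

theorem tred_add {a b : F} (ha : a ∈ O) (hb : b ∈ O) :
    tred O ρ (a + b) = tred O ρ a + tred O ρ b := by
  rw [tred_of_mem ha, tred_of_mem hb, tred_of_mem (add_mem ha hb), ← map_add]; rfl

theorem tred_sub {a b : F} (ha : a ∈ O) (hb : b ∈ O) :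
    tred O ρ (a - b) = tred O ρ a - tred O ρ b := by
  rw [tred_of_mem ha, tred_of_mem hb, tred_of_mem (sub_mem ha hb), ← map_sub]; rfl

theorem tred_mul {a b : F} (ha : a ∈ O) (hb : b ∈ O) :
    tred O ρ (a * b) = tred O ρ a * tred O ρ b := by
  rw [tred_of_mem ha, tred_of_mem hb, tred_of_mem (mul_mem ha hb), ← map_mul]; rfl

theorem tred_pow {a : F} (ha : a ∈ O) (n : ℕ) : tred O ρ (a ^ n) = tred O ρ a ^ n := by
  rw [tred_of_mem ha, tred_of_mem (pow_mem ha n), ← map_pow]; rfl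

theorem tred_prod {ι : Type*} (s : Finset ι) (f : ι → F) (hf : ∀ i ∈ s, f i ∈ O) :
    tred O ρ (∏ i ∈ s, f i) = ∏ i ∈ s, tred O ρ (f i) := by
  classical
  induction s using Finset.induction_on with
  | empty => simpa using tred_one
  | insert a s ha ih =>
    rw [Finset.prod_insert ha, Finset.prod_insert ha, tred_mul (hf a (Finset.mem_insert_self _ _))
      (prod_mem fun i hi => hf i (Finset.mem_insert_of_mem hi)),
      ih fun i hi => hf i (Finset.mem_insert_of_mem hi)]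

end Res

/-- The two-component model. -/
structure Model (K F k F' : Type*) [Field K] [Field F] [Algebra K F] [Field k] [Field F']
    [Algebra k F'] where
  A : ValuationSubring K
  res : A →+* k
  res_surj : Function.Surjective res
  res_eq_zero_iff : ∀ a : A, res a = 0 ↔ (a : K) ∈ A.nonunits
  arch : ∀ c ∈ A.nonunits, ∀ d : K, ∃ n : ℕ, c ^ n * d ∈ A
  O : Fin 2 → ValuationSubring F
  ρ : ∀ i, O i →+* F'
  ρ_eq_zero_iff : ∀ i (x : O i), ρ i x = 0 ↔ (x : F) ∈ (O i).nonunits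
  mem_O_iff : ∀ i (a : K), algebraMap K F a ∈ O i ↔ a ∈ A
  ρ_algebraMap : ∀ i (a : A), ρ i ⟨algebraMap K F a, (mem_O_iff i _).mpr a.2⟩ =
    algebraMap k F' (res a)
  /-- the group (inertia) -/
  G : Subgroup (SemilinearAut K F)
  smul_mem_O : ∀ g ∈ G, ∀ i, ∀ x ∈ O i, g • x ∈ O i
  ρ_smul : ∀ g ∈ G, ∀ i, ∀ x ∈ O i, tred (O i) (ρ i) (g • x) = tred (O i) (ρ i) x
  finite_orbit : ∀ f : F, {x : F | ∃ g ∈ G, g • f = x}.Finite
  /-- every function can be scaled to a unit by a constant, rationally -/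
  scale : ∀ i (f : F), f ≠ 0 → ∃ c : K, c ≠ 0 ∧ f * (algebraMap K F c)⁻¹ ∈ O i ∧
    (f * (algebraMap K F c)⁻¹)⁻¹ ∈ O i ∧
      ∀ g ∈ G, g • f = f → SemilinearAut.baseAut g c = c
  p : ℕ
  hp : p.Prime
  p_ne_zero : (p : K) ≠ 0
  p_mem : (p : K) ∈ A.nonunits
  disc : ∀ a : K, a ≠ 0 → (∀ g ∈ G, SemilinearAut.baseAut g a = a) →
    ∃ n : ℤ, a * (p : K) ^ n ∈ A ∧ (a * (p : K) ^ n)⁻¹ ∈ A
  res_fixed : ∀ c : k, ∃ a : A, (∀ g ∈ G, SemilinearAut.baseAut g (a : K) = a) ∧ res a = c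
  /-- the two charts -/
  x : Fin 2 → F
  x_transcendental : ∀ e, Transcendental K (x e)
  x_inv : x 1 = (x 0)⁻¹
  x_smul : ∀ g ∈ G, ∀ e, g • x e = x e
  x_mem : ∀ e i, x e ∈ O i

namespace Model

variable {K F k F' : Type*} [Field K] [Field F] [Algebra K F] [Field k] [Field F']
    [Algebra k F'] (M : Model K F k F')

/-- reduction on the component `i`, total function. -/
def red (i : Fin 2) (a : F) : F' := tred (M.O i) (M.ρ i) a

/-- residue of constants, total function. -/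
def cres (a : K) : k := tred M.A M.res a

/-- the ring of functions on the chart `e`. -/
def B (e : Fin 2) : Subring F where
  carrier := {f | (∀ i, f ∈ M.O i) ∧
    ∀ v : Place K F, M.x e ∈ v.toValuationSubring → f ∈ v.toValuationSubring}
  mul_mem' := fun ha hb => ⟨fun i => mul_mem (ha.1 i) (hb.1 i),
    fun v hv => mul_mem (ha.2 v hv) (hb.2 v hv)⟩
  one_mem' := ⟨fun _ => one_mem _, fun _ _ => one_mem _⟩
  add_mem' := fun ha hb => ⟨fun i => add_mem (ha.1 i) (hb.1 i),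
    fun v hv => add_mem (ha.2 v hv) (hb.2 v hv)⟩
  zero_mem' := ⟨fun _ => zero_mem _, fun _ _ => zero_mem _⟩
  neg_mem' := fun ha => ⟨fun i => neg_mem (ha.1 i), fun v hv => neg_mem (ha.2 v hv)⟩

theorem mem_B {e : Fin 2} {f : F} : f ∈ M.B e ↔ (∀ i, f ∈ M.O i) ∧
    ∀ v : Place K F, M.x e ∈ v.toValuationSubring → f ∈ v.toValuationSubring := Iff.rfl

variable {M}

theorem red_one (i : Fin 2) : M.red i 1 = 1 := tred_one
theorem red_zero (i : Fin 2) : M.red i 0 = 0 := tred_zero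
theorem red_add {i : Fin 2} {a b : F} (ha : a ∈ M.O i) (hb : b ∈ M.O i) :
    M.red i (a + b) = M.red i a + M.red i b := tred_add ha hb
theorem red_sub {i : Fin 2} {a b : F} (ha : a ∈ M.O i) (hb : b ∈ M.O i) :
    M.red i (a - b) = M.red i a - M.red i b := tred_sub ha hb
theorem red_mul {i : Fin 2} {a b : F} (ha : a ∈ M.O i) (hb : b ∈ M.O i) :
    M.red i (a * b) = M.red i a * M.red i b := tred_mul ha hb
theorem red_pow {i : Fin 2} {a : F} (ha : a ∈ M.O i) (n : ℕ) :
    M.red i (a ^ n) = M.red i a ^ n := tred_pow ha n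
theorem red_smul {i : Fin 2} {a : F} (ha : a ∈ M.O i) {g : SemilinearAut K F} (hg : g ∈ M.G) :
    M.red i (g • a) = M.red i a := M.ρ_smul g hg i a ha

theorem cres_one : M.cres 1 = 1 := tred_one
theorem cres_zero : M.cres 0 = 0 := tred_zero
theorem cres_add {a b : K} (ha : a ∈ M.A) (hb : b ∈ M.A) :
    M.cres (a + b) = M.cres a + M.cres b := tred_add ha hb
theorem cres_sub {a b : K} (ha : a ∈ M.A) (hb : b ∈ M.A) :
    M.cres (a - b) = M.cres a - M.cres b := tred_sub ha hb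
theorem cres_mul {a b : K} (ha : a ∈ M.A) (hb : b ∈ M.A) :
    M.cres (a * b) = M.cres a * M.cres b := tred_mul ha hb
theorem cres_of_mem {a : K} (ha : a ∈ M.A) : M.cres a = M.res ⟨a, ha⟩ := tred_of_mem ha

theorem cres_eq_zero_iff {a : K} (ha : a ∈ M.A) : M.cres a = 0 ↔ a ∈ M.A.nonunits := by
  rw [cres_of_mem ha, M.res_eq_zero_iff]

theorem red_eq_zero_iff {i : Fin 2} {a : F} (ha : a ∈ M.O i) :
    M.red i a = 0 ↔ a ∈ (M.O i).nonunits := by
  rw [red, tred_of_mem ha, M.ρ_eq_zero_iff]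

theorem algebraMap_mem {a : K} (ha : a ∈ M.A) (i : Fin 2) : algebraMap K F a ∈ M.O i :=
  (M.mem_O_iff i a).2 ha

theorem red_algebraMap {a : K} (ha : a ∈ M.A) (i : Fin 2) :
    M.red i (algebraMap K F a) = algebraMap k F' (M.cres a) := by
  rw [red, tred_of_mem (algebraMap_mem ha i), cres_of_mem ha]
  exact M.ρ_algebraMap i ⟨a, ha⟩

/-- `a` and `a⁻¹` are both in `O i` : being a unit at `i`. -/
theorem red_ne_zero_iff {i : Fin 2} {a : F} (ha : a ∈ M.O i) :
    M.red i a ≠ 0 ↔ a ≠ 0 ∧ a⁻¹ ∈ M.O i := by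
  rw [ne_eq, red_eq_zero_iff ha, ValuationSubring.mem_nonunits_iff, not_lt]
  rw [← ValuationSubring.valuation_le_one_iff, map_inv₀]
  constructor
  · intro h
    have h0 : a ≠ 0 := by
      rintro rfl
      rw [map_zero] at h
      exact absurd h (by simp)
    refine ⟨h0, inv_le_one_of_one_le₀ h⟩
  · rintro ⟨h0, h⟩
    have h1 : (M.O i).valuation a ≠ 0 := (Valuation.ne_zero_iff _).2 h0
    exact (one_le_inv₀ (by exact zero_lt_iff.2 (inv_ne_zero h1)) |>.2 h).trans_eq (by rw [inv_inv])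

theorem inv_mem_of_red_ne_zero {i : Fin 2} {a : F} (ha : a ∈ M.O i) (h : M.red i a ≠ 0) :
    a⁻¹ ∈ M.O i := ((red_ne_zero_iff ha).1 h).2

theorem red_inv {i : Fin 2} {a : F} (ha : a ∈ M.O i) (ha' : a⁻¹ ∈ M.O i) (h0 : a ≠ 0) :
    M.red i a⁻¹ = (M.red i a)⁻¹ := by
  have h1 : M.red i (a * a⁻¹) = M.red i a * M.red i a⁻¹ := red_mul ha ha'
  rw [mul_inv_cancel₀ h0, red_one] at h1
  exact eq_inv_of_mul_eq_one_right h1.symm

theorem exists_cres (c : k) : ∃ a ∈ M.A, (∀ g ∈ M.G, SemilinearAut.baseAut g a = a) ∧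
    M.cres a = c := by
  obtain ⟨a, ha, hac⟩ := M.res_fixed c
  refine ⟨a, a.2, ha, ?_⟩
  rw [cres_of_mem a.2]; exact hac

theorem algebraMap_mem_B {a : K} (ha : a ∈ M.A) (e : Fin 2) : algebraMap K F a ∈ M.B e :=
  ⟨fun i => algebraMap_mem ha i, fun v _ => v.algebraMap_mem' a⟩

theorem x_mem_B (e : Fin 2) : M.x e ∈ M.B e := ⟨fun i => M.x_mem e i, fun _ h => h⟩

theorem x_ne_zero (e : Fin 2) : M.x e ≠ 0 := by
  intro h
  apply M.x_transcendental e
  rw [h]; exact isAlgebraic_zero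

theorem smul_mem_A {g : SemilinearAut K F} (hg : g ∈ M.G) {a : K} (ha : a ∈ M.A) :
    SemilinearAut.baseAut g a ∈ M.A := by
  rw [← M.mem_O_iff 0, ← SemilinearAut.smul_algebraMap]
  exact M.smul_mem_O g hg 0 _ (algebraMap_mem ha 0)

theorem cres_smul {g : SemilinearAut K F} (hg : g ∈ M.G) {a : K} (ha : a ∈ M.A) :
    M.cres (SemilinearAut.baseAut g a) = M.cres a := by
  apply (algebraMap k F').injective
  rw [← red_algebraMap ha 0, ← red_algebraMap (smul_mem_A hg ha) 0,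
    ← SemilinearAut.smul_algebraMap]
  exact red_smul (algebraMap_mem ha 0) hg

theorem smul_mem_B {g : SemilinearAut K F} (hg : g ∈ M.G) {e : Fin 2} {f : F} (hf : f ∈ M.B e) :
    g • f ∈ M.B e := by
  refine ⟨fun i => M.smul_mem_O g hg i f (hf.1 i), fun v hv => ?_⟩
  have h1 : M.x e ∈ (g⁻¹ • v).toValuationSubring := by
    rw [mem_place_iff] at hv ⊢
    refine hv.imp_right fun h => ?_
    rw [← M.x_smul g⁻¹ (M.G.inv_mem hg) e, SemilinearAut.ord_smul]
    exact h
  have h2 := hf.2 _ h1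
  rw [mem_place_iff] at h2 ⊢
  rcases h2 with rfl | h2
  · left; exact smul_zero g
  · right
    have := SemilinearAut.ord_smul g (g⁻¹ • v) f
    rw [smul_inv_smul] at this
    rw [this]; exact h2

end Model

end Fermat.Agent.Star
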