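import Mathlib
import Fermat.Agent.Star.Model
import Fermat.Agent.TwoGauss.Galois
import Fermat.Agent.LocE.K0
import Fermat.Agent.TriVal.GaussDV
import Fermat.Agent.TriVal.Base
import Fermat.Agent.S36.Descent

/-!
# Preliminaries for the instance of the two-component model
-/

set_option autoImplicit false
set_option linter.unusedSectionVars false

noncomputable section

open ModularCurve HahnSeries Module AlgebraicCurve
open scoped IntermediateField
open Fermat.Agent.GaussVal Fermat.Agent.FF Fermat.Agent.RR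

namespace Fermat.Agent.Star.Inst

/-- the algebraic numbers -/
local notation "𝕂" => AlgebraicClosure ℚ

/-- the value group of `A` is archimedean -/
theorem arch {A : ValuationSubring 𝕂} {q : ℕ} (hq : q.Prime) (hA : A.LiesOverPrime q) {c : 𝕂}
    (hc : c ∈ A.nonunits) (d : 𝕂) : ∃ n : ℕ, c ^ n * d ∈ A := by
  rcases eq_or_ne c 0 with rfl | hc0
  · exact ⟨1, by rw [pow_one, zero_mul]; exact A.zero_mem⟩
  rcases eq_or_ne d 0 with rfl | hd0
  · exact ⟨0, by rw [mul_zero]; exact A.zero_mem⟩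
  have hi : ∀ x : 𝕂, x ≠ 0 → ∃ m : ℕ, 0 < m ∧ ∃ k : ℤ,
      A.valuation x ^ m = A.valuation (q : 𝕂) ^ k := by
    intro x hx
    obtain ⟨P, hP, h0⟩ := Algebra.IsAlgebraic.isAlgebraic (R := ℚ) x
    obtain ⟨m, hm, -, k, hk⟩ := exists_pow_zpow (A := A) hq hA hx hP h0
    exact ⟨m, hm, k, hk⟩
  obtain ⟨m, hm, k, hk⟩ := hi c hc0
  obtain ⟨m', hm', k', hk'⟩ := hi d hd0
  have hlt : A.valuation (q : 𝕂) < 1 := val_prime_lt_one A hA
  have hq0 : (q : 𝕂) ≠ 0 := by exact_mod_cast hq.ne_zero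
  have hpos : 0 < A.valuation (q : 𝕂) := zero_lt_iff.mpr ((Valuation.ne_zero_iff _).mpr hq0)
  have hc1 : A.valuation c < 1 := by rwa [ValuationSubring.mem_nonunits_iff] at hc
  have hk1 : 0 < k := by
    by_contra hk0
    rw [not_lt] at hk0
    have h1 : A.valuation c ^ m < 1 := pow_lt_one₀ zero_le hc1 hm.ne'
    rw [hk] at h1
    have h2 : (1 : _) ≤ A.valuation (q : 𝕂) ^ k := one_le_zpow_of_nonpos₀ hpos hlt.le hk0
    exact absurd h1 (not_lt.mpr h2)
  refine ⟨k'.natAbs * m, ?_⟩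
  rw [← ValuationSubring.valuation_le_one_iff, map_mul, map_pow]
  have h3 : (A.valuation c ^ (k'.natAbs * m) * A.valuation d) ^ (m * m') =
      A.valuation (q : 𝕂) ^ (k * (k'.natAbs * m * m') + k' * m : ℤ) := by
    rw [mul_pow, ← pow_mul]
    have e1 : A.valuation c ^ (k'.natAbs * m * (m * m')) =
        (A.valuation c ^ m) ^ (k'.natAbs * m * m') := by
      rw [← pow_mul]; congr 1; ring
    have e2 : A.valuation d ^ (m * m') = (A.valuation d ^ m') ^ m := by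
      rw [← pow_mul]; congr 1; ring
    rw [e1, e2, hk, hk', ← zpow_natCast, ← zpow_mul, ← zpow_natCast, ← zpow_mul,
      ← zpow_add₀ hpos.ne']
    congr 1
  have h4 : (0 : ℤ) ≤ k * (k'.natAbs * m * m') + k' * m := by
    have h5 : -(k'.natAbs : ℤ) ≤ k' := by omega
    have h6 : (1 : ℤ) ≤ m' := by exact_mod_cast hm'
    have h7 : (0 : ℤ) ≤ (m : ℤ) := by positivity
    have h8 : (0 : ℤ) ≤ (k'.natAbs : ℤ) * m := by positivity
    have h9 : (k'.natAbs : ℤ) * m * 1 ≤ k * (k'.natAbs * m * m') := by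
      calc (k'.natAbs : ℤ) * m * 1 ≤ (k'.natAbs : ℤ) * m * m' :=
            mul_le_mul_of_nonneg_left h6 h8
        _ = 1 * ((k'.natAbs : ℤ) * m * m') := (one_mul _).symm
        _ ≤ k * (k'.natAbs * m * m') := by
            refine mul_le_mul_of_nonneg_right hk1 ?_
            positivity
    nlinarith
  have h10 : (A.valuation c ^ (k'.natAbs * m) * A.valuation d) ^ (m * m') ≤ 1 := by
    rw [h3]
    exact zpow_le_one₀ hpos hlt.le h4
  by_contra hcon
  rw [not_le] at hcon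
  exact absurd h10 (not_le.mpr (one_lt_pow₀ hcon (Nat.mul_pos hm hm').ne'))

open Fermat.Agent.TriVal in
theorem coeffMap_mem_ratSer {K : Type*} [Field K] (L : Subfield K) {N : ℕ} {y : LaurentSeries L}
    (hy : y ∈ modularFunctionFieldFullC L N) : coeffMap (algebraMap L K) y ∈ ratSer L := by
  rw [modularFunctionFieldFullC] at hy
  induction hy using IntermediateField.adjoin_induction with
  | mem x hx =>
    obtain ⟨d, hne, hd, rfl⟩ := hx
    rw [coeffMap_qExpand, coeffMap_jqModC]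
    exact jqd_mem_ratSer d
  | algebraMap c =>
    rw [coeffMap_algebraMap']
    exact algebraMap_mem_ratSer c.2
  | add x y _ _ hx hy => rw [map_add]; exact add_mem hx hy
  | mul x y _ _ hx hy => rw [map_mul]; exact mul_mem hx hy
  | inv x _ hx => rw [map_inv₀]; exact inv_mem hx

/-- the fixed field of a set of automorphisms -/
def fix (H : Set (𝕂 ≃ₐ[ℚ] 𝕂)) : Subfield 𝕂 where
  carrier := {a | ∀ σ ∈ H, σ a = a}
  mul_mem' := fun ha hb σ hσ => by rw [map_mul, ha σ hσ, hb σ hσ]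
  one_mem' := fun σ _ => map_one σ
  add_mem' := fun ha hb σ hσ => by rw [map_add, ha σ hσ, hb σ hσ]
  zero_mem' := fun σ _ => map_zero σ
  neg_mem' := fun ha σ hσ => by rw [map_neg, ha σ hσ]
  inv_mem' := fun a ha σ hσ => by rw [map_inv₀, ha σ hσ]

theorem mem_fix {H : Set (𝕂 ≃ₐ[ℚ] 𝕂)} {a : 𝕂} : a ∈ fix H ↔ ∀ σ ∈ H, σ a = a := Iff.rfl

/-- rational scaling of a modular function -/
theorem exists_scale {A : ValuationSubring 𝕂} {q : ℕ} (hq : q.Prime) (hA : A.LiesOverPrime q)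
    {N : ℕ} (H : Set (𝕂 ≃ₐ[ℚ] 𝕂)) {y : LaurentSeries 𝕂} (hy : y ∈ modularFunctionFieldFullC 𝕂 N)
    (hy0 : y ≠ 0) (hH : ∀ σ ∈ H, coeffMap (σ : 𝕂 →+* 𝕂) y = y) :
    ∃ c : 𝕂, c ≠ 0 ∧ (∀ σ ∈ H, σ c = c) ∧
      y * (algebraMap 𝕂 (LaurentSeries 𝕂) c)⁻¹ ∈ gaussSubring A ∧
      (y * (algebraMap 𝕂 (LaurentSeries 𝕂) c)⁻¹)⁻¹ ∈ gaussSubring A := by
  have h1 : ∀ n, y.coeff n ∈ Set.range (algebraMap (fix H) 𝕂) := by
    intro n
    refine ⟨⟨y.coeff n, fun σ hσ => ?_⟩, rfl⟩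
    have h := congrArg (fun z : LaurentSeries 𝕂 => z.coeff n) (hH σ hσ)
    simpa [coeffMap_coeff] using h
  obtain ⟨z, hz⟩ := (TriVal.mem_range_bc_iff (L := fix H) (K := 𝕂) (N := N) (x := ⟨y, hy⟩)).mpr h1
  have h2 : y = coeffMap (algebraMap (fix H) 𝕂) (z : LaurentSeries (fix H)) := by
    have := congrArg (fun x : modularFunctionFieldFullC 𝕂 N => (x : LaurentSeries 𝕂)) hz
    exact this.symm
  have h3 : y ∈ TriVal.ratSer (fix H) := by
    rw [h2]
    exact coeffMap_mem_ratSer (fix H) z.2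
  obtain ⟨c, Y₁, Y₂, hc, hc0, h₁, h₂, h⟩ := TriVal.exists_normalForm hq hA h3 hy0
  have hc' : algebraMap 𝕂 (LaurentSeries 𝕂) c ≠ 0 :=
    (map_ne_zero_iff _ (algebraMap 𝕂 (LaurentSeries 𝕂)).injective).mpr hc0
  have h4 : y * (algebraMap 𝕂 (LaurentSeries 𝕂) c)⁻¹ = incl A Y₁ / incl A Y₂ := by
    rw [eq_div_iff (incl_ne_zero h₂)]
    rw [mul_assoc, mul_comm _ (incl A Y₂), ← mul_assoc, h, mul_comm, ← mul_assoc,
      inv_mul_cancel₀ hc', one_mul]
  refine ⟨c, hc0, hc, ?_, ?_⟩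
  · rw [h4]; exact TriVal.primitive_div_mem h₂
  · rw [h4, inv_div]; exact TriVal.primitive_div_mem h₁

end Fermat.Agent.Star.Inst
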