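import Mathlib
import Fermat.Agent.Star.InstAux

/-!
# The two-component model of `X₀(m q)` with its inertia action
-/

set_option autoImplicit false
set_option linter.unusedSectionVars false

noncomputable section

open ModularCurve HahnSeries Module AlgebraicCurve
open scoped IntermediateField
open Fermat.Agent.GaussVal Fermat.Agent.FF Fermat.Agent.RR Fermat.Agent.TwoGauss
open scoped Fermat.Agent.GaussVal

namespace Fermat.Agent.Star.Inst

/-- the algebraic numbers -/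
local notation "𝕂" => AlgebraicClosure ℚ

section

variable {A : ValuationSubring (AlgebraicClosure ℚ)} {q m : ℕ} [NeZero m]
  [Fact q.Prime] [CharP (IsLocalRing.ResidueField A) q]
  (hq : q.Prime) (hm : ¬ q ∣ m) (hA : A.LiesOverPrime q)
  (H3 : S18aux.DegThm (IsLocalRing.ResidueField A) m)

/-- the residue field -/
local notation "κ" => IsLocalRing.ResidueField A

/-- the two Gauss valuations -/
def OO : Fin 2 → ValuationSubring (modularFunctionFieldBar (m * q))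
  | 0 => O₁ hq hA
  | 1 => O₂ hq hm hA

/-- the two reductions -/
def ρρ : ∀ i, OO hq hm hA i →+* modularFunctionFieldFullC κ m
  | 0 => ρ₁ hq hm hA H3
  | 1 => ρ₂ hq hm hA H3

/-- the inertia group acting on the function field -/
def GG (A : ValuationSubring (AlgebraicClosure ℚ)) (N : ℕ) :
    Subgroup (SemilinearAut 𝕂 (modularFunctionFieldBar N)) :=
  (A.inertiaSubgroupIn ℚ).map (arithmeticGalois (modularFunctionFieldFull N))

theorem mem_GG {N : ℕ} {g : SemilinearAut 𝕂 (modularFunctionFieldBar N)} :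
    g ∈ GG A N ↔ ∃ σ ∈ A.inertiaSubgroupIn ℚ, arithmeticGalois (modularFunctionFieldFull N) σ = g :=
  Iff.rfl

theorem smul_eq {N : ℕ} (σ : 𝕂 ≃ₐ[ℚ] 𝕂) (f : modularFunctionFieldBar N) :
    arithmeticGalois (modularFunctionFieldFull N) σ • f = ga N σ f := rfl

theorem baseAut_eq {N : ℕ} (σ : 𝕂 ≃ₐ[ℚ] 𝕂) (a : 𝕂) :
    SemilinearAut.baseAut (arithmeticGalois (modularFunctionFieldFull N) σ) a = σ a := rfl

/-! ### The fields -/

theorem inertia_compat {σ : 𝕂 ≃ₐ[ℚ] 𝕂} (hσ : σ ∈ A.inertiaSubgroupIn ℚ) :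
    ResidueCompat A (σ : 𝕂 →+* 𝕂) (RingHom.id _) := residueCompat_of_inertia hσ

theorem ρρ_eq_zero_iff (i : Fin 2) (x : OO hq hm hA i) : ρρ hq hm hA H3 i x = 0 ↔
    (x : modularFunctionFieldBar (m * q)) ∈ (OO hq hm hA i).nonunits := by
  match i, x with
  | 0, x => exact ρ₁_eq_zero_iff hq hm hA H3 x
  | 1, x => exact ρ₂_eq_zero_iff hq hm hA H3 x

theorem mem_OO_iff (i : Fin 2) (a : 𝕂) :
    algebraMap 𝕂 (modularFunctionFieldBar (m * q)) a ∈ OO hq hm hA i ↔ a ∈ A := by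
  match i with
  | 0 => exact algebraMap_mem_O₁_iff hq hA a
  | 1 => exact algebraMap_mem_O₂_iff hq hm hA a

theorem ρρ_algebraMap (i : Fin 2) (a : A) :
    ρρ hq hm hA H3 i ⟨algebraMap 𝕂 _ a, (mem_OO_iff hq hm hA i _).mpr a.2⟩ =
      algebraMap κ (modularFunctionFieldFullC κ m) (IsLocalRing.residue A a) := by
  match i with
  | 0 => exact ρ₁_algebraMap hq hm hA H3 a _
  | 1 => exact ρ₂_algebraMap hq hm hA H3 a _

theorem smul_mem_OO (g : SemilinearAut 𝕂 (modularFunctionFieldBar (m * q)))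
    (hg : g ∈ GG A (m * q)) (i : Fin 2) (x : modularFunctionFieldBar (m * q))
    (hx : x ∈ OO hq hm hA i) : g • x ∈ OO hq hm hA i := by
  obtain ⟨σ, hσ, rfl⟩ := mem_GG.mp hg
  rw [smul_eq]
  match i, hx with
  | 0, hx => exact ga_mem₁ hq hA (inertia_compat hσ) hx
  | 1, hx => exact ga_mem₂ hq hm hA (inertia_compat hσ) hx

theorem ρρ_smul (g : SemilinearAut 𝕂 (modularFunctionFieldBar (m * q)))
    (hg : g ∈ GG A (m * q)) (i : Fin 2) (x : modularFunctionFieldBar (m * q))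
    (hx : x ∈ OO hq hm hA i) :
    tred (OO hq hm hA i) (ρρ hq hm hA H3 i) (g • x) =
      tred (OO hq hm hA i) (ρρ hq hm hA H3 i) x := by
  rw [tred_of_mem (smul_mem_OO hq hm hA g hg i x hx), tred_of_mem hx]
  obtain ⟨σ, hσ, rfl⟩ := mem_GG.mp hg
  match i, hx with
  | 0, hx =>
    have h := ρ₁_ga hq hm hA H3 (inertia_compat hσ) hx (ga_mem₁ hq hA (inertia_compat hσ) hx)
    rw [coeffEnd_id] at h
    exact h
  | 1, hx =>
    have h := ρ₂_ga hq hm hA H3 (inertia_compat hσ) hx (ga_mem₂ hq hm hA (inertia_compat hσ) hx)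
    rw [coeffEnd_id] at h
    exact h

theorem finite_orbit (f : modularFunctionFieldBar (m * q)) :
    {x : modularFunctionFieldBar (m * q) | ∃ g ∈ GG A (m * q), g • f = x}.Finite := by
  have h := Fermat.Agent.S36desc.finite_range_coeffMap (modularFunctionFieldFull (m * q)) f.2
  refine Set.Finite.of_finite_image (f := (Subtype.val : modularFunctionFieldBar (m * q) →
    LaurentSeries (AlgebraicClosure ℚ))) ?_ Subtype.val_injective.injOn
  refine Set.Finite.subset h ?_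
  rintro _ ⟨_, ⟨g, hg, rfl⟩, rfl⟩
  obtain ⟨σ, hσ, rfl⟩ := mem_GG.mp hg
  exact ⟨σ, (coe_ga (m * q) σ f).symm⟩

theorem mem_full (N : ℕ) (x : modularFunctionFieldBar N) :
    (x : LaurentSeries 𝕂) ∈ modularFunctionFieldFullC 𝕂 N := by
  rw [← laurentBaseChange_full 𝕂 N]
  exact x.2

include hq hA in
theorem scale_aux (f : modularFunctionFieldBar (m * q))
    (y : modularFunctionFieldBar (m * q)) (hy : y ≠ 0)
    (hfy : ∀ σ : 𝕂 ≃ₐ[ℚ] 𝕂, ga (m * q) σ f = f → ga (m * q) σ y = y) :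
    ∃ c : 𝕂, c ≠ 0 ∧
      (y : LaurentSeries 𝕂) * (algebraMap 𝕂 (LaurentSeries 𝕂) c)⁻¹ ∈ gaussSubring A ∧
      ((y : LaurentSeries 𝕂) * (algebraMap 𝕂 (LaurentSeries 𝕂) c)⁻¹)⁻¹ ∈ gaussSubring A ∧
      ∀ g ∈ GG A (m * q), g • f = f → SemilinearAut.baseAut g c = c := by
  have hy0 : (y : LaurentSeries 𝕂) ≠ 0 := fun h => hy (Subtype.ext h)
  obtain ⟨c, hc0, hc, h1, h2⟩ := exists_scale (A := A) hq hA
    {σ : 𝕂 ≃ₐ[ℚ] 𝕂 | ga (m * q) σ f = f} (mem_full (m * q) y) hy0 (fun σ hσ => by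
      rw [← coe_ga (m * q) σ y, hfy σ hσ])
  refine ⟨c, hc0, h1, h2, fun g hg hgf => ?_⟩
  obtain ⟨σ, hσ, rfl⟩ := mem_GG.mp hg
  exact hc σ hgf

theorem scale (i : Fin 2) (f : modularFunctionFieldBar (m * q)) (hf : f ≠ 0) :
    ∃ c : 𝕂, c ≠ 0 ∧ f * (algebraMap 𝕂 (modularFunctionFieldBar (m * q)) c)⁻¹ ∈ OO hq hm hA i ∧
      (f * (algebraMap 𝕂 (modularFunctionFieldBar (m * q)) c)⁻¹)⁻¹ ∈ OO hq hm hA i ∧
      ∀ g ∈ GG A (m * q), g • f = f → SemilinearAut.baseAut g c = c := by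
  match i with
  | 0 =>
    obtain ⟨c, hc0, h1, h2, h3⟩ := scale_aux (A := A) hq hA f f hf (fun σ h => h)
    exact ⟨c, hc0, h1, h2, h3⟩
  | 1 =>
    obtain ⟨c, hc0, h1, h2, h3⟩ := scale_aux (A := A) hq hA f (wq hq hm f)
      ((map_ne_zero_iff _ (wq hq hm).injective).mpr hf)
      (fun σ h => by rw [← wq_arithmetic, h])
    refine ⟨c, hc0, ?_, ?_, h3⟩
    · change _ ∈ O₂ hq hm hA
      rw [mem_O₂_iff, map_mul, map_inv₀, AlgEquiv.commutes]
      exact h1
    · change _ ∈ O₂ hq hm hA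
      rw [mem_O₂_iff, map_inv₀, map_mul, map_inv₀, AlgEquiv.commutes]
      exact h2

include hq hA in
theorem disc (a : 𝕂) (ha : a ≠ 0) (h : ∀ g ∈ GG A (m * q), SemilinearAut.baseAut g a = a) :
    ∃ n : ℤ, a * (q : 𝕂) ^ n ∈ A ∧ (a * (q : 𝕂) ^ n)⁻¹ ∈ A := by
  have h1 : LocE.IsFixed A a := fun σ hσ => h _ (mem_GG.mpr ⟨σ, hσ, rfl⟩)
  obtain ⟨n, hn⟩ := LocE.exists_valuation_eq_zpow hq hA h1 ha
  have hq0 : (q : 𝕂) ≠ 0 := by exact_mod_cast hq.ne_zero
  have hv : A.valuation (a * (q : 𝕂) ^ (-n)) = 1 := by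
    rw [map_mul, map_zpow₀, hn, ← zpow_add₀ ((Valuation.ne_zero_iff _).mpr hq0),
      add_neg_cancel, zpow_zero]
  refine ⟨-n, ?_, ?_⟩
  · rw [← ValuationSubring.valuation_le_one_iff, hv]
  · rw [← ValuationSubring.valuation_le_one_iff, map_inv₀, hv, inv_one]

include hq hA in
theorem res_fixed (c : κ) : ∃ a : A, (∀ g ∈ GG A (m * q), SemilinearAut.baseAut g (a : 𝕂) = a) ∧
    IsLocalRing.residue A a = c := by
  obtain ⟨⟨a, ha⟩, rfl⟩ := IsLocalRing.residue_surjective c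
  obtain ⟨b, hb, hb1, hb2⟩ := LocE.exists_fixed_sub_mem_nonunits hq hA ha
  refine ⟨⟨b, hb⟩, fun g hg => ?_, ?_⟩
  · obtain ⟨σ, hσ, rfl⟩ := mem_GG.mp hg
    exact hb1 σ hσ
  · rw [ValuationSubring.mem_nonunits_iff_exists_mem_maximalIdeal] at hb2
    obtain ⟨h3, h4⟩ := hb2
    have h5 := (IsLocalRing.residue_eq_zero_iff _).mpr h4
    have h6 : (⟨a - b, h3⟩ : A) = ⟨a, ha⟩ - ⟨b, hb⟩ := rfl
    rw [h6, map_sub, sub_eq_zero] at h5
    exact h5.symm

/-- the two charts -/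
def xx (m q : ℕ) [NeZero m] [NeZero q] : Fin 2 → modularFunctionFieldBar (m * q)
  | 0 => alphaB m q (jm m)
  | 1 => (alphaB m q (jm m))⁻¹

theorem transcendental_xx (e : Fin 2) : Transcendental 𝕂 (xx m q e) := by
  have h : Transcendental 𝕂 (xx m q 0) := by
    change Transcendental 𝕂 (alphaB m q (jm m))
    rw [alpha_jm, ← jEl_eq (m * q) (S18aux.bar_eq (m * q))]
    exact transcendental_jEl _ _ _ _
  match e with
  | 0 => exact h
  | 1 =>
    intro h1
    apply h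
    have h2 : xx m q 0 = (xx m q 1)⁻¹ := (inv_inv _).symm
    rw [h2]
    exact h1.inv

theorem smul_xx (g : SemilinearAut 𝕂 (modularFunctionFieldBar (m * q)))
    (hg : g ∈ GG A (m * q)) (e : Fin 2) : g • xx m q e = xx m q e := by
  obtain ⟨σ, hσ, rfl⟩ := mem_GG.mp hg
  have h : arithmeticGalois (modularFunctionFieldFull (m * q)) σ • xx m q 0 = xx m q 0 := by
    rw [smul_eq]
    change ga (m * q) σ (alphaB m q (jm m)) = alphaB m q (jm m)
    rw [← alphaB_ga, ga_jm]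
  match e with
  | 0 => exact h
  | 1 =>
    change arithmeticGalois (modularFunctionFieldFull (m * q)) σ • (xx m q 0)⁻¹ = (xx m q 0)⁻¹
    rw [smul_inv₀', h]

theorem inv_mem_of {F : Type*} [Field F] (O : ValuationSubring F) {x : F}
    (h : x ∉ O.nonunits) : x⁻¹ ∈ O := by
  rw [ValuationSubring.mem_nonunits_iff, not_lt] at h
  rw [← ValuationSubring.valuation_le_one_iff, map_inv₀]
  exact inv_le_one_of_one_le₀ h

theorem xx_mem (e i : Fin 2) : xx m q e ∈ OO hq hm hA i := by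
  have e0 : xx m q 0 = jdB 𝕂 (m * q) (oneDv (m * q)) := alpha_jm
  have e1 : xx m q 1 = (jdB 𝕂 (m * q) (oneDv (m * q)))⁻¹ := by
    change (alphaB m q (jm m))⁻¹ = _
    rw [alpha_jm]
  have h1 : jdB 𝕂 (m * q) (oneDv (m * q)) ∈ O₁ hq hA := jdB_mem_O₁ hq hA _
  have h2 : jdB 𝕂 (m * q) (oneDv (m * q)) ∈ O₂ hq hm hA := jdB_mem_O₂ hq hm hA _
  have hj : ∀ (d : ℕ) [NeZero d], TwoGauss.jd κ d ≠ 0 := by
    intro d _ h
    have h3 : jqModC κ = 0 := by
      exact qExpand_injective (R := κ) d (h.trans (map_zero _).symm)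
    have h4 := transcendental_jqModC κ
    rw [h3] at h4
    exact h4 isAlgebraic_zero
  match e, i with
  | 0, 0 => rw [e0]; exact h1
  | 0, 1 => rw [e0]; exact h2
  | 1, 0 =>
    rw [e1]
    refine inv_mem_of (O₁ hq hA) fun h => ?_
    have h3 := (gaussRho_eq_zero_iff (hℓ := hq) (hA := hA) (hF := emb₁_mem)
      (x := (⟨_, h1⟩ : O₁ hq hA))).mpr h
    exact hj _ ((r₁_jdB hq hA _ h1).symm.trans h3)
  | 1, 1 =>
    rw [e1]
    refine inv_mem_of (O₂ hq hm hA) fun h => ?_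
    have h3 := (gaussRho_eq_zero_iff (hℓ := hq) (hA := hA) (hF := emb₂_mem hq hm)
      (x := (⟨_, h2⟩ : O₂ hq hm hA))).mpr h
    exact hj _ ((r₂_jdB_one hq hm hA h2).symm.trans h3)

/-- **The model.** -/
def model : Model 𝕂 (modularFunctionFieldBar (m * q)) κ (modularFunctionFieldFullC κ m) where
  A := A
  res := IsLocalRing.residue A
  res_surj := IsLocalRing.residue_surjective
  res_eq_zero_iff a := by
    rw [IsLocalRing.residue_eq_zero_iff, ValuationSubring.mem_nonunits_iff_exists_mem_maximalIdeal]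
    exact ⟨fun h => ⟨a.2, h⟩, fun ⟨_, h⟩ => h⟩
  arch c hc d := arch hq hA hc d
  O := OO hq hm hA
  ρ := ρρ hq hm hA H3
  ρ_eq_zero_iff := ρρ_eq_zero_iff hq hm hA H3
  mem_O_iff := mem_OO_iff hq hm hA
  ρ_algebraMap := ρρ_algebraMap hq hm hA H3
  G := GG A (m * q)
  smul_mem_O := smul_mem_OO hq hm hA
  ρ_smul := ρρ_smul hq hm hA H3
  finite_orbit := finite_orbit
  scale := scale hq hm hA
  p := q
  hp := hq
  p_ne_zero := by exact_mod_cast hq.ne_zero
  p_mem := by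
    rw [ValuationSubring.mem_nonunits_iff]
    exact val_prime_lt_one A hA
  disc := disc hq hA
  res_fixed := res_fixed hq hA
  x := xx m q
  x_transcendental := transcendental_xx
  x_inv := rfl
  x_smul := smul_xx
  x_mem := xx_mem hq hm hA

theorem model_A : (model hq hm hA H3).A = A := rfl
theorem model_res : (model hq hm hA H3).res = IsLocalRing.residue A := rfl
theorem model_O_zero : (model hq hm hA H3).O 0 = O₁ hq hA := rfl
theorem model_O_one : (model hq hm hA H3).O 1 = O₂ hq hm hA := rfl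
theorem model_ρ_zero : (model hq hm hA H3).ρ 0 = ρ₁ hq hm hA H3 := rfl
theorem model_ρ_one : (model hq hm hA H3).ρ 1 = ρ₂ hq hm hA H3 := rfl
theorem model_G : (model hq hm hA H3).G = GG A (m * q) := rfl
theorem model_x_zero : (model hq hm hA H3).x 0 = alphaB m q (jm m) := rfl
theorem model_x_one : (model hq hm hA H3).x 1 = (alphaB m q (jm m))⁻¹ := rfl

end

end Fermat.Agent.Star.Inst
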