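import Fermat.Agent.Star.Node
import Fermat.Agent.TwoComp.Ortho
import Fermat.Agent.TwoComp.Lp
import Mathlib.LinearAlgebra.Determinant

/-!
# Rational liftings in the two-component model
-/

set_option autoImplicit false
set_option linter.unusedSectionVars false

noncomputable section

open AlgebraicCurve WithZero Module
open Fermat.Agent.RR Fermat.Agent.FF
open Fermat.Agent.TwoComp (RedRing Lp)

namespace Fermat.Agent.Star

variable {K F k F' : Type*} [Field K] [Field F] [Algebra K F] [Field k] [Field F']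
    [Algebra k F'] [IsAlgClosed K] [IsFF K F] [IsAlgClosed k] [IsFF k F']

namespace Model

variable (M : Model K F k F')

/-- the intersection of the two valuation rings -/
def OI : Subring F := (M.O 0).toSubring ⊓ (M.O 1).toSubring

theorem mem_OI {x : F} : x ∈ M.OI ↔ ∀ i, x ∈ M.O i := by
  rw [Fin.forall_fin_two]; exact Iff.rfl

/-- the two reductions as a ring homomorphism. -/
def RI : RedRing K F k (Fin 2 → F') where
  A := M.A
  res := M.res
  res_surj := M.res_surj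
  res_eq_zero_iff := M.res_eq_zero_iff
  O := M.OI
  ρ :=
    { toFun := fun x i => M.red i x
      map_one' := funext fun i => red_one i
      map_mul' := fun x y => funext fun i => red_mul (M.mem_OI.1 x.2 i) (M.mem_OI.1 y.2 i)
      map_zero' := funext fun i => red_zero i
      map_add' := fun x y => funext fun i => red_add (M.mem_OI.1 x.2 i) (M.mem_OI.1 y.2 i) }
  mem_O_iff a := by
    rw [mem_OI]
    exact ⟨fun h => (M.mem_O_iff 0 a).1 (h 0), fun h i => (M.mem_O_iff i a).2 h⟩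
  ρ_algebraMap a := by
    funext i
    change M.red i (algebraMap K F a) = algebraMap k F' (M.res a)
    rw [red_algebraMap a.2 i, cres_of_mem]
  inv_mem x hx := by
    rw [mem_OI]
    intro i
    refine inv_mem_of_red_ne_zero (M.mem_OI.1 x.2 i) ?_
    exact (hx.map (Pi.evalRingHom (fun _ : Fin 2 => F') i)).ne_zero

theorem RI_ρ_apply (x : M.RI.O) (i : Fin 2) : M.RI.ρ x i = M.red i x := rfl

variable {M}

/-- the joint reduction -/
def red2 (M : Model K F k F') (x : F) : Fin 2 → F' := fun i => M.red i x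

section Step

variable {V : Submodule K F} {ι : Type*} [Fintype ι] [DecidableEq ι]

theorem red_sum {a : ι → K} (ha : ∀ i, a i ∈ M.A) {b : ι → F} (hb : ∀ i j, b i ∈ M.O j) :
    (∀ j, ∑ i, a i • b i ∈ M.O j) ∧
      M.red2 (∑ i, a i • b i) = ∑ i, M.cres (a i) • M.red2 (b i) := by
  have h1 : ∀ i, b i ∈ M.RI.O := fun i => M.mem_OI.2 (hb i)
  have h2 : ((∑ i, M.RI.algA ⟨a i, ha i⟩ * (⟨b i, h1 i⟩ : M.RI.O) : M.RI.O) : F) =
      ∑ i, a i • b i := by
    rw [AddSubmonoidClass.coe_finsetSum]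
    exact Finset.sum_congr rfl fun i _ => (Algebra.smul_def _ _).symm
  refine ⟨fun j => h2 ▸ M.mem_OI.1 (∑ i, M.RI.algA ⟨a i, ha i⟩ * (⟨b i, h1 i⟩ : M.RI.O) :
    M.RI.O).2 j, ?_⟩
  have h3 := M.RI.ρ_sum_smul (fun i => ⟨a i, ha i⟩) (fun i => (⟨b i, h1 i⟩ : M.RI.O))
  have h4 : M.RI.ρ (∑ i, M.RI.algA ⟨a i, ha i⟩ * (⟨b i, h1 i⟩ : M.RI.O)) =
      M.red2 (∑ i, a i • b i) := by
    rw [← h2]; rfl
  rw [← h4, h3]
  refine Finset.sum_congr rfl fun i _ => ?_
  rw [cres_of_mem (ha i)]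
  rfl

theorem step (e : Basis ι K V) {b : ι → V} (hb : ∀ i j, (b i : F) ∈ M.O j)
    (hfix : ∀ g ∈ M.G, ∀ i, g • (b i : F) = b i)
    (hdep : ¬ LinearIndependent k (fun i => M.red2 (b i : F))) :
    ∃ b' : ι → V, (∀ i j, (b' i : F) ∈ M.O j) ∧ (∀ g ∈ M.G, ∀ i, g • (b' i : F) = b' i) ∧
      e.det b' = (M.p : K)⁻¹ * e.det b := by
  rw [Fintype.linearIndependent_iff] at hdep
  push Not at hdep
  obtain ⟨c, hc, l, hl⟩ := hdep
  have hc' : ∑ i, ((c l)⁻¹ * c i) • M.red2 (b i : F) = 0 := by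
    rw [← smul_zero (c l)⁻¹, ← hc, Finset.smul_sum]
    exact Finset.sum_congr rfl fun i _ => (smul_smul _ _ _).symm
  have h1 : ∀ i, ∃ a ∈ M.A, (∀ g ∈ M.G, SemilinearAut.baseAut g a = a) ∧
      M.cres a = (c l)⁻¹ * c i ∧ (i = l → a = 1) := by
    intro i
    by_cases h : i = l
    · refine ⟨1, one_mem _, fun g _ => map_one _, ?_, fun _ => rfl⟩
      rw [cres_one, h, inv_mul_cancel₀ hl]
    · obtain ⟨a, ha, ha1, ha2⟩ := M.exists_cres ((c l)⁻¹ * c i)
      exact ⟨a, ha, ha1, ha2, fun h' => absurd h' h⟩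
  choose a ha hafix hac hal using h1
  obtain ⟨h2, h3⟩ := red_sum ha hb
  have h4 : ∀ g ∈ M.G, g • (∑ i, a i • (b i : F)) = ∑ i, a i • (b i : F) := by
    intro g hg
    rw [Finset.smul_sum]
    refine Finset.sum_congr rfl fun i _ => ?_
    rw [Algebra.smul_def, smul_mul', SemilinearAut.smul_algebraMap, hafix i g hg, hfix g hg]
  have h5 : M.red2 (∑ i, a i • (b i : F)) = 0 := by
    rw [h3, ← hc']
    exact Finset.sum_congr rfl fun i _ => by rw [hac]
  set w : V := (M.p : K)⁻¹ • ∑ i, a i • b i with hw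
  have hwF : (w : F) = (∑ i, a i • (b i : F)) * M.pF⁻¹ := by
    rw [hw, Submodule.coe_smul, Submodule.coe_sum, Algebra.smul_def, map_inv₀, mul_comm]
    rfl
  refine ⟨Function.update b l w, ?_, ?_, ?_⟩
  · intro i j
    by_cases h : i = l
    · subst h
      rw [Function.update_self, hwF]
      exact mul_inv_pF_mem (h2 j) (congrFun h5 j) h4
    · rw [Function.update_of_ne h]
      exact hb i j
  · intro g hg i
    by_cases h : i = l
    · subst h
      rw [Function.update_self, hwF, smul_mul', smul_inv₀', pF_fix, h4 g hg]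
    · rw [Function.update_of_ne h]
      exact hfix g hg i
  · rw [hw, AlternatingMap.map_update_smul, AlternatingMap.map_update_sum, smul_eq_mul]
    congr 1
    rw [Finset.sum_eq_single l]
    · rw [AlternatingMap.map_update_smul, hal l rfl, one_smul, Function.update_eq_self]
    · intro i _ hi
      rw [AlternatingMap.map_update_smul, AlternatingMap.map_update_self _ _ (Ne.symm hi),
        smul_zero]
    · intro h
      exact absurd (Finset.mem_univ l) h

theorem coord_mem2 {b : ι → F} (hb : ∀ i j, b i ∈ M.O j)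
    (hli : LinearIndependent k (fun i => M.red2 (b i))) {c : ι → K}
    (hc : ∀ j, ∑ i, c i • b i ∈ M.O j) (i : ι) : c i ∈ M.A :=
  RedRing.coord_mem (R := M.RI) (b := fun i => (⟨b i, M.mem_OI.2 (hb i)⟩ : M.RI.O)) hli
    (M.mem_OI.2 hc) i

theorem det_mem (e : Basis ι K V) (he : ∀ i j, (e i : F) ∈ M.O j)
    (hli : LinearIndependent k (fun i => M.red2 (e i : F))) {b : ι → V}
    (hb : ∀ i j, (b i : F) ∈ M.O j) : e.det b ∈ M.A := by
  have h1 : ∀ i j, e.toMatrix b i j ∈ M.A := by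
    intro i j
    rw [Basis.toMatrix_apply]
    refine coord_mem2 (c := fun i => e.repr (b j) i) he hli ?_ i
    have h2 : ∑ i, e.repr (b j) i • (e i : F) = b j := by
      conv_rhs => rw [← e.sum_repr (b j)]
      rw [Submodule.coe_sum]
      rfl
    rw [h2]
    exact hb j
  rw [Basis.det_apply, Matrix.det_apply]
  refine sum_mem fun σ _ => ?_
  have h3 : ∏ i, e.toMatrix b (σ i) i ∈ M.A := prod_mem fun i _ => h1 _ _
  rcases Int.units_eq_one_or (Equiv.Perm.sign σ) with h | h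
  · rw [h, one_smul]; exact h3
  · rw [h, Units.neg_smul, one_smul]; exact neg_mem h3

theorem inv_p_notMem : (M.p : K)⁻¹ ∉ M.A := by
  intro h
  have h1 := M.p_mem
  rw [ValuationSubring.mem_nonunits_iff] at h1
  rw [← ValuationSubring.valuation_le_one_iff, map_inv₀] at h
  have h2 : M.A.valuation (M.p : K) ≠ 0 := (Valuation.ne_zero_iff _).2 M.p_ne_zero
  exact absurd h (not_le.2 ((one_lt_inv₀ (zero_lt_iff.2 h2)).2 h1))

/-- **Saturation**: a fixed basis of the lattice. -/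
theorem exists_saturated (e : Basis ι K V) (he : ∀ i j, (e i : F) ∈ M.O j)
    (hli : LinearIndependent k (fun i => M.red2 (e i : F))) (n : ℕ) :
    ∀ b : ι → V, (∀ i j, (b i : F) ∈ M.O j) → (∀ g ∈ M.G, ∀ i, g • (b i : F) = b i) →
      e.det b ≠ 0 → (M.p : K) ^ n * (e.det b)⁻¹ ∈ M.A →
      ∃ b' : ι → V, (∀ i j, (b' i : F) ∈ M.O j) ∧ (∀ g ∈ M.G, ∀ i, g • (b' i : F) = b' i) ∧
        e.det b' ≠ 0 ∧ LinearIndependent k (fun i => M.red2 (b' i : F)) := by
  induction n with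
  | zero =>
    intro b hb hfix hdet hn
    by_cases hdep : LinearIndependent k (fun i => M.red2 (b i : F))
    · exact ⟨b, hb, hfix, hdet, hdep⟩
    · exfalso
      obtain ⟨b', hb', -, hdet'⟩ := step e hb hfix hdep
      have h1 := det_mem e he hli hb'
      rw [hdet'] at h1
      rw [pow_zero, one_mul] at hn
      have h2 := mul_mem h1 hn
      rw [mul_assoc, mul_inv_cancel₀ hdet, mul_one] at h2
      exact inv_p_notMem h2
  | succ n ih =>
    intro b hb hfix hdet hn
    by_cases hdep : LinearIndependent k (fun i => M.red2 (b i : F))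
    · exact ⟨b, hb, hfix, hdet, hdep⟩
    · obtain ⟨b', hb', hfix', hdet'⟩ := step e hb hfix hdep
      refine ih b' hb' hfix' ?_ ?_
      · rw [hdet']
        exact mul_ne_zero (inv_ne_zero M.p_ne_zero) hdet
      · rw [hdet', mul_inv, inv_inv, ← mul_assoc, ← pow_succ]
        exact hn

theorem exists_pow_p_mem (j : Fin 2) (f : F) : ∃ n : ℕ, ∀ m, n ≤ m → M.pF ^ m * f ∈ M.O j := by
  rcases eq_or_ne f 0 with rfl | hf
  · exact ⟨0, fun m _ => by rw [mul_zero]; exact zero_mem _⟩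
  obtain ⟨c, hc0, hc1, -, -⟩ := M.scale j f hf
  have hcF : algebraMap K F c ≠ 0 := (_root_.map_ne_zero _).2 hc0
  obtain ⟨n, hn⟩ := M.arch (M.p : K) M.p_mem c
  refine ⟨n, fun m hm => ?_⟩
  have h1 : M.pF ^ m * f = M.pF ^ (m - n) * (algebraMap K F ((M.p : K) ^ n * c) *
      (f * (algebraMap K F c)⁻¹)) := by
    rw [map_mul, map_pow]
    change _ = M.pF ^ (m - n) * ((M.pF ^ n * _) * _)
    rw [← Nat.sub_add_cancel hm, Nat.add_sub_cancel, pow_add]
    field_simp
  rw [h1]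
  exact mul_mem (pow_mem (pF_mem j) _) (mul_mem (algebraMap_mem hn j) hc1)

/-- **Rational lifting** inside a space with a fixed basis. -/
theorem exists_fixed_lift (e : Basis ι K V) (he : ∀ i j, (e i : F) ∈ M.O j)
    (hli : LinearIndependent k (fun i => M.red2 (e i : F))) (b : Basis ι K V)
    (hfix : ∀ g ∈ M.G, ∀ i, g • (b i : F) = b i) {f : F} (hfV : f ∈ V) (hf : ∀ j, f ∈ M.O j) :
    ∃ f₀ ∈ V, (∀ j, f₀ ∈ M.O j) ∧ (∀ g ∈ M.G, g • f₀ = f₀) ∧ ∀ j, M.red j f₀ = M.red j f := by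
  -- scaling
  obtain ⟨n, hn⟩ : ∃ n : ℕ, ∀ i j, M.pF ^ n * (b i : F) ∈ M.O j := by
    choose N hN using fun (i : ι) (j : Fin 2) => exists_pow_p_mem (M := M) j (b i : F)
    refine ⟨∑ i, ∑ j, N i j, fun i j => hN i j _ ?_⟩
    exact (Finset.single_le_sum (f := fun j => N i j) (fun _ _ => Nat.zero_le _)
      (Finset.mem_univ j)).trans (Finset.single_le_sum (f := fun i => ∑ j, N i j)
        (fun _ _ => Nat.zero_le _) (Finset.mem_univ i))
  have hpn : (M.p : K) ^ n ≠ 0 := pow_ne_zero _ M.p_ne_zero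
  set b1 : ι → V := fun i => (M.p : K) ^ n • b i with hb1
  have hb1F : ∀ i, (b1 i : F) = M.pF ^ n * (b i : F) := by
    intro i
    rw [hb1]
    change (M.p : K) ^ n • (b i : F) = _
    rw [Algebra.smul_def, map_pow]
    rfl
  have hb1O : ∀ i j, (b1 i : F) ∈ M.O j := fun i j => by rw [hb1F]; exact hn i j
  have hb1G : ∀ g ∈ M.G, ∀ i, g • (b1 i : F) = b1 i := fun g hg i => by
    rw [hb1F, smul_mul', smul_pow', pF_fix, hfix g hg]
  have hdet1 : e.det b1 ≠ 0 := by
    have h1 : e.det b1 = (∏ _i : ι, (M.p : K) ^ n) • e.det b :=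
      AlternatingMap.map_smul_univ e.det (fun _ => (M.p : K) ^ n) b
    rw [h1, smul_eq_mul]
    exact mul_ne_zero (Finset.prod_ne_zero_iff.2 fun _ _ => hpn) (e.isUnit_det b).ne_zero
  obtain ⟨N, hN⟩ := M.arch (M.p : K) M.p_mem (e.det b1)⁻¹
  obtain ⟨b', hb'O, hb'G, hb'det, hb'li⟩ := exists_saturated e he hli N b1 hb1O hb1G hdet1 hN
  obtain ⟨hli', hsp'⟩ := (Module.Basis.is_basis_iff_det e).2 (isUnit_iff_ne_zero.2 hb'det)
  let B := Basis.mk hli' hsp'.ge
  have hB : ∀ i, B i = b' i := fun i => Basis.mk_apply _ _ i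
  have hsum : ∑ i, B.repr ⟨f, hfV⟩ i • (b' i : F) = f := by
    have h1 := congrArg (fun v : V => (v : F)) (B.sum_repr ⟨f, hfV⟩)
    simp only [Submodule.coe_sum, Submodule.coe_smul, hB] at h1
    exact h1
  have hcA : ∀ i, B.repr ⟨f, hfV⟩ i ∈ M.A :=
    coord_mem2 (c := fun i => B.repr ⟨f, hfV⟩ i) hb'O hb'li (by rw [hsum]; exact hf)
  choose a ha hafix hac using fun i => M.exists_cres (M.cres (B.repr ⟨f, hfV⟩ i))
  obtain ⟨h2, h3⟩ := red_sum ha hb'O
  obtain ⟨-, h4⟩ := red_sum hcA hb'O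
  refine ⟨∑ i, a i • (b' i : F), V.sum_mem fun i _ => V.smul_mem _ (b' i).2, h2, ?_, ?_⟩
  · intro g hg
    rw [Finset.smul_sum]
    refine Finset.sum_congr rfl fun i _ => ?_
    rw [Algebra.smul_def, smul_mul', SemilinearAut.smul_algebraMap, hafix i g hg, hb'G g hg]
  · intro j
    rw [hsum] at h4
    have h5 : M.red2 (∑ i, a i • (b' i : F)) = M.red2 f := by
      rw [h3, h4]
      exact Finset.sum_congr rfl fun i _ => by rw [hac]
    exact congrFun h5 j

end Step

section Chart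

theorem smul_mem_Lp {g : SemilinearAut K F} (hg : g ∈ M.G) (e : Fin 2) {n : ℤ} {f : F}
    (hf : f ∈ Lp (K := K) (M.x e) n) : g • f ∈ Lp (K := K) (M.x e) n := by
  rcases eq_or_ne f 0 with rfl | hf0
  · rw [smul_zero]; exact Submodule.zero_mem _
  have hgf : g • f ≠ 0 := by rwa [ne_eq, smul_eq_zero_iff_eq]
  rw [TwoComp.mem_Lp' hf0] at hf
  rw [TwoComp.mem_Lp' hgf]
  intro v
  have h1 := hf (g⁻¹ • v)
  have h2 := SemilinearAut.ord_smul g (g⁻¹ • v) f
  have h3 := SemilinearAut.ord_smul g (g⁻¹ • v) (M.x e)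
  rw [smul_inv_smul] at h2 h3
  rw [M.x_smul g hg e] at h3
  rw [h2, h3]
  exact h1

theorem exists_mem_Lp_of_mem_B {e : Fin 2} {f : F} (hf : f ∈ M.B e) :
    ∃ n : ℤ, f ∈ Lp (K := K) (M.x e) n := by
  classical
  rcases eq_or_ne f 0 with rfl | hf0
  · exact ⟨0, Submodule.zero_mem _⟩
  set S : Finset (Place K F) := (finite_ord_ne_zero (K := K) f).toFinset with hS
  refine ⟨∑ v ∈ S, |v.ord f|, ?_⟩
  rw [TwoComp.mem_Lp' hf0]
  intro v
  have hN : 0 ≤ ∑ v ∈ S, |v.ord f| := Finset.sum_nonneg fun _ _ => abs_nonneg _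
  by_cases hv : M.x e ∈ v.toValuationSubring
  · have h1 := ord_nonneg_of_mem v (hf.2 v hv)
    have h2 : 0 ≤ (∑ v ∈ S, |v.ord f|) * max (-v.ord (M.x e)) 0 :=
      mul_nonneg hN (le_max_right _ _)
    omega
  · have h1 : v.ord (M.x e) < 0 := by
      by_contra hcon
      push Not at hcon
      exact hv (mem_place_of_ord_nonneg v hcon)
    have h2 : 1 ≤ max (-v.ord (M.x e)) 0 := le_max_of_le_left (by omega)
    have h3 : |v.ord f| ≤ ∑ v ∈ S, |v.ord f| := by
      by_cases hvS : v ∈ S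
      · exact Finset.single_le_sum (f := fun v : Place K F => |v.ord f|)
          (fun _ _ => abs_nonneg _) hvS
      · have : v.ord f = 0 := by
          by_contra hne
          exact hvS (by rw [hS]; simpa using hne)
        rw [this, abs_zero]; exact hN
    have h4 : -v.ord f ≤ |v.ord f| := neg_le_abs _
    nlinarith

theorem mem_place_of_mem_Lp {e : Fin 2} {n : ℤ} {f : F} (hf : f ∈ Lp (K := K) (M.x e) n)
    (v : Place K F) (hv : M.x e ∈ v.toValuationSubring) : f ∈ v.toValuationSubring := by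
  rcases eq_or_ne f 0 with rfl | hf0
  · exact zero_mem _
  rw [TwoComp.mem_Lp' hf0] at hf
  have h1 := hf v
  have h2 := ord_nonneg_of_mem v hv
  rw [max_eq_right (by omega), mul_zero, neg_zero] at h1
  exact mem_place_of_ord_nonneg v h1

/-- **(I2)**, abstract form. -/
theorem lift_of
    (hort : ∀ (V : Submodule K F) [FiniteDimensional K V],
      ∃ e : Basis (Fin (finrank K V)) K V, (∀ i j, (e i : F) ∈ M.O j) ∧
        LinearIndependent k (fun i => M.red2 (e i : F)))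
    (hdesc : ∀ (V : Submodule K F) [FiniteDimensional K V],
      (∀ g ∈ M.G, ∀ v ∈ V, g • v ∈ V) →
        ∃ b : Basis (Fin (finrank K V)) K V, ∀ g ∈ M.G, ∀ i, g • (b i : F) = b i)
    (e : Fin 2) (f : F) (hf : f ∈ M.B e) :
    ∃ f₀ ∈ M.B e, (∀ g ∈ M.G, g • f₀ = f₀) ∧ ∀ i, M.red i f₀ = M.red i f := by
  obtain ⟨n, hn⟩ := exists_mem_Lp_of_mem_B hf
  obtain ⟨E, hE, hli⟩ := hort (Lp (K := K) (M.x e) n)
  obtain ⟨b, hb⟩ := hdesc (Lp (K := K) (M.x e) n) fun g hg v hv => smul_mem_Lp hg e hv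
  obtain ⟨f₀, h1, h2, h3, h4⟩ := exists_fixed_lift E hE hli b hb hn hf.1
  exact ⟨f₀, ⟨h2, fun v hv => mem_place_of_mem_Lp h1 v hv⟩, h3, h4⟩

end Chart

end Model

end Fermat.Agent.Star
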