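import Mathlib
import Fermat.Agent.Star.Lift
import Fermat.Agent.Star.Inst
import Fermat.Agent.TwoGauss.Uncond
import Fermat.Agent.TriVal.Kz

/-!
# Rational liftings for `X₀(m q)`
-/

set_option autoImplicit false
set_option linter.unusedSectionVars false
set_option linter.style.haveILetI false

noncomputable section

open ModularCurve HahnSeries Module AlgebraicCurve
open scoped IntermediateField
open Fermat.Agent.GaussVal Fermat.Agent.FF Fermat.Agent.RR Fermat.Agent.TwoGauss
open scoped Fermat.Agent.GaussVal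

namespace Fermat.Agent.Star.Inst

/-- the algebraic numbers -/
local notation "𝕂" => AlgebraicClosure ℚ

section Descent

variable (A : ValuationSubring 𝕂) (N : ℕ)

/-- the coefficients -/
def coB (V : Submodule 𝕂 (modularFunctionFieldBar N)) (n : ℤ) : V →ₗ[𝕂] 𝕂 where
  toFun v := ((v : modularFunctionFieldBar N) : LaurentSeries 𝕂).coeff n
  map_add' v w := by simp
  map_smul' a v := by
    simp only [Submodule.coe_smul, IntermediateField.coe_smul, RingHom.id_apply, smul_eq_mul]
    rw [Algebra.smul_def, Fermat.Agent.GaussVal.coeff_algebraMap_mul]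

theorem coB_apply (V : Submodule 𝕂 (modularFunctionFieldBar N)) (n : ℤ) (v : V) :
    coB N V n v = ((v : modularFunctionFieldBar N) : LaurentSeries 𝕂).coeff n := rfl

theorem coeff_ga (σ : 𝕂 ≃ₐ[ℚ] 𝕂) (x : modularFunctionFieldBar N) (n : ℤ) :
    ((ga N σ x : modularFunctionFieldBar N) : LaurentSeries 𝕂).coeff n =
      σ ((x : LaurentSeries 𝕂).coeff n) := by
  rw [coe_ga]; rfl

/-- **Descent** of a stable space. -/
theorem exists_fixed_basis (V : Submodule 𝕂 (modularFunctionFieldBar N)) [FiniteDimensional 𝕂 V]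
    (hV : ∀ g ∈ GG A N, ∀ v ∈ V, g • v ∈ V) :
    ∃ b : Basis (Fin (finrank 𝕂 V)) 𝕂 V,
      ∀ g ∈ GG A N, ∀ i, g • (b i : modularFunctionFieldBar N) = b i := by
  classical
  obtain ⟨b, p, hb, hb2⟩ := TriVal.exists_fixed_pivotFamily (L := TriVal.Kz A)
    (A := (⊤ : ValuationSubring 𝕂)) (coB N V)
    (by
      intro v hv
      have : ∃ n, coB N V n v ≠ 0 := by
        by_contra h
        push Not at h
        apply hv
        apply Subtype.ext
        apply Subtype.ext
        ext n
        exact h n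
      obtain ⟨n, hn⟩ := this
      refine ⟨n, hn, fun m => ?_⟩
      have h1 : ∀ x : 𝕂, x ≠ 0 → (⊤ : ValuationSubring 𝕂).valuation x = 1 := by
        intro x hx
        apply le_antisymm
        · rw [ValuationSubring.valuation_le_one_iff]; trivial
        · have : (⊤ : ValuationSubring 𝕂).valuation x⁻¹ ≤ 1 := by
            rw [ValuationSubring.valuation_le_one_iff]; trivial
          rw [map_inv₀] at this
          exact (inv_le_one₀ (zero_lt_iff.mpr ((Valuation.ne_zero_iff _).mpr hx))).mp this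
      rw [h1 _ hn, ValuationSubring.valuation_le_one_iff]
      trivial)
    {σ | ∃ τ ∈ A.inertiaSubgroupIn ℚ, σ = τ}
    (by
      intro x hx
      exact TriVal.Kz.mem_range_iff_isFixed.mpr fun σ hσ => hx σ ⟨σ, hσ, rfl⟩)
    (by rintro _ ⟨τ, _, rfl⟩; exact map_zero τ)
    (by rintro _ ⟨τ, _, rfl⟩; exact map_one τ)
    (by
      rintro _ ⟨τ, hτ, rfl⟩ v
      refine ⟨⟨ga N τ v, hV _ (mem_GG.mpr ⟨τ, hτ, rfl⟩) v v.2⟩, fun n => ?_⟩
      rw [coB_apply, coB_apply]
      exact coeff_ga N τ v n)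
  have hcard : Fintype.card (Fin (finrank 𝕂 V)) = finrank 𝕂 V := Fintype.card_fin _
  refine ⟨basisOfLinearIndependentOfCardEqFinrank' b hb.linearIndependent hcard,
    fun g hg i => ?_⟩
  obtain ⟨σ, hσ, rfl⟩ := mem_GG.mp hg
  rw [smul_eq, coe_basisOfLinearIndependentOfCardEqFinrank']
  apply Subtype.ext
  ext n
  rw [coeff_ga]
  have h1 := TriVal.Kz.mem_range_iff_isFixed.mp (hb2 n i)
  exact h1 σ hσ

end Descent

section Final

variable {A : ValuationSubring (AlgebraicClosure ℚ)} {q m : ℕ} [NeZero m]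
  [Fact q.Prime] [CharP (IsLocalRing.ResidueField A) q]
  [IsAlgClosed (IsLocalRing.ResidueField A)] [PerfectRing (IsLocalRing.ResidueField A) q]
  (hq : q.Prime) (hm : ¬ q ∣ m) (hA : A.LiesOverPrime q)
  (H3 : S18aux.DegThm (IsLocalRing.ResidueField A) m)
  (H2 : genusFF (AlgebraicClosure ℚ) (modularFunctionFieldBar m) ≤
    genusFF (IsLocalRing.ResidueField A) (modularFunctionFieldFullC (IsLocalRing.ResidueField A) m))

/-- the residue field -/
local notation "κ" => IsLocalRing.ResidueField A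

include H2 in
theorem hort (V : Submodule 𝕂 (modularFunctionFieldBar (m * q))) [FiniteDimensional 𝕂 V] :
    ∃ e : Basis (Fin (finrank 𝕂 V)) 𝕂 V,
      (∀ i j, (e i : modularFunctionFieldBar (m * q)) ∈ (model hq hm hA H3).O j) ∧
        LinearIndependent κ (fun i => (model hq hm hA H3).red2
          (e i : modularFunctionFieldBar (m * q))) := by
  haveI : IsFF 𝕂 (modularFunctionFieldBar m) := isFF_m
  haveI : IsFF κ (modularFunctionFieldFullC κ m) := isFF_m' (m := m) H3
  haveI : IsFF 𝕂 (modularFunctionFieldBar (m * q)) := isFF_m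
  obtain ⟨b, hb, hli⟩ := (mkData hq hm hA H3 H2).ortho hq.pos V
  have hb0 : ∀ i, (b i : modularFunctionFieldBar (m * q)) ∈ O₁ hq hA := fun i => (hb i).1
  have hb1 : ∀ i, (b i : modularFunctionFieldBar (m * q)) ∈ O₂ hq hm hA := fun i => (hb i).2
  refine ⟨b, fun i => Fin.forall_fin_two.2 ⟨hb0 i, hb1 i⟩, ?_⟩
  rw [Fintype.linearIndependent_iff] at hli ⊢
  intro c hc
  apply hli c
  have e0 : ∀ i, (model hq hm hA H3).red 0 (b i : modularFunctionFieldBar (m * q)) =
      ρ₁ hq hm hA H3 ⟨b i, hb0 i⟩ := fun i => tred_of_mem (hb0 i)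
  have e1 : ∀ i, (model hq hm hA H3).red 1 (b i : modularFunctionFieldBar (m * q)) =
      ρ₂ hq hm hA H3 ⟨b i, hb1 i⟩ := fun i => tred_of_mem (hb1 i)
  have h0 := congrFun hc 0
  have h1 := congrFun hc 1
  rw [Finset.sum_apply] at h0 h1
  apply Prod.ext
  · rw [Prod.fst_sum]
    refine Eq.trans ?_ h0
    refine Finset.sum_congr rfl fun i _ => ?_
    change c i • ρ₁ hq hm hA H3 ⟨b i, hb0 i⟩ = c i • (model hq hm hA H3).red 0 _
    rw [e0]
  · rw [Prod.snd_sum]
    refine Eq.trans ?_ h1
    refine Finset.sum_congr rfl fun i _ => ?_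
    change c i • ρ₂ hq hm hA H3 ⟨b i, hb1 i⟩ = c i • (model hq hm hA H3).red 1 _
    rw [e1]

include H2 in
/-- **(I2)** -/
theorem lift (e : Fin 2) (f : modularFunctionFieldBar (m * q))
    (hf : f ∈ (model hq hm hA H3).B e) :
    ∃ f₀ ∈ (model hq hm hA H3).B e, (∀ g ∈ (model hq hm hA H3).G, g • f₀ = f₀) ∧
      ∀ i, (model hq hm hA H3).red i f₀ = (model hq hm hA H3).red i f := by
  haveI : IsFF κ (modularFunctionFieldFullC κ m) := isFF_m' (m := m) H3
  haveI : IsFF 𝕂 (modularFunctionFieldBar (m * q)) := isFF_m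
  exact Model.lift_of (M := model hq hm hA H3)
    (fun V _ => hort hq hm hA H3 H2 V) (fun V _ hV => exists_fixed_basis A (m * q) V hV) e f hf

end Final

end Fermat.Agent.Star.Inst
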