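import Fermat.Agent.Star.Geo
import Fermat.Agent.Star.LiftInst
import Fermat.Agent.TwoGauss.Uncond

/-!
# The two-component model of `X₀(m q)` is good
-/

set_option autoImplicit false
set_option linter.unusedSectionVars false
set_option linter.style.haveILetI false

noncomputable section

open ModularCurve HahnSeries Module AlgebraicCurve
open scoped IntermediateField
open Fermat.Agent.GaussVal Fermat.Agent.FF Fermat.Agent.RR Fermat.Agent.TwoGauss
open scoped Fermat.Agent.GaussVal

namespace Fermat.Agent.Star.Inst

/-- the algebraic numbers -/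
local notation "𝕂" => AlgebraicClosure ℚ

section

variable {A : ValuationSubring (AlgebraicClosure ℚ)} {q m : ℕ} [NeZero m]
  [Fact q.Prime] [CharP (IsLocalRing.ResidueField A) q]
  (hq : q.Prime) (hm : ¬ q ∣ m) (hA : A.LiesOverPrime q)
  (H3 : S18aux.DegThm (IsLocalRing.ResidueField A) m)
  (H2 : genusFF (AlgebraicClosure ℚ) (modularFunctionFieldBar m) ≤
    genusFF (IsLocalRing.ResidueField A) (modularFunctionFieldFullC (IsLocalRing.ResidueField A) m))

theorem matches_mkData : Geo.Match (model hq hm hA H3) (mkData hq hm hA H3 H2) where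
  A := rfl
  O₁ := rfl
  O₂ := rfl
  red₁ := fun _ h => tred_of_mem h
  red₂ := fun _ h => tred_of_mem h
  x₀ := rfl
  cres := fun _ h => tred_of_mem h

end

section

variable {A : ValuationSubring (AlgebraicClosure ℚ)} {q m : ℕ} [NeZero m]
  [Fact q.Prime] [CharP (IsLocalRing.ResidueField A) q]
  (hq : q.Prime) (hm : ¬ q ∣ m) (hA : A.LiesOverPrime q)

include hq hm hA in
/-- **The model of `X₀(m q)` is good.** -/
theorem good (H3 : S18aux.DegThm (IsLocalRing.ResidueField A) m)
    [IsFF (IsLocalRing.ResidueField A)
      (modularFunctionFieldFullC (IsLocalRing.ResidueField A) m)]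
    [IsFF (AlgebraicClosure ℚ) (modularFunctionFieldBar (m * q))] :
    (model hq hm hA H3).Good := by
  have H2 := GoodRed.genus_le_all hq hA m hm
  have : IsFF 𝕂 (modularFunctionFieldBar m) := isFF_m
  exact (matches_mkData hq hm hA H3 H2).good hq.two_le (lift hq hm hA H3 H2)

end

end Fermat.Agent.Star.Inst
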