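import Fermat.Agent.Star.Simple

/-!
# The coordinate at a node
-/

set_option autoImplicit false
set_option linter.unusedSectionVars false

noncomputable section

open AlgebraicCurve WithZero Module
open Fermat.Agent.RR Fermat.Agent.FF

namespace Fermat.Agent.Star

variable {K F k F' : Type*} [Field K] [Field F] [Algebra K F] [Field k] [Field F']
    [Algebra k F'] [IsAlgClosed K] [IsFF K F] [IsAlgClosed k] [IsFF k F']

namespace Model

variable {M : Model K F k F'}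

open SemilinearAut

/-- scaling of a function which reduces to zero -/
theorem exists_scale_nonunit {i : Fin 2} {h : F} (h0 : h ≠ 0) (hh : h ∈ M.O i)
    (hred : M.red i h = 0) : ∃ c : K, c ≠ 0 ∧ c ∈ M.A.nonunits ∧
      h * (algebraMap K F c)⁻¹ ∈ M.O i ∧ (h * (algebraMap K F c)⁻¹)⁻¹ ∈ M.O i ∧
      ∀ g ∈ M.G, g • h = h → baseAut g c = c := by
  obtain ⟨c, hc0, hc1, hc2, hc3⟩ := M.scale i h h0
  have hcF : algebraMap K F c ≠ 0 := (_root_.map_ne_zero _).2 hc0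
  set u := h * (algebraMap K F c)⁻¹ with hu
  have hh' : h = algebraMap K F c * u := by rw [hu]; field_simp
  have hcA : c ∈ M.A := by
    rw [← M.mem_O_iff i]
    have : algebraMap K F c = h * u⁻¹ := by rw [hu]; field_simp
    rw [this]; exact mul_mem hh hc2
  have hcn : c ∈ M.A.nonunits := by
    rw [← cres_eq_zero_iff hcA]
    apply (algebraMap k F').injective
    rw [map_zero, ← red_algebraMap hcA i]
    have h1 : M.red i h = M.red i (algebraMap K F c) * M.red i u := by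
      conv_lhs => rw [hh']
      exact red_mul (algebraMap_mem hcA i) hc1
    rw [hred] at h1
    have h2 : M.red i u ≠ 0 := (red_ne_zero_iff hc1).2 ⟨by
      rw [hu]; exact mul_ne_zero h0 (inv_ne_zero hcF), hc2⟩
    exact (mul_eq_zero.1 h1.symm).resolve_right h2
  exact ⟨c, hc0, hcn, hc1, hc2, hc3⟩

variable (M) in
/-- `p` in `F` -/
def pF : F := algebraMap K F (M.p : K)

theorem pF_ne_zero : M.pF ≠ 0 := (_root_.map_ne_zero _).2 M.p_ne_zero

theorem p_mem_A : (M.p : K) ∈ M.A := ValuationSubring.nonunits_subset (A := M.A) M.p_mem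

theorem pF_mem (i : Fin 2) : M.pF ∈ M.O i := algebraMap_mem p_mem_A i

theorem red_pF (i : Fin 2) : M.red i M.pF = 0 := by
  rw [pF, red_algebraMap p_mem_A, (cres_eq_zero_iff p_mem_A).2 M.p_mem, map_zero]

theorem pF_fix {g : SemilinearAut K F} : g • M.pF = M.pF := by
  rw [pF, SemilinearAut.smul_algebraMap, map_natCast]

theorem ord_pF (v : Place K F) : v.ord M.pF = 0 := ord_algebraMap v _

theorem mul_inv_pF_mem {i : Fin 2} {h : F} (hh : h ∈ M.O i) (hred : M.red i h = 0)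
    (hfix : ∀ g ∈ M.G, g • h = h) : h * M.pF⁻¹ ∈ M.O i := by
  rcases eq_or_ne h 0 with rfl | h0
  · rw [zero_mul]; exact zero_mem _
  obtain ⟨c, hc0, hcn, hc1, hc2, hc3⟩ := exists_scale_nonunit h0 hh hred
  have hcfix : ∀ g ∈ M.G, baseAut g c = c := fun g hg => hc3 g hg (hfix g hg)
  obtain ⟨n, hn⟩ := valuation_of_fixed hc0 hcfix
  have hcF : algebraMap K F c ≠ 0 := (_root_.map_ne_zero _).2 hc0
  have hp1 := valuation_p_lt (M := M)
  have hp0' : 0 < M.A.valuation (M.p : K) := zero_lt_iff.2 (valuation_p_ne (M := M))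
  have hn1 : 1 ≤ n := by
    by_contra hcon
    push Not at hcon
    have h1 := (ValuationSubring.mem_nonunits_iff (A := M.A)).1 hcn
    rw [hn] at h1
    obtain ⟨l, rfl⟩ : ∃ l : ℕ, n = -(l : ℤ) := ⟨(-n).toNat, by omega⟩
    rw [zpow_neg, zpow_natCast] at h1
    exact absurd h1 (not_lt.2 ((one_le_inv₀ (pow_pos hp0' l)).2 (pow_le_one₀ zero_le hp1.le)))
  have hcp : c * (M.p : K)⁻¹ ∈ M.A := by
    rw [← ValuationSubring.valuation_le_one_iff, map_mul, map_inv₀, hn]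
    obtain ⟨l, rfl⟩ : ∃ l : ℕ, n = (l : ℤ) + 1 := ⟨(n - 1).toNat, by omega⟩
    rw [zpow_add_one₀ hp0'.ne', mul_inv_cancel_right₀ hp0'.ne', zpow_natCast]
    exact pow_le_one₀ zero_le hp1.le
  have h4 : h * M.pF⁻¹ = algebraMap K F (c * (M.p : K)⁻¹) * (h * (algebraMap K F c)⁻¹) := by
    rw [map_mul, map_inv₀, pF]; field_simp
  rw [h4]
  exact mul_mem (algebraMap_mem hcp i) hc1

/-- A unit outside the cusps, of valuations `0` and `E`. -/
structure UnitData (M : Model K F k F') where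
  u : F
  u_ne : u ≠ 0
  u_fix : ∀ g ∈ M.G, g • u = u
  ord_u : ∀ v : Place K F, M.x 0 ∈ v.toValuationSubring → v.ord u = 0
  E : ℕ
  E_pos : 0 < E
  u_mem : u ∈ M.O 0
  u_inv_mem : u⁻¹ ∈ M.O 0
  u_mem' : u * (M.pF ^ E)⁻¹ ∈ M.O 1
  u_inv_mem' : u⁻¹ * M.pF ^ E ∈ M.O 1

namespace UnitData

variable (U : UnitData M)

/-- the unit adapted to the component `i` -/
def uu (i : Fin 2) : F := if i = 0 then U.u else M.pF ^ U.E * U.u⁻¹

theorem uu_ne (i : Fin 2) : U.uu i ≠ 0 := by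
  rw [uu]; split_ifs
  · exact U.u_ne
  · exact mul_ne_zero (pow_ne_zero _ pF_ne_zero) (inv_ne_zero U.u_ne)

theorem uu_fix (i : Fin 2) (g : SemilinearAut K F) (hg : g ∈ M.G) : g • U.uu i = U.uu i := by
  rw [uu]; split_ifs
  · exact U.u_fix g hg
  · rw [smul_mul', smul_pow', pF_fix, smul_inv_fix (U.u_fix g hg)]

theorem ord_uu (i : Fin 2) (v : Place K F) (hv : M.x 0 ∈ v.toValuationSubring) :
    v.ord (U.uu i) = 0 := by
  rw [uu]; split_ifs
  · exact U.ord_u v hv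
  · rw [v.ord_mul (pow_ne_zero _ pF_ne_zero) (inv_ne_zero U.u_ne), ord_pow, ord_pF, Place.ord_inv,
      U.ord_u v hv]; simp

theorem uu_mem (i : Fin 2) : U.uu i ∈ M.O i := by
  rw [uu]; split_ifs with h
  · subst h; exact U.u_mem
  · have : i = 1 := by omega
    subst this
    rw [mul_comm]; exact U.u_inv_mem'

theorem uu_inv_mem (i : Fin 2) : (U.uu i)⁻¹ ∈ M.O i := by
  rw [uu]; split_ifs with h
  · subst h; exact U.u_inv_mem
  · have : i = 1 := by omega
    subst this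
    rw [mul_inv, inv_inv, mul_comm]; exact U.u_mem'

theorem uu_mem' {i i' : Fin 2} (h : i ≠ i') : U.uu i * (M.pF ^ U.E)⁻¹ ∈ M.O i' := by
  rw [uu]; split_ifs with h0
  · subst h0
    have : i' = 1 := by omega
    subst this; exact U.u_mem'
  · have h1 : i = 1 := by omega
    have h2 : i' = 0 := by omega
    subst h2
    rw [mul_comm (M.pF ^ U.E), mul_inv_cancel_right₀ (pow_ne_zero _ pF_ne_zero)]
    exact U.u_inv_mem

theorem uu_inv_mem' {i i' : Fin 2} (h : i ≠ i') : (U.uu i)⁻¹ * M.pF ^ U.E ∈ M.O i' := by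
  rw [uu]; split_ifs with h0
  · subst h0
    have : i' = 1 := by omega
    subst this; exact U.u_inv_mem'
  · have h1 : i = 1 := by omega
    have h2 : i' = 0 := by omega
    subst h2
    rw [mul_inv, inv_inv, mul_assoc, mul_comm U.u, ← mul_assoc,
      inv_mul_cancel₀ (pow_ne_zero _ pF_ne_zero), one_mul]
    exact U.u_mem

theorem red_uu_ne (i : Fin 2) : M.red i (U.uu i) ≠ 0 :=
  (red_ne_zero_iff (U.uu_mem i)).2 ⟨U.uu_ne i, U.uu_inv_mem i⟩

end UnitData

/-- a multiple of `p` reduces to zero -/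
theorem red_of_pF_mul {i : Fin 2} {a : F} (ha : a ∈ M.O i) {n : ℕ} (hn : 0 < n) :
    M.pF ^ n * a ∈ M.O i ∧ M.red i (M.pF ^ n * a) = 0 := by
  refine ⟨mul_mem (pow_mem (pF_mem i) n) ha, ?_⟩
  rw [red_mul (pow_mem (pF_mem i) n) ha, red_pow (pF_mem i), red_pF, zero_pow hn.ne', zero_mul]

namespace Pt

variable {P : M.Pt} {hM : M.Good}

/-- a point on both components is not a cusp -/
theorem e_eq_zero (hM : M.Good) (hon : ∀ i, i ∈ P.on) : P.e = 0 := by
  by_contra he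
  have he1 : P.e = 1 := by omega
  obtain ⟨e, i, w, hw⟩ := P
  simp only at he1
  subst he1
  obtain ⟨i', hi'⟩ : ∃ i' : Fin 2, i' ≠ i := by
    fin_cases i
    · exact ⟨1, by decide⟩
    · exact ⟨0, by decide⟩
  obtain ⟨b, hb, hb0, hb1⟩ := hM.no_node_one i w hw i' hi'
  exact hb1 (hon i' b hb hb0)

theorem x_mem_of_tube {v : Place K F} (hv : v ∈ P.tube) : M.x P.e ∈ v.toValuationSubring := hv.1

variable (U : UnitData M)

include hM in
theorem ord_uu_tube (hon : ∀ i, i ∈ P.on) (i : Fin 2) {v : Place K F} (hv : v ∈ P.tube) :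
    v.ord (U.uu i) = 0 := by
  apply U.ord_uu
  have := x_mem_of_tube hv
  rwa [e_eq_zero hM hon] at this

theorem fin2_cases {i i' : Fin 2} (h : i ≠ i') (l : Fin 2) : l = i ∨ l = i' := by omega

theorem uu_mem_L (hon : ∀ i, i ∈ P.on) {i i' : Fin 2} (hii : i ≠ i') :
    U.uu i ∈ P.L hM ∧ M.red i' (U.uu i) = 0 := by
  have h1 : U.uu i = M.pF ^ U.E * (U.uu i * (M.pF ^ U.E)⁻¹) := by
    have := pow_ne_zero U.E (pF_ne_zero (M := M))
    field_simp
  have h2 := red_of_pF_mul (U.uu_mem' hii) U.E_pos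
  rw [← h1] at h2
  refine ⟨mem_L_of_regular hM (fun l _ => ?_) fun v hv =>
    mem_place_of_ord_nonneg v (ord_uu_tube (hM := hM) U hon i hv).ge, h2.2⟩
  rcases fin2_cases hii l with rfl | rfl
  · exact U.uu_mem l
  · exact h2.1

/-- the order of the unit at the node -/
def oU (hM : M.Good) (P : M.Pt) (i : Fin 2) : ℤ := (P.wOn hM i).ord (M.red i (U.uu i))

theorem oU_pos (hon : ∀ i, i ∈ P.on) (i : Fin 2) : 0 < oU U hM P i := by
  obtain ⟨i', hii⟩ : ∃ i' : Fin 2, i ≠ i' := by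
    fin_cases i
    · exact ⟨1, by decide⟩
    · exact ⟨0, by decide⟩
  obtain ⟨h1, h2⟩ := uu_mem_L (hM := hM) U hon hii
  have h3 : P.φ (U.uu i) = 0 := (φ_eq_zero_iff (hon i') h1).2 (Or.inl h2)
  exact ((φ_eq_zero_iff (hon i) h1).1 h3).resolve_left (U.red_uu_ne i)

/-- Convexity. -/
theorem convex (hon : ∀ i, i ∈ P.on) {i i' : Fin 2} (hii : i ≠ i') {h : F} (h0 : h ≠ 0)
    (hO : h ∈ M.O i) (ht : ∀ v ∈ P.tube, 0 ≤ v.ord h) (hr : M.red i h ≠ 0)
    {r : ℕ} (hord : (P.wOn hM i).ord (M.red i h) = r) {n : ℕ}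
    (hn : h * (M.pF ^ n)⁻¹ ∈ M.O i') : oU U hM P i * n ≤ U.E * r := by
  by_contra hcon
  push Not at hcon
  have ho := oU_pos (hM := hM) U hon i
  obtain ⟨o, ho'⟩ : ∃ o : ℕ, oU U hM P i = o := ⟨(oU U hM P i).toNat, by omega⟩
  rw [ho'] at hcon
  have hcon' : U.E * r < o * n := by exact_mod_cast hcon
  obtain ⟨l, hl⟩ : ∃ l, o * n = U.E * r + l ∧ 0 < l := ⟨o * n - U.E * r, by omega, by omega⟩
  set g := h ^ o * (U.uu i)⁻¹ ^ r with hg
  have hpn := pow_ne_zero n (pF_ne_zero (M := M))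
  have hpE := pow_ne_zero U.E (pF_ne_zero (M := M))
  have h1 : g = M.pF ^ l * ((h * (M.pF ^ n)⁻¹) ^ o * ((U.uu i)⁻¹ * M.pF ^ U.E) ^ r) := by
    have e1 : M.pF ^ l * (M.pF ^ U.E) ^ r = (M.pF ^ n) ^ o := by
      rw [← pow_mul, ← pow_mul, ← pow_add]; congr 1; rw [mul_comm n o, hl.1]; ring
    rw [hg, mul_pow, mul_pow, inv_pow (M.pF ^ n), ← e1]
    have := pow_ne_zero l (pF_ne_zero (M := M))
    field_simp
  have h2 := red_of_pF_mul (i := i') (mul_mem (pow_mem hn o) (pow_mem (U.uu_inv_mem' hii) r)) hl.2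
  rw [← h1] at h2
  have hginvO : (U.uu i)⁻¹ ∈ M.O i := U.uu_inv_mem i
  have hgi : g ∈ M.O i := mul_mem (pow_mem hO o) (pow_mem hginvO r)
  have hgL : g ∈ P.L hM := by
    refine mem_L_of_regular hM (fun l _ => ?_) fun v hv => mem_place_of_ord_nonneg v ?_
    · rcases fin2_cases hii l with rfl | rfl
      · exact hgi
      · exact h2.1
    · rw [hg, v.ord_mul (pow_ne_zero _ h0) (pow_ne_zero _ (inv_ne_zero (U.uu_ne i))), ord_pow,
        ord_pow, Place.ord_inv, ord_uu_tube (hM := hM) U hon i hv]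
      have := ht v hv
      have : 0 ≤ (o : ℤ) * v.ord h := mul_nonneg (by omega) this
      simpa using this
  have h3 : P.φ g = 0 := (φ_eq_zero_iff (hon i') hgL).2 (Or.inl h2.2)
  have hru := U.red_uu_ne i
  have h4 : M.red i g = M.red i h ^ o * (M.red i (U.uu i))⁻¹ ^ r := by
    rw [hg, red_mul (pow_mem hO o) (pow_mem hginvO r), red_pow hO, red_pow hginvO,
      red_inv (U.uu_mem i) hginvO (U.uu_ne i)]
  have h5 : M.red i g ≠ 0 := by
    rw [h4]; exact mul_ne_zero (pow_ne_zero _ hr) (pow_ne_zero _ (inv_ne_zero hru))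
  have h6 := ((φ_eq_zero_iff (hon i) hgL).1 h3).resolve_left h5
  rw [h4, Place.ord_mul _ (pow_ne_zero _ hr) (pow_ne_zero _ (inv_ne_zero hru)), ord_pow, ord_pow,
    Place.ord_inv, hord] at h6
  have h7 : (P.wOn hM i).ord (M.red i (U.uu i)) = o := ho'
  rw [h7] at h6
  have : (o : ℤ) * r + r * -o = 0 := by ring
  omega

/-- rational lifts at a node, of functions vanishing at the node -/
theorem exists_lift_node (hon : ∀ i, i ∈ P.on) {a : Fin 2 → F'}
    (ha : ∀ i, a i ∈ (P.wOn hM i).toValuationSubring ∧ val (P.wOn hM i) (a i) = 0) :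
    ∃ b ∈ P.L hM, (∀ g ∈ M.G, g • b = b) ∧ ∀ i, M.red i b = a i := by
  obtain ⟨b, hb, s, hs, hs0, hbs⟩ := hM.node P.e (fun i => P.wOn hM i)
    (fun i => (wOn_spec hM (hon i)).1)
    (fun b hb => by rw [← (wOn_spec hM (hon 0)).2 b hb, ← (wOn_spec hM (hon 1)).2 b hb]) a ha
  obtain ⟨b₀, hb₀, hbG, hbr⟩ := hM.lift _ b hb
  obtain ⟨s₀, hs₀, hsG, hsr⟩ := hM.lift _ s hs
  have hφs : P.φ s₀ ≠ 0 := by
    rw [(wOn_spec hM (hon 0)).2 s₀ hs₀, hsr]; exact hs0
  have hsinv : s₀⁻¹ ∈ P.L hM := inv_mem_L (B_le_L hs₀) hφs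
  have hs₀0 : s₀ ≠ 0 := by
    rintro rfl; apply hφs; rw [φ, red_zero, val_zero]
  refine ⟨b₀ * s₀⁻¹, mul_mem (B_le_L hb₀) hsinv, fun g hg => ?_, fun i => ?_⟩
  · rw [smul_mul', hbG g hg, smul_inv_fix (hsG g hg)]
  · have h1 : M.red i s₀ ≠ 0 := red_ne_zero_of_φ (hon i) hs₀ hφs
    rw [red_mul (hb₀.1 i) (L_le_O (hon i) hsinv), red_inv (hs₀.1 i) (L_le_O (hon i) hsinv) hs₀0,
      hbr, hbs, hsr]
    rw [hsr] at h1
    rw [mul_inv_cancel_right₀ h1]

/-- half of the construction of the node coordinate -/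
theorem exists_coord_half (hon : ∀ i, i ∈ P.on) {i i' : Fin 2} (hii : i ≠ i') :
    ∃ (w : ℕ) (X : F) (r : ℕ), 1 ≤ w ∧ X ≠ 0 ∧ X ∈ P.L hM ∧ (∀ g ∈ M.G, g • X = X) ∧
      (P.wOn hM i).ord (M.red i X) = 1 ∧ X * (M.pF ^ w)⁻¹ ∈ M.O i' ∧
      M.red i' (X * (M.pF ^ w)⁻¹) ≠ 0 ∧
      (P.wOn hM i').ord (M.red i' (X * (M.pF ^ w)⁻¹)) = -(r : ℤ) ∧ 1 ≤ r ∧
      oU U hM P i * w ≤ U.E ∧ U.E * r ≤ oU U hM P i' * w := by
  classical
  -- the set of possible widths
  let Pr : ℕ → Prop := fun n => ∃ h ∈ P.L hM, (∀ g ∈ M.G, g • h = h) ∧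
    (P.wOn hM i).ord (M.red i h) = 1 ∧ h * (M.pF ^ n)⁻¹ ∈ M.O i'
  have hred_ne : ∀ {h : F}, (P.wOn hM i).ord (M.red i h) = 1 → M.red i h ≠ 0 ∧ h ≠ 0 := by
    intro h hh
    have h1 : M.red i h ≠ 0 := by
      intro h0; rw [h0, Place.ord_zero] at hh; exact zero_ne_one hh
    exact ⟨h1, fun h0 => h1 (by rw [h0, red_zero])⟩
  have hbound : ∀ n, Pr n → oU U hM P i * n ≤ U.E := by
    rintro n ⟨h, hh, -, hord, hn⟩
    obtain ⟨h1, h2⟩ := hred_ne hord
    have := convex (hM := hM) U hon hii h2 (L_le_O (hon i) hh)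
      (fun v hv => ord_nonneg_of_mem v (val_of_tube (hM := hM) hv hh).1) h1 (r := 1)
      (by rw [hord]; rfl) hn
    simpa using this
  have hbound' : ∀ n, Pr n → n ≤ U.E := by
    intro n hn
    have h1 := hbound n hn
    have h2 := oU_pos (hM := hM) U hon i
    have h3 : (n : ℤ) ≤ U.E := by nlinarith
    exact_mod_cast h3
  have hP1 : Pr 1 := by
    obtain ⟨π, hπ0, hπ⟩ := exists_uniformizer (P.wOn hM i)
    obtain ⟨b, hb, hbG, hbr⟩ := exists_lift_node (hM := hM) hon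
      (a := fun l => if l = i then π else 0) (fun l => by
        by_cases hl : l = i
        · subst hl
          have hm : π ∈ (P.wOn hM l).toValuationSubring := mem_place_of_ord_nonneg _ (by omega)
          simp only [if_true]
          exact ⟨hm, (val_eq_zero_iff _ hm).2 (Or.inr (by omega))⟩
        · simp only [if_neg hl]
          exact ⟨zero_mem _, val_zero _⟩)
    refine ⟨b, hb, hbG, ?_, ?_⟩
    · rw [hbr i, if_pos rfl]; exact hπ
    · have h1 : M.red i' b = 0 := by rw [hbr i', if_neg (Ne.symm hii)]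
      rw [pow_one]
      exact mul_inv_pF_mem (L_le_O (hon i') hb) h1 hbG
  -- the maximal width
  set w := Nat.findGreatest Pr U.E with hw
  have hwP : Pr w := Nat.findGreatest_spec (hbound' 1 hP1) hP1
  have hw1 : 1 ≤ w := Nat.le_findGreatest (hbound' 1 hP1) hP1
  have hwmax : ∀ n, Pr n → n ≤ w := fun n hn => Nat.le_findGreatest (hbound' n hn) hn
  obtain ⟨X, hX, hXG, hXord, hXw⟩ := hwP
  obtain ⟨hXr, hX0⟩ := hred_ne hXord
  have hpw := pow_ne_zero w (pF_ne_zero (M := M))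
  -- the reduction on the other side has a pole
  have hpole : M.red i' (X * (M.pF ^ w)⁻¹) ∉ (P.wOn hM i').toValuationSubring := by
    intro hreg
    obtain ⟨b, hb, hbG, hbr⟩ := exists_lift (hM := hM) (hon i') hreg
    have hw' : Pr (w + 1) := by
      have hpwb := red_of_pF_mul (i := i) (L_le_O (hM := hM) (hon i) hb) hw1
      have hpwL : M.pF ^ w * b ∈ P.L hM :=
        mul_mem (pow_mem (algebraMap_mem_L p_mem_A) w) hb
      have hfix : ∀ g ∈ M.G, g • (X - M.pF ^ w * b) = X - M.pF ^ w * b := fun g hg => by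
        rw [smul_sub, smul_mul', smul_pow', pF_fix, hXG g hg, hbG g hg]
      refine ⟨X - M.pF ^ w * b, sub_mem hX hpwL, hfix, ?_, ?_⟩
      · rw [red_sub (L_le_O (hon i) hX) hpwb.1, hpwb.2, sub_zero, hXord]
      · have e1 : (X - M.pF ^ w * b) * (M.pF ^ w)⁻¹ = X * (M.pF ^ w)⁻¹ - b := by
          field_simp
        have e2 : (X - M.pF ^ w * b) * (M.pF ^ w)⁻¹ ∈ M.O i' := by
          rw [e1]; exact sub_mem hXw (L_le_O (hon i') hb)
        have e3 : M.red i' ((X - M.pF ^ w * b) * (M.pF ^ w)⁻¹) = 0 := by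
          rw [e1, red_sub hXw (L_le_O (hon i') hb), hbr, sub_self]
        have e4 := mul_inv_pF_mem e2 e3 fun g hg => by
          rw [smul_mul', smul_inv_fix (y := M.pF ^ w) (by rw [smul_pow', pF_fix]), hfix g hg]
        rw [pow_succ, mul_inv, ← mul_assoc]
        exact e4
    have := hwmax _ hw'
    omega
  have hr0 : M.red i' (X * (M.pF ^ w)⁻¹) ≠ 0 := by
    intro h0; rw [h0] at hpole; exact hpole (zero_mem _)
  have hrneg : (P.wOn hM i').ord (M.red i' (X * (M.pF ^ w)⁻¹)) < 0 := by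
    by_contra hcon
    push Not at hcon
    exact hpole (mem_place_of_ord_nonneg _ hcon)
  obtain ⟨r, hr⟩ : ∃ r : ℕ, (P.wOn hM i').ord (M.red i' (X * (M.pF ^ w)⁻¹)) = -(r : ℤ) :=
    ⟨(-(P.wOn hM i').ord (M.red i' (X * (M.pF ^ w)⁻¹))).toNat, by omega⟩
  refine ⟨w, X, r, hw1, hX0, hX, hXG, hXord, hXw, hr0, hr, by omega,
    hbound w ⟨X, hX, hXG, hXord, hXw⟩, ?_⟩
  -- the last inequality
  by_contra hcon
  push Not at hcon
  have ho' := oU_pos (hM := hM) U hon i'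
  obtain ⟨o, ho⟩ : ∃ o : ℕ, oU U hM P i' = o := ⟨(oU U hM P i').toNat, by omega⟩
  rw [ho] at hcon
  have hcon' : o * w < U.E * r := by exact_mod_cast hcon
  obtain ⟨l, hl, hl0⟩ : ∃ l, U.E * r = o * w + l ∧ 0 < l := ⟨U.E * r - o * w, by omega, by omega⟩
  set g := (X * (M.pF ^ w)⁻¹) ^ o * (U.uu i') ^ r with hg
  have hpE := pow_ne_zero U.E (pF_ne_zero (M := M))
  have h1 : g = M.pF ^ l * (X ^ o * (U.uu i' * (M.pF ^ U.E)⁻¹) ^ r) := by
    have e1 : M.pF ^ l * (M.pF ^ w) ^ o = (M.pF ^ U.E) ^ r := by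
      rw [← pow_mul, ← pow_mul, ← pow_add]; congr 1; rw [hl]; ring
    rw [hg, mul_pow, mul_pow, inv_pow (M.pF ^ U.E), ← e1, inv_pow]
    have := pow_ne_zero l (pF_ne_zero (M := M))
    have := pow_ne_zero o hpw
    field_simp
  have hXO := L_le_O (hM := hM) (hon i) hX
  have h2 := red_of_pF_mul (i := i) (mul_mem (pow_mem hXO o)
    (pow_mem (U.uu_mem' (Ne.symm hii)) r)) hl0
  rw [← h1] at h2
  have hgi' : g ∈ M.O i' := mul_mem (pow_mem hXw o) (pow_mem (U.uu_mem i') r)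
  have hXp0 : X * (M.pF ^ w)⁻¹ ≠ 0 := mul_ne_zero hX0 (inv_ne_zero hpw)
  have hgL : g ∈ P.L hM := by
    refine mem_L_of_regular hM (fun l _ => ?_) fun v hv => mem_place_of_ord_nonneg v ?_
    · rcases fin2_cases hii l with rfl | rfl
      · exact h2.1
      · exact hgi'
    · rw [hg, v.ord_mul (pow_ne_zero _ hXp0) (pow_ne_zero _ (U.uu_ne i')), ord_pow,
        ord_pow, ord_uu_tube (hM := hM) U hon i' hv, v.ord_mul hX0 (inv_ne_zero hpw),
        Place.ord_inv, ord_pow, ord_pF]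
      have := ord_nonneg_of_mem v (val_of_tube (hM := hM) hv hX).1
      have : 0 ≤ (o : ℤ) * v.ord X := mul_nonneg (by omega) this
      simpa using this
  have h3 : P.φ g = 0 := (φ_eq_zero_iff (hon i) hgL).2 (Or.inl h2.2)
  have hru := U.red_uu_ne i'
  have h4 : M.red i' g = M.red i' (X * (M.pF ^ w)⁻¹) ^ o * (M.red i' (U.uu i')) ^ r := by
    rw [hg, red_mul (pow_mem hXw o) (pow_mem (U.uu_mem i') r), red_pow hXw,
      red_pow (U.uu_mem i')]
  have h5 : M.red i' g ≠ 0 := by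
    rw [h4]; exact mul_ne_zero (pow_ne_zero _ hr0) (pow_ne_zero _ hru)
  have h6 := ((φ_eq_zero_iff (hon i') hgL).1 h3).resolve_left h5
  rw [h4, Place.ord_mul _ (pow_ne_zero _ hr0) (pow_ne_zero _ hru), ord_pow, ord_pow, hr] at h6
  have h7 : (P.wOn hM i').ord (M.red i' (U.uu i')) = o := ho
  rw [h7] at h6
  have : (o : ℤ) * -r + r * o = 0 := by ring
  omega

/-- **The node coordinate.** -/
structure Coord (U : UnitData M) (hM : M.Good) (P : M.Pt) where
  w : ℕ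
  w_pos : 1 ≤ w
  X : F
  X_ne : X ≠ 0
  X_mem : X ∈ P.L hM
  X_fix : ∀ g ∈ M.G, g • X = X
  ord_X : (P.wOn hM 0).ord (M.red 0 X) = 1
  tube_X : ∀ v ∈ P.tube, v.ord X = 0
  X_mem' : X * (M.pF ^ w)⁻¹ ∈ M.O 1
  X_inv_mem' : X⁻¹ * M.pF ^ w ∈ M.O 1
  ord_X' : (P.wOn hM 1).ord (M.red 1 (X⁻¹ * M.pF ^ w)) = 1
  /-- the order of the unit -/
  o : ℕ
  o_eq : (P.wOn hM 0).ord (M.red 0 U.u) = o
  o_mul : o * w = U.E

theorem exists_coord (hon : ∀ i, i ∈ P.on) : Nonempty (Coord U hM P) := by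
  obtain ⟨w, X, r, hw1, hX0, hX, hXG, hXord, hXw, hr0, hr, hr1, hle, hge⟩ :=
    exists_coord_half (hM := hM) U hon (i := 0) (i' := 1) (by decide)
  obtain ⟨w', X', r', hw1', -, -, -, -, -, -, -, hr1', hle', hge'⟩ :=
    exists_coord_half (hM := hM) U hon (i := 1) (i' := 0) (by decide)
  have ho0 := oU_pos (hM := hM) U hon 0
  have ho1 := oU_pos (hM := hM) U hon 1
  obtain ⟨o, ho⟩ : ∃ o : ℕ, oU U hM P 0 = o := ⟨(oU U hM P 0).toNat, by omega⟩
  obtain ⟨o', ho'⟩ : ∃ o : ℕ, oU U hM P 1 = o := ⟨(oU U hM P 1).toNat, by omega⟩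
  rw [ho] at hle hge' ho0
  rw [ho'] at hge hle' ho1
  have hle : o * w ≤ U.E := by exact_mod_cast hle
  have hge : U.E * r ≤ o' * w := by exact_mod_cast hge
  have hle' : o' * w' ≤ U.E := by exact_mod_cast hle'
  have hge' : U.E * r' ≤ o * w' := by exact_mod_cast hge'
  have hE := U.E_pos
  have hoo : o = o' := by
    have h1 : o * w ≤ o' * w := hle.trans ((Nat.le_mul_of_pos_right _ (by omega)).trans hge)
    have h2 : o' * w' ≤ o * w' := hle'.trans ((Nat.le_mul_of_pos_right _ (by omega)).trans hge')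
    exact le_antisymm (Nat.le_of_mul_le_mul_right h1 (by omega))
      (Nat.le_of_mul_le_mul_right h2 (by omega))
  rw [← hoo] at hge
  have hEr : U.E * r ≤ U.E := hge.trans hle
  have hr_eq : r = 1 := by
    have : r ≤ 1 := by
      by_contra hcon
      push Not at hcon
      have : U.E * 2 ≤ U.E * r := Nat.mul_le_mul_left _ hcon
      omega
    omega
  have how : o * w = U.E := le_antisymm hle (by rw [hr_eq, mul_one] at hge; exact hge)
  subst hr_eq
  have hpw := pow_ne_zero w (pF_ne_zero (M := M))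
  have hpE := pow_ne_zero U.E (pF_ne_zero (M := M))
  have hXi1 : (X * (M.pF ^ w)⁻¹)⁻¹ ∈ M.O 1 := inv_mem_of_red_ne_zero hXw hr0
  have hXi1' : X⁻¹ * M.pF ^ w ∈ M.O 1 := by
    have : X⁻¹ * M.pF ^ w = (X * (M.pF ^ w)⁻¹)⁻¹ := by rw [mul_inv, inv_inv]
    rw [this]; exact hXi1
  have hXr : M.red 0 X ≠ 0 := by
    intro h0; rw [h0, Place.ord_zero] at hXord; exact zero_ne_one hXord
  have hX0O := L_le_O (hM := hM) (hon 0) hX
  have hXi0 : X⁻¹ ∈ M.O 0 := inv_mem_of_red_ne_zero hX0O hXr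
  have hu0 : U.uu 0 = U.u := by simp [UnitData.uu]
  have hou : (P.wOn hM 0).ord (M.red 0 U.u) = o := by rw [← hu0]; exact ho
  -- the unit `g = X ^ o / u`
  set g := X ^ o * U.u⁻¹ with hg
  have hg0 : g ≠ 0 := mul_ne_zero (pow_ne_zero _ hX0) (inv_ne_zero U.u_ne)
  have hgO0 : g ∈ M.O 0 := mul_mem (pow_mem hX0O o) U.u_inv_mem
  have hgO1 : g ∈ M.O 1 := by
    have h1 : g = (X * (M.pF ^ w)⁻¹) ^ o * (U.u⁻¹ * M.pF ^ U.E) := by
      rw [hg, mul_pow, inv_pow, ← pow_mul, mul_comm w o, how]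
      field_simp
    rw [h1]
    exact mul_mem (pow_mem hXw o) U.u_inv_mem'
  have hx0 : ∀ v ∈ P.tube, M.x 0 ∈ v.toValuationSubring := fun v hv => by
    have := x_mem_of_tube hv
    rwa [e_eq_zero hM hon] at this
  have hgord : ∀ v ∈ P.tube, v.ord g = o * v.ord X := by
    intro v hv
    rw [hg, v.ord_mul (pow_ne_zero _ hX0) (inv_ne_zero U.u_ne), ord_pow, Place.ord_inv,
      U.ord_u v (hx0 v hv)]
    ring
  have hgL : g ∈ P.L hM := mem_L_of_regular hM (fun l _ => by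
      rcases fin2_cases (i := 0) (i' := 1) (by decide) l with rfl | rfl
      · exact hgO0
      · exact hgO1) fun v hv => mem_place_of_ord_nonneg v (by
        rw [hgord v hv]
        exact mul_nonneg (by omega) (ord_nonneg_of_mem v (val_of_tube (hM := hM) hv hX).1))
  have hur : M.red 0 U.u ≠ 0 := (red_ne_zero_iff U.u_mem).2 ⟨U.u_ne, U.u_inv_mem⟩
  have hgr : M.red 0 g = M.red 0 X ^ o * (M.red 0 U.u)⁻¹ := by
    rw [hg, red_mul (pow_mem hX0O o) U.u_inv_mem, red_pow hX0O,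
      red_inv U.u_mem U.u_inv_mem U.u_ne]
  have hgφ : P.φ g ≠ 0 := by
    refine (φ_ne_zero_iff (hon 0) hgL).2 ⟨?_, ?_⟩
    · rw [hgr]; exact mul_ne_zero (pow_ne_zero _ hXr) (inv_ne_zero hur)
    · rw [hgr, Place.ord_mul _ (pow_ne_zero _ hXr) (inv_ne_zero hur), ord_pow, Place.ord_inv,
        hXord, hou]
      ring
  have hgL' := inv_mem_L hgL hgφ
  have htube : ∀ v ∈ P.tube, v.ord X = 0 := by
    intro v hv
    have h1 := ord_eq_zero_of_unit hgL hgL' hv
    rw [hgord v hv] at h1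
    rcases mul_eq_zero.1 h1 with h | h
    · exfalso; omega
    · exact h
  refine ⟨⟨w, hw1, X, hX0, hX, hXG, hXord, htube, hXw, hXi1', ?_, o, hou, how⟩⟩
  have h1 : M.red 1 (X⁻¹ * M.pF ^ w) = (M.red 1 (X * (M.pF ^ w)⁻¹))⁻¹ := by
    rw [← red_inv hXw hXi1 (mul_ne_zero hX0 (inv_ne_zero hpw)), mul_inv, inv_inv]
  rw [h1, Place.ord_inv, hr]; simp

end Pt

end Model

end Fermat.Agent.Star
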