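import Mathlib
import Fermat.Agent.Star.Inst
import Fermat.Agent.Star.Node
import Fermat.Agent.TriGauss.Values
import Fermat.Agent.TriGauss.ExpanInst

/-!
# The modular unit `Δ(z)/Δ(qz)` as unit data for the two-component model
-/

set_option autoImplicit false
set_option linter.unusedSectionVars false

noncomputable section

open ModularCurve HahnSeries Module AlgebraicCurve
open scoped IntermediateField
open Fermat.Agent.GaussVal Fermat.Agent.FF Fermat.Agent.RR Fermat.Agent.TwoGauss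
open scoped Fermat.Agent.GaussVal

namespace Fermat.Agent.Star.Inst

/-- the algebraic numbers -/
local notation "𝕂" => AlgebraicClosure ℚ

section

variable {A : ValuationSubring (AlgebraicClosure ℚ)} {q m : ℕ} [NeZero m]
  [Fact q.Prime] [CharP (IsLocalRing.ResidueField A) q]
  (hq : q.Prime) (hm : ¬ q ∣ m) (hA : A.LiesOverPrime q)
  (H3 : S18aux.DegThm (IsLocalRing.ResidueField A) m)

/-- the residue field -/
local notation "κ" => IsLocalRing.ResidueField A

/-- `Δ(z)/Δ(qz)` -/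
def unitEl (m q : ℕ) [NeZero m] [NeZero q] : modularFunctionFieldBar (m * q) :=
  TriGauss.rB 𝕂 (m * q) ⟨1, one_dvd _⟩ ⟨q, dvd_mul_left q m⟩

theorem coe_unitEl : ((unitEl m q : modularFunctionFieldBar (m * q)) : LaurentSeries 𝕂) =
    TriMod.U 𝕂 q := by
  rw [← TriGauss.rS_one_q]
  rfl

theorem unitEl_inv : (unitEl m q)⁻¹ =
    TriGauss.rB 𝕂 (m * q) ⟨q, dvd_mul_left q m⟩ ⟨1, one_dvd _⟩ :=
  TriGauss.rB_inv 𝕂 _ _

theorem coe_unitEl_inv : (((unitEl m q)⁻¹ : modularFunctionFieldBar (m * q)) : LaurentSeries 𝕂) =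
    TriMod.Ui 𝕂 q := by
  rw [← TriGauss.rS_q_one, unitEl_inv]
  rfl

theorem unitEl_ne_zero : unitEl m q ≠ 0 := TriGauss.rB_ne_zero 𝕂 _ _

theorem ga_unitEl (σ : 𝕂 ≃ₐ[ℚ] 𝕂) : ga (m * q) σ (unitEl m q) = unitEl m q := by
  apply Subtype.ext
  rw [coe_ga, coe_unitEl]
  exact TriMod.coeffMap_U q _

include hq in
theorem isIntegral_unitEl :
    IsIntegral (Algebra.adjoin 𝕂 {TriGauss.jB 𝕂 (m * q)}) (unitEl m q) :=
  have : NeZero (q * q) := ⟨Nat.mul_ne_zero hq.ne_zero hq.ne_zero⟩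
  (TriGauss.isIntegral_of_GB (K := 𝕂) (N := m * q) iotaBar
    (TriGauss.isModFun_rr (one_dvd _) (dvd_mul_left q m)) (TriGauss.GB_u₁ hq) _
    (TriGauss.lexp_coe_rB iotaBar ⟨1, one_dvd _⟩ ⟨q, dvd_mul_left q m⟩)).1

include hq in
theorem isIntegral_unitEl_inv :
    IsIntegral (Algebra.adjoin 𝕂 {TriGauss.jB 𝕂 (m * q)}) (unitEl m q)⁻¹ := by
  have : NeZero (q * q) := ⟨Nat.mul_ne_zero hq.ne_zero hq.ne_zero⟩
  rw [unitEl_inv]
  exact (TriGauss.isIntegral_of_GB (K := 𝕂) (N := m * q) iotaBar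
    (TriGauss.isModFun_rr (dvd_mul_left q m) (one_dvd _)) (TriGauss.GB_u₁_inv hq) _
    (TriGauss.lexp_coe_rB iotaBar ⟨q, dvd_mul_left q m⟩ ⟨1, one_dvd _⟩)).1

theorem jB_eq : TriGauss.jB 𝕂 (m * q) = alphaB m q (jm m) := (alpha_jm (m := m) (q := q)).symm

theorem mem_of_isIntegral_adjoin {K F : Type*} [Field K] [Field F] [Algebra K F]
    (v : Place K F) {x y : F} (hx : x ∈ v.toValuationSubring)
    (hy : IsIntegral (Algebra.adjoin K {x}) y) : y ∈ v.toValuationSubring := by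
  have h1 : ∀ z ∈ Algebra.adjoin K {x}, z ∈ v.toValuationSubring := by
    intro z hz
    induction hz using Algebra.adjoin_induction with
    | mem z hz => rw [Set.mem_singleton_iff.mp hz]; exact hx
    | algebraMap c => exact v.algebraMap_mem' c
    | add a b _ _ ha hb => exact add_mem ha hb
    | mul a b _ _ ha hb => exact mul_mem ha hb
  obtain ⟨P, hP, h0⟩ := hy
  have h2 : IsIntegral v.toValuationSubring y := by
    refine ⟨P.map (Subring.inclusion (S := (Algebra.adjoin K {x}).toSubring)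
      (T := v.toValuationSubring.toSubring) h1), hP.map _, ?_⟩
    rw [Polynomial.eval₂_map]
    exact h0
  obtain ⟨z, hz⟩ := (IsIntegrallyClosed.isIntegral_iff (K := F)).mp h2
  rw [← hz]
  exact z.2

theorem ord_unitEl (hq : q.Prime) (v : Place 𝕂 (modularFunctionFieldBar (m * q)))
    (hv : alphaB m q (jm m) ∈ v.toValuationSubring) : v.ord (unitEl m q) = 0 := by
  rw [← jB_eq] at hv
  have h1 := mem_of_isIntegral_adjoin v hv (isIntegral_unitEl hq)
  have h2 := mem_of_isIntegral_adjoin v hv (isIntegral_unitEl_inv hq)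
  rw [mem_iff_ord_nonneg v unitEl_ne_zero] at h1
  rw [mem_iff_ord_nonneg v (inv_ne_zero unitEl_ne_zero), v.ord_inv] at h2
  omega

/-! ### The Gauss valuations -/

theorem redS_U_ne : redS A (TriMod.U A q) ≠ 0 := by
  rw [show redS A (TriMod.U A q) = TriMod.U κ q from TriMod.coeffMap_U q _]
  exact TriMod.U_ne_zero q κ

theorem redS_Ui_ne : redS A (TriMod.Ui A q) ≠ 0 := by
  rw [show redS A (TriMod.Ui A q) = TriMod.Ui κ q from TriMod.coeffMap_Ui q _]
  exact TriMod.Ui_ne_zero q κ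

theorem incl_U : incl A (TriMod.U A q) = TriMod.U 𝕂 q := TriMod.coeffMap_U q _

theorem incl_Ui : incl A (TriMod.Ui A q) = TriMod.Ui 𝕂 q := TriMod.coeffMap_Ui q _

theorem unitEl_mem_O₁ : unitEl m q ∈ O₁ hq hA := by
  change ((unitEl m q : modularFunctionFieldBar (m * q)) : LaurentSeries 𝕂) ∈ gaussSubring A
  rw [coe_unitEl, ← incl_U (A := A)]
  exact incl_mem _

theorem unitEl_inv_mem_O₁ : (unitEl m q)⁻¹ ∈ O₁ hq hA := by
  change (((unitEl m q)⁻¹ : modularFunctionFieldBar (m * q)) : LaurentSeries 𝕂) ∈ gaussSubring A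
  rw [coe_unitEl_inv, ← incl_Ui (A := A)]
  exact incl_mem _

theorem swapD_eq_swapQ (hN : m * q = m * q) (hQ : q ≠ 0) (hc : q.Coprime m) (d : Dv (m * q)) :
    swapD q m hq hm d = TriGauss.swapQ (m * q) q m hN hQ hc d := by
  obtain ⟨d, hd⟩ := d
  obtain ⟨a, b, b', ha, hb, rfl⟩ := TriGauss.exists_factor hN hd
  rcases (Nat.dvd_prime hq).mp ⟨b', by rw [mul_comm, hb]⟩ with rfl | rfl
  · have hb' : b' = q := by rw [← hb, mul_one]
    subst hb'
    have h' : a * b' ∣ m * b' := mul_dvd_mul_right ha b'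
    rw [TriGauss.swapQ_mul hN hQ hc ha hb hd h']
    have e1 : (⟨a * 1, hd⟩ : Dv (m * b')) = ⟨a, by rwa [mul_one] at hd⟩ :=
      Subtype.ext (mul_one a)
    rw [e1, swapD_of_dvd_m hq hm ha _ (mul_comm a b' ▸ h')]
    exact Subtype.ext (mul_comm b' a)
  · have hb' : b' = 1 := by
      have h1 : b' * b = 1 * b := by rw [hb, one_mul]
      exact Nat.eq_of_mul_eq_mul_right hq.pos h1
    subst hb'
    have h' : a * 1 ∣ m * b := by rw [mul_one]; exact ha.trans (dvd_mul_right m b)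
    rw [TriGauss.swapQ_mul hN hQ hc ha hb hd h']
    have e1 : (⟨a * b, hd⟩ : Dv (m * b)) = ⟨b * a, mul_comm a b ▸ hd⟩ :=
      Subtype.ext (mul_comm a b)
    rw [e1, swapD_mul hq hm _ (ha.trans (dvd_mul_right m b))]
    exact Subtype.ext (mul_one a).symm

theorem wq_unitEl : wq hq hm (unitEl m q) =
    algebraMap 𝕂 _ ((q : 𝕂) ^ 12) * (unitEl m q)⁻¹ := by
  have hc : q.Coprime m := (Nat.Prime.coprime_iff_not_dvd hq).mpr hm
  have h := TriGauss.atkinLehnerQ_rB (K := 𝕂) (N := m * q) (Q := q) (m := m) iotaBar rfl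
    hq.ne_zero hc (wq hq hm : modularFunctionFieldBar (m * q) →ₐ[𝕂] modularFunctionFieldBar (m * q))
    (fun d => by
      rw [← swapD_eq_swapQ hq hm]
      exact wq_jdB hq hm d) (a := 1) (b := 1) (b' := q) (c := 1) (e := q) (e' := 1)
      (one_dvd _) (mul_one q) (one_dvd _) (one_mul q) (one_dvd _)
      (by rw [one_mul]; exact dvd_mul_left q m) (by rw [one_mul]; exact dvd_mul_left q m)
      (one_dvd _)
  simp only [one_mul, Nat.cast_one, div_one] at h
  rw [unitEl_inv]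
  exact h

theorem unitEl_mem_O₂ (c : 𝕂) (hc : c = (q : 𝕂) ^ 12) :
    unitEl m q * (algebraMap 𝕂 (modularFunctionFieldBar (m * q)) c)⁻¹ ∈ O₂ hq hm hA := by
  have hq0 : (q : 𝕂) ≠ 0 := by exact_mod_cast hq.ne_zero
  have hc0 : algebraMap 𝕂 (modularFunctionFieldBar (m * q)) c ≠ 0 :=
    (_root_.map_ne_zero _).2 (hc ▸ pow_ne_zero 12 hq0)
  rw [mem_O₂_iff, map_mul, map_inv₀, AlgEquiv.commutes, wq_unitEl, ← hc,
    mul_right_comm, mul_inv_cancel₀ hc0, one_mul]
  exact unitEl_inv_mem_O₁ hq hA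

theorem unitEl_inv_mem_O₂ (c : 𝕂) (hc : c = (q : 𝕂) ^ 12) :
    (unitEl m q)⁻¹ * algebraMap 𝕂 (modularFunctionFieldBar (m * q)) c ∈ O₂ hq hm hA := by
  have hq0 : (q : 𝕂) ≠ 0 := by exact_mod_cast hq.ne_zero
  have hc0 : algebraMap 𝕂 (modularFunctionFieldBar (m * q)) c ≠ 0 :=
    (_root_.map_ne_zero _).2 (hc ▸ pow_ne_zero 12 hq0)
  rw [mem_O₂_iff, map_mul, map_inv₀, AlgEquiv.commutes, wq_unitEl, ← hc, mul_inv, inv_inv,
    mul_right_comm, inv_mul_cancel₀ hc0, one_mul]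
  exact unitEl_mem_O₁ hq hA

/-- **The unit data** of the two-component model of `X₀(m q)`. -/
def unitData : (model hq hm hA H3).UnitData where
  u := unitEl m q
  u_ne := unitEl_ne_zero
  u_fix g hg := by
    obtain ⟨σ, hσ, rfl⟩ := mem_GG.mp hg
    rw [smul_eq, ga_unitEl]
  ord_u v hv := ord_unitEl hq v hv
  E := 12
  E_pos := by norm_num
  u_mem := unitEl_mem_O₁ hq hA
  u_inv_mem := unitEl_inv_mem_O₁ hq hA
  u_mem' := by
    have h := unitEl_mem_O₂ (m := m) hq hm hA ((q : 𝕂) ^ 12) rfl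
    rw [map_pow] at h
    exact h
  u_inv_mem' := by
    have h := unitEl_inv_mem_O₂ (m := m) hq hm hA ((q : 𝕂) ^ 12) rfl
    rw [map_pow] at h
    exact h

theorem unitData_u : (unitData hq hm hA H3).u = unitEl m q := rfl
theorem unitData_E : (unitData hq hm hA H3).E = 12 := rfl

end

end Fermat.Agent.Star.Inst

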