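import Fermat.Agent.Star.WidthOne
import Fermat.Agent.Star.InstUnit
import Fermat.Agent.Star.InstGood
import Fermat.Agent.TriDim.Numerics
import Fermat.Agent.GoodRed.GenusAll
import Fermat.Agent.TriVal.UnitPoly
import Fermat.Agent.TriVal.Values

/-!
# All widths of `X₀(m q)` are one when `X₀(m)` has no elliptic points
-/

set_option autoImplicit false
set_option linter.unusedSectionVars false
set_option linter.style.haveILetI false

noncomputable section

open ModularCurve HahnSeries Module AlgebraicCurve Polynomial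
open scoped IntermediateField
open Fermat.Agent.GaussVal Fermat.Agent.FF Fermat.Agent.RR Fermat.Agent.TwoGauss
open scoped Fermat.Agent.GaussVal

namespace Fermat.Agent.Star.Inst

/-- the algebraic numbers -/
local notation "𝕂" => AlgebraicClosure ℚ

/-! ### Elliptic points -/

theorem sq_add_one_ne_zero {r : ℕ} (hr : r.Prime) (h : r % 4 = 3) (x : ZMod r) :
    x ^ 2 + 1 ≠ 0 := by
  haveI : Fact r.Prime := ⟨hr⟩
  intro hx
  have h1 : IsSquare (-1 : ZMod r) := ⟨x, by linear_combination -hx⟩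
  exact ZMod.exists_sq_eq_neg_one_iff.1 h1 h

theorem sq_add_add_one_ne_zero {r : ℕ} (hr : r.Prime) (h : r % 3 = 2) 
    (x : ZMod r) : x ^ 2 + x + 1 ≠ 0 := by
  haveI : Fact r.Prime := ⟨hr⟩
  intro hx
  have h3 : x ^ 3 = 1 := by linear_combination (x - 1) * hx
  have hx1 : x ≠ 1 := by
    rintro rfl
    have h4 : ((3 : ℕ) : ZMod r) = 0 := by push_cast; linear_combination hx
    rw [ZMod.natCast_eq_zero_iff] at h4
    have := (Nat.prime_dvd_prime_iff_eq hr Nat.prime_three).1 h4
    omega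
  have hx0 : x ≠ 0 := by
    rintro rfl
    simp at h3
  have h5 : x ^ (r - 1) = 1 := ZMod.pow_card_sub_one_eq_one hx0
  have h6 : orderOf x = 3 := by
    haveI : Fact (Nat.Prime 3) := ⟨Nat.prime_three⟩
    exact orderOf_eq_prime h3 hx1
  have h7 := orderOf_dvd_of_pow_eq_one h5
  rw [h6] at h7
  have := hr.two_le
  omega

theorem nu_eq_zero_of_eleven {N r : ℕ} (hr : r.Prime) (hrN : r ∣ N) (h : r % 12 = 11) :
    nuTwo N = 0 ∧ nuThree N = 0 :=
  ⟨TriDim.nuTwo_eq_zero_of_map r hrN (sq_add_one_ne_zero hr (by omega)),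
    TriDim.nuThree_eq_zero_of_map r hrN (sq_add_add_one_ne_zero hr (by omega))⟩

theorem cuspCount_prime {q : ℕ} (hq : q.Prime) : cuspCount q = 2 := by
  rw [cuspCount, hq.sum_divisors]
  simp [Nat.div_self hq.pos]

theorem cuspCount_mul_prime {m q : ℕ} (hq : q.Prime) (hm : ¬ q ∣ m) :
    cuspCount (m * q) = 2 * cuspCount m := by
  have hc : Nat.Coprime m q := ((Nat.Prime.coprime_iff_not_dvd hq).mpr hm).symm
  rw [TriDim.cuspCount_mul m q hc, cuspCount_prime hq, mul_comm]

theorem genusFormula_mul_prime {m q : ℕ} (hq : q.Prime) (hm : ¬ q ∣ m)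
    (h : nuTwo m = 0 ∧ nuThree m = 0) (h' : nuTwo (m * q) = 0 ∧ nuThree (m * q) = 0) :
    12 * (genusFormula (m * q) + 1 - 2 * genusFormula m) = ((q : ℚ) - 1) * dedekindPsi m := by
  rw [genusFormula, genusFormula, h.1, h.2, h'.1, h'.2, cuspCount_mul_prime hq hm,
    TriDim.dedekindPsi_mul_prime hq hm]
  push_cast
  ring

section

variable {A : ValuationSubring (AlgebraicClosure ℚ)} {q m : ℕ} [NeZero m]
  [Fact q.Prime] [CharP (IsLocalRing.ResidueField A) q]
  (hq : q.Prime) (hm : ¬ q ∣ m) (hA : A.LiesOverPrime q)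
  (H3 : S18aux.DegThm (IsLocalRing.ResidueField A) m)

/-- the residue field -/
local notation "κ" => IsLocalRing.ResidueField A

theorem red_unitEl (p : κ[X]) (hp : aeval (jqModC κ) p = S28aux.deltaInvC κ ^ (q - 1))
    (H2 : genusFF (AlgebraicClosure ℚ) (modularFunctionFieldBar m) ≤
      genusFF (IsLocalRing.ResidueField A)
        (modularFunctionFieldFullC (IsLocalRing.ResidueField A) m)) :
    (model hq hm hA H3).red 0 (unitData hq hm hA H3).u =
      aeval (mkData hq hm hA H3 H2).jb p := by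
  have hO : unitEl m q ∈ (mkData hq hm hA H3 H2).O₁ := unitEl_mem_O₁ hq hA
  have h1 : (model hq hm hA H3).red 0 (unitData hq hm hA H3).u =
      (mkData hq hm hA H3 H2).ρ₁ ⟨unitEl m q, hO⟩ :=
    (matches_mkData hq hm hA H3 H2).red₁ _ hO
  rw [h1]
  apply Subtype.ext
  rw [coe_mkData_ρ₁]
  have h2 : (⟨((unitEl m q : modularFunctionFieldBar (m * q)) : LaurentSeries 𝕂), hO⟩ :
      gaussSubring A) = ⟨incl A (TriMod.U A q), incl_mem _⟩ := by
    apply Subtype.ext
    change ((unitEl m q : modularFunctionFieldBar (m * q)) : LaurentSeries 𝕂) =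
      incl A (TriMod.U A q)
    rw [coe_unitEl, incl_U]
  have h3 : redS A (TriMod.U A q) = TriMod.U κ q := TriMod.coeffMap_U q _
  have h4 : ((mkData hq hm hA H3 H2).jb : modularFunctionFieldFullC κ m) =
      ⟨jqModC κ, jqModC_mem_full κ m⟩ := ρ_jm hq hA H3
  rw [h2, gaussRed_incl, h3, TriMod.U_eq hp, h4]
  exact (Igusa.coe_aeval_intermediate (modularFunctionFieldFullC κ m)
    ⟨jqModC κ, jqModC_mem_full κ m⟩ p).symm

variable [IsFF (IsLocalRing.ResidueField A)
    (modularFunctionFieldFullC (IsLocalRing.ResidueField A) m)]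
  [IsFF (AlgebraicClosure ℚ) (modularFunctionFieldBar (m * q))]

/-- **All widths of `X₀(m q)` are one** if `X₀(m)` has no elliptic points. -/
theorem width_eq_one_of_nu (h : nuTwo m = 0 ∧ nuThree m = 0)
    (h' : nuTwo (m * q) = 0 ∧ nuThree (m * q) = 0)
    {hM : (model hq hm hA H3).Good} {P : (model hq hm hA H3).Pt}
    (C : Model.Pt.Coord (unitData hq hm hA H3) hM P) (hP : ∀ i, i ∈ P.on) : C.w = 1 := by
  have H2 := GoodRed.genus_le_all hq hA m hm
  have hFm : IsFF 𝕂 (modularFunctionFieldBar m) := isFF_m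
  obtain ⟨p, hpd, hp0, hp⟩ := TriMod.exists_Pu q κ
  have hq1 := hq.two_le
  refine (matches_mkData hq hm hA H3 H2).width_eq_one hq.two_le hM _ (p := p)
    (by rw [hpd]; omega) (red_unitEl hq hm hA H3 p hp H2) (fun T => ?_) C hP
  have h1 := T.genus_eq hq.two_le
  have h2 : (genusFF 𝕂 (modularFunctionFieldBar (m * q)) : ℚ) = genusFormula (m * q) :=
    haveI : NeZero (m * q) := ⟨Nat.mul_ne_zero (NeZero.ne m) hq.ne_zero⟩
    GoodRed.genusFF_bar (m * q) inferInstance
  have h3 : (genusFF 𝕂 (modularFunctionFieldBar m) : ℚ) = genusFormula m :=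
    GoodRed.genusFF_bar m hFm
  have h4 := genusFormula_mul_prime hq hm h h'
  rw [← h2, ← h3] at h4
  have h5 : 12 * ((genusFF 𝕂 (modularFunctionFieldBar (m * q)) : ℤ) + 1 -
      2 * genusFF 𝕂 (modularFunctionFieldBar m)) = ((q : ℤ) - 1) * dedekindPsi m := by
    exact_mod_cast h4
  have h6 : finrank κ⟮(mkData hq hm hA H3 H2).jb⟯ (modularFunctionFieldFullC κ m) =
      dedekindPsi m := (mkData hq hm hA H3 H2).finrank_F'
  rw [unitData_E, hpd, h6, Nat.cast_sub (by omega : 1 ≤ q)]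
  have h7 : ((genusFF 𝕂 (modularFunctionFieldBar (m * q)) : ℤ) + 1) =
      2 * genusFF κ (modularFunctionFieldFullC κ m) + T.Nd.card := by exact_mod_cast h1
  have h8 : (genusFF 𝕂 (modularFunctionFieldBar m) : ℤ) ≤
      genusFF κ (modularFunctionFieldFullC κ m) := by exact_mod_cast H2
  push_cast
  linarith

/-- **All widths of `X₀(m q)` are one** if a prime `r ≡ 11 (mod 12)` divides `m`. -/
theorem width_eq_one {r : ℕ} (hr : r.Prime) (hrm : r ∣ m) (hr12 : r % 12 = 11)
    {hM : (model hq hm hA H3).Good} {P : (model hq hm hA H3).Pt}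
    (C : Model.Pt.Coord (unitData hq hm hA H3) hM P) (hP : ∀ i, i ∈ P.on) : C.w = 1 :=
  width_eq_one_of_nu hq hm hA H3 (nu_eq_zero_of_eleven hr hrm hr12)
    (nu_eq_zero_of_eleven hr (hrm.mul_right q) hr12) C hP

/-- **All widths of `X₀(m q)` are one** if `4 ∣ m` or `9 ∣ m`. -/
theorem width_eq_one' (h49 : 4 ∣ m ∨ 9 ∣ m)
    {hM : (model hq hm hA H3).Good} {P : (model hq hm hA H3).Pt}
    (C : Model.Pt.Coord (unitData hq hm hA H3) hM P) (hP : ∀ i, i ∈ P.on) : C.w = 1 :=
  width_eq_one_of_nu hq hm hA H3 (TriDim.nu_eq_zero h49)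
    (TriDim.nu_eq_zero (h49.imp (fun h => h.mul_right q) (fun h => h.mul_right q))) C hP

end

end Fermat.Agent.Star.Inst
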