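import Fermat.Agent.Star.Final

/-!
# The main theorem on the orders of the reductions at the nodes
-/

set_option autoImplicit false
set_option linter.unusedSectionVars false

noncomputable section

open AlgebraicCurve WithZero Module
open Fermat.Agent.RR Fermat.Agent.FF

namespace Fermat.Agent.Star

variable {K F k F' : Type*} [Field K] [Field F] [Algebra K F] [Field k] [Field F']
    [Algebra k F'] [IsAlgClosed K] [IsFF K F] [IsAlgClosed k] [IsFF k F']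

open SemilinearAut

namespace Model

variable {M : Model K F k F'} {hM : M.Good}

variable (M) in
/-- the characteristic of the residue field -/
theorem charP_res : CharP k M.p := by
  have h1 : ((M.p : ℕ) : k) = 0 := by
    have h2 : M.cres (M.p : K) = 0 := (cres_eq_zero_iff p_mem_A).2 M.p_mem
    rw [cres_of_mem p_mem_A] at h2
    rw [← h2]
    have : (⟨(M.p : K), p_mem_A⟩ : M.A) = ((M.p : ℕ) : M.A) := Subtype.ext (by simp)
    rw [this, map_natCast]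
  exact (CharP.charP_iff_prime_eq_zero M.hp).2 h1

/-- uniqueness of the exponent of a nonunit -/
theorem unique_exp {i : Fin 2} {π u u' : F} (hπ0 : π ≠ 0) (hπ : π ∈ M.O i) (hπr : M.red i π = 0)
    (hu : u ∈ M.O i) (hu' : u⁻¹ ∈ M.O i) (hu0 : u ≠ 0) (hv : u' ∈ M.O i) (hv' : u'⁻¹ ∈ M.O i)
    (hv0 : u' ≠ 0) {m m' : ℤ} (h : π ^ m * u = π ^ m' * u') : m = m' := by
  have key : ∀ {u u' : F} {m m' : ℤ}, u ∈ M.O i → u⁻¹ ∈ M.O i → u ≠ 0 → u' ∈ M.O i → u' ≠ 0 →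
      π ^ m * u = π ^ m' * u' → ¬ m < m' := by
    intro u u' m m' hu hu' hu0 hv hv0 h hlt
    obtain ⟨l, hl⟩ : ∃ l : ℕ, m' = m + l ∧ 0 < l := ⟨(m' - m).toNat, by omega, by omega⟩
    rw [hl.1, zpow_add₀ hπ0, zpow_natCast, mul_assoc] at h
    have h1 := mul_left_cancel₀ (zpow_ne_zero m hπ0) h
    have h2 : M.red i u = 0 := by
      rw [h1, red_mul (pow_mem hπ l) hv, red_pow hπ, hπr, zero_pow hl.2.ne', zero_mul]
    exact (red_ne_zero_iff hu).2 ⟨hu0, hu'⟩ h2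
  rcases lt_trichotomy m m' with h1 | h1 | h1
  · exact absurd h1 (key hu hu' hu0 hv hv0 h)
  · exact h1
  · exact absurd h1 (key hv hv' hv0 hu hu0 h.symm)

theorem pF_exp {i : Fin 2} {u u' : F}
    (hu : u ∈ M.O i) (hu' : u⁻¹ ∈ M.O i) (hu0 : u ≠ 0) (hv : u' ∈ M.O i) (hv' : u'⁻¹ ∈ M.O i)
    (hv0 : u' ≠ 0) {m m' : ℤ} (h : M.pF ^ m * u = M.pF ^ m' * u') : m = m' :=
  unique_exp pF_ne_zero (pF_mem i) (red_pF i) hu hu' hu0 hv hv' hv0 h

theorem zpow_unit_mem {i : Fin 2} {u : F} (hu : u ∈ M.O i) (hu' : u⁻¹ ∈ M.O i) (n : ℤ) :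
    u ^ n ∈ M.O i ∧ (u ^ n)⁻¹ ∈ M.O i := by
  obtain ⟨m, rfl | rfl⟩ := n.eq_nat_or_neg
  · rw [zpow_natCast, ← inv_pow]; exact ⟨pow_mem hu m, pow_mem hu' m⟩
  · rw [zpow_neg, zpow_natCast, inv_inv, ← inv_pow]; exact ⟨pow_mem hu' m, pow_mem hu m⟩

namespace Pt.Coord

variable {P : M.Pt} {U : UnitData M} (C : Coord U hM P)

/-- the unit part of `X` on the component `1` -/
theorem X_eq : C.X = M.pF ^ (C.w : ℤ) * (C.X * (M.pF ^ C.w)⁻¹) := by
  have := C.pw_ne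
  rw [zpow_natCast]; field_simp

theorem Xu_inv_mem : (C.X * (M.pF ^ C.w)⁻¹)⁻¹ ∈ M.O 1 := by
  rw [mul_inv, inv_inv]; exact C.X_inv_mem'

theorem Xu_ne : C.X * (M.pF ^ C.w)⁻¹ ≠ 0 := mul_ne_zero C.X_ne (inv_ne_zero C.pw_ne)

end Pt.Coord

namespace Wild

variable {H : Subgroup (SemilinearAut K F)} (W : Wild M H)

theorem εF_mem (i : Fin 2) : algebraMap K F W.ε ∈ M.O i ∧ (algebraMap K F W.ε)⁻¹ ∈ M.O i :=
  ⟨algebraMap_mem W.ε_mem i, by rw [← map_inv₀]; exact algebraMap_mem W.ε_inv_mem i⟩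

theorem ε_ne : W.ε ≠ 0 := by
  intro h
  have := W.p_eq
  rw [h, mul_zero] at this
  exact M.p_ne_zero this

theorem pF_eq : M.pF = (algebraMap K F W.ϖ) ^ (M.p * (M.p - 1)) * algebraMap K F W.ε := by
  rw [pF]; conv_lhs => rw [W.p_eq]
  rw [map_mul, map_pow]

/-- the valuation on the component `1` at a node -/
theorem node_relation {U : UnitData M} {P : M.Pt} (hP : ∀ i, i ∈ P.on) (C : Pt.Coord U hM P)
    {f h d : F} {a : ℤ} (hh0 : h ≠ 0) (hh : h ∈ P.L hM)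
    (hh' : h⁻¹ ∈ P.L hM) (hf : f = C.X ^ a * h * d ^ M.p)
    {m : ℤ} {u : F} (hu : u ∈ M.O 1) (hu' : u⁻¹ ∈ M.O 1) (hu0 : u ≠ 0)
    (hfu : f = (algebraMap K F W.ϖ) ^ m * u)
    {n : ℤ} {v : F} (hv : v ∈ M.O 1) (hv' : v⁻¹ ∈ M.O 1) (hv0 : v ≠ 0)
    (hdv : d = (algebraMap K F W.ϖ) ^ n * v) :
    m = a * C.w * (M.p * (M.p - 1)) + M.p * n := by
  have hp1 : ((M.p * (M.p - 1) : ℕ) : ℤ) = M.p * (M.p - 1) := by
    have := M.hp.one_lt
    push_cast [Nat.cast_sub this.le]; ring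
  rw [← hp1]
  have hϖ := W.algebraMap_ne
  set N := M.p * (M.p - 1) with hN
  obtain ⟨e1, e2⟩ := W.εF_mem 1
  have e3 : algebraMap K F W.ε ≠ 0 := (_root_.map_ne_zero _).2 W.ε_ne
  have hhO := Pt.L_le_O (hM := hM) (hP 1) hh
  have hhO' := Pt.L_le_O (hM := hM) (hP 1) hh'
  have x1 := C.X_mem'
  have x2 := C.Xu_inv_mem
  have x3 := C.Xu_ne
  set xu := C.X * (M.pF ^ C.w)⁻¹ with hxu
  obtain ⟨z1, z2⟩ := zpow_unit_mem x1 x2 a
  obtain ⟨y1, y2⟩ := zpow_unit_mem e1 e2 (C.w * a)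
  have hX : C.X = (algebraMap K F W.ϖ) ^ ((N : ℤ) * C.w) * (algebraMap K F W.ε) ^ (C.w : ℤ) *
      xu := by
    have h1 : M.pF ^ (C.w : ℤ) =
        (algebraMap K F W.ϖ) ^ ((N : ℤ) * C.w) * (algebraMap K F W.ε) ^ (C.w : ℤ) := by
      rw [W.pF_eq, mul_zpow, ← zpow_natCast, ← zpow_mul]
    rw [← h1]; exact C.X_eq
  have hfin : f = (algebraMap K F W.ϖ) ^ (a * C.w * N + M.p * n) *
      ((algebraMap K F W.ε) ^ (C.w * a) * xu ^ a * h * v ^ M.p) := by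
    have h1 : C.X ^ a = (algebraMap K F W.ϖ) ^ (a * C.w * N) *
        (algebraMap K F W.ε) ^ (C.w * a) * xu ^ a := by
      rw [hX, mul_zpow, mul_zpow, ← zpow_mul, ← zpow_mul]
      congr 3; ring
    have h2 : d ^ M.p = (algebraMap K F W.ϖ) ^ (M.p * n) * v ^ M.p := by
      rw [hdv, mul_pow, ← zpow_natCast ((algebraMap K F W.ϖ) ^ n), ← zpow_mul, mul_comm n]
    rw [hf, h1, h2, zpow_add₀ hϖ]
    ring
  refine unique_exp hϖ (W.ϖF_mem 1) (W.red_ϖ 1) hu hu' hu0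
    (mul_mem (mul_mem (mul_mem y1 z1) hhO) (pow_mem hv M.p)) ?_ ?_ (hfu.symm.trans hfin)
  · rw [mul_inv, mul_inv, mul_inv, ← inv_pow]
    exact mul_mem (mul_mem (mul_mem y2 z2) hhO') (pow_mem hv' M.p)
  · exact mul_ne_zero (mul_ne_zero (mul_ne_zero (zpow_ne_zero _ e3) (zpow_ne_zero _ x3)) hh0)
      (pow_ne_zero _ hv0)

include W in
/-- **Constancy, wild case.** -/
theorem node_const {U : UnitData M} {f : F} (f0 : f ≠ 0) (hfix : ∀ g ∈ H, g • f = f)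
    (hO : f ∈ M.O 0) (hO' : f⁻¹ ∈ M.O 0) (hdiv : ∀ v : Place K F, (M.p : ℤ) ∣ v.ord f)
    {P Q : M.Pt} (hP : ∀ i, i ∈ P.on) (hQ : ∀ i, i ∈ Q.on) (C : Pt.Coord U hM P)
    (C' : Pt.Coord U hM Q) :
    (M.p : ℤ) ∣ C.w * (P.wOn hM 0).ord (M.red 0 f) - C'.w * (Q.wOn hM 0).ord (M.red 0 f) := by
  have hchar := charP_res M
  have hp1 : (1 : ℤ) ≤ M.p := by exact_mod_cast M.hp.one_lt.le
  have hp0 : (M.p : ℤ) ≠ 0 := by omega
  have hϖ := W.algebraMap_ne
  obtain ⟨m, u, huH, hu, hu', hu0, hfu⟩ := W.exists_unit_form 1 (a := f) hfix f0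
  -- decompositions at nodes
  have node : ∀ {R : M.Pt} (hR : ∀ i, i ∈ R.on) (D : Pt.Coord U hM R), ∃ (a n : ℤ) (z h d : FixF H),
      (W.datum hM).LocDec ⟨f, hfix⟩ R z h d ∧ m = a * D.w * (M.p * (M.p - 1)) + M.p * n ∧
      (M.p : ℤ) ∣ (R.wOn hM 0).ord (M.red 0 f) - a ∧
      (W.D 0).HasOrd d 0 ∧ (W.D 1).HasOrd d n := by
    intro R hR D
    obtain ⟨a, h, d, hh0, hh, hh', hhfix, hd0, hdfix, hdO, hdO', hfd, ha⟩ :=
      Pt.node_dec D hR W.le f0 hO hO' hfix (fun v _ => hdiv v)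
    obtain ⟨n, v, hvH, hv, hv', hv0, hdv⟩ := W.exists_unit_form 1 (a := d) hdfix hd0
    have hXfix : D.X ∈ FixF H := fun g hg => D.X_fix g (W.le hg)
    refine ⟨a, n, ⟨D.X ^ a, zpow_mem hXfix a⟩, ⟨h, hhfix⟩, ⟨d, hdfix⟩, ⟨?_, ?_, ?_, ?_, hh, hh', ?_⟩,
      W.node_relation hR D hh0 hh hh' hfd hu hu' hu0 hfu hv hv' hv0 hdv, ha,
      ⟨⟨d, hdfix⟩, hdO, hdO', ?_, ?_⟩, ⟨⟨v, hvH⟩, hv, hv', ?_, ?_⟩⟩
    · exact fun h => zpow_ne_zero a D.X_ne (congrArg Subtype.val h)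
    · exact fun h => hh0 (congrArg Subtype.val h)
    · exact fun h => hd0 (congrArg Subtype.val h)
    · apply Subtype.ext
      change W.τ • (D.X ^ a) = D.X ^ a
      exact smul_zpow_fix (D.X_fix _ W.τ_mem) a
    · exact Subtype.ext hfd
    · exact fun h => hd0 (congrArg Subtype.val h)
    · rw [zpow_zero, one_mul]
    · exact fun h => hv0 (congrArg Subtype.val h)
    · exact Subtype.ext hdv
  obtain ⟨a, n, z, h, d, hPd, hm1, ha, hn0, hn1⟩ := node hP C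
  obtain ⟨a', n', z', h', d', hQd, hm2, ha', hn0', hn1'⟩ := node hQ C'
  -- the exponent is divisible by `p`
  have hpm : (M.p : ℤ) ∣ m := by
    rw [hm1]
    exact Dvd.dvd.add ⟨a * C.w * (M.p - 1), by ring⟩ (dvd_mul_right _ _)
  -- decompositions everywhere
  have hdec : ∀ R : M.Pt, ∃ z h d, (W.datum hM).LocDec ⟨f, hfix⟩ R z h d := by
    intro R
    rcases Pt.on_cases (P := R) with hR | hR
    · obtain ⟨D⟩ := Pt.exists_coord (hM := hM) U hR
      obtain ⟨a, n, z, h, d, hd, -⟩ := node hR D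
      exact ⟨z, h, d, hd⟩
    · obtain ⟨c, h, d, hc0, hcfix, hh0, hh, hh', hhfix, hd0, hdfix, hdO, hdO', hfd⟩ :=
        Pt.smooth_dec (hM := hM) hR W.le f0 hfix (fun v _ => hdiv v)
      have hi : R.i ∈ R.on := Pt.i_mem_on
      obtain ⟨l, hl1, hl2⟩ := W.unif c hc0 hcfix
      -- `p` divides `l`
      have hcF : algebraMap K F c ≠ 0 := (_root_.map_ne_zero _).2 hc0
      set c' := c * W.ϖ ^ l with hc'
      have hc'0 : c' ≠ 0 := mul_ne_zero hc0 (zpow_ne_zero _ W.ϖ_ne)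
      have hc'F : algebraMap K F c' ≠ 0 := (_root_.map_ne_zero _).2 hc'0
      have hcc' : algebraMap K F c = (algebraMap K F W.ϖ) ^ (-l) * algebraMap K F c' := by
        rw [hc', map_mul, map_zpow₀, zpow_neg]
        have := zpow_ne_zero l hϖ
        field_simp
      have hhO := Pt.L_le_O (hM := hM) hi hh
      have hhO' := Pt.L_le_O (hM := hM) hi hh'
      have hc'O := algebraMap_mem hl1 R.i
      have hc'O' : (algebraMap K F c')⁻¹ ∈ M.O R.i := by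
        rw [← map_inv₀]; exact algebraMap_mem hl2 R.i
      have e1 : f = (algebraMap K F W.ϖ) ^ (-l) * (algebraMap K F c' * h * d ^ M.p) := by
        rw [hfd, hcc']; ring
      have e2 : algebraMap K F c' * h * d ^ M.p ∈ M.O R.i :=
        mul_mem (mul_mem hc'O hhO) (pow_mem hdO _)
      have e3 : (algebraMap K F c' * h * d ^ M.p)⁻¹ ∈ M.O R.i := by
        rw [mul_inv, mul_inv, ← inv_pow]
        exact mul_mem (mul_mem hc'O' hhO') (pow_mem hdO' _)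
      have e4 : algebraMap K F c' * h * d ^ M.p ≠ 0 :=
        mul_ne_zero (mul_ne_zero hc'F hh0) (pow_ne_zero _ hd0)
      have hpl : (M.p : ℤ) ∣ l := by
        have key : ∀ i, R.i = i → (M.p : ℤ) ∣ l := by
          intro i hi'
          fin_cases i
          · have h1 := unique_exp (i := R.i) hϖ (W.ϖF_mem _) (W.red_ϖ _) (by rw [hi']; exact hO)
              (by rw [hi']; exact hO') f0 e2 e3 e4 (m := 0) (m' := -l)
              (by rw [zpow_zero, one_mul]; exact e1)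
            have : l = 0 := by omega
            rw [this]; exact dvd_zero _
          · have h1 := unique_exp (i := R.i) hϖ (W.ϖF_mem _) (W.red_ϖ _) (by rw [hi']; exact hu)
              (by rw [hi']; exact hu') hu0 e2 e3 e4 (m := m) (m' := -l)
              (by rw [← hfu]; exact e1)
            have : l = -m := by omega
            rw [this]; exact (dvd_neg).2 hpm
        exact key _ rfl
      obtain ⟨l', hl'⟩ := hpl
      have hϖF : algebraMap K F W.ϖ ∈ FixF H := algebraMap_mem_FixF.2 W.ϖ_fix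
      have hc'fix : algebraMap K F c' ∈ FixF H := by
        have : algebraMap K F c' = algebraMap K F c * (algebraMap K F W.ϖ) ^ l := by
          rw [hc', map_mul, map_zpow₀]
        rw [this]
        exact mul_mem (algebraMap_mem_FixF.2 hcfix) (zpow_mem hϖF l)
      refine ⟨1, ⟨algebraMap K F c' * h, mul_mem hc'fix hhfix⟩,
        ⟨(algebraMap K F W.ϖ) ^ (-l') * d, mul_mem (zpow_mem hϖF _) hdfix⟩,
        one_ne_zero, ?_, ?_, map_one _, ?_, ?_, ?_⟩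
      · exact fun h => (mul_ne_zero hc'F hh0) (congrArg Subtype.val h)
      · exact fun h => (mul_ne_zero (zpow_ne_zero _ hϖ) hd0) (congrArg Subtype.val h)
      · exact mul_mem (Pt.algebraMap_mem_L hl1) hh
      · change (algebraMap K F c' * h)⁻¹ ∈ R.L hM
        rw [mul_inv, ← map_inv₀]
        exact mul_mem (Pt.algebraMap_mem_L hl2) hh'
      · apply Subtype.ext
        change f = 1 * (algebraMap K F c' * h) * ((algebraMap K F W.ϖ) ^ (-l') * d) ^ M.p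
        rw [e1, one_mul, mul_pow, ← zpow_natCast ((algebraMap K F W.ϖ) ^ (-l')), ← zpow_mul, hl',
          show -l' * (M.p : ℤ) = -(M.p * l') by ring]
        ring
  have hstar := Datum.star (S := W.datum hM) M.hp hdec (P := P) (Q := Q) hP hQ hPd hQd
    (n := ![0, n]) (n' := ![0, n'])
    (fun i => by
      fin_cases i
      · exact hn0
      · exact hn1)
    (fun i => by
      fin_cases i
      · exact hn0'
      · exact hn1')
  have h1 : (M.p : ℤ) ∣ n - n' := by simpa using hstar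
  have h2 : a * C.w * (M.p - 1) + n = a' * C'.w * (M.p - 1) + n' := by
    have : (M.p : ℤ) * (a * C.w * (M.p - 1) + n) = M.p * (a' * C'.w * (M.p - 1) + n') := by
      linear_combination hm2 - hm1
    exact mul_left_cancel₀ hp0 this
  obtain ⟨t, ht⟩ := h1
  obtain ⟨r, hr⟩ := ha
  obtain ⟨r', hr'⟩ := ha'
  refine ⟨C.w * r - C'.w * r' + (a * C.w - a' * C'.w) + t, ?_⟩
  linear_combination (C.w : ℤ) * hr - (C'.w : ℤ) * hr' - h2 + ht

end Wild

/-- An extension `F ^ H` of the rational functions which is obtained from a tamely ramified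
extension of the constants. -/
structure Tame (M : Model K F k F') (H : Subgroup (SemilinearAut K F)) where
  le : H ≤ M.G
  e : ℕ
  coprime : Nat.Coprime M.p e
  unif : ∀ a : K, a ≠ 0 → (∀ g ∈ H, baseAut g a = a) →
    ∃ n : ℤ, a ^ e * (M.p : K) ^ n ∈ M.A ∧ (a ^ e * (M.p : K) ^ n)⁻¹ ∈ M.A

namespace Tame

variable {H : Subgroup (SemilinearAut K F)} (W : Tame M H)

/-- writing the power of a fixed function as a power of `p` times a unit -/
theorem exists_unit_form (i : Fin 2) {a : F} (ha : ∀ g ∈ H, g • a = a) (ha0 : a ≠ 0) :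
    ∃ (n : ℤ) (u : F), u ∈ M.O i ∧ u⁻¹ ∈ M.O i ∧ u ≠ 0 ∧ a ^ W.e = M.pF ^ n * u := by
  obtain ⟨c, hc0, hc1, hc2, hc3⟩ := M.scale i a ha0
  have hcfix : ∀ g ∈ H, baseAut g c = c := fun g hg => hc3 g (W.le hg) (ha g hg)
  obtain ⟨n, hn1, hn2⟩ := W.unif c hc0 hcfix
  have hcF : algebraMap K F c ≠ 0 := (_root_.map_ne_zero _).2 hc0
  have hcE := pow_ne_zero W.e hcF
  have hpn := zpow_ne_zero n (pF_ne_zero (M := M))
  have haE := pow_ne_zero W.e ha0
  refine ⟨-n, a ^ W.e * M.pF ^ n, ?_, ?_, mul_ne_zero haE hpn, ?_⟩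
  · have h1 : a ^ W.e * M.pF ^ n =
        algebraMap K F (c ^ W.e * (M.p : K) ^ n) * (a * (algebraMap K F c)⁻¹) ^ W.e := by
      rw [map_mul, map_zpow₀, map_pow, mul_pow, inv_pow, pF]; field_simp
    rw [h1]; exact mul_mem (algebraMap_mem hn1 i) (pow_mem hc1 _)
  · have h1 : (a ^ W.e * M.pF ^ n)⁻¹ =
        algebraMap K F (c ^ W.e * (M.p : K) ^ n)⁻¹ * ((a * (algebraMap K F c)⁻¹)⁻¹) ^ W.e := by
      rw [map_inv₀, map_mul, map_zpow₀, map_pow, inv_pow, mul_pow, inv_pow, pF]; field_simp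
    rw [h1]; exact mul_mem (algebraMap_mem hn2 i) (pow_mem hc2 _)
  · rw [zpow_neg]; field_simp

include W in
/-- **Constancy, tame case.** -/
theorem node_const {U : UnitData M} {f : F} (f0 : f ≠ 0) (hfix : ∀ g ∈ H, g • f = f)
    (hO : f ∈ M.O 0) (hO' : f⁻¹ ∈ M.O 0) (hdiv : ∀ v : Place K F, (M.p : ℤ) ∣ v.ord f)
    {P Q : M.Pt} (hP : ∀ i, i ∈ P.on) (hQ : ∀ i, i ∈ Q.on) (C : Pt.Coord U hM P)
    (C' : Pt.Coord U hM Q) :
    (M.p : ℤ) ∣ C.w * (P.wOn hM 0).ord (M.red 0 f) - C'.w * (Q.wOn hM 0).ord (M.red 0 f) := by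
  obtain ⟨m, u, hu, hu', hu0, hfu⟩ := W.exists_unit_form 1 (a := f) hfix f0
  have node : ∀ {R : M.Pt} (hR : ∀ i, i ∈ R.on) (D : Pt.Coord U hM R), ∃ (a n : ℤ),
      m = a * D.w * W.e + M.p * n ∧ (M.p : ℤ) ∣ (R.wOn hM 0).ord (M.red 0 f) - a := by
    intro R hR D
    obtain ⟨a, h, d, hh0, hh, hh', hhfix, hd0, hdfix, hdO, hdO', hfd, ha⟩ :=
      Pt.node_dec D hR W.le f0 hO hO' hfix (fun v _ => hdiv v)
    obtain ⟨n, v, hv, hv', hv0, hdv⟩ := W.exists_unit_form 1 (a := d) hdfix hd0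
    refine ⟨a, n, ?_, ha⟩
    have hhO := Pt.L_le_O (hM := hM) (hR 1) hh
    have hhO' := Pt.L_le_O (hM := hM) (hR 1) hh'
    have x1 := D.X_mem'
    have x2 := D.Xu_inv_mem
    have x3 := D.Xu_ne
    have x4 := D.X_eq
    set xu := D.X * (M.pF ^ D.w)⁻¹ with hxu
    obtain ⟨z1, z2⟩ := zpow_unit_mem x1 x2 (a * W.e)
    have hp0 := pF_ne_zero (M := M)
    have hfin : f ^ W.e = M.pF ^ (a * D.w * W.e + M.p * n) *
        (xu ^ (a * W.e) * h ^ W.e * v ^ M.p) := by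
      have h1 : (D.X ^ a) ^ W.e = M.pF ^ (a * D.w * W.e) * xu ^ (a * W.e) := by
        rw [← zpow_natCast (D.X ^ a), ← zpow_mul, x4, mul_zpow, ← zpow_mul]
        congr 2; ring
      have h2 : (d ^ M.p) ^ W.e = M.pF ^ (M.p * n) * v ^ M.p := by
        rw [← pow_mul, mul_comm M.p W.e, pow_mul, hdv, mul_pow, ← zpow_natCast (M.pF ^ n),
          ← zpow_mul, mul_comm n]
      rw [hfd, mul_pow, mul_pow, h1, h2, zpow_add₀ hp0]
      ring
    refine pF_exp hu hu' hu0 (mul_mem (mul_mem z1 (pow_mem hhO _)) (pow_mem hv _)) ?_ ?_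
      (hfu.symm.trans hfin)
    · rw [mul_inv, mul_inv, ← inv_pow, ← inv_pow]
      exact mul_mem (mul_mem z2 (pow_mem hhO' _)) (pow_mem hv' _)
    · exact mul_ne_zero (mul_ne_zero (zpow_ne_zero _ x3) (pow_ne_zero _ hh0)) (pow_ne_zero _ hv0)
  obtain ⟨a, n, hm1, r, hr⟩ := node hP C
  obtain ⟨a', n', hm2, r', hr'⟩ := node hQ C'
  have h1 : (M.p : ℤ) ∣ (W.e : ℤ) * (a * C.w - a' * C'.w) := by
    refine ⟨n' - n, ?_⟩
    linear_combination hm2 - hm1
  have hcop : IsCoprime (M.p : ℤ) (W.e : ℤ) := Nat.isCoprime_iff_coprime.2 W.coprime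
  obtain ⟨t, ht⟩ := hcop.dvd_of_dvd_mul_left h1
  refine ⟨C.w * r - C'.w * r' + t, ?_⟩
  linear_combination (C.w : ℤ) * hr - (C'.w : ℤ) * hr' + ht

end Tame

/-- **(STAR)**: the orders of the reduction of a function with divisor divisible by `p`. -/
theorem star_final (hM : M.Good) (U : UnitData M) {f : F} (f0 : f ≠ 0) (hO : f ∈ M.O 0)
    (hO' : f⁻¹ ∈ M.O 0) (hdiv : ∀ v : Place K F, (M.p : ℤ) ∣ v.ord f)
    (hconst : ∀ {P Q : M.Pt} (_ : ∀ i, i ∈ P.on) (_ : ∀ i, i ∈ Q.on) (C : Pt.Coord U hM P)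
      (C' : Pt.Coord U hM Q), (M.p : ℤ) ∣
        C.w * (P.wOn hM 0).ord (M.red 0 f) - C'.w * (Q.wOn hM 0).ord (M.red 0 f)) :
    ∃ n : ℤ, (∀ w : Place k F', M.red 0 (M.x 0) ∈ w.toValuationSubring →
      (M.p : ℤ) ∣ U.E * w.ord (M.red 0 f) - n * w.ord (M.red 0 U.u)) ∧
      ∀ w : Place k F', M.red 0 (M.x 0) ∉ w.toValuationSubring → (M.p : ℤ) ∣ w.ord (M.red 0 f) := by
  have smooth : ∀ w : Place k F', ¬ (∀ i, i ∈ (M.ptOf 0 w).on) →
      (M.ptOf 0 w).on = {0} ∧ (M.p : ℤ) ∣ w.ord (M.red 0 f) := by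
    intro w hw
    have h1 : (M.ptOf 0 w).on = {0} := by
      have := (Pt.on_cases (P := M.ptOf 0 w)).resolve_left hw
      rwa [ptOf_i] at this
    refine ⟨h1, ?_⟩
    have := Pt.dvd_smooth (hM := hM) h1 f0 hO hO' (fun v _ => hdiv v)
    rwa [wOn_ptOf] at this
  have cusp : ∀ w : Place k F', M.red 0 (M.x 0) ∉ w.toValuationSubring →
      (M.p : ℤ) ∣ w.ord (M.red 0 f) := by
    intro w hw
    refine (smooth w fun h => hw ?_).2
    have := Pt.e_eq_zero hM h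
    exact (ptOf_e 0 w).1 this
  by_cases hex : ∃ P : M.Pt, ∀ i, i ∈ P.on
  · obtain ⟨P, hP⟩ := hex
    obtain ⟨C⟩ := Pt.exists_coord (hM := hM) U hP
    refine ⟨C.w * (P.wOn hM 0).ord (M.red 0 f), fun w hw => ?_, cusp⟩
    by_cases hwn : ∀ i, i ∈ (M.ptOf 0 w).on
    · obtain ⟨D⟩ := Pt.exists_coord (hM := hM) U hwn
      have h1 := hconst hwn hP D C
      have h2 := D.o_eq
      have h3 : ((D.o * D.w : ℕ) : ℤ) = U.E := by exact_mod_cast D.o_mul
      rw [wOn_ptOf] at h1 h2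
      obtain ⟨r, hr⟩ := h1
      refine ⟨D.o * r, ?_⟩
      rw [h2, ← h3]
      push_cast
      linear_combination (D.o : ℤ) * hr
    · obtain ⟨h1, r, hr⟩ := smooth w hwn
      have h2 := Pt.ord_unit_smooth (hM := hM) U h1 ((ptOf_e 0 w).2 hw)
      rw [wOn_ptOf] at h2
      rw [h2, hr]
      exact ⟨U.E * r, by ring⟩
  · refine ⟨0, fun w hw => ?_, cusp⟩
    obtain ⟨-, r, hr⟩ := smooth w fun h => hex ⟨_, h⟩
    rw [hr]
    exact ⟨U.E * r, by ring⟩

/-- **(STAR)**, wild case -/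
theorem star_wild (hM : M.Good) (U : UnitData M) {H : Subgroup (SemilinearAut K F)}
    (W : Wild M H) {f : F} (f0 : f ≠ 0) (hfix : ∀ g ∈ H, g • f = f) (hO : f ∈ M.O 0)
    (hO' : f⁻¹ ∈ M.O 0) (hdiv : ∀ v : Place K F, (M.p : ℤ) ∣ v.ord f) :
    ∃ n : ℤ, (∀ w : Place k F', M.red 0 (M.x 0) ∈ w.toValuationSubring →
      (M.p : ℤ) ∣ U.E * w.ord (M.red 0 f) - n * w.ord (M.red 0 U.u)) ∧
      ∀ w : Place k F', M.red 0 (M.x 0) ∉ w.toValuationSubring → (M.p : ℤ) ∣ w.ord (M.red 0 f) :=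
  star_final hM U f0 hO hO' hdiv fun hP hQ C C' => W.node_const f0 hfix hO hO' hdiv hP hQ C C'

/-- **(STAR)**, tame case -/
theorem star_tame (hM : M.Good) (U : UnitData M) {H : Subgroup (SemilinearAut K F)}
    (W : Tame M H) {f : F} (f0 : f ≠ 0) (hfix : ∀ g ∈ H, g • f = f) (hO : f ∈ M.O 0)
    (hO' : f⁻¹ ∈ M.O 0) (hdiv : ∀ v : Place K F, (M.p : ℤ) ∣ v.ord f) :
    ∃ n : ℤ, (∀ w : Place k F', M.red 0 (M.x 0) ∈ w.toValuationSubring →
      (M.p : ℤ) ∣ U.E * w.ord (M.red 0 f) - n * w.ord (M.red 0 U.u)) ∧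
      ∀ w : Place k F', M.red 0 (M.x 0) ∉ w.toValuationSubring → (M.p : ℤ) ∣ w.ord (M.red 0 f) :=
  star_final hM U f0 hO hO' hdiv fun hP hQ C C' => W.node_const f0 hfix hO hO' hdiv hP hQ C C'

end Model

end Fermat.Agent.Star
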