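import Fermat.Agent.Star.Disc
import Fermat.Agent.Star.Main

/-!
# The local field generated by a root of unity and the root of a unit
-/

set_option autoImplicit false
set_option linter.unusedSectionVars false

noncomputable section

open AlgebraicCurve WithZero Module
open Fermat.Agent.RR Fermat.Agent.FF

namespace Fermat.Agent.Star

variable {K F k F' : Type*} [Field K] [Field F] [Algebra K F] [Field k] [Field F']
    [Algebra k F']

namespace Model

variable {M : Model K F k F'}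

open SemilinearAut

/-- stabiliser of a set of constants -/
def Stab (M : Model K F k F') (s : Set K) : Subgroup (SemilinearAut K F) where
  carrier := {g | g ∈ M.G ∧ ∀ y ∈ s, baseAut g y = y}
  one_mem' := ⟨M.G.one_mem, fun y _ => rfl⟩
  mul_mem' := fun {a b} ha hb => ⟨M.G.mul_mem ha.1 hb.1, fun y hy => by
    rw [baseAut_mul_apply, hb.2 y hy, ha.2 y hy]⟩
  inv_mem' := fun {a} ha => ⟨M.G.inv_mem ha.1, fun y hy => by
    conv_lhs => rw [← ha.2 y hy]
    exact baseAut_inv_apply a y⟩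

theorem mem_Stab {s : Set K} {g : SemilinearAut K F} :
    g ∈ M.Stab s ↔ g ∈ M.G ∧ ∀ y ∈ s, baseAut g y = y := Iff.rfl

theorem Stab_le (s : Set K) : M.Stab s ≤ M.G := fun _ hg => hg.1

theorem le_Stab {H : Subgroup (SemilinearAut K F)} (hH : H ≤ M.G) {s : Set K}
    (h : ∀ g ∈ H, ∀ y ∈ s, baseAut g y = y) : H ≤ M.Stab s := fun g hg => ⟨hH hg, h g hg⟩

/-- the action of the group on the constants -/
@[reducible] def actG (M : Model K F k F') : MulAction M.G K where
  smul g x := baseAut (g : SemilinearAut K F) x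
  one_smul _ := rfl
  mul_smul _ _ _ := rfl

/-- the orbit norm -/
theorem exists_norm {a : K} (ha0 : a ≠ 0) :
    ∃ n : ℤ, M.A.valuation a ^ (M.Stab {a}).relIndex M.G = M.A.valuation (M.p : K) ^ n := by
  classical
  let _ := actG M
  have hsm : ∀ (g : M.G) (x : K), g • x = baseAut (g : SemilinearAut K F) x := fun _ _ => rfl
  have hidx : (M.Stab {a}).relIndex M.G = (MulAction.orbit M.G a).ncard := by
    rw [← MulAction.index_stabilizer, Subgroup.relIndex]
    congr 1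
    ext g
    rw [Subgroup.mem_subgroupOf, mem_Stab, MulAction.mem_stabilizer_iff, hsm]
    exact ⟨fun h => h.2 a rfl, fun h => ⟨g.2, fun y hy => by rw [Set.mem_singleton_iff.1 hy]; exact h⟩⟩
  set O : Finset K := (finite_orbit_const (M := M) a).toFinset with hO
  have hmemO : ∀ x, x ∈ O ↔ ∃ g ∈ M.G, baseAut g a = x := by
    intro x; rw [hO, Set.Finite.mem_toFinset]; rfl
  have hcard : (MulAction.orbit M.G a).ncard = O.card := by
    rw [← Set.ncard_coe_finset]
    congr 1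
    ext x
    rw [Finset.mem_coe, hmemO, MulAction.mem_orbit_iff]
    constructor
    · rintro ⟨g, rfl⟩; exact ⟨g, g.2, rfl⟩
    · rintro ⟨g, hg, rfl⟩; exact ⟨⟨g, hg⟩, rfl⟩
  set N := ∏ x ∈ O, x with hN
  have hxne : ∀ x ∈ O, x ≠ 0 := by
    intro x hx
    obtain ⟨g, -, rfl⟩ := (hmemO x).1 hx
    simpa using ha0
  have hN0 : N ≠ 0 := Finset.prod_ne_zero_iff.2 hxne
  have hNfix : ∀ g ∈ M.G, baseAut g N = N := by
    intro g hg
    rw [hN, map_prod]
    refine Finset.prod_bij (fun x _ => baseAut g x) ?_ ?_ ?_ ?_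
    · intro x hx
      obtain ⟨h, hh, rfl⟩ := (hmemO x).1 hx
      exact (hmemO _).2 ⟨g * h, M.G.mul_mem hg hh, rfl⟩
    · intro x _ x' _ h
      exact (baseAut g).injective h
    · intro x hx
      obtain ⟨h, hh, rfl⟩ := (hmemO x).1 hx
      exact ⟨baseAut (g⁻¹ * h) a, (hmemO _).2 ⟨g⁻¹ * h, M.G.mul_mem (M.G.inv_mem hg) hh, rfl⟩,
        by rw [baseAut_mul_apply, baseAut_apply_inv]⟩
    · intro x _; rfl
  obtain ⟨n, hn⟩ := valuation_of_fixed hN0 hNfix
  have hNval : M.A.valuation N = M.A.valuation a ^ O.card := by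
    rw [hN, map_prod]
    rw [Finset.prod_congr rfl (g := fun _ => M.A.valuation a) ?_, Finset.prod_const]
    intro x hx
    obtain ⟨g, hg, rfl⟩ := (hmemO x).1 hx
    exact valuation_smul hg a
  exact ⟨n, by rw [hidx, hcard, ← hNval, hn]⟩

/-- the values of the constants fixed by a subgroup of index dividing `e` -/
theorem valuation_pow_of_relIndex {H : Subgroup (SemilinearAut K F)} (hH : H ≤ M.G) {e : ℕ}
    (he : H.relIndex M.G ∣ e) {a : K} (ha0 : a ≠ 0) (ha : ∀ g ∈ H, baseAut g a = a) :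
    ∃ n : ℤ, M.A.valuation a ^ e = M.A.valuation (M.p : K) ^ n := by
  obtain ⟨n, hn⟩ := exists_norm (M := M) ha0
  have h1 : H ≤ M.Stab {a} := le_Stab hH fun g hg y hy => by
    rw [Set.mem_singleton_iff.1 hy]; exact ha g hg
  obtain ⟨m, hm⟩ := (Subgroup.relIndex_dvd_of_le_left M.G h1).trans he
  refine ⟨n * m, ?_⟩
  rw [hm, pow_mul, hn, zpow_mul, zpow_natCast]

theorem unit_of_valuation {a : K} (h : M.A.valuation a = 1) : a ∈ M.A ∧ a⁻¹ ∈ M.A := by
  refine ⟨(M.A.valuation_le_one_iff _).1 h.le, (M.A.valuation_le_one_iff _).1 ?_⟩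
  rw [map_inv₀, h, inv_one]

/-- **Tame extensions.** -/
def tameOfIndex {H : Subgroup (SemilinearAut K F)} (hH : H ≤ M.G) {e : ℕ}
    (he : H.relIndex M.G ∣ e) (hco : Nat.Coprime M.p e) : Tame M H where
  le := hH
  e := e
  coprime := hco
  unif := fun a ha0 ha => by
    obtain ⟨n, hn⟩ := valuation_pow_of_relIndex hH he ha0 ha
    refine ⟨-n, unit_of_valuation ?_⟩
    rw [map_mul, map_pow, map_zpow₀, hn, zpow_neg]
    exact mul_inv_cancel₀ (zpow_ne_zero _ valuation_p_ne)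

/-- the underlying homomorphism -/
def baseHom : SemilinearAut K F →* (K ≃+* K) where
  toFun := baseAut
  map_one' := rfl
  map_mul' _ _ := rfl

/-- the stabiliser of a root of unity -/
theorem relIndex_Stab_zeta {ζ : K} (hζ : IsPrimitiveRoot ζ M.p) :
    (M.Stab {ζ}).relIndex M.G ∣ M.p - 1 := by
  have : Fact M.p.Prime := ⟨M.hp⟩
  have : NeZero M.p := ⟨M.hp.ne_zero⟩
  have hcard : Nat.card (rootsOfUnity M.p K) = M.p := hζ.card_rootsOfUnity
  let χ : M.G →* (ZMod M.p)ˣ :=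
    ((modularCyclotomicCharacter K hcard).comp baseHom).comp M.G.subtype
  have hker : (M.Stab {ζ}).subgroupOf M.G = χ.ker := by
    ext g
    rw [Subgroup.mem_subgroupOf, mem_Stab, MonoidHom.mem_ker]
    have hζu : IsUnit ζ := hζ.isUnit M.hp.ne_zero
    have hspec : baseAut (g : SemilinearAut K F) ζ = ζ ^ ((χ g : (ZMod M.p)ˣ) : ZMod M.p).val := by
      obtain ⟨z, hz⟩ := hζu
      have h1 : z ∈ rootsOfUnity M.p K := by
        rw [mem_rootsOfUnity]; ext; rw [Units.val_pow_eq_pow_val, hz, hζ.pow_eq_one]; rfl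
      have h2 := modularCyclotomicCharacter.spec K hcard (baseAut (g : SemilinearAut K F)) h1
      rw [hz] at h2
      exact h2
    constructor
    · intro h
      have h1 := h.2 ζ rfl
      rw [hspec] at h1
      have h2 : ζ ^ ((χ g : (ZMod M.p)ˣ) : ZMod M.p).val = ζ ^ 1 := by rw [h1, pow_one]
      have h3 := hζ.pow_inj (ZMod.val_lt _) M.hp.one_lt h2
      ext
      rw [← ZMod.natCast_zmod_val ((χ g : (ZMod M.p)ˣ) : ZMod M.p), h3]
      simp
    · intro h
      refine ⟨g.2, fun y hy => ?_⟩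
      rw [Set.mem_singleton_iff.1 hy, hspec, h, Units.val_one, ZMod.val_one, pow_one]
  rw [Subgroup.relIndex, hker, Subgroup.index_ker]
  have h1 := Subgroup.card_subgroup_dvd_card χ.range
  rwa [Nat.card_eq_fintype_card (α := (ZMod M.p)ˣ), ZMod.card_units M.p] at h1

/-- the stabiliser of a radical over the stabiliser of the roots of unity -/
theorem relIndex_Stab_pair {ζ ρ : K} (hζ : IsPrimitiveRoot ζ M.p) (hρ0 : ρ ≠ 0)
    (hu : ∀ g ∈ M.G, baseAut g (ρ ^ M.p) = ρ ^ M.p) :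
    (M.Stab {ζ, ρ}).relIndex (M.Stab {ζ}) ∣ M.p := by
  have : Fact M.p.Prime := ⟨M.hp⟩
  have : NeZero M.p := ⟨M.hp.ne_zero⟩
  have hroot : ∀ g ∈ M.G, (baseAut g ρ / ρ) ^ M.p = 1 := by
    intro g hg
    rw [div_pow, ← map_pow, hu g hg, div_self (pow_ne_zero _ hρ0)]
  have hfix : ∀ g ∈ M.Stab {ζ}, ∀ x : K, x ^ M.p = 1 → baseAut g x = x := by
    intro g hg x hx
    obtain ⟨i, -, rfl⟩ := hζ.eq_pow_of_pow_eq_one hx
    rw [map_pow, hg.2 ζ rfl]
  have hne : ∀ g : M.Stab {ζ}, baseAut (g : SemilinearAut K F) ρ / ρ ≠ 0 := fun g =>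
    div_ne_zero (by simpa using hρ0) hρ0
  let ψ : M.Stab {ζ} →* rootsOfUnity M.p K :=
    { toFun := fun g => ⟨Units.mk0 _ (hne g), by
        rw [mem_rootsOfUnity]; ext; rw [Units.val_pow_eq_pow_val]; exact hroot _ g.2.1⟩
      map_one' := by
        ext; simp [div_self hρ0]
      map_mul' := fun g h => by
        ext
        simp only [Subgroup.coe_mul, Units.val_mk0, Units.val_mul, baseAut_mul_apply]
        have h1 := hfix g g.2 _ (hroot h h.2.1)
        rw [map_div₀] at h1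
        have h2 : baseAut (g : SemilinearAut K F) ρ ≠ 0 := by simpa using hρ0
        rw [← h1]
        field_simp }
  have hker : (M.Stab {ζ, ρ}).subgroupOf (M.Stab {ζ}) = ψ.ker := by
    ext g
    rw [Subgroup.mem_subgroupOf, mem_Stab, MonoidHom.mem_ker]
    constructor
    · intro h
      ext
      change baseAut (g : SemilinearAut K F) ρ / ρ = 1
      rw [h.2 ρ (by simp), div_self hρ0]
    · intro h
      refine ⟨g.2.1, fun y hy => ?_⟩
      rcases hy with rfl | hy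
      · exact g.2.2 _ rfl
      · rw [Set.mem_singleton_iff.1 hy]
        have h1 : baseAut (g : SemilinearAut K F) ρ / ρ = 1 := by
          have := congrArg (fun z : rootsOfUnity M.p K => ((z : Kˣ) : K)) h
          exact this
        rwa [div_eq_one_iff_eq hρ0] at h1
  rw [Subgroup.relIndex, hker, Subgroup.index_ker]
  have h1 := Subgroup.card_subgroup_dvd_card ψ.range
  rwa [hζ.card_rootsOfUnity] at h1

theorem relIndex_pair_dvd {ζ ρ : K} (hζ : IsPrimitiveRoot ζ M.p) (hρ0 : ρ ≠ 0)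
    (hu : ∀ g ∈ M.G, baseAut g (ρ ^ M.p) = ρ ^ M.p) :
    (M.Stab {ζ, ρ}).relIndex M.G ∣ M.p * (M.p - 1) := by
  have h1 : M.Stab {ζ, ρ} ≤ M.Stab {ζ} := fun g hg =>
    ⟨hg.1, fun y hy => hg.2 y (by rw [Set.mem_singleton_iff.1 hy]; simp)⟩
  rw [← Subgroup.relIndex_mul_relIndex _ _ _ h1 (Stab_le _)]
  exact mul_dvd_mul (relIndex_Stab_pair hζ hρ0 hu) (relIndex_Stab_zeta hζ)

/-! ### Valuations -/

/-- two different roots of unity of prime order -/
theorem valuation_root_sub {ζ : K} (hζ : IsPrimitiveRoot ζ M.p) {ξ : K} (hξ : ξ ^ M.p = 1)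
    (hne : ξ ≠ 1) : M.A.valuation (1 - ξ) = M.A.valuation (1 - ζ) := by
  have key : ∀ x y : K, y ^ M.p = 1 → x ^ M.p = 1 → IsPrimitiveRoot x M.p →
      M.A.valuation (1 - y) ≤ M.A.valuation (1 - x) := by
    intro x y hy hx hprim
    have := M.hp.ne_zero
    have : NeZero M.p := ⟨M.hp.ne_zero⟩
    obtain ⟨i, -, rfl⟩ := hprim.eq_pow_of_pow_eq_one hy
    have h1 : 1 - x ^ i = (∑ j ∈ Finset.range i, x ^ j) * (1 - x) := by
      have := geom_sum_mul x i
      linear_combination this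
    have hxA : x ∈ M.A := by
      rw [← ValuationSubring.valuation_le_one_iff]
      have h2 : M.A.valuation x ^ M.p = 1 := by rw [← map_pow, hx, map_one]
      exact (pow_le_one_iff_of_nonneg zero_le M.hp.ne_zero).1 h2.le
    have h2 : M.A.valuation (∑ j ∈ Finset.range i, x ^ j) ≤ 1 :=
      (M.A.valuation_le_one_iff _).2 (sum_mem fun j _ => pow_mem hxA j)
    rw [h1, map_mul]
    exact mul_le_of_le_one_left zero_le h2
  have hprim : IsPrimitiveRoot ξ M.p := by
    have : Fact M.p.Prime := ⟨M.hp⟩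
    rw [IsPrimitiveRoot.iff_orderOf]
    exact orderOf_eq_prime hξ hne
  exact le_antisymm (key ζ ξ hξ hζ.pow_eq_one hζ) (key ξ ζ hζ.pow_eq_one hξ hprim)

/-- the valuation of `1 - ζ` -/
theorem valuation_one_sub_pow {ζ : K} (hζ : IsPrimitiveRoot ζ M.p) :
    M.A.valuation (1 - ζ) ^ (M.p - 1) = M.A.valuation (M.p : K) := by
  obtain ⟨n, hn⟩ : ∃ n, M.p = n + 1 := ⟨M.p - 1, by have := M.hp.pos; omega⟩
  have hζ' : IsPrimitiveRoot ζ (n + 1) := hn ▸ hζ
  have h1 := hζ'.prod_one_sub_pow_eq_order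
  have h2 : M.A.valuation (∏ k ∈ Finset.range n, (1 - ζ ^ (k + 1))) =
      M.A.valuation (1 - ζ) ^ n := by
    rw [map_prod, Finset.prod_congr rfl (g := fun _ => M.A.valuation (1 - ζ)) ?_,
      Finset.prod_const, Finset.card_range]
    intro k hk
    refine valuation_root_sub hζ ?_ ?_
    · rw [← pow_mul, mul_comm, pow_mul, hζ.pow_eq_one, one_pow]
    · intro h
      have h3 := hζ'.pow_ne_one_of_pos_of_lt (by omega : k + 1 ≠ 0)
        (by have := Finset.mem_range.1 hk; omega)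
      exact h3 h
  rw [h1] at h2
  have h3 : (M.p : K) = (n : K) + 1 := by rw [hn]; push_cast; ring
  rw [h3, h2]
  congr 1
  omega

theorem fix_root {ζ : K} (hζ : IsPrimitiveRoot ζ M.p) {g : SemilinearAut K F}
    (hg : baseAut g ζ = ζ) {x : K} (hx : x ^ M.p = 1) : baseAut g x = x := by
  have : NeZero M.p := ⟨M.hp.ne_zero⟩
  obtain ⟨i, -, rfl⟩ := hζ.eq_pow_of_pow_eq_one hx
  rw [map_pow, hg]

end Model

open SemilinearAut in
/-- **The local fields of `ζ` and of a radical of a unit.** -/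
theorem Model.wild_or_tame (M : Model K F k F') (hp2 : M.p ≠ 2) {ζ ρ : K}
    (hζ : IsPrimitiveRoot ζ M.p) (hρ : M.A.valuation ρ = 1)
    (hu : ∀ g ∈ M.G, baseAut g (ρ ^ M.p) = ρ ^ M.p) :
    Nonempty (Wild M (M.Stab {ζ, ρ})) ∨ Nonempty (Tame M (M.Stab {ζ, ρ})) := by
  classical
  have hp := M.hp
  have hp3 : 3 ≤ M.p := by have := hp.two_le; omega
  have hp0 : M.p ≠ 0 := hp.ne_zero
  have hNZ : NeZero M.p := ⟨hp0⟩
  have hρ0 : ρ ≠ 0 := by rintro rfl; rw [map_zero] at hρ; exact zero_ne_one hρ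
  have hle : M.Stab {ζ, ρ} ≤ M.G := Model.Stab_le _
  by_cases htame : ∀ g ∈ M.Stab {ζ}, baseAut g ρ = ρ
  · -- tame
    right
    have hsub : M.Stab {ζ} ≤ M.Stab {ζ, ρ} := fun g hg => ⟨hg.1, fun y hy => by
      rcases hy with rfl | hy
      · exact hg.2 _ rfl
      · rw [Set.mem_singleton_iff.1 hy]; exact htame g hg⟩
    refine ⟨Model.tameOfIndex hle (e := M.p - 1)
      ((Subgroup.relIndex_dvd_of_le_left M.G hsub).trans (Model.relIndex_Stab_zeta hζ)) ?_⟩
    rw [Nat.Prime.coprime_iff_not_dvd hp]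
    intro hdvd
    have := Nat.le_of_dvd (by omega) hdvd
    omega
  -- wild
  left
  push Not at htame
  obtain ⟨τ, hτ, hτρ⟩ := htame
  have hτG : τ ∈ M.G := hτ.1
  have hτζ : baseAut τ ζ = ζ := hτ.2 ζ rfl
  set v := M.A.valuation with hv
  -- the root of unity
  obtain ⟨ω, hω, hω1, hωρ⟩ : ∃ ω : K, ω ^ M.p = 1 ∧ ω ≠ 1 ∧ baseAut τ ρ = ω * ρ := by
    refine ⟨baseAut τ ρ / ρ, ?_, ?_, (div_mul_cancel₀ _ hρ0).symm⟩
    · rw [div_pow, ← map_pow, hu τ hτG, div_self (pow_ne_zero _ hρ0)]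
    · rw [Ne, div_eq_one_iff_eq hρ0]; exact hτρ
  have hω0 : ω ≠ 0 := by
    rintro rfl; rw [zero_pow hp0] at hω; exact zero_ne_one hω
  have hvroot : ∀ ξ : K, ξ ^ M.p = 1 → v ξ = 1 := by
    intro ξ hξ
    have h1 : v ξ ^ M.p = 1 := by rw [← map_pow, hξ, map_one]
    exact (pow_eq_one_iff_of_nonneg zero_le hp0).1 h1
  have hvω := Model.valuation_root_sub hζ hω hω1
  have hvπ := Model.valuation_one_sub_pow hζ
  rw [← hvω] at hvπ
  set π := 1 - ω with hπ
  have hπ0 : π ≠ 0 := by rw [hπ]; exact sub_ne_zero.2 (Ne.symm hω1)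
  have hvπ0 : v π ≠ 0 := (Valuation.ne_zero_iff _).2 hπ0
  have hvp1 : v (M.p : K) < 1 := Model.valuation_p_lt
  have hvp0 : v (M.p : K) ≠ 0 := Model.valuation_p_ne
  have hvp0' : 0 < v (M.p : K) := zero_lt_iff.2 hvp0
  have hvπ0' : 0 < v π := zero_lt_iff.2 hvπ0
  have hvπ1 : v π < 1 := by
    by_contra hcon
    push Not at hcon
    have : 1 ≤ v π ^ (M.p - 1) := one_le_pow₀ hcon
    rw [hvπ] at this
    exact absurd hvp1 (not_lt.2 this)
  -- normalisation of the radical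
  have hρA : ρ ∈ M.A := (M.A.valuation_le_one_iff _).1 hρ.le
  obtain ⟨b, hbG, hbres⟩ := M.res_fixed (M.res ⟨ρ, hρA⟩)
  have hvb : v (b : K) = 1 := by
    have h1 : M.res b ≠ 0 := by
      rw [hbres, Ne, M.res_eq_zero_iff, ValuationSubring.mem_nonunits_iff]
      exact fun h => absurd hρ h.ne
    rw [Ne, M.res_eq_zero_iff, ValuationSubring.mem_nonunits_iff] at h1
    exact le_antisymm ((M.A.valuation_le_one_iff _).2 b.2) (not_lt.1 h1)
  have hb0 : (b : K) ≠ 0 := by
    intro h; rw [h, map_zero] at hvb; exact zero_ne_one hvb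
  have hbρ : v ((b : K) - ρ) < 1 := by
    have h1 : M.res (b - ⟨ρ, hρA⟩) = 0 := by rw [map_sub, hbres, sub_self]
    rw [M.res_eq_zero_iff, ValuationSubring.mem_nonunits_iff] at h1
    exact h1
  set r := ρ / (b : K) with hr
  have hr0 : r ≠ 0 := div_ne_zero hρ0 hb0
  have hvr : v r = 1 := by rw [hr, map_div₀, hρ, hvb, div_one]
  have hr1 : v (1 - r) < 1 := by
    have : 1 - r = ((b : K) - ρ) / b := by rw [hr]; field_simp
    rw [this, map_div₀, hvb, div_one]; exact hbρ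
  have hrG : ∀ g ∈ M.G, baseAut g (r ^ M.p) = r ^ M.p := by
    intro g hg
    rw [hr, div_pow, map_div₀, hu g hg, map_pow, hbG g hg]
  have hτr : baseAut τ r = ω * r := by
    rw [hr, map_div₀, hωρ, hbG τ hτG, mul_div_assoc]
  have hprod := hζ.pow_sub_pow_eq_prod_sub_mul (1 : K) r hp.pos
  rw [one_pow] at hprod
  have hmem : ∀ ξ : K, ξ ∈ Polynomial.nthRootsFinset M.p (1 : K) ↔ ξ ^ M.p = 1 := fun ξ =>
    Polynomial.mem_nthRootsFinset hp.pos _
  have hcard : (Polynomial.nthRootsFinset M.p (1 : K)).card = M.p := hζ.card_nthRootsFinset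
  have hvprod : v (1 - r ^ M.p) = ∏ ξ ∈ Polynomial.nthRootsFinset M.p (1 : K), v (1 - ξ * r) := by
    rw [hprod, map_prod]
  have hne : 1 - r ^ M.p ≠ 0 := by
    intro h
    have h1 : r ^ M.p = 1 := by linear_combination -h
    have h2 := Model.fix_root hζ hτζ h1
    rw [hτr] at h2
    exact hω1 (mul_right_cancel₀ hr0 (by rw [h2, one_mul]))
  obtain ⟨n, hn⟩ := Model.valuation_of_fixed (M := M) hne (fun g hg => by
    rw [map_sub, map_one, hrG g hg])
  rw [← hv] at hn
  have hlt1 : v (1 - r ^ M.p) < 1 := by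
    have h1 : 1 - r ^ M.p = (∑ j ∈ Finset.range M.p, r ^ j) * (1 - r) := by
      have := geom_sum_mul r M.p
      linear_combination this
    have hrA : r ∈ M.A := (M.A.valuation_le_one_iff _).1 hvr.le
    have h2 : v (∑ j ∈ Finset.range M.p, r ^ j) ≤ 1 :=
      (M.A.valuation_le_one_iff _).2 (sum_mem fun j _ => pow_mem hrA j)
    rw [h1, map_mul]
    exact (mul_le_of_le_one_left zero_le h2).trans_lt hr1
  have hn1 : 1 ≤ n := by
    by_contra hcon
    push Not at hcon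
    obtain ⟨l, rfl⟩ : ∃ l : ℕ, n = -(l : ℤ) := ⟨(-n).toNat, by omega⟩
    rw [hn, zpow_neg, zpow_natCast] at hlt1
    exact absurd hlt1 (not_lt.2 ((one_le_inv₀ (pow_pos hvp0' l)).2 (pow_le_one₀ zero_le hvp1.le)))
  obtain ⟨n', rfl⟩ : ∃ n' : ℕ, n = ((n' + 1 : ℕ) : ℤ) := ⟨(n - 1).toNat, by push_cast; omega⟩
  rw [zpow_natCast] at hn
  -- the level is one
  have hn0 : n' = 0 := by
    by_contra hcon
    have hn2 : v (1 - r ^ M.p) ≤ v (M.p : K) ^ 2 := by
      rw [hn]; exact pow_le_pow_of_le_one zero_le hvp1.le (by omega)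
    have hex : ∃ ξ : K, ξ ^ M.p = 1 ∧ v (1 - ξ * r) < v π := by
      by_contra hall
      push Not at hall
      have h1 : v π ^ M.p ≤ v (1 - r ^ M.p) := by
        rw [hvprod]
        calc v π ^ M.p = ∏ _ξ ∈ Polynomial.nthRootsFinset M.p (1 : K), v π := by
              rw [Finset.prod_const, hcard]
          _ ≤ _ := Finset.prod_le_prod' fun ξ hξ => hall ξ ((hmem ξ).1 hξ)
      have h2 : v (M.p : K) ^ 2 < v π ^ M.p := by
        rw [← hvπ, ← pow_mul]
        exact pow_lt_pow_right_of_lt_one₀ hvπ0' hvπ1 (by omega)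
      exact absurd (h1.trans hn2) (not_le.2 h2)
    obtain ⟨ξ, hξ, hξr⟩ := hex
    have h1 : v (1 - ξ * (ω * r)) < v π := by
      have h2 : baseAut τ (1 - ξ * r) = 1 - ξ * (ω * r) := by
        rw [map_sub, map_one, map_mul, Model.fix_root hζ hτζ hξ, hτr]
      rw [← h2, hv, Model.valuation_smul hτG]
      exact hξr
    have h3 : (1 - ξ * (ω * r)) - (1 - ξ * r) = ξ * r * π := by rw [hπ]; ring
    have h4 : v (ξ * r * π) = v π := by rw [map_mul, map_mul, hvroot ξ hξ, hvr, one_mul, one_mul]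
    have h5 := Valuation.map_sub_lt v h1 hξr
    rw [h3, h4] at h5
    exact lt_irrefl _ h5
  subst hn0
  rw [zero_add, pow_one] at hn
  -- the valuation of `1 - r`
  have hvroot' : ∀ ξ : K, ξ ^ M.p = 1 → v (1 - ξ) ≤ v π := by
    intro ξ hξ
    by_cases h : ξ = 1
    · rw [h, sub_self, map_zero]; exact zero_le
    · rw [hv, Model.valuation_root_sub hζ hξ h, ← hvω]
  have hdecomp : ∀ ξ : K, 1 - ξ * r = (1 - r) + (1 - ξ) * r := fun ξ => by ring
  have hvx : v π < v (1 - r) := by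
    by_contra hcon
    push Not at hcon
    have h1 : v (1 - r ^ M.p) ≤ v π ^ M.p := by
      rw [hvprod]
      calc _ ≤ ∏ _ξ ∈ Polynomial.nthRootsFinset M.p (1 : K), v π :=
            Finset.prod_le_prod' fun ξ hξ => by
              rw [hdecomp]
              refine (Valuation.map_add v _ _).trans (max_le hcon ?_)
              rw [map_mul, hvr, mul_one]
              exact hvroot' ξ ((hmem ξ).1 hξ)
        _ = v π ^ M.p := by rw [Finset.prod_const, hcard]
    rw [hn, ← hvπ] at h1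
    have h2 : v π ^ M.p < v π ^ (M.p - 1) :=
      pow_lt_pow_right_of_lt_one₀ hvπ0' hvπ1 (by omega)
    exact absurd h1 (not_le.2 h2)
  have hx0 : 1 - r ≠ 0 := by
    intro h; rw [h, map_zero] at hvx; exact absurd hvx (not_lt.2 zero_le)
  have hvx0 : v (1 - r) ≠ 0 := (Valuation.ne_zero_iff _).2 hx0
  have hvxp : v (1 - r) ^ M.p = v (M.p : K) := by
    rw [← hn, hvprod]
    rw [Finset.prod_congr rfl (g := fun _ => v (1 - r)) ?_, Finset.prod_const, hcard]
    intro ξ hξ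
    rw [hdecomp, Valuation.map_add_eq_of_lt_left v]
    rw [map_mul, hvr, mul_one]
    exact (hvroot' ξ ((hmem ξ).1 hξ)).trans_lt hvx
  -- the uniformiser
  set ϖ := π / (1 - r) with hϖ
  have hϖ0 : ϖ ≠ 0 := div_ne_zero hπ0 hx0
  have hvϖ : v ϖ = v π / v (1 - r) := by rw [hϖ, map_div₀]
  have hvϖ1 : v ϖ < 1 := by
    rw [hvϖ, div_lt_one₀ (zero_lt_iff.2 hvx0)]; exact hvx
  have hvϖp : v ϖ ^ (M.p * (M.p - 1)) = v (M.p : K) := by
    rw [hvϖ, div_pow, mul_comm, pow_mul, hvπ, mul_comm, pow_mul, hvxp]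
    have h1 : v (M.p : K) ^ M.p = v (M.p : K) ^ (M.p - 1) * v (M.p : K) := by
      rw [← pow_succ]; congr 1; omega
    rw [h1, mul_div_assoc, mul_comm, div_mul_cancel₀ _ (pow_ne_zero _ hvp0)]
  have hϖfix : ∀ g ∈ M.Stab {ζ, ρ}, baseAut g ϖ = ϖ := by
    intro g hg
    have h1 : baseAut g ζ = ζ := hg.2 ζ (by simp)
    have h2 : baseAut g ρ = ρ := hg.2 ρ (by simp)
    rw [hϖ, hπ, hr, map_div₀, map_sub, map_sub, map_one, map_div₀, h2, hbG g hg.1,
      Model.fix_root hζ h1 hω]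
  have hu1 : v (1 + r * ϖ) = 1 := by
    have h1 : v (r * ϖ) < v 1 := by rw [map_mul, hvr, one_mul, map_one]; exact hvϖ1
    rw [Valuation.map_add_eq_of_lt_left v h1, map_one]
  have hu0 : 1 + r * ϖ ≠ 0 := by
    intro h; rw [h, map_zero] at hu1; exact zero_ne_one hu1
  have hvγ : v (-r / (1 + r * ϖ)) = 1 := by
    rw [map_div₀, Valuation.map_neg, hvr, hu1, div_one]
  have hτinvρ : baseAut τ⁻¹ ρ = ω⁻¹ * ρ := by
    have h1 : baseAut τ (ω⁻¹ * ρ) = ρ := by
      rw [map_mul, map_inv₀, Model.fix_root hζ hτζ hω, hωρ, inv_mul_cancel_left₀ hω0]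
    conv_lhs => rw [← h1]
    exact Model.baseAut_inv_apply τ _
  have hτinvζ : baseAut τ⁻¹ ζ = ζ := by
    conv_lhs => rw [← hτζ]
    exact Model.baseAut_inv_apply τ _
  have hωinv : (ω⁻¹) ^ M.p = 1 := by rw [inv_pow, hω, inv_one]
  have hvε : v ((M.p : K) / ϖ ^ (M.p * (M.p - 1))) = 1 := by
    rw [map_div₀, map_pow, hvϖp, div_self hvp0]
  refine ⟨{
    le := hle
    ϖ := ϖ
    ϖ_ne := hϖ0
    ϖ_mem := (ValuationSubring.mem_nonunits_iff (A := M.A)).2 hvϖ1
    ϖ_fix := hϖfix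
    unif := fun a ha0 ha => by
      obtain ⟨l, hl⟩ := Model.valuation_pow_of_relIndex hle
        (Model.relIndex_pair_dvd hζ hρ0 hu) ha0 ha
      rw [← hv] at hl
      have h1 : v a = v ϖ ^ l := by
        have h2 : v a ^ (M.p * (M.p - 1)) = (v ϖ ^ l) ^ (M.p * (M.p - 1)) := by
          rw [hl, ← hvϖp, ← zpow_natCast, ← zpow_mul, ← zpow_natCast, ← zpow_mul, mul_comm]
        exact (pow_left_inj₀ zero_le zero_le (Nat.mul_ne_zero hp0 (by omega))).1 h2
      refine ⟨-l, Model.unit_of_valuation ?_⟩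
      rw [← hv, map_mul, map_zpow₀, h1, zpow_neg]
      exact mul_inv_cancel₀ (zpow_ne_zero _ ((Valuation.ne_zero_iff _).2 hϖ0))
    τ := τ
    τ_mem := hτG
    τ_norm := fun g hg => by
      have hgζ : baseAut g ζ = ζ := hg.2 ζ (by simp)
      have hgρ : baseAut g ρ = ρ := hg.2 ρ (by simp)
      refine ⟨M.G.mul_mem (M.G.mul_mem (M.G.inv_mem hτG) hg.1) hτG, fun y hy => ?_⟩
      rw [Model.baseAut_mul_apply, Model.baseAut_mul_apply]
      rcases hy with rfl | hy
      · rw [hτζ, hgζ, hτinvζ]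
      · rw [Set.mem_singleton_iff.1 hy, hωρ, map_mul, Model.fix_root hζ hgζ hω, hgρ, map_mul,
          Model.fix_root hζ hτinvζ hω, hτinvρ, mul_inv_cancel_left₀ hω0]
    τ_norm' := fun g hg => by
      have hgζ : baseAut g ζ = ζ := hg.2 ζ (by simp)
      have hgρ : baseAut g ρ = ρ := hg.2 ρ (by simp)
      refine ⟨M.G.mul_mem (M.G.mul_mem hτG hg.1) (M.G.inv_mem hτG), fun y hy => ?_⟩
      rw [Model.baseAut_mul_apply, Model.baseAut_mul_apply]
      rcases hy with rfl | hy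
      · rw [hτinvζ, hgζ, hτζ]
      · rw [Set.mem_singleton_iff.1 hy, hτinvρ, map_mul, Model.fix_root hζ hgζ hωinv, hgρ, map_mul,
          Model.fix_root hζ hτζ hωinv, hωρ, inv_mul_cancel_left₀ hω0]
    γ := -r / (1 + r * ϖ)
    γ_mem := (Model.unit_of_valuation hvγ).1
    γ_res := by
      rw [Ne, Model.cres_eq_zero_iff (Model.unit_of_valuation hvγ).1,
        ValuationSubring.mem_nonunits_iff]
      exact fun h => absurd hvγ h.ne
    τ_ϖ := by
      have h1 : baseAut τ ϖ = π / (1 - ω * r) := by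
        have h3 : baseAut τ π = π := by
          rw [hπ, map_sub, map_one, Model.fix_root hζ hτζ hω]
        rw [hϖ, map_div₀, h3, map_sub, map_one, hτr]
      have h2 : 1 - ω * r = (1 - r) * (1 + r * ϖ) := by
        rw [hϖ, hπ]; field_simp; ring
      rw [h1, h2, ← div_div, ← hϖ]
      have h3 : ϖ / (1 + r * ϖ) = ϖ * (1 + ϖ * (-r / (1 + r * ϖ))) := by
        rw [div_eq_iff hu0, mul_assoc, add_mul, one_mul, mul_assoc ϖ, div_mul_cancel₀ _ hu0]
        ring
      exact h3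
    ε := (M.p : K) / ϖ ^ (M.p * (M.p - 1))
    ε_mem := (Model.unit_of_valuation hvε).1
    ε_inv_mem := (Model.unit_of_valuation hvε).2
    p_eq := by
      rw [mul_div_cancel₀]
      exact pow_ne_zero _ hϖ0 }⟩

end Fermat.Agent.Star
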