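import Mathlib
import Fermat.Agent.Star.Local
import Fermat.Agent.Star.Inst

/-!
# The local alternative for the model of `X₀(m q)`
-/

set_option autoImplicit false
set_option linter.unusedSectionVars false

noncomputable section

open ModularCurve HahnSeries Module AlgebraicCurve
open scoped IntermediateField
open Fermat.Agent.GaussVal Fermat.Agent.FF Fermat.Agent.RR Fermat.Agent.TwoGauss
open scoped Fermat.Agent.GaussVal

namespace Fermat.Agent.Star.Inst

/-- the algebraic numbers -/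
local notation "𝕂" => AlgebraicClosure ℚ

section

variable {A : ValuationSubring (AlgebraicClosure ℚ)} {q m : ℕ} [NeZero m]
  [Fact q.Prime] [CharP (IsLocalRing.ResidueField A) q]
  (hq : q.Prime) (hm : ¬ q ∣ m) (hA : A.LiesOverPrime q)
  (H3 : S18aux.DegThm (IsLocalRing.ResidueField A) m)

/-- the image of a subgroup of the Galois group -/
def HH (H : Subgroup (𝕂 ≃ₐ[ℚ] 𝕂)) (N : ℕ) :
    Subgroup (SemilinearAut 𝕂 (modularFunctionFieldBar N)) :=
  H.map (arithmeticGalois (modularFunctionFieldFull N))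

theorem mem_HH {H : Subgroup (𝕂 ≃ₐ[ℚ] 𝕂)} {N : ℕ}
    {g : SemilinearAut 𝕂 (modularFunctionFieldBar N)} :
    g ∈ HH H N ↔ ∃ σ ∈ H, arithmeticGalois (modularFunctionFieldFull N) σ = g := Iff.rfl

theorem arithmeticGalois_injective (N : ℕ) :
    Function.Injective (arithmeticGalois (L := 𝕂) (modularFunctionFieldFull N)) := by
  intro σ τ h
  ext a
  have h1 := congrArg (fun g => SemilinearAut.baseAut g a) h
  exact h1

/-- membership in the fixed field of a subgroup -/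
theorem HH_fix_iff {H : Subgroup (𝕂 ≃ₐ[ℚ] 𝕂)} {N : ℕ} (f : modularFunctionFieldBar N) :
    (∀ g ∈ HH H N, g • f = f) ↔ ∀ σ ∈ H, ga N σ f = f := by
  constructor
  · intro h σ hσ
    exact h _ ⟨σ, hσ, rfl⟩
  · rintro h _ ⟨σ, hσ, rfl⟩
    exact h σ hσ

/-- the stabiliser of constants in the inertia group -/
def inertiaStab (A : ValuationSubring (AlgebraicClosure ℚ)) (s : Set 𝕂) :
    Subgroup (𝕂 ≃ₐ[ℚ] 𝕂) where
  carrier := {σ | σ ∈ A.inertiaSubgroupIn ℚ ∧ ∀ y ∈ s, σ y = y}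
  one_mem' := ⟨one_mem _, fun _ _ => rfl⟩
  mul_mem' := fun {a b} ha hb => ⟨mul_mem ha.1 hb.1, fun y hy => by
    rw [AlgEquiv.mul_apply, hb.2 y hy, ha.2 y hy]⟩
  inv_mem' := fun {a} ha => ⟨inv_mem ha.1, fun y hy => by
    have h1 : a⁻¹ (a y) = y := by
      rw [← AlgEquiv.mul_apply, inv_mul_cancel, AlgEquiv.one_apply]
    rw [ha.2 y hy] at h1; exact h1⟩

theorem mem_inertiaStab {s : Set 𝕂} {σ : 𝕂 ≃ₐ[ℚ] 𝕂} :
    σ ∈ inertiaStab A s ↔ σ ∈ A.inertiaSubgroupIn ℚ ∧ ∀ y ∈ s, σ y = y := Iff.rfl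

theorem Stab_eq (s : Set 𝕂) :
    (model hq hm hA H3).Stab s = HH (inertiaStab A s) (m * q) := by
  ext g
  constructor
  · rintro ⟨⟨σ, hσ, rfl⟩, hs⟩
    exact ⟨σ, ⟨hσ, fun y hy => hs y hy⟩, rfl⟩
  · rintro ⟨σ, ⟨hσ, hs⟩, rfl⟩
    exact ⟨⟨σ, hσ, rfl⟩, fun y hy => hs y hy⟩

/-- **The radical of a unit**: the subgroup of the inertia group fixing `ζ` and `ρ` is wild or
tame. -/
theorem wild_or_tame (hq2 : q ≠ 2) {ζ ρ : 𝕂} (hζ : IsPrimitiveRoot ζ q)
    (hρ : A.valuation ρ = 1) (hu : ∀ σ ∈ A.inertiaSubgroupIn ℚ, σ (ρ ^ q) = ρ ^ q) :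
    Nonempty (Model.Wild (model hq hm hA H3) (HH (inertiaStab A {ζ, ρ}) (m * q))) ∨
      Nonempty (Model.Tame (model hq hm hA H3) (HH (inertiaStab A {ζ, ρ}) (m * q))) := by
  rw [← Stab_eq hq hm hA H3]
  refine Model.wild_or_tame (model hq hm hA H3) hq2 hζ hρ ?_
  rintro _ ⟨σ, hσ, rfl⟩
  exact hu σ hσ

/-- **Tame subgroups.** -/
theorem tame_of_relIndex {H : Subgroup (𝕂 ≃ₐ[ℚ] 𝕂)} (hH : H ≤ A.inertiaSubgroupIn ℚ) {e : ℕ}
    (he : H.relIndex (A.inertiaSubgroupIn ℚ) ∣ e) (hco : Nat.Coprime q e) :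
    Nonempty (Model.Tame (model hq hm hA H3) (HH H (m * q))) := by
  refine ⟨Model.tameOfIndex (M := model hq hm hA H3) (Subgroup.map_mono hH) (e := e) ?_ hco⟩
  have h1 := Subgroup.relIndex_map_map_of_injective H (A.inertiaSubgroupIn ℚ)
    (arithmeticGalois_injective (m * q))
  exact h1.symm ▸ he

/-- tame subgroups, through the order of a finite quotient acting faithfully: if `H` is the kernel
of a homomorphism on the inertia group to a finite group of order prime to `q`. -/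
theorem tame_of_hom {Q : Type*} [Group Q] [Finite Q]
    (φ : A.inertiaSubgroupIn ℚ →* Q) (hco : Nat.Coprime q (Nat.card φ.range)) :
    Nonempty (Model.Tame (model hq hm hA H3)
      (HH (φ.ker.map (A.inertiaSubgroupIn ℚ).subtype) (m * q))) := by
  refine tame_of_relIndex hq hm hA H3 (Subgroup.map_subtype_le _) ?_ hco
  have h1 : (φ.ker.map (A.inertiaSubgroupIn ℚ).subtype).subgroupOf (A.inertiaSubgroupIn ℚ) =
      φ.ker := by
    rw [Subgroup.subgroupOf, Subgroup.comap_map_eq_self_of_injective Subtype.val_injective]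
  rw [Subgroup.relIndex, h1, Subgroup.index_ker]

end

end Fermat.Agent.Star.Inst
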