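import Fermat.Agent.Star.Inst
import Fermat.Agent.Star.Main
import Fermat.Agent.ECVal.QbarVal

/-!
# The tame case of `(STAR)` for the model of `X₀(m q)`
-/

set_option autoImplicit false
set_option linter.unusedSectionVars false

noncomputable section

open ModularCurve HahnSeries Module AlgebraicCurve
open scoped IntermediateField
open Fermat.Agent.GaussVal Fermat.Agent.FF Fermat.Agent.RR Fermat.Agent.TwoGauss
open scoped Fermat.Agent.GaussVal
open FermatAgent.ECVal

namespace Fermat.Agent.Star.Inst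

/-- the algebraic numbers -/
local notation "𝕂" => AlgebraicClosure ℚ

section

variable {A : ValuationSubring (AlgebraicClosure ℚ)} {q m : ℕ} [NeZero m]
  [Fact q.Prime] [CharP (IsLocalRing.ResidueField A) q]
  (hq : q.Prime) (hm : ¬ q ∣ m) (hA : A.LiesOverPrime q)
  (H3 : S18aux.DegThm (IsLocalRing.ResidueField A) m)
  [IsFF (IsLocalRing.ResidueField A)
      (modularFunctionFieldFullC (IsLocalRing.ResidueField A) m)]
  [IsFF (AlgebraicClosure ℚ) (modularFunctionFieldBar (m * q))]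

/-- the action on functions of a group of automorphisms of the constants -/
def HG (N : ℕ) (H₀ : Subgroup (𝕂 ≃ₐ[ℚ] 𝕂)) :
    Subgroup (SemilinearAut 𝕂 (modularFunctionFieldBar N)) :=
  H₀.map (arithmeticGalois (modularFunctionFieldFull N))

theorem HG_le {N : ℕ} {H₀ : Subgroup (𝕂 ≃ₐ[ℚ] 𝕂)} (h : H₀ ≤ A.inertiaSubgroupIn ℚ) :
    HG N H₀ ≤ GG A N := Subgroup.map_mono h

/-- **The tame case**: constants fixed by `H₀` have valuations in `(1/e) ℤ`, `e` prime to `q`. -/
def tame (H₀ : Subgroup (𝕂 ≃ₐ[ℚ] 𝕂)) (hH₀ : H₀ ≤ A.inertiaSubgroupIn ℚ) (e : ℕ) (he : e ≠ 0)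
    (hcop : Nat.Coprime q e) (hval : ∀ a : 𝕂, a ≠ 0 → (∀ σ ∈ H₀, σ a = a) →
      ∃ n : ℤ, (valOf hq hA).Is (n / (e : ℚ)) a) :
    (model hq hm hA H3).Tame (HG (m * q) H₀) where
  le := HG_le hH₀
  e := e
  coprime := hcop
  unif := by
    intro a ha hfix
    obtain ⟨n, hn⟩ := hval a ha fun σ hσ => hfix _ ⟨σ, hσ, rfl⟩
    have hp := valOf_prime hq hA
    have hpm : (valOf hq hA).Is (-n : ℤ) ((q : 𝕂) ^ (-n)) := by
      obtain ⟨l, hl | hl⟩ := (-n).eq_nat_or_neg
      · rw [hl, zpow_natCast]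
        exact (hp.pow l).congr (by push_cast; ring)
      · rw [hl, zpow_neg, zpow_natCast]
        exact ((hp.pow l).inv).congr (by push_cast; ring)
    have he' : (e : ℚ) ≠ 0 := by exact_mod_cast he
    have h1 : (valOf hq hA).Is 0 (a ^ e * (q : 𝕂) ^ (-n)) :=
      ((hn.pow e).mul hpm).congr (by push_cast; field_simp; ring)
    have h2 : (valOf hq hA).Is 0 (a ^ e * (q : 𝕂) ^ (-n))⁻¹ := h1.inv.congr (by ring)
    exact ⟨-n, (valOf_ge_zero_iff hq hA).mp h1.ge, (valOf_ge_zero_iff hq hA).mp h2.ge⟩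

end

end Fermat.Agent.Star.Inst
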