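import Fermat.Agent.Star.Main

/-!
# The constant of (STAR) and multiplicative operators
-/

set_option autoImplicit false
set_option linter.unusedSectionVars false

noncomputable section

namespace Fermat.Agent.Star

open DRes

section Abstract

variable {𝓕 κ : Type*} [Field 𝓕] [Field κ]

namespace Datum

variable {p : ℕ} {k : Type*} [Field k] [Algebra k κ] (S : Datum p 𝓕 κ k)

/-- A multiplicative operator compatible with the data. -/
structure TOp (T : 𝓕 →* 𝓕) (d : ℕ) : Prop where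
  tau : ∀ f, T (S.τ f) = S.τ (T f)
  const : ∀ a ∈ S.C, T a = a ^ d
  cong : ∀ i (m : ℕ) f, (∃ b ∈ (S.D i).O, f = 1 + S.ϖ ^ m * b) →
    ∃ b ∈ (S.D i).O, T f = 1 + S.ϖ ^ m * b

variable {S}

theorem map_inv_of_ne_zero (T : 𝓕 →* 𝓕) {a : 𝓕} (ha : a ≠ 0) : T a⁻¹ = (T a)⁻¹ := by
  have h : T a * T a⁻¹ = 1 := by rw [← map_mul, mul_inv_cancel₀ ha, map_one]
  exact eq_inv_of_mul_eq_one_right h

theorem T_ne_zero (T : 𝓕 →* 𝓕) {a : 𝓕} (ha : a ≠ 0) : T a ≠ 0 := by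
  have h : T a * T a⁻¹ = 1 := by rw [← map_mul, mul_inv_cancel₀ ha, map_one]
  intro h0
  rw [h0, zero_mul] at h
  exact zero_ne_one h

theorem T_div (T : 𝓕 →* 𝓕) {a b : 𝓕} (hb : b ≠ 0) : T (a / b) = T a / T b := by
  rw [div_eq_mul_inv, map_mul, map_inv_of_ne_zero T hb, div_eq_mul_inv]

theorem pow_cong' (i : Fin 2) (hp : 1 ≤ p) {b : 𝓕} (hb : b ∈ (S.D i).O) (d : ℕ) :
    ∃ b' ∈ (S.D i).O, (1 + S.ϖ ^ p * b) ^ d = 1 + S.ϖ ^ p * b' ∧
      (S.D i).red b' = d * (S.D i).red b := by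
  obtain ⟨p', rfl⟩ : ∃ p', p = p' + 1 := ⟨p - 1, by omega⟩
  induction d with
  | zero => exact ⟨0, (S.D i).O.zero_mem, by simp, by rw [red_zero]; simp⟩
  | succ d ih =>
    obtain ⟨b', hb', h1, h2⟩ := ih
    have hm : S.ϖ ^ p' * (b' * b) ∈ (S.D i).O :=
      (S.D i).O.mul_mem ((S.D i).O.pow_mem (S.D i).unif_mem _) ((S.D i).O.mul_mem hb' hb)
    refine ⟨b' + b + S.ϖ * (S.ϖ ^ p' * (b' * b)), ?_, ?_, ?_⟩
    · exact (S.D i).O.add_mem ((S.D i).O.add_mem hb' hb)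
        ((S.D i).O.mul_mem (S.D i).unif_mem hm)
    · rw [pow_succ, h1]; ring
    · rw [red_add ((S.D i).O.add_mem hb' hb) ((S.D i).O.mul_mem (S.D i).unif_mem hm),
        red_add hb' hb, red_unif_mul hm, h2]
      push_cast; ring

/-- `T (1 + ϖ ^ p g)` for `g` with constant residue. -/
theorem TOp.map_cong {T : 𝓕 →* 𝓕} {d : ℕ} (hT : S.TOp T d) (i : Fin 2) (hp : 1 ≤ p) {g : 𝓕}
    (hg : g ∈ (S.D i).O) {a : k} (ha : (S.D i).red g = algebraMap k κ a) :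
    ∃ g' ∈ (S.D i).O, T (1 + S.ϖ ^ p * g) = 1 + S.ϖ ^ p * g' ∧
      (S.D i).red g' = algebraMap k κ (d * a) := by
  obtain ⟨b, hbC, hbτ, hb⟩ := S.lift a
  have hbO := S.C_le i hbC
  set c := 1 + S.ϖ ^ p * b with hc
  have hϖp : S.ϖ ^ p ∈ S.C := S.C.pow_mem S.unif_mem_C p
  have hcC : c ∈ S.C := S.C.add_mem S.C.one_mem (S.C.mul_mem hϖp hbC)
  have hcred : ∀ j, (S.D j).red c = 1 := by
    intro j
    obtain ⟨p', rfl⟩ : ∃ p', p = p' + 1 := ⟨p - 1, by omega⟩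
    have h1 : S.ϖ ^ p' * b ∈ (S.D j).O := S.C_le j (S.C.mul_mem (S.C.pow_mem S.unif_mem_C p') hbC)
    rw [hc, pow_succ', mul_assoc, red_add (S.D j).O.one_mem
      ((S.D j).O.mul_mem (S.D j).unif_mem h1), red_unif_mul h1, red_one, add_zero]
  have hc0 : c ≠ 0 := by
    intro h0
    have := hcred i
    rw [h0, red_zero] at this
    exact zero_ne_one this
  have hc' : c⁻¹ ∈ S.C := S.inv_mem_C c hcC ⟨i, by rw [hcred]; exact one_ne_zero⟩
  have hc'O := S.C_le i hc'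
  have hsub := (S.D i).O.sub_mem hg hbO
  have hr : (S.D i).red ((g - b) * c⁻¹) = 0 := by
    rw [red_mul hsub hc'O, red_sub hg hbO, ha, hb i, sub_self, zero_mul]
  obtain ⟨e, he, hee⟩ := exists_of_red_eq_zero ((S.D i).O.mul_mem hsub hc'O) hr
  have h1 : 1 + S.ϖ ^ p * g = c * (1 + S.ϖ ^ (p + 1) * e) := by
    have : S.ϖ ^ (p + 1) * e = S.ϖ ^ p * ((g - b) * c⁻¹) := by rw [hee]; ring
    rw [this, mul_add, mul_one]
    have h2 : c * (S.ϖ ^ p * ((g - b) * c⁻¹)) = S.ϖ ^ p * (g - b) * (c * c⁻¹) := by ring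
    rw [h2, mul_inv_cancel₀ hc0, hc]
    ring
  obtain ⟨e', he', hee'⟩ := hT.cong i (p + 1) _ ⟨e, he, rfl⟩
  obtain ⟨b', hb', hbb', hbr⟩ := pow_cong' (S := S) i hp hbO d
  have hm1 : e' ∈ (S.D i).O := he'
  have hm2 : S.ϖ ^ p * (b' * e') ∈ (S.D i).O :=
    (S.D i).O.mul_mem ((S.D i).O.pow_mem (S.D i).unif_mem _) ((S.D i).O.mul_mem hb' he')
  refine ⟨b' + S.ϖ * (e' + S.ϖ ^ p * (b' * e')), ?_, ?_, ?_⟩
  · exact (S.D i).O.add_mem hb' ((S.D i).O.mul_mem (S.D i).unif_mem ((S.D i).O.add_mem he' hm2))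
  · rw [h1, map_mul, hee', hT.const c hcC, hc, hbb']
    ring
  · rw [red_add hb' ((S.D i).O.mul_mem (S.D i).unif_mem ((S.D i).O.add_mem he' hm2)),
      red_unif_mul ((S.D i).O.add_mem he' hm2), add_zero, hbr, hb i, map_mul, map_natCast]

/-- The version of `star` with an operator. -/
theorem starT [CharP k p] (hp : p.Prime) {f : 𝓕} {T : 𝓕 →* 𝓕} {e : ℕ} (hT : S.TOp T e)
    (hdec : ∀ P, ∃ z h d, S.LocDec f P z h d) {P Q : S.Pt} (hP : S.IsNode P) (hQ : S.IsNode Q)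
    {z h d z' h' d' : 𝓕} (hPd : S.LocDec f P z h d) (hQd : S.LocDec (T f) Q z' h' d')
    {n n' : Fin 2 → ℤ} (hn : ∀ i, (S.D i).HasOrd d (n i)) (hn' : ∀ i, (S.D i).HasOrd d' (n' i)) :
    (p : ℤ) ∣ e * (n 1 - n 0) - (n' 1 - n' 0) := by
  have hF : Fact p.Prime := ⟨hp⟩
  obtain ⟨u, hu, hu', hu0, g, hg, hG⟩ := exists_norm (S := S) hp hdec hP p hp.two_le le_rfl
  have hreg : ∀ i, ∃ a : k, (S.D i).red (g i) = algebraMap k κ a := by
    intro i
    refine S.global i _ fun P hi => ?_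
    obtain ⟨z, h, d, hP⟩ := hdec P
    have hd0 : d ≠ 0 := hP.2.2.1
    choose n hn using fun i => hasOrd_exists (S := S) i hd0
    obtain ⟨t, ht, hred⟩ := point_step (S := S) hp hP hu hu' le_rfl hg hG
      (n := n) (fun i _ => hn i)
    have := S.R_add P i hi _ (S.red_mem_R P i hi t ht) (((n i : k) * S.c) ^ p)
    rw [hred i hi, if_pos rfl, sub_add_cancel] at this
    exact this
  choose a ha using hreg
  have hf0 : f ≠ 0 := by
    obtain ⟨hz0, hh0, hd0, -, -, -, rfl⟩ := hPd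
    exact mul_ne_zero (mul_ne_zero hz0 hh0) (pow_ne_zero _ hd0)
  have hτf0 : S.τ f ≠ 0 := (map_ne_zero S.τ).mpr hf0
  have h1 : a 1 - a 0 = (((n 1 - n 0 : ℤ) : k) * S.c) ^ p := by
    obtain ⟨t, ht, hred⟩ := point_step (S := S) hp hPd hu hu' le_rfl hg hG
      (n := n) (fun i _ => hn i)
    have := S.agree P hP t ht (fun i => a i - ((n i : k) * S.c) ^ p) fun i => by
      rw [hred i (S.on_node P hP i), if_pos rfl, ha, map_sub]
    have h2 : (((n 1 - n 0 : ℤ) : k) * S.c) ^ p =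
        ((n 1 : k) * S.c) ^ p - ((n 0 : k) * S.c) ^ p := by
      rw [← sub_pow_char, ← sub_mul]; push_cast; rfl
    rw [h2]
    linear_combination -this
  -- the transformed normalisation
  choose g' hg' hGg' hgr' using fun i => hT.map_cong i hp.one_lt.le (hg i) (ha i)
  have hτue : S.τ (u ^ e) / u ^ e = T (S.τ u / u) := by
    rw [T_div T hu0, hT.const _ (S.τ_C u hu), hT.const u hu, map_pow]
  have hG' : ∀ i, S.τ (T f) / T f * (S.τ (u ^ e) / u ^ e) = 1 + S.ϖ ^ p * g' i := by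
    intro i
    rw [← hGg' i, ← hG i, map_mul, T_div T hf0, hτue, hT.tau]
  have h2 : (e : k) * a 1 - (e : k) * a 0 = (((n' 1 - n' 0 : ℤ) : k) * S.c) ^ p := by
    obtain ⟨t, ht, hred⟩ := point_step (S := S) hp hQd (S.C.pow_mem hu e)
      (by rw [← inv_pow]; exact S.C.pow_mem hu' e) le_rfl hg' hG' (n := n') (fun i _ => hn' i)
    have := S.agree Q hQ t ht (fun i => (e : k) * a i - ((n' i : k) * S.c) ^ p) fun i => by
      rw [hred i (S.on_node Q hQ i), if_pos rfl, hgr', map_sub]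
    have h2 : (((n' 1 - n' 0 : ℤ) : k) * S.c) ^ p =
        ((n' 1 : k) * S.c) ^ p - ((n' 0 : k) * S.c) ^ p := by
      rw [← sub_pow_char, ← sub_mul]; push_cast; rfl
    rw [h2]
    linear_combination -this
  have hep : (e : k) ^ p = e := by
    have := map_natCast (frobenius k p) e
    rwa [frobenius_def] at this
  have h3 : (((e * (n 1 - n 0) - (n' 1 - n' 0) : ℤ) : k) * S.c) ^ p = 0 := by
    have : (((e * (n 1 - n 0) - (n' 1 - n' 0) : ℤ) : k) * S.c) =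
      (e : k) * (((n 1 - n 0 : ℤ) : k) * S.c) - ((n' 1 - n' 0 : ℤ) : k) * S.c := by
      push_cast; ring
    rw [this, sub_pow_char, mul_pow, ← h1, ← h2, hep]
    ring
  have h4 : ((e * (n 1 - n 0) - (n' 1 - n' 0) : ℤ) : k) = 0 := by
    rcases mul_eq_zero.1 (pow_eq_zero_iff hp.ne_zero |>.1 h3) with h | h
    · exact h
    · exact absurd h S.c_ne_zero
  exact (CharP.intCast_eq_zero_iff k p _).1 h4

end Datum

end Abstract

open AlgebraicCurve WithZero Module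
open Fermat.Agent.RR Fermat.Agent.FF

variable {K F k F' : Type*} [Field K] [Field F] [Algebra K F] [Field k] [Field F']
    [Algebra k F'] [IsAlgClosed K] [IsFF K F] [IsAlgClosed k] [IsFF k F']

open SemilinearAut

namespace Model

variable {M : Model K F k F'} {hM : M.Good}

variable (M) in
/-- A multiplicative operator compatible with the model. -/
structure TOp (T : F →* F) (d : ℕ) : Prop where
  smul : ∀ g ∈ M.G, ∀ f, T (g • f) = g • T f
  const : ∀ a : K, T (algebraMap K F a) = algebraMap K F a ^ d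
  unit : ∀ i f, f ∈ M.O i → f⁻¹ ∈ M.O i → f ≠ 0 → T f ∈ M.O i ∧ (T f)⁻¹ ∈ M.O i
  cong : ∀ i (b : K), b ∈ M.A → ∀ f, (∃ c ∈ M.O i, f = 1 + algebraMap K F b * c) →
    ∃ c ∈ M.O i, T f = 1 + algebraMap K F b * c
  dvd : ∀ f, f ≠ 0 → (∀ v : Place K F, (M.p : ℤ) ∣ v.ord f) →
    ∀ v : Place K F, (M.p : ℤ) ∣ v.ord (T f)

namespace TOp

variable {T : F →* F} {d : ℕ}

theorem fix (hT : M.TOp T d) {H : Subgroup (SemilinearAut K F)} (hH : H ≤ M.G) {f : F}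
    (hf : ∀ g ∈ H, g • f = f) : ∀ g ∈ H, g • T f = T f := by
  intro g hg
  rw [← hT.smul g (hH hg), hf g hg]

/-- the restriction to the fixed field -/
def restr (hT : M.TOp T d) {H : Subgroup (SemilinearAut K F)} (hH : H ≤ M.G) :
    FixF H →* FixF H where
  toFun f := ⟨T f, hT.fix hH f.2⟩
  map_one' := Subtype.ext (map_one T)
  map_mul' f g := Subtype.ext (map_mul T (f : F) (g : F))

@[simp]
theorem coe_restr (hT : M.TOp T d) {H : Subgroup (SemilinearAut K F)} (hH : H ≤ M.G)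
    (f : FixF H) : ((hT.restr hH f : FixF H) : F) = T f := rfl

end TOp

namespace Wild

variable {H : Subgroup (SemilinearAut K F)} (W : Wild M H)

/-- local decomposition at a node -/
theorem exists_node_dec {U : UnitData M} {f : F} (f0 : f ≠ 0) (hfix : ∀ g ∈ H, g • f = f)
    (hO : f ∈ M.O 0) (hO' : f⁻¹ ∈ M.O 0) (hdiv : ∀ v : Place K F, (M.p : ℤ) ∣ v.ord f)
    {m : ℤ} {u : F} (hu : u ∈ M.O 1) (hu' : u⁻¹ ∈ M.O 1) (hu0 : u ≠ 0)
    (hfu : f = (algebraMap K F W.ϖ) ^ m * u)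
    {R : M.Pt} (hR : ∀ i, i ∈ R.on) (D : Pt.Coord U hM R) :
    ∃ (a n : ℤ) (z h d : FixF H),
      (W.datum hM).LocDec ⟨f, hfix⟩ R z h d ∧ m = a * D.w * (M.p * (M.p - 1)) + M.p * n ∧
      (M.p : ℤ) ∣ (R.wOn hM 0).ord (M.red 0 f) - a ∧
      (W.D 0).HasOrd d 0 ∧ (W.D 1).HasOrd d n := by
  obtain ⟨a, h, d, hh0, hh, hh', hhfix, hd0, hdfix, hdO, hdO', hfd, ha⟩ :=
    Pt.node_dec D hR W.le f0 hO hO' hfix (fun v _ => hdiv v)
  obtain ⟨n, v, hvH, hv, hv', hv0, hdv⟩ := W.exists_unit_form 1 (a := d) hdfix hd0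
  have hXfix : D.X ∈ FixF H := fun g hg => D.X_fix g (W.le hg)
  refine ⟨a, n, ⟨D.X ^ a, zpow_mem hXfix a⟩, ⟨h, hhfix⟩, ⟨d, hdfix⟩, ⟨?_, ?_, ?_, ?_, hh, hh', ?_⟩,
    W.node_relation hR D hh0 hh hh' hfd hu hu' hu0 hfu hv hv' hv0 hdv, ha,
    ⟨⟨d, hdfix⟩, hdO, hdO', ?_, ?_⟩, ⟨⟨v, hvH⟩, hv, hv', ?_, ?_⟩⟩
  · exact fun h => zpow_ne_zero a D.X_ne (congrArg Subtype.val h)
  · exact fun h => hh0 (congrArg Subtype.val h)
  · exact fun h => hd0 (congrArg Subtype.val h)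
  · apply Subtype.ext
    change W.τ • (D.X ^ a) = D.X ^ a
    exact smul_zpow_fix (D.X_fix _ W.τ_mem) a
  · exact Subtype.ext hfd
  · exact fun h => hd0 (congrArg Subtype.val h)
  · rw [zpow_zero, one_mul]
  · exact fun h => hv0 (congrArg Subtype.val h)
  · exact Subtype.ext hdv

/-- local decompositions everywhere -/
theorem exists_dec (U : UnitData M) {f : F} (f0 : f ≠ 0) (hfix : ∀ g ∈ H, g • f = f)
    (hO : f ∈ M.O 0) (hO' : f⁻¹ ∈ M.O 0) (hdiv : ∀ v : Place K F, (M.p : ℤ) ∣ v.ord f)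
    {m : ℤ} {u : F} (hu : u ∈ M.O 1) (hu' : u⁻¹ ∈ M.O 1) (hu0 : u ≠ 0)
    (hfu : f = (algebraMap K F W.ϖ) ^ m * u) (hpm : (M.p : ℤ) ∣ m) (R : M.Pt) :
    ∃ z h d, (W.datum hM).LocDec ⟨f, hfix⟩ R z h d := by
  have hϖ := W.algebraMap_ne
  rcases Pt.on_cases (P := R) with hR | hR
  · obtain ⟨D⟩ := Pt.exists_coord (hM := hM) U hR
    obtain ⟨a, n, z, h, d, hd, -⟩ := W.exists_node_dec f0 hfix hO hO' hdiv hu hu' hu0 hfu hR D
    exact ⟨z, h, d, hd⟩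
  · obtain ⟨c, h, d, hc0, hcfix, hh0, hh, hh', hhfix, hd0, hdfix, hdO, hdO', hfd⟩ :=
      Pt.smooth_dec (hM := hM) hR W.le f0 hfix (fun v _ => hdiv v)
    have hi : R.i ∈ R.on := Pt.i_mem_on
    obtain ⟨l, hl1, hl2⟩ := W.unif c hc0 hcfix
    -- `p` divides `l`
    have hcF : algebraMap K F c ≠ 0 := (_root_.map_ne_zero _).2 hc0
    set c' := c * W.ϖ ^ l with hc'
    have hc'0 : c' ≠ 0 := mul_ne_zero hc0 (zpow_ne_zero _ W.ϖ_ne)
    have hc'F : algebraMap K F c' ≠ 0 := (_root_.map_ne_zero _).2 hc'0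
    have hcc' : algebraMap K F c = (algebraMap K F W.ϖ) ^ (-l) * algebraMap K F c' := by
      rw [hc', map_mul, map_zpow₀, zpow_neg]
      have := zpow_ne_zero l hϖ
      field_simp
    have hhO := Pt.L_le_O (hM := hM) hi hh
    have hhO' := Pt.L_le_O (hM := hM) hi hh'
    have hc'O := algebraMap_mem hl1 R.i
    have hc'O' : (algebraMap K F c')⁻¹ ∈ M.O R.i := by
      rw [← map_inv₀]; exact algebraMap_mem hl2 R.i
    have e1 : f = (algebraMap K F W.ϖ) ^ (-l) * (algebraMap K F c' * h * d ^ M.p) := by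
      rw [hfd, hcc']; ring
    have e2 : algebraMap K F c' * h * d ^ M.p ∈ M.O R.i :=
      mul_mem (mul_mem hc'O hhO) (pow_mem hdO _)
    have e3 : (algebraMap K F c' * h * d ^ M.p)⁻¹ ∈ M.O R.i := by
      rw [mul_inv, mul_inv, ← inv_pow]
      exact mul_mem (mul_mem hc'O' hhO') (pow_mem hdO' _)
    have e4 : algebraMap K F c' * h * d ^ M.p ≠ 0 :=
      mul_ne_zero (mul_ne_zero hc'F hh0) (pow_ne_zero _ hd0)
    have hpl : (M.p : ℤ) ∣ l := by
      have key : ∀ i, R.i = i → (M.p : ℤ) ∣ l := by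
        intro i hi'
        fin_cases i
        · have h1 := unique_exp (i := R.i) hϖ (W.ϖF_mem _) (W.red_ϖ _) (by rw [hi']; exact hO)
            (by rw [hi']; exact hO') f0 e2 e3 e4 (m := 0) (m' := -l)
            (by rw [zpow_zero, one_mul]; exact e1)
          have : l = 0 := by omega
          rw [this]; exact dvd_zero _
        · have h1 := unique_exp (i := R.i) hϖ (W.ϖF_mem _) (W.red_ϖ _) (by rw [hi']; exact hu)
            (by rw [hi']; exact hu') hu0 e2 e3 e4 (m := m) (m' := -l)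
            (by rw [← hfu]; exact e1)
          have : l = -m := by omega
          rw [this]; exact (dvd_neg).2 hpm
      exact key _ rfl
    obtain ⟨l', hl'⟩ := hpl
    have hϖF : algebraMap K F W.ϖ ∈ FixF H := algebraMap_mem_FixF.2 W.ϖ_fix
    have hc'fix : algebraMap K F c' ∈ FixF H := by
      have : algebraMap K F c' = algebraMap K F c * (algebraMap K F W.ϖ) ^ l := by
        rw [hc', map_mul, map_zpow₀]
      rw [this]
      exact mul_mem (algebraMap_mem_FixF.2 hcfix) (zpow_mem hϖF l)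
    refine ⟨1, ⟨algebraMap K F c' * h, mul_mem hc'fix hhfix⟩,
      ⟨(algebraMap K F W.ϖ) ^ (-l') * d, mul_mem (zpow_mem hϖF _) hdfix⟩,
      one_ne_zero, ?_, ?_, map_one _, ?_, ?_, ?_⟩
    · exact fun h => (mul_ne_zero hc'F hh0) (congrArg Subtype.val h)
    · exact fun h => (mul_ne_zero (zpow_ne_zero _ hϖ) hd0) (congrArg Subtype.val h)
    · exact mul_mem (Pt.algebraMap_mem_L hl1) hh
    · change (algebraMap K F c' * h)⁻¹ ∈ R.L hM
      rw [mul_inv, ← map_inv₀]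
      exact mul_mem (Pt.algebraMap_mem_L hl2) hh'
    · apply Subtype.ext
      change f = 1 * (algebraMap K F c' * h) * ((algebraMap K F W.ϖ) ^ (-l') * d) ^ M.p
      rw [e1, one_mul, mul_pow, ← zpow_natCast ((algebraMap K F W.ϖ) ^ (-l')), ← zpow_mul, hl',
        show -l' * (M.p : ℤ) = -(M.p * l') by ring]
      ring

theorem datum_TOp {T : F →* F} {e : ℕ} (hT : M.TOp T e) :
    (W.datum hM).TOp (hT.restr W.le) e where
  tau f := Subtype.ext (hT.smul W.τ W.τ_mem f)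
  const := by
    rintro y ⟨a, ha, hya⟩
    apply Subtype.ext
    rw [TOp.coe_restr, SubmonoidClass.coe_pow, hya, hT.const]
  cong := by
    rintro i m f ⟨b, hb, hfb⟩
    have hϖm : W.ϖ ^ m ∈ M.A := pow_mem W.ϖA m
    have h1 : (f : F) = 1 + algebraMap K F (W.ϖ ^ m) * (b : F) := by
      rw [hfb, map_pow]; rfl
    obtain ⟨c, hc, hTc⟩ := hT.cong i (W.ϖ ^ m) hϖm f ⟨b, hb, h1⟩
    -- `c` is fixed by `H`
    have hϖF := W.algebraMap_ne
    have hcF : c = (T f - 1) * ((algebraMap K F W.ϖ) ^ m)⁻¹ := by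
      have := pow_ne_zero m hϖF
      rw [hTc, map_pow]; field_simp; ring
    have hcfix : c ∈ FixF H := by
      rw [hcF]
      have hϖ' : algebraMap K F W.ϖ ∈ FixF H := algebraMap_mem_FixF.2 W.ϖ_fix
      exact mul_mem (sub_mem (hT.fix W.le f.2) (one_mem _)) (inv_mem (pow_mem hϖ' m))
    refine ⟨⟨c, hcfix⟩, hc, Subtype.ext ?_⟩
    rw [TOp.coe_restr, hTc, map_pow]
    rfl

include W in
/-- **Constancy and operators, wild case.** -/
theorem node_constT {U : UnitData M} {T : F →* F} {e : ℕ} (hT : M.TOp T e)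
    {f : F} (f0 : f ≠ 0) (hfix : ∀ g ∈ H, g • f = f)
    (hO : f ∈ M.O 0) (hO' : f⁻¹ ∈ M.O 0) (hdiv : ∀ v : Place K F, (M.p : ℤ) ∣ v.ord f)
    {P Q : M.Pt} (hP : ∀ i, i ∈ P.on) (hQ : ∀ i, i ∈ Q.on) (C : Pt.Coord U hM P)
    (C' : Pt.Coord U hM Q) :
    (M.p : ℤ) ∣ e * (C.w * (P.wOn hM 0).ord (M.red 0 f)) -
      C'.w * (Q.wOn hM 0).ord (M.red 0 (T f)) := by
  have hchar := charP_res M
  have hp1 : (1 : ℤ) ≤ M.p := by exact_mod_cast M.hp.one_lt.le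
  have hp0 : (M.p : ℤ) ≠ 0 := by omega
  have hϖ := W.algebraMap_ne
  obtain ⟨m, u, huH, hu, hu', hu0, hfu⟩ := W.exists_unit_form 1 (a := f) hfix f0
  have Tf0 : T f ≠ 0 := Datum.T_ne_zero T f0
  have Tfix := hT.fix W.le hfix
  obtain ⟨TO, TO'⟩ := hT.unit 0 f hO hO' f0
  have Tdiv := hT.dvd f f0 hdiv
  obtain ⟨Tu, Tu'⟩ := hT.unit 1 u hu hu' hu0
  have Tu0 : T u ≠ 0 := Datum.T_ne_zero T hu0
  have hTϖ : ∀ l : ℤ, T ((algebraMap K F W.ϖ) ^ l) = (algebraMap K F W.ϖ) ^ (e * l) := by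
    have h1 : ∀ l : ℕ, T ((algebraMap K F W.ϖ) ^ l) = (algebraMap K F W.ϖ) ^ (e * l : ℤ) := by
      intro l
      rw [map_pow, hT.const, ← pow_mul, ← zpow_natCast]
      push_cast; rfl
    intro l
    obtain ⟨l, rfl | rfl⟩ := l.eq_nat_or_neg
    · rw [zpow_natCast, h1]
    · rw [zpow_neg, zpow_natCast, Datum.map_inv_of_ne_zero T (pow_ne_zero l hϖ), h1, mul_neg,
        zpow_neg]
  have hTfu : T f = (algebraMap K F W.ϖ) ^ (e * m) * T u := by
    conv_lhs => rw [hfu]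
    rw [map_mul, hTϖ]
  obtain ⟨a, n, z, h, d, hPd, hm1, ha, hn0, hn1⟩ :=
    W.exists_node_dec f0 hfix hO hO' hdiv hu hu' hu0 hfu hP C
  obtain ⟨a', n', z', h', d', hQd, hm2, ha', hn0', hn1'⟩ :=
    W.exists_node_dec Tf0 Tfix TO TO' Tdiv Tu Tu' Tu0 hTfu hQ C'
  have hpm : (M.p : ℤ) ∣ m := by
    rw [hm1]
    exact Dvd.dvd.add ⟨a * C.w * (M.p - 1), by ring⟩ (dvd_mul_right _ _)
  have hdec : ∀ R : M.Pt, ∃ z h d, (W.datum hM).LocDec ⟨f, hfix⟩ R z h d :=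
    fun R => W.exists_dec U f0 hfix hO hO' hdiv hu hu' hu0 hfu hpm R
  have hstar := Datum.starT (S := W.datum hM) M.hp (W.datum_TOp (hM := hM) hT) hdec
    (P := P) (Q := Q) hP hQ hPd hQd (n := ![0, n]) (n' := ![0, n'])
    (fun i => by
      fin_cases i
      · exact hn0
      · exact hn1)
    (fun i => by
      fin_cases i
      · exact hn0'
      · exact hn1')
  have h1 : (M.p : ℤ) ∣ e * n - n' := by simpa using hstar
  have h2 : e * (a * C.w * (M.p - 1) + n) = a' * C'.w * (M.p - 1) + n' := by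
    have : (M.p : ℤ) * (e * (a * C.w * (M.p - 1) + n)) =
        M.p * (a' * C'.w * (M.p - 1) + n') := by
      linear_combination hm2 - e * hm1
    exact mul_left_cancel₀ hp0 this
  obtain ⟨t, ht⟩ := h1
  obtain ⟨r, hr⟩ := ha
  obtain ⟨r', hr'⟩ := ha'
  refine ⟨e * (C.w * r) - C'.w * r' + (e * (a * C.w) - a' * C'.w) + t, ?_⟩
  linear_combination (e * C.w : ℤ) * hr - (C'.w : ℤ) * hr' - h2 + ht

end Wild

namespace Tame

variable {H : Subgroup (SemilinearAut K F)} (W : Tame M H)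

/-- the relation at a node -/
theorem exists_node_rel {U : UnitData M} {f : F} (f0 : f ≠ 0) (hfix : ∀ g ∈ H, g • f = f)
    (hO : f ∈ M.O 0) (hO' : f⁻¹ ∈ M.O 0) (hdiv : ∀ v : Place K F, (M.p : ℤ) ∣ v.ord f)
    {m : ℤ} {u : F} (hu : u ∈ M.O 1) (hu' : u⁻¹ ∈ M.O 1) (hu0 : u ≠ 0)
    (hfu : f ^ W.e = M.pF ^ m * u) {R : M.Pt} (hR : ∀ i, i ∈ R.on) (D : Pt.Coord U hM R) :
    ∃ (a n : ℤ), m = a * D.w * W.e + M.p * n ∧
      (M.p : ℤ) ∣ (R.wOn hM 0).ord (M.red 0 f) - a := by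
  obtain ⟨a, h, d, hh0, hh, hh', hhfix, hd0, hdfix, hdO, hdO', hfd, ha⟩ :=
    Pt.node_dec D hR W.le f0 hO hO' hfix (fun v _ => hdiv v)
  obtain ⟨n, v, hv, hv', hv0, hdv⟩ := W.exists_unit_form 1 (a := d) hdfix hd0
  refine ⟨a, n, ?_, ha⟩
  have hhO := Pt.L_le_O (hM := hM) (hR 1) hh
  have hhO' := Pt.L_le_O (hM := hM) (hR 1) hh'
  have x1 := D.X_mem'
  have x2 := D.Xu_inv_mem
  have x3 := D.Xu_ne
  have x4 := D.X_eq
  set xu := D.X * (M.pF ^ D.w)⁻¹ with hxu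
  obtain ⟨z1, z2⟩ := zpow_unit_mem x1 x2 (a * W.e)
  have hp0 := pF_ne_zero (M := M)
  have hfin : f ^ W.e = M.pF ^ (a * D.w * W.e + M.p * n) *
      (xu ^ (a * W.e) * h ^ W.e * v ^ M.p) := by
    have h1 : (D.X ^ a) ^ W.e = M.pF ^ (a * D.w * W.e) * xu ^ (a * W.e) := by
      rw [← zpow_natCast (D.X ^ a), ← zpow_mul, x4, mul_zpow, ← zpow_mul]
      congr 2; ring
    have h2 : (d ^ M.p) ^ W.e = M.pF ^ (M.p * n) * v ^ M.p := by
      rw [← pow_mul, mul_comm M.p W.e, pow_mul, hdv, mul_pow, ← zpow_natCast (M.pF ^ n),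
        ← zpow_mul, mul_comm n]
    rw [hfd, mul_pow, mul_pow, h1, h2, zpow_add₀ hp0]
    ring
  refine pF_exp hu hu' hu0 (mul_mem (mul_mem z1 (pow_mem hhO _)) (pow_mem hv _)) ?_ ?_
    (hfu.symm.trans hfin)
  · rw [mul_inv, mul_inv, ← inv_pow, ← inv_pow]
    exact mul_mem (mul_mem z2 (pow_mem hhO' _)) (pow_mem hv' _)
  · exact mul_ne_zero (mul_ne_zero (zpow_ne_zero _ x3) (pow_ne_zero _ hh0)) (pow_ne_zero _ hv0)

include W in
/-- **Constancy and operators, tame case.** -/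
theorem node_constT {U : UnitData M} {T : F →* F} {e : ℕ} (hT : M.TOp T e)
    {f : F} (f0 : f ≠ 0) (hfix : ∀ g ∈ H, g • f = f)
    (hO : f ∈ M.O 0) (hO' : f⁻¹ ∈ M.O 0) (hdiv : ∀ v : Place K F, (M.p : ℤ) ∣ v.ord f)
    {P Q : M.Pt} (hP : ∀ i, i ∈ P.on) (hQ : ∀ i, i ∈ Q.on) (C : Pt.Coord U hM P)
    (C' : Pt.Coord U hM Q) :
    (M.p : ℤ) ∣ e * (C.w * (P.wOn hM 0).ord (M.red 0 f)) -
      C'.w * (Q.wOn hM 0).ord (M.red 0 (T f)) := by
  obtain ⟨m, u, hu, hu', hu0, hfu⟩ := W.exists_unit_form 1 (a := f) hfix f0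
  have Tf0 : T f ≠ 0 := Datum.T_ne_zero T f0
  have Tfix := hT.fix W.le hfix
  obtain ⟨TO, TO'⟩ := hT.unit 0 f hO hO' f0
  have Tdiv := hT.dvd f f0 hdiv
  obtain ⟨Tu, Tu'⟩ := hT.unit 1 u hu hu' hu0
  have Tu0 : T u ≠ 0 := Datum.T_ne_zero T hu0
  have hpF : M.pF ≠ 0 := pF_ne_zero (M := M)
  have hTp : ∀ l : ℤ, T (M.pF ^ l) = M.pF ^ (e * l) := by
    have h1 : ∀ l : ℕ, T (M.pF ^ l) = M.pF ^ (e * l : ℤ) := by
      intro l
      rw [map_pow, show M.pF = algebraMap K F (M.p : K) from rfl, hT.const, ← pow_mul,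
        ← zpow_natCast]
      push_cast; rfl
    intro l
    obtain ⟨l, rfl | rfl⟩ := l.eq_nat_or_neg
    · rw [zpow_natCast, h1]
    · rw [zpow_neg, zpow_natCast, Datum.map_inv_of_ne_zero T (pow_ne_zero l hpF), h1, mul_neg,
        zpow_neg]
  have hTfu : (T f) ^ W.e = M.pF ^ (e * m) * T u := by
    rw [← map_pow, hfu, map_mul, hTp]
  obtain ⟨a, n, hm1, r, hr⟩ := W.exists_node_rel f0 hfix hO hO' hdiv hu hu' hu0 hfu hP C
  obtain ⟨a', n', hm2, r', hr'⟩ :=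
    W.exists_node_rel Tf0 Tfix TO TO' Tdiv Tu Tu' Tu0 hTfu hQ C'
  have h1 : (M.p : ℤ) ∣ (W.e : ℤ) * (e * (a * C.w) - a' * C'.w) := by
    refine ⟨n' - e * n, ?_⟩
    linear_combination hm2 - e * hm1
  have hcop : IsCoprime (M.p : ℤ) (W.e : ℤ) := Nat.isCoprime_iff_coprime.2 W.coprime
  obtain ⟨t, ht⟩ := hcop.dvd_of_dvd_mul_left h1
  refine ⟨e * (C.w * r) - C'.w * r' + t, ?_⟩
  linear_combination (e * C.w : ℤ) * hr - (C'.w : ℤ) * hr' + ht

end Tame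

/-- The exponent `n` of `star_final` for two functions `f` and `f' = T f`. -/
theorem star_finalT (hM : M.Good) (U : UnitData M) {f : F} (f0 : f ≠ 0) (hO : f ∈ M.O 0)
    (hO' : f⁻¹ ∈ M.O 0) (hdiv : ∀ v : Place K F, (M.p : ℤ) ∣ v.ord f)
    (hconst : ∀ {P Q : M.Pt} (_ : ∀ i, i ∈ P.on) (_ : ∀ i, i ∈ Q.on) (C : Pt.Coord U hM P)
      (C' : Pt.Coord U hM Q), (M.p : ℤ) ∣
        C.w * (P.wOn hM 0).ord (M.red 0 f) - C'.w * (Q.wOn hM 0).ord (M.red 0 f)) :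
    ∃ n : ℤ, ((∀ w : Place k F', M.red 0 (M.x 0) ∈ w.toValuationSubring →
      (M.p : ℤ) ∣ U.E * w.ord (M.red 0 f) - n * w.ord (M.red 0 U.u)) ∧
      ∀ w : Place k F', M.red 0 (M.x 0) ∉ w.toValuationSubring →
        (M.p : ℤ) ∣ w.ord (M.red 0 f)) ∧
      ∀ (T : F →* F) (e : ℕ), M.TOp T e →
        (∀ {P Q : M.Pt} (_ : ∀ i, i ∈ P.on) (_ : ∀ i, i ∈ Q.on) (C : Pt.Coord U hM P)
          (C' : Pt.Coord U hM Q), (M.p : ℤ) ∣ e * (C.w * (P.wOn hM 0).ord (M.red 0 f)) -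
            C'.w * (Q.wOn hM 0).ord (M.red 0 (T f))) →
        ∀ w : Place k F', M.red 0 (M.x 0) ∈ w.toValuationSubring →
          (M.p : ℤ) ∣ U.E * w.ord (M.red 0 (T f)) - e * n * w.ord (M.red 0 U.u) := by
  have smooth : ∀ {f : F} (_ : f ≠ 0) (_ : f ∈ M.O 0) (_ : f⁻¹ ∈ M.O 0)
      (_ : ∀ v : Place K F, (M.p : ℤ) ∣ v.ord f) (w : Place k F'),
      ¬ (∀ i, i ∈ (M.ptOf 0 w).on) →
      (M.ptOf 0 w).on = {0} ∧ (M.p : ℤ) ∣ w.ord (M.red 0 f) := by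
    intro f f0 hO hO' hdiv w hw
    have h1 : (M.ptOf 0 w).on = {0} := by
      have := (Pt.on_cases (P := M.ptOf 0 w)).resolve_left hw
      rwa [ptOf_i] at this
    refine ⟨h1, ?_⟩
    have := Pt.dvd_smooth (hM := hM) h1 f0 hO hO' (fun v _ => hdiv v)
    rwa [wOn_ptOf] at this
  have cusp : ∀ w : Place k F', M.red 0 (M.x 0) ∉ w.toValuationSubring →
      (M.p : ℤ) ∣ w.ord (M.red 0 f) := by
    intro w hw
    refine (smooth f0 hO hO' hdiv w fun h => hw ?_).2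
    have := Pt.e_eq_zero hM h
    exact (ptOf_e 0 w).1 this
  by_cases hex : ∃ P : M.Pt, ∀ i, i ∈ P.on
  · obtain ⟨P, hP⟩ := hex
    obtain ⟨C⟩ := Pt.exists_coord (hM := hM) U hP
    refine ⟨C.w * (P.wOn hM 0).ord (M.red 0 f), ⟨fun w hw => ?_, cusp⟩, ?_⟩
    · by_cases hwn : ∀ i, i ∈ (M.ptOf 0 w).on
      · obtain ⟨D⟩ := Pt.exists_coord (hM := hM) U hwn
        have h1 := hconst hwn hP D C
        have h2 := D.o_eq
        have h3 : ((D.o * D.w : ℕ) : ℤ) = U.E := by exact_mod_cast D.o_mul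
        rw [wOn_ptOf] at h1 h2
        obtain ⟨r, hr⟩ := h1
        refine ⟨D.o * r, ?_⟩
        rw [h2, ← h3]
        push_cast
        linear_combination (D.o : ℤ) * hr
      · obtain ⟨h1, r, hr⟩ := smooth f0 hO hO' hdiv w hwn
        have h2 := Pt.ord_unit_smooth (hM := hM) U h1 ((ptOf_e 0 w).2 hw)
        rw [wOn_ptOf] at h2
        rw [h2, hr]
        exact ⟨U.E * r, by ring⟩
    · intro T e hT hc w hw
      have Tf0 : T f ≠ 0 := Datum.T_ne_zero T f0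
      obtain ⟨TO, TO'⟩ := hT.unit 0 f hO hO' f0
      have Tdiv := hT.dvd f f0 hdiv
      by_cases hwn : ∀ i, i ∈ (M.ptOf 0 w).on
      · obtain ⟨D⟩ := Pt.exists_coord (hM := hM) U hwn
        have h1 := hc hP hwn C D
        have h2 := D.o_eq
        have h3 : ((D.o * D.w : ℕ) : ℤ) = U.E := by exact_mod_cast D.o_mul
        rw [wOn_ptOf] at h1 h2
        obtain ⟨r, hr⟩ := h1
        refine ⟨-(D.o * r), ?_⟩
        rw [h2, ← h3]
        push_cast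
        linear_combination -(D.o : ℤ) * hr
      · obtain ⟨h1, r, hr⟩ := smooth Tf0 TO TO' Tdiv w hwn
        have h2 := Pt.ord_unit_smooth (hM := hM) U h1 ((ptOf_e 0 w).2 hw)
        rw [wOn_ptOf] at h2
        rw [h2, hr]
        exact ⟨U.E * r, by ring⟩
  · refine ⟨0, ⟨fun w hw => ?_, cusp⟩, ?_⟩
    · obtain ⟨-, r, hr⟩ := smooth f0 hO hO' hdiv w fun h => hex ⟨_, h⟩
      rw [hr]
      exact ⟨U.E * r, by ring⟩
    · intro T e hT hc w hw
      have Tf0 : T f ≠ 0 := Datum.T_ne_zero T f0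
      obtain ⟨TO, TO'⟩ := hT.unit 0 f hO hO' f0
      have Tdiv := hT.dvd f f0 hdiv
      obtain ⟨-, r, hr⟩ := smooth Tf0 TO TO' Tdiv w fun h => hex ⟨_, h⟩
      rw [hr]
      exact ⟨U.E * r, by ring⟩

/-- **(STAR)** with operators, wild or tame case -/
theorem starT (hM : M.Good) (U : UnitData M) {H : Subgroup (SemilinearAut K F)}
    (W : Nonempty (Wild M H) ∨ Nonempty (Tame M H)) {f : F} (f0 : f ≠ 0)
    (hfix : ∀ g ∈ H, g • f = f) (hO : f ∈ M.O 0)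
    (hO' : f⁻¹ ∈ M.O 0) (hdiv : ∀ v : Place K F, (M.p : ℤ) ∣ v.ord f) :
    ∃ n : ℤ, ((∀ w : Place k F', M.red 0 (M.x 0) ∈ w.toValuationSubring →
      (M.p : ℤ) ∣ U.E * w.ord (M.red 0 f) - n * w.ord (M.red 0 U.u)) ∧
      ∀ w : Place k F', M.red 0 (M.x 0) ∉ w.toValuationSubring →
        (M.p : ℤ) ∣ w.ord (M.red 0 f)) ∧
      ∀ (T : F →* F) (e : ℕ), M.TOp T e →
        ∀ w : Place k F', M.red 0 (M.x 0) ∈ w.toValuationSubring →
          (M.p : ℤ) ∣ U.E * w.ord (M.red 0 (T f)) - e * n * w.ord (M.red 0 U.u) := by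
  rcases W with ⟨⟨W⟩⟩ | ⟨⟨W⟩⟩
  · obtain ⟨n, h1, h2⟩ := star_finalT hM U f0 hO hO' hdiv
      fun hP hQ C C' => W.node_const f0 hfix hO hO' hdiv hP hQ C C'
    exact ⟨n, h1, fun T e hT => h2 T e hT fun hP hQ C C' =>
      W.node_constT hT f0 hfix hO hO' hdiv hP hQ C C'⟩
  · obtain ⟨n, h1, h2⟩ := star_finalT hM U f0 hO hO' hdiv
      fun hP hQ C C' => W.node_const f0 hfix hO hO' hdiv hP hQ C C'
    exact ⟨n, h1, fun T e hT => h2 T e hT fun hP hQ C C' =>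
      W.node_constT hT f0 hfix hO hO' hdiv hP hQ C C'⟩

end Model

end Fermat.Agent.Star
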