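import Fermat.Agent.Star.Width
import Fermat.Agent.S44w.Eis

/-!
# The non-Eisenstein argument when all widths are one
-/

set_option autoImplicit false
set_option linter.unusedSectionVars false

noncomputable section

open AlgebraicCurve WithZero Module
open Fermat.Agent.RR Fermat.Agent.FF

namespace Fermat.Agent.Star

variable {K F k F' : Type*} [Field K] [Field F] [Algebra K F] [Field k] [Field F']
    [Algebra k F'] [IsAlgClosed K] [IsFF K F] [IsAlgClosed k] [IsFF k F']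

namespace Model

variable {M : Model K F k F'}

/-- orders of the reduction of `T f` for an eigenfunction `f` -/
theorem dvd_ord_T_sub {f : F} (f0 : f ≠ 0) (hO : f ∈ M.O 0) (hO' : f⁻¹ ∈ M.O 0)
    {T : F →* F} {e : ℕ} (hT : M.TOp T e) {a : ℤ} {c : K} {g : F}
    (hTf : T f = algebraMap K F c * f ^ a * g ^ M.p) (w : Place k F') :
    (M.p : ℤ) ∣ w.ord (M.red 0 (T f)) - a * w.ord (M.red 0 f) := by
  obtain ⟨TO, TO'⟩ := hT.unit 0 f hO hO' f0
  have Tf0 : T f ≠ 0 := Datum.T_ne_zero T f0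
  obtain ⟨z1, z2⟩ := zpow_unit_mem hO hO' a
  have fa0 : f ^ a ≠ 0 := zpow_ne_zero a f0
  have hy : T f * (f ^ a)⁻¹ = algebraMap K F c * g ^ M.p := by
    rw [hTf]; field_simp
  have hyO : T f * (f ^ a)⁻¹ ∈ M.O 0 := mul_mem TO z2
  have hyO' : (T f * (f ^ a)⁻¹)⁻¹ ∈ M.O 0 := by
    rw [mul_inv, inv_inv]; exact mul_mem TO' z1
  obtain ⟨c', g', hc', hg', hr⟩ := red_eq_of_eq_mul_pow (mul_ne_zero Tf0 (inv_ne_zero fa0))
    hyO hyO' hy
  have hfr : M.red 0 f ≠ 0 := (red_ne_zero_iff hO).2 ⟨f0, hO'⟩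
  have h6 : M.red 0 (T f) = M.red 0 f ^ a * (algebraMap k F' c' * g' ^ M.p) := by
    have h7 : T f = f ^ a * (T f * (f ^ a)⁻¹) := by field_simp
    conv_lhs => rw [h7]
    rw [red_mul z1 hyO, hr]
    congr 1
    obtain ⟨l, rfl | rfl⟩ := a.eq_nat_or_neg
    · rw [zpow_natCast, red_pow hO, zpow_natCast]
    · rw [zpow_neg, zpow_natCast, red_inv (pow_mem hO l) (by rw [← inv_pow]; exact pow_mem hO' l)
        (pow_ne_zero l f0), red_pow hO, zpow_neg, zpow_natCast]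
  have hc'F : algebraMap k F' c' ≠ 0 := (_root_.map_ne_zero _).2 hc'
  refine ⟨w.ord g', ?_⟩
  rw [h6, Place.ord_mul _ (zpow_ne_zero a hfr) (mul_ne_zero hc'F (pow_ne_zero _ hg')),
    Place.ord_mul _ hc'F (pow_ne_zero _ hg'), Place.ord_zpow, ord_algebraMap, ord_pow]
  ring

/-- **The non-Eisenstein argument**, all widths one (`p` may divide `U.E`, e.g. `p = 3`). -/
theorem dvd_ord_red_of_eigen_width (hM : M.Good) (U : UnitData M)
    (hw1 : ∀ {P : M.Pt} (_ : ∀ i, i ∈ P.on) (C : Pt.Coord U hM P), C.w = 1)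
    {H : Subgroup (SemilinearAut K F)}
    (W : Nonempty (Wild M H) ∨ Nonempty (Tame M H)) {f : F} (f0 : f ≠ 0)
    (hfix : ∀ g ∈ H, g • f = f) (hO : f ∈ M.O 0)
    (hO' : f⁻¹ ∈ M.O 0) (hdiv : ∀ v : Place K F, (M.p : ℤ) ∣ v.ord f)
    {T : F →* F} {e : ℕ} (hT : M.TOp T e) {a : ℤ} {c : K} {g : F}
    (hTf : T f = algebraMap K F c * f ^ a * g ^ M.p) (hae : ¬ (M.p : ℤ) ∣ a - e)
    (w : Place k F') : (M.p : ℤ) ∣ w.ord (M.red 0 f) := by
  have hp : Prime (M.p : ℤ) := Nat.prime_iff_prime_int.1 M.hp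
  refine (starShape_width hM U hw1 W f0 hfix hO hO' hdiv).dvd isCoprime_one_right hT
    (fun w => dvd_ord_T_sub f0 hO hO' hT hTf w) ?_ w
  rw [hp.coprime_iff_not_dvd]
  intro h
  apply hae
  have := dvd_neg.2 h
  rwa [neg_sub] at this

end Model

end Fermat.Agent.Star
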