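import Mathlib

/-!
# Constancy of the node orders of a peu ramifiée class : the abstract computation

We work in a field `𝓕` (the function field of a semistable curve over a discretely valued field `L`
with uniformiser `ϖ`) carrying two discrete valuation rings `D i` (`i : Fin 2`) with the same
uniformiser `ϖ`, and an automorphism `τ` (coming from a wildly ramified automorphism of `L` with
ramification break one).
-/

set_option autoImplicit false

namespace Fermat.Agent.Star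

variable {𝓕 κ : Type*} [Field 𝓕] [Field κ]

/-- A discrete valuation ring of `𝓕` with uniformiser `ϖ` and residue map to `κ`. -/
structure DRes (𝓕 κ : Type*) [Field 𝓕] [Field κ] (ϖ : 𝓕) where
  O : Subring 𝓕
  r : O →+* κ
  unif_mem : ϖ ∈ O
  r_eq_zero : ∀ a : O, r a = 0 → ∃ b ∈ O, (a : 𝓕) = ϖ * b
  r_unif : r ⟨ϖ, unif_mem⟩ = 0
  exists_unit : ∀ a : 𝓕, a ≠ 0 → ∃ (n : ℤ) (u : 𝓕), u ∈ O ∧ u⁻¹ ∈ O ∧ u ≠ 0 ∧ a = ϖ ^ n * u

namespace DRes

variable {ϖ : 𝓕} (D : DRes 𝓕 κ ϖ)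

open Classical in
/-- The residue map as a total function. -/
noncomputable def red (a : 𝓕) : κ := if h : a ∈ D.O then D.r ⟨a, h⟩ else 0

variable {D}

theorem red_of_mem {a : 𝓕} (h : a ∈ D.O) : D.red a = D.r ⟨a, h⟩ := dif_pos h

theorem red_one : D.red 1 = 1 := by
  rw [red_of_mem D.O.one_mem]; exact map_one D.r

theorem red_zero : D.red 0 = 0 := by
  rw [red_of_mem D.O.zero_mem]; exact map_zero D.r

theorem red_add {a b : 𝓕} (ha : a ∈ D.O) (hb : b ∈ D.O) : D.red (a + b) = D.red a + D.red b := by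
  rw [red_of_mem ha, red_of_mem hb, red_of_mem (D.O.add_mem ha hb), ← map_add]; rfl

theorem red_mul {a b : 𝓕} (ha : a ∈ D.O) (hb : b ∈ D.O) : D.red (a * b) = D.red a * D.red b := by
  rw [red_of_mem ha, red_of_mem hb, red_of_mem (D.O.mul_mem ha hb), ← map_mul]; rfl

theorem red_neg {a : 𝓕} (ha : a ∈ D.O) : D.red (-a) = - D.red a := by
  rw [red_of_mem ha, red_of_mem (D.O.neg_mem ha), ← map_neg]; rfl

theorem red_sub {a b : 𝓕} (ha : a ∈ D.O) (hb : b ∈ D.O) : D.red (a - b) = D.red a - D.red b := by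
  rw [red_of_mem ha, red_of_mem hb, red_of_mem (D.O.sub_mem ha hb), ← map_sub]; rfl

theorem red_pow {a : 𝓕} (ha : a ∈ D.O) (n : ℕ) : D.red (a ^ n) = D.red a ^ n := by
  rw [red_of_mem ha, red_of_mem (D.O.pow_mem ha n), ← map_pow]; rfl

theorem red_unif : D.red ϖ = 0 := by
  rw [red_of_mem D.unif_mem]; exact D.r_unif

theorem red_unif_mul {b : 𝓕} (hb : b ∈ D.O) : D.red (ϖ * b) = 0 := by
  rw [red_mul D.unif_mem hb, red_unif, zero_mul]

theorem exists_of_red_eq_zero {a : 𝓕} (ha : a ∈ D.O) (h : D.red a = 0) :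
    ∃ b ∈ D.O, a = ϖ * b := by
  rw [red_of_mem ha] at h
  exact D.r_eq_zero ⟨a, ha⟩ h

theorem natCast_mem' (n : ℕ) : (n : 𝓕) ∈ D.O := natCast_mem D.O n

theorem red_natCast (n : ℕ) : D.red (n : 𝓕) = n := by
  rw [red_of_mem (natCast_mem D.O n)]
  exact map_natCast D.r n

theorem red_ne_zero_of_unit {u : 𝓕} (hu : u ∈ D.O) (hu' : u⁻¹ ∈ D.O) (h0 : u ≠ 0) :
    D.red u ≠ 0 := by
  intro h
  have h1 : D.red (u * u⁻¹) = 0 := by rw [red_mul hu hu', h, zero_mul]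
  rw [mul_inv_cancel₀ h0, red_one] at h1
  exact one_ne_zero h1

theorem inv_mem_of_red_ne_zero {a : 𝓕} (ha : a ∈ D.O) (h : D.red a ≠ 0) : a⁻¹ ∈ D.O := by
  have ha0 : a ≠ 0 := by rintro rfl; exact h red_zero
  obtain ⟨n, u, hu, hu', hu0, hau⟩ := D.exists_unit a ha0
  rcases lt_trichotomy n 0 with hn | hn | hn
  · -- `u = ϖ ^ (-n) * a` reduces to zero
    exfalso
    obtain ⟨m, hm⟩ : ∃ m : ℕ, n = -((m : ℤ) + 1) := ⟨(-n - 1).toNat, by omega⟩
    by_cases hϖ : ϖ = 0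
    · apply ha0
      rw [hau, hϖ, zero_zpow _ (by omega), zero_mul]
    have h1 : u = ϖ * (ϖ ^ m * a) := by
      rw [hau, hm, zpow_neg, zpow_add_one₀ hϖ, zpow_natCast]
      field_simp
    have h2 : D.red u = 0 := by
      rw [h1]; exact red_unif_mul (D.O.mul_mem (D.O.pow_mem D.unif_mem m) ha)
    exact red_ne_zero_of_unit hu hu' hu0 h2
  · rw [hau, hn, zpow_zero, one_mul]; exact hu'
  · exfalso
    obtain ⟨m, hm⟩ : ∃ m : ℕ, n = (m : ℤ) + 1 := ⟨(n - 1).toNat, by omega⟩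
    apply h
    by_cases hϖ : ϖ = 0
    · exact absurd (by rw [hau, hϖ, zero_zpow _ (by omega), zero_mul]) ha0
    have h1 : a = ϖ * (ϖ ^ m * u) := by
      rw [hau, hm, zpow_add_one₀ hϖ, zpow_natCast]; ring
    rw [h1]; exact red_unif_mul (D.O.mul_mem (D.O.pow_mem D.unif_mem m) hu)

variable (D)

/-- `a = 1 + ϖ η` with `η` reducing to `α`. -/
def Cong (a : 𝓕) (α : κ) : Prop := ∃ η ∈ D.O, a = 1 + ϖ * η ∧ D.red η = α

/-- `a` has order `n` for the valuation `D`. -/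
def HasOrd (a : 𝓕) (n : ℤ) : Prop := ∃ u, u ∈ D.O ∧ u⁻¹ ∈ D.O ∧ u ≠ 0 ∧ a = ϖ ^ n * u

variable {D}

theorem Cong.one : D.Cong 1 0 := ⟨0, D.O.zero_mem, by simp, red_zero⟩

theorem Cong.mem {a : 𝓕} {α : κ} (h : D.Cong a α) : a ∈ D.O := by
  obtain ⟨η, hη, rfl, -⟩ := h
  exact D.O.add_mem D.O.one_mem (D.O.mul_mem D.unif_mem hη)

theorem Cong.red_eq {a : 𝓕} {α : κ} (h : D.Cong a α) : D.red a = 1 := by
  obtain ⟨η, hη, rfl, -⟩ := h
  rw [red_add D.O.one_mem (D.O.mul_mem D.unif_mem hη), red_one, red_unif_mul hη, add_zero]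

theorem Cong.ne_zero {a : 𝓕} {α : κ} (h : D.Cong a α) : a ≠ 0 := by
  intro h0
  have := h.red_eq
  rw [h0, red_zero] at this
  exact zero_ne_one this

theorem Cong.inv_mem {a : 𝓕} {α : κ} (h : D.Cong a α) : a⁻¹ ∈ D.O :=
  inv_mem_of_red_ne_zero h.mem (by rw [h.red_eq]; exact one_ne_zero)

theorem Cong.mul {a b : 𝓕} {α β : κ} (ha : D.Cong a α) (hb : D.Cong b β) :
    D.Cong (a * b) (α + β) := by
  obtain ⟨η, hη, rfl, hηα⟩ := ha
  obtain ⟨θ, hθ, rfl, hθβ⟩ := hb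
  refine ⟨η + θ + ϖ * (η * θ), ?_, by ring, ?_⟩
  · exact D.O.add_mem (D.O.add_mem hη hθ) (D.O.mul_mem D.unif_mem (D.O.mul_mem hη hθ))
  · rw [red_add (D.O.add_mem hη hθ) (D.O.mul_mem D.unif_mem (D.O.mul_mem hη hθ)),
      red_add hη hθ, red_unif_mul (D.O.mul_mem hη hθ), hηα, hθβ, add_zero]

theorem Cong.inv {a : 𝓕} {α : κ} (ha : D.Cong a α) : D.Cong a⁻¹ (-α) := by
  have h0 := ha.ne_zero
  have hi := ha.inv_mem
  have hr := ha.red_eq
  obtain ⟨η, hη, haη, hηα⟩ := ha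
  have hri : D.red a⁻¹ = 1 := by
    have hm : a ∈ D.O := by
      rw [haη]; exact D.O.add_mem D.O.one_mem (D.O.mul_mem D.unif_mem hη)
    have : D.red (a * a⁻¹) = D.red a * D.red a⁻¹ := red_mul hm hi
    rw [mul_inv_cancel₀ h0, red_one, hr, one_mul] at this
    exact this.symm
  refine ⟨-(η * a⁻¹), D.O.neg_mem (D.O.mul_mem hη hi), ?_, ?_⟩
  · have : a * a⁻¹ = 1 := mul_inv_cancel₀ h0
    have h2 : (1 + ϖ * η) * a⁻¹ = 1 := by rw [← haη]; exact this
    linear_combination h2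
  · rw [red_neg (D.O.mul_mem hη hi), red_mul hη hi, hηα, hri, mul_one]

theorem Cong.pow {a : 𝓕} {α : κ} (ha : D.Cong a α) (n : ℕ) : D.Cong (a ^ n) (n * α) := by
  induction n with
  | zero => simpa using Cong.one
  | succ n ih =>
    rw [pow_succ]
    have := ih.mul ha
    convert this using 1
    push_cast; ring

theorem Cong.zpow {a : 𝓕} {α : κ} (ha : D.Cong a α) (n : ℤ) : D.Cong (a ^ n) (n * α) := by
  obtain ⟨m, rfl | rfl⟩ := n.eq_nat_or_neg
  · simpa using ha.pow m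
  · rw [zpow_neg, zpow_natCast]
    have := (ha.pow m).inv
    convert this using 1
    push_cast; ring

end DRes


open DRes

/-- The abstract data of the computation. `C` is the ring of integers of the constant field `L`,
`B P` the local ring of the model at the point `P`, `on P` the set of components through `P`,
`R i P` the local ring of the component `i` at `P`. -/
structure Datum (p : ℕ) (𝓕 κ k : Type*) [Field 𝓕] [Field κ] [Field k] [Algebra k κ] where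
  ϖ : 𝓕
  unif_ne_zero : ϖ ≠ 0
  D : Fin 2 → DRes 𝓕 κ ϖ
  τ : 𝓕 ≃+* 𝓕
  τ_mem : ∀ i a, a ∈ (D i).O → τ a ∈ (D i).O
  τ_sub : ∀ i a, a ∈ (D i).O → ∃ b ∈ (D i).O, τ a - a = ϖ ^ 2 * b
  /-- the ring of constants -/
  C : Subring 𝓕
  C_le : ∀ i, C ≤ (D i).O
  unif_mem_C : ϖ ∈ C
  τ_C : ∀ a ∈ C, τ a ∈ C
  inv_mem_C : ∀ a ∈ C, (∃ i, (D i).red a ≠ 0) → a⁻¹ ∈ C
  lift : ∀ a : k, ∃ b ∈ C, τ b = b ∧ ∀ i, (D i).red b = algebraMap k κ a
  /-- ramification break one -/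
  c : k
  c_ne_zero : c ≠ 0
  τ_unif : ∃ γ ∈ C, τ ϖ = ϖ * (1 + ϖ * γ) ∧ ∀ i, (D i).red γ = algebraMap k κ c
  p_eq : ∃ π' ∈ C, (p : 𝓕) = ϖ ^ p * π'
  /-- points -/
  Pt : Type*
  on : Pt → Set (Fin 2)
  B : Pt → Subring 𝓕
  B_le : ∀ P, ∀ i ∈ on P, B P ≤ (D i).O
  C_le_B : ∀ P, C ≤ B P
  τ_B : ∀ P, ∀ a ∈ B P, τ a ∈ B P
  reg : ∀ P a, (∀ i ∈ on P, a ∈ (D i).O) → (∃ m : ℕ, ϖ ^ m * a ∈ B P) → a ∈ B P
  R : Fin 2 → Pt → Set κ
  red_mem_R : ∀ P, ∀ i ∈ on P, ∀ a ∈ B P, (D i).red a ∈ R i P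
  R_add : ∀ P, ∀ i ∈ on P, ∀ a ∈ R i P, ∀ b : k, a + algebraMap k κ b ∈ R i P
  global : ∀ i, ∀ a : κ, (∀ P, i ∈ on P → a ∈ R i P) → ∃ b : k, a = algebraMap k κ b
  IsNode : Pt → Prop
  on_node : ∀ P, IsNode P → ∀ i, i ∈ on P
  agree : ∀ P, IsNode P → ∀ a ∈ B P, ∀ b : Fin 2 → k,
    (∀ i, (D i).red a = algebraMap k κ (b i)) → b 0 = b 1

namespace Datum

variable {p : ℕ} {k : Type*} [Field k] [Algebra k κ] (S : Datum p 𝓕 κ k)

/-- a local decomposition of `f` at the point `P` -/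
def LocDec (f : 𝓕) (P : S.Pt) (z h d : 𝓕) : Prop :=
  z ≠ 0 ∧ h ≠ 0 ∧ d ≠ 0 ∧ S.τ z = z ∧ h ∈ S.B P ∧ h⁻¹ ∈ S.B P ∧ f = z * h * d ^ p

variable {S}

theorem cong_τ_unif (i : Fin 2) : (S.D i).Cong (S.τ S.ϖ / S.ϖ) (algebraMap k κ S.c) := by
  obtain ⟨γ, hγ, h1, h2⟩ := S.τ_unif
  refine ⟨γ, S.C_le i hγ, ?_, h2 i⟩
  rw [h1, mul_div_cancel_left₀ _ S.unif_ne_zero]

theorem exists_τ_div_unit (i : Fin 2) {u : 𝓕} (hu : u ∈ (S.D i).O) (hu' : u⁻¹ ∈ (S.D i).O)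
    (h0 : u ≠ 0) : ∃ b ∈ (S.D i).O, S.τ u / u = 1 + S.ϖ ^ 2 * b := by
  obtain ⟨b, hb, h⟩ := S.τ_sub i u hu
  refine ⟨b * u⁻¹, (S.D i).O.mul_mem hb hu', ?_⟩
  have h1 : S.τ u = u + S.ϖ ^ 2 * b := by linear_combination h
  rw [h1]; field_simp

theorem cong_τ_div (i : Fin 2) {d : 𝓕} {n : ℤ} (h : (S.D i).HasOrd d n) :
    (S.D i).Cong (S.τ d / d) (n * algebraMap k κ S.c) := by
  obtain ⟨u, hu, hu', hu0, rfl⟩ := h
  obtain ⟨b, hb, hb1⟩ := exists_τ_div_unit (S := S) i hu hu' hu0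
  have h1 : (S.D i).Cong (S.τ u / u) 0 :=
    ⟨S.ϖ * b, (S.D i).O.mul_mem (S.D i).unif_mem hb, by rw [hb1]; ring, red_unif_mul hb⟩
  have h2 := ((cong_τ_unif (S := S) i).zpow n).mul h1
  rw [add_zero] at h2
  convert h2 using 1
  rw [map_mul, map_zpow₀, div_zpow]
  field_simp

theorem exists_pow_cong (hp : p.Prime) (i : Fin 2) {a : 𝓕} {α : κ} (h : (S.D i).Cong a α) :
    ∃ ε ∈ (S.D i).O, a ^ p = 1 + S.ϖ ^ p * ε ∧ (S.D i).red ε = α ^ p := by
  obtain ⟨η, hη, rfl, hηα⟩ := h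
  obtain ⟨π', hπ', hpπ⟩ := S.p_eq
  obtain ⟨r, hr⟩ := exists_add_pow_prime_eq hp (1 : (S.D i).O)
    (⟨S.ϖ * η, (S.D i).O.mul_mem (S.D i).unif_mem hη⟩ : (S.D i).O)
  have hr' : (1 + S.ϖ * η) ^ p = 1 + (S.ϖ * η) ^ p + p * (S.ϖ * η) * r := by
    have := congrArg (fun z : (S.D i).O => (z : 𝓕)) hr
    simpa using this
  have hm : π' * (η * (r : 𝓕)) ∈ (S.D i).O :=
    (S.D i).O.mul_mem (S.C_le i hπ') ((S.D i).O.mul_mem hη r.2)
  refine ⟨η ^ p + S.ϖ * (π' * (η * r)), ?_, ?_, ?_⟩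
  · exact (S.D i).O.add_mem ((S.D i).O.pow_mem hη p) ((S.D i).O.mul_mem (S.D i).unif_mem hm)
  · rw [hr', hpπ]; ring
  · rw [red_add ((S.D i).O.pow_mem hη p) ((S.D i).O.mul_mem (S.D i).unif_mem hm), red_pow hη,
      red_unif_mul hm, hηα, add_zero]

/-- Key local computation: if `G = (τ h / h) * (τ d / d) ^ p * U` and `G ≡ 1 mod ϖ ^ m`, then
`(τ h / h) * U ≡ 1 mod ϖ ^ m`, and the two leading terms differ by the contribution of `d`. -/
theorem local_step (hp : p.Prime) (i : Fin 2) {X G d : 𝓕} {n : ℤ} (hd : (S.D i).HasOrd d n)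
    
    (hG : G = X * (S.τ d / d) ^ p) {m : ℕ} (hm : m ≤ p) {g : 𝓕} (hg : g ∈ (S.D i).O)
    (hGg : G = 1 + S.ϖ ^ m * g) :
    ∃ t ∈ (S.D i).O, X = 1 + S.ϖ ^ m * t ∧
      (S.D i).red t = (S.D i).red g -
        if m = p then ((n : κ) * algebraMap k κ S.c) ^ p else 0 := by
  obtain ⟨ε, hε, hE, hεr⟩ := exists_pow_cong (S := S) hp i (cong_τ_div (S := S) i hd)
  have hEc : (S.D i).Cong ((S.τ d / d) ^ p) (p * (n * algebraMap k κ S.c)) :=
    (cong_τ_div (S := S) i hd).pow p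
  have hE0 := hEc.ne_zero
  have hEi := hEc.inv_mem
  have hEr := hEc.red_eq
  have hEri : (S.D i).red ((S.τ d / d) ^ p)⁻¹ = 1 := hEc.inv.red_eq
  set E := (S.τ d / d) ^ p with hEdef
  obtain ⟨j, hj⟩ : ∃ j, p = m + j := ⟨p - m, by omega⟩
  have hpm : S.ϖ ^ p = S.ϖ ^ m * S.ϖ ^ j := by rw [← pow_add]; congr 1
  have hjε : S.ϖ ^ j * ε ∈ (S.D i).O :=
    (S.D i).O.mul_mem ((S.D i).O.pow_mem (S.D i).unif_mem j) hε
  refine ⟨(g - S.ϖ ^ j * ε) * E⁻¹, (S.D i).O.mul_mem ((S.D i).O.sub_mem hg hjε) hEi, ?_, ?_⟩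
  · have hX : X = G * E⁻¹ := by rw [hG]; field_simp
    have hEE : E * E⁻¹ = 1 := mul_inv_cancel₀ hE0
    have hE' : (1 + S.ϖ ^ m * S.ϖ ^ j * ε) * E⁻¹ = 1 := by rw [← hpm, ← hE]; exact hEE
    rw [hX, hGg]
    linear_combination hE'
  · rw [red_mul ((S.D i).O.sub_mem hg hjε) hEi, hEri, mul_one, red_sub hg hjε]
    congr 1
    by_cases hmp : m = p
    · have : j = 0 := by omega
      rw [if_pos hmp, this, pow_zero, one_mul, hεr]
    · have : ∃ j', j = j' + 1 := ⟨j - 1, by omega⟩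
      obtain ⟨j', rfl⟩ := this
      rw [if_neg hmp, pow_succ', mul_assoc]
      exact red_unif_mul ((S.D i).O.mul_mem ((S.D i).O.pow_mem (S.D i).unif_mem j') hε)


/-- base of the induction -/
theorem base_step (hp : p.Prime) (i : Fin 2) {f z h d : 𝓕} {P : S.Pt} (hiP : i ∈ S.on P)
    (hdec : S.LocDec f P z h d) :
    ∃ g ∈ (S.D i).O, S.τ f / f = 1 + S.ϖ ^ 2 * g := by
  obtain ⟨hz0, hh0, hd0, hz, hh, hh', rfl⟩ := hdec
  obtain ⟨b, hb, hb1⟩ := exists_τ_div_unit (S := S) i (S.B_le P i hiP hh) (S.B_le P i hiP hh') hh0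
  obtain ⟨n, hn⟩ := (S.D i).exists_unit d hd0
  obtain ⟨ε, hε, hE, -⟩ := exists_pow_cong (S := S) hp i (cong_τ_div (S := S) i (n := n) hn)
  obtain ⟨j, hj⟩ : ∃ j, p = 2 + j := ⟨p - 2, by have := hp.two_le; omega⟩
  have hpm : S.ϖ ^ p = S.ϖ ^ 2 * S.ϖ ^ j := by rw [← pow_add]; congr 1
  have hjε : S.ϖ ^ j * ε ∈ (S.D i).O :=
    (S.D i).O.mul_mem ((S.D i).O.pow_mem (S.D i).unif_mem j) hε
  refine ⟨b + S.ϖ ^ j * ε + S.ϖ ^ 2 * b * (S.ϖ ^ j * ε), ?_, ?_⟩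
  · exact (S.D i).O.add_mem ((S.D i).O.add_mem hb hjε)
      ((S.D i).O.mul_mem ((S.D i).O.mul_mem ((S.D i).O.pow_mem (S.D i).unif_mem 2) hb) hjε)
  · have h1 : S.τ (z * h * d ^ p) / (z * h * d ^ p) = (S.τ h / h) * (S.τ d / d) ^ p := by
      rw [map_mul, map_mul, map_pow, hz, div_pow]
      field_simp
    rw [h1, hb1, hE, hpm]
    ring

/-- The computation at the point `P` : after multiplying by `τ u / u`, the leading term is
regular at `P`. -/
theorem point_step (hp : p.Prime) {f z h d u : 𝓕} {P : S.Pt}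
    (hdec : S.LocDec f P z h d) (hu : u ∈ S.C) (hu' : u⁻¹ ∈ S.C)
    {m : ℕ} (hm : m ≤ p) {g : Fin 2 → 𝓕} (hg : ∀ i, g i ∈ (S.D i).O)
    (hG : ∀ i, S.τ f / f * (S.τ u / u) = 1 + S.ϖ ^ m * g i) {n : Fin 2 → ℤ}
    (hn : ∀ i ∈ S.on P, (S.D i).HasOrd d (n i)) :
    ∃ t ∈ S.B P, ∀ i ∈ S.on P, (S.D i).red t = (S.D i).red (g i) -
      if m = p then algebraMap k κ (((n i : k) * S.c) ^ p) else 0 := by
  obtain ⟨hz0, hh0, hd0, hz, hh, hh', rfl⟩ := hdec
  set X := (S.τ h / h) * (S.τ u / u) with hX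
  have hXB : X ∈ S.B P := by
    rw [hX, div_eq_mul_inv, div_eq_mul_inv]
    exact (S.B P).mul_mem ((S.B P).mul_mem (S.τ_B P _ hh) hh')
      ((S.B P).mul_mem (S.τ_B P _ (S.C_le_B P hu)) (S.C_le_B P hu'))
  have hGX : S.τ (z * h * d ^ p) / (z * h * d ^ p) * (S.τ u / u) = X * (S.τ d / d) ^ p := by
    rw [map_mul, map_mul, map_pow, hz, hX, div_pow]
    field_simp
  have hϖm : S.ϖ ^ m ≠ 0 := pow_ne_zero _ S.unif_ne_zero
  have key : ∀ i ∈ S.on P, (X - 1) / S.ϖ ^ m ∈ (S.D i).O ∧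
      (S.D i).red ((X - 1) / S.ϖ ^ m) = (S.D i).red (g i) -
        if m = p then algebraMap k κ (((n i : k) * S.c) ^ p) else 0 := by
    intro i hi
    obtain ⟨t, ht, hXt, hred⟩ := local_step (S := S) hp i (hn i hi) hGX hm (hg i) (hG i)
    have h1 : (X - 1) / S.ϖ ^ m = t := by
      rw [hXt]; field_simp; ring
    rw [h1]
    refine ⟨ht, ?_⟩
    rw [hred, map_pow, map_mul, map_intCast]
  refine ⟨(X - 1) / S.ϖ ^ m, ?_, fun i hi => (key i hi).2⟩
  refine S.reg P _ (fun i hi => (key i hi).1) ⟨m, ?_⟩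
  rw [mul_div_cancel₀ _ hϖm]
  exact (S.B P).sub_mem hXB (S.B P).one_mem

theorem hasOrd_exists (i : Fin 2) {d : 𝓕} (hd : d ≠ 0) : ∃ n, (S.D i).HasOrd d n :=
  (S.D i).exists_unit d hd

/-- existence of the global normalisation modulo `ϖ ^ m`. -/
theorem exists_norm [CharP k p] (hp : p.Prime) {f : 𝓕}
    (hdec : ∀ P, ∃ z h d, S.LocDec f P z h d) {P₀ : S.Pt} (hP₀ : S.IsNode P₀) (m : ℕ)
    (hm2 : 2 ≤ m) (hmp : m ≤ p) :
    ∃ u ∈ S.C, u⁻¹ ∈ S.C ∧ u ≠ 0 ∧ ∃ g : Fin 2 → 𝓕, (∀ i, g i ∈ (S.D i).O) ∧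
      ∀ i, S.τ f / f * (S.τ u / u) = 1 + S.ϖ ^ m * g i := by
  induction m, hm2 using Nat.le_induction with
  | base =>
    obtain ⟨z, h, d, hP⟩ := hdec P₀
    have := fun i => base_step (S := S) hp i (S.on_node P₀ hP₀ i) hP
    choose g hg1 hg2 using this
    refine ⟨1, S.C.one_mem, by simp, one_ne_zero, g, hg1, fun i => ?_⟩
    rw [map_one, div_one, mul_one, hg2]
  | succ m hm ih =>
    obtain ⟨u, hu, hu', hu0, g, hg, hG⟩ := ih (by omega)
    have hmne : m ≠ p := by omega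
    -- the leading terms are regular everywhere
    have hreg : ∀ i, ∃ a : k, (S.D i).red (g i) = algebraMap k κ a := by
      intro i
      refine S.global i _ fun P hi => ?_
      obtain ⟨z, h, d, hP⟩ := hdec P
      have hd0 : d ≠ 0 := hP.2.2.1
      choose n hn using fun i => hasOrd_exists (S := S) i hd0
      obtain ⟨t, ht, hred⟩ := point_step (S := S) hp hP hu hu' (by omega) hg hG
        (n := n) (fun i _ => hn i)
      have := S.red_mem_R P i hi t ht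
      rw [hred i hi, if_neg hmne, sub_zero] at this
      exact this
    choose a ha using hreg
    have haa : a 0 = a 1 := by
      obtain ⟨z, h, d, hP⟩ := hdec P₀
      have hd0 : d ≠ 0 := hP.2.2.1
      choose n hn using fun i => hasOrd_exists (S := S) i hd0
      obtain ⟨t, ht, hred⟩ := point_step (S := S) hp hP hu hu' (by omega) hg hG
        (n := n) (fun i _ => hn i)
      refine S.agree P₀ hP₀ t ht a fun i => ?_
      rw [hred i (S.on_node P₀ hP₀ i), if_neg hmne, sub_zero, ha]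
    have hai : ∀ i, a i = a 0 := by
      intro i; fin_cases i
      · rfl
      · exact haa.symm
    -- the correcting constant
    obtain ⟨l, rfl⟩ : ∃ l, m = l + 1 := ⟨m - 1, by omega⟩
    have hl : ((l : ℕ) : k) ≠ 0 := by
      intro h0
      have := (CharP.cast_eq_zero_iff k p l).1 h0
      have h2 := Nat.le_of_dvd (by omega) this
      omega
    obtain ⟨γ, hγC, hγτ, hγ⟩ := S.lift (-(a 0) / (l * S.c))
    set v := 1 + S.ϖ ^ l * γ with hv
    have hϖl : S.ϖ ^ l ∈ S.C := S.C.pow_mem S.unif_mem_C l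
    have hvC : v ∈ S.C := S.C.add_mem S.C.one_mem (S.C.mul_mem hϖl hγC)
    have hvred : ∀ i, (S.D i).red v = 1 := by
      intro i
      obtain ⟨l', rfl⟩ : ∃ l', l = l' + 1 := ⟨l - 1, by omega⟩
      have h1 : S.ϖ ^ l' * γ ∈ (S.D i).O := S.C_le i (S.C.mul_mem (S.C.pow_mem S.unif_mem_C l') hγC)
      rw [hv, pow_succ', mul_assoc, red_add (S.D i).O.one_mem
        ((S.D i).O.mul_mem (S.D i).unif_mem h1), red_unif_mul h1, red_one, add_zero]
    have hv0 : v ≠ 0 := by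
      intro h0
      have := hvred 0
      rw [h0, red_zero] at this
      exact zero_ne_one this
    have hv' : v⁻¹ ∈ S.C := S.inv_mem_C v hvC ⟨0, by rw [hvred]; exact one_ne_zero⟩
    -- `τ v / v`
    have hτv : ∀ i, ∃ θ ∈ (S.D i).O, S.τ v / v = 1 + S.ϖ ^ (l + 1) * θ ∧
        (S.D i).red θ = - algebraMap k κ (a 0) := by
      intro i
      obtain ⟨η, hη, hη1, hη2⟩ := (cong_τ_unif (S := S) i).pow l
      have hγi := S.C_le i hγC
      have hvi := S.C_le i hvC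
      have hvi' := S.C_le i hv'
      have hvir : (S.D i).red v⁻¹ = 1 := by
        have : (S.D i).red (v * v⁻¹) = (S.D i).red v * (S.D i).red v⁻¹ := red_mul hvi hvi'
        rw [mul_inv_cancel₀ hv0, red_one, hvred, one_mul] at this
        exact this.symm
      refine ⟨η * γ * v⁻¹, (S.D i).O.mul_mem ((S.D i).O.mul_mem hη hγi) hvi', ?_, ?_⟩
      · have h1 : S.τ (S.ϖ ^ l) = S.ϖ ^ l * (1 + S.ϖ * η) := by
          rw [← hη1, map_pow, div_pow]
          have := S.unif_ne_zero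
          field_simp
        have h2 : S.τ v = v + S.ϖ ^ (l + 1) * (η * γ) := by
          rw [hv, map_add, map_one, map_mul, h1, hγτ]; ring
        rw [h2]; field_simp
      · rw [red_mul ((S.D i).O.mul_mem hη hγi) hvi', red_mul hη hγi, hvir, hη2, hγ, mul_one,
          map_div₀, map_neg, map_mul, map_natCast]
        have hl' : ((l : ℕ) : κ) ≠ 0 := by
          rw [← map_natCast (algebraMap k κ) l]
          exact (map_ne_zero _).2 hl
        have hc' : algebraMap k κ S.c ≠ 0 := (map_ne_zero _).2 S.c_ne_zero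
        field_simp
    have hnew : ∀ i, ∃ g' ∈ (S.D i).O,
        S.τ f / f * (S.τ (u * v) / (u * v)) = 1 + S.ϖ ^ (l + 1 + 1) * g' := by
      intro i
      obtain ⟨θ, hθ, hθ1, hθ2⟩ := hτv i
      have hm1 : g i + θ + S.ϖ ^ (l + 1) * (g i * θ) ∈ (S.D i).O :=
        (S.D i).O.add_mem ((S.D i).O.add_mem (hg i) hθ)
          ((S.D i).O.mul_mem ((S.D i).O.pow_mem (S.D i).unif_mem _)
            ((S.D i).O.mul_mem (hg i) hθ))
      have hm2 : S.ϖ ^ l * (g i * θ) ∈ (S.D i).O :=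
        (S.D i).O.mul_mem ((S.D i).O.pow_mem (S.D i).unif_mem _) ((S.D i).O.mul_mem (hg i) hθ)
      have hr0 : (S.D i).red (g i + θ + S.ϖ ^ (l + 1) * (g i * θ)) = 0 := by
        rw [pow_succ', mul_assoc, red_add ((S.D i).O.add_mem (hg i) hθ)
          ((S.D i).O.mul_mem (S.D i).unif_mem hm2), red_unif_mul hm2, add_zero,
          red_add (hg i) hθ, hθ2, ha, hai i, add_neg_cancel]
      obtain ⟨g', hg', hgg'⟩ := exists_of_red_eq_zero hm1 hr0
      refine ⟨g', hg', ?_⟩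
      have h1 : S.τ f / f * (S.τ (u * v) / (u * v)) =
          (S.τ f / f * (S.τ u / u)) * (S.τ v / v) := by
        rw [map_mul]; field_simp
      rw [h1, hG i, hθ1]
      have : (1 + S.ϖ ^ (l + 1) * g i) * (1 + S.ϖ ^ (l + 1) * θ) =
        1 + S.ϖ ^ (l + 1) * (g i + θ + S.ϖ ^ (l + 1) * (g i * θ)) := by ring
      rw [this, hgg']; ring
    choose g' hg'1 hg'2 using hnew
    refine ⟨u * v, S.C.mul_mem hu hvC, ?_, mul_ne_zero hu0 hv0, g', hg'1, hg'2⟩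
    rw [mul_inv]
    exact S.C.mul_mem hu' hv'

/-- **Constancy of the node orders.** If `f` has local decompositions `f = z h d ^ p` everywhere,
then the difference of the orders of `d` along the two components is, modulo `p`, the same at all
the nodes. -/
theorem star [CharP k p] (hp : p.Prime) {f : 𝓕}
    (hdec : ∀ P, ∃ z h d, S.LocDec f P z h d) {P Q : S.Pt} (hP : S.IsNode P) (hQ : S.IsNode Q)
    {z h d z' h' d' : 𝓕} (hPd : S.LocDec f P z h d) (hQd : S.LocDec f Q z' h' d')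
    {n n' : Fin 2 → ℤ} (hn : ∀ i, (S.D i).HasOrd d (n i)) (hn' : ∀ i, (S.D i).HasOrd d' (n' i)) :
    (p : ℤ) ∣ (n 1 - n 0) - (n' 1 - n' 0) := by
  obtain ⟨u, hu, hu', hu0, g, hg, hG⟩ := exists_norm (S := S) hp hdec hP p hp.two_le le_rfl
  have hreg : ∀ i, ∃ a : k, (S.D i).red (g i) = algebraMap k κ a := by
    intro i
    refine S.global i _ fun P hi => ?_
    obtain ⟨z, h, d, hP⟩ := hdec P
    have hd0 : d ≠ 0 := hP.2.2.1
    choose n hn using fun i => hasOrd_exists (S := S) i hd0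
    obtain ⟨t, ht, hred⟩ := point_step (S := S) hp hP hu hu' le_rfl hg hG
      (n := n) (fun i _ => hn i)
    have := S.R_add P i hi _ (S.red_mem_R P i hi t ht) (((n i : k) * S.c) ^ p)
    rw [hred i hi, if_pos rfl, sub_add_cancel] at this
    exact this
  choose a ha using hreg
  have node : ∀ {P : S.Pt}, S.IsNode P → ∀ {z h d : 𝓕}, S.LocDec f P z h d → ∀ {n : Fin 2 → ℤ},
      (∀ i, (S.D i).HasOrd d (n i)) →
      a 1 - a 0 = (((n 1 - n 0 : ℤ) : k) * S.c) ^ p := by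
    intro P hP z h d hPd n hn
    obtain ⟨t, ht, hred⟩ := point_step (S := S) hp hPd hu hu' le_rfl hg hG
      (n := n) (fun i _ => hn i)
    have := S.agree P hP t ht (fun i => a i - ((n i : k) * S.c) ^ p) fun i => by
      rw [hred i (S.on_node P hP i), if_pos rfl, ha, map_sub]
    have hF : Fact p.Prime := ⟨hp⟩
    have h2 : (((n 1 - n 0 : ℤ) : k) * S.c) ^ p =
        ((n 1 : k) * S.c) ^ p - ((n 0 : k) * S.c) ^ p := by
      rw [← sub_pow_char, ← sub_mul]; push_cast; rfl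
    rw [h2]
    linear_combination -this
  have h1 := node hP hPd hn
  have h2 := node hQ hQd hn'
  have hF : Fact p.Prime := ⟨hp⟩
  have h3 : ((((n 1 - n 0) - (n' 1 - n' 0) : ℤ) : k) * S.c) ^ p = 0 := by
    have : ((((n 1 - n 0) - (n' 1 - n' 0) : ℤ) : k) * S.c) =
      ((n 1 - n 0 : ℤ) : k) * S.c - ((n' 1 - n' 0 : ℤ) : k) * S.c := by push_cast; ring
    rw [this, sub_pow_char, ← h1, ← h2, sub_self]
  have h4 : (((n 1 - n 0) - (n' 1 - n' 0) : ℤ) : k) = 0 := by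
    rcases mul_eq_zero.1 (pow_eq_zero_iff hp.ne_zero |>.1 h3) with h | h
    · exact h
    · exact absurd h S.c_ne_zero
  exact (CharP.intCast_eq_zero_iff k p _).1 h4

end Datum

end Fermat.Agent.Star
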