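import Fermat.Agent.Star.Node2
import Fermat.Agent.FF.Norm

/-!
# Local decompositions of functions whose divisor is divisible by `p`
-/

set_option autoImplicit false
set_option linter.unusedSectionVars false

noncomputable section

open AlgebraicCurve WithZero Module
open Fermat.Agent.RR Fermat.Agent.FF

namespace Fermat.Agent.Star

variable {K F k F' : Type*} [Field K] [Field F] [Algebra K F] [Field k] [Field F']
    [Algebra k F'] [IsAlgClosed K] [IsFF K F] [IsAlgClosed k] [IsFF k F']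

namespace Model

variable {M : Model K F k F'}

open SemilinearAut

theorem smul_zpow_fix {g : SemilinearAut K F} {y : F} (h : g • y = y) (n : ℤ) :
    g • y ^ n = y ^ n := by
  rw [smul_def, map_zpow₀, ← smul_def, h]

theorem smul_pow_fix {g : SemilinearAut K F} {y : F} (h : g • y = y) (n : ℕ) :
    g • y ^ n = y ^ n := by
  rw [smul_pow', h]

namespace Pt

variable {P : M.Pt} {hM : M.Good}

include hM in
theorem smul_mem_tube {g : SemilinearAut K F} (hg : g ∈ M.G) {v : Place K F} (hv : v ∈ P.tube) :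
    g • v ∈ P.tube := by
  have hv' := hv
  obtain ⟨h1, h2, h3⟩ := hv
  have hx := M.x_smul g hg P.e
  have hvs := val_smul v g _ h1
  rw [hx] at hvs
  refine ⟨hvs.1, ?_, fun b hb => ?_⟩
  · rw [hvs.2]; exact smul_mem_A hg h2
  · have hb' : g⁻¹ • b ∈ M.B P.e := smul_mem_B (M.G.inv_mem hg) hb
    have h4 := val_smul v g _ (hb'.2 v h1)
    rw [smul_inv_smul] at h4
    rw [h4.2, cres_smul hg (hM.eval_mem _ _ hb' v h1 h2), h3 _ hb',
      φ_smul (M.G.inv_mem hg) hb]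

theorem val_smul_fix {g : SemilinearAut K F} {v : Place K F} {t : F} (ht : g • t = t)
    (htv : t ∈ v.toValuationSubring) : val (g • v) t = baseAut g (val v t) := by
  have := (val_smul v g t htv).2
  rwa [ht] at this

include hM in
/-- a function with prescribed divisor on the tube -/
theorem exists_div {t : F} (htL : t ∈ P.L hM) (htfix : ∀ g ∈ M.G, g • t = t)
    (hinj : ∀ Q ∈ P.tube, ∀ V ∈ P.tube, val V t = val Q t → V = Q)
    (hsimple : ∀ Q ∈ P.tube, Q.ord (t - algebraMap K F (val Q t)) = 1)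
    {H : Subgroup (SemilinearAut K F)} (hH : H ≤ M.G) {f : F}
    (hfix : ∀ g ∈ H, g • f = f) {n : ℤ} (hn : ∀ v ∈ P.tube, n ∣ v.ord f) :
    ∃ d : F, d ≠ 0 ∧ (∀ g ∈ H, g • d = d) ∧ ∀ v ∈ P.tube, v.ord f = n * v.ord d := by
  classical
  set S : Finset (Place K F) := (finite_ord_ne_zero (K := K) f).toFinset.filter (· ∈ P.tube)
    with hS
  have hmemS : ∀ v, v ∈ S ↔ v.ord f ≠ 0 ∧ v ∈ P.tube := by
    intro v; rw [hS, Finset.mem_filter, Set.Finite.mem_toFinset]; rfl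
  have htne : ∀ Q ∈ P.tube, t - algebraMap K F (val Q t) ≠ 0 := by
    intro Q hQ h0
    have := hsimple Q hQ
    rw [h0, Place.ord_zero] at this
    exact zero_ne_one this
  have hSne : ∀ Q ∈ S, (t - algebraMap K F (val Q t)) ^ (Q.ord f / n) ≠ 0 :=
    fun Q hQ => zpow_ne_zero _ (htne Q ((hmemS Q).1 hQ).2)
  refine ⟨∏ Q ∈ S, (t - algebraMap K F (val Q t)) ^ (Q.ord f / n),
    Finset.prod_ne_zero_iff.2 hSne, ?_, ?_⟩
  · intro g hg
    rw [smul_def, map_prod]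
    refine Finset.prod_bij (fun Q _ => g • Q) ?_ ?_ ?_ ?_
    · intro Q hQ
      obtain ⟨h1, h2⟩ := (hmemS Q).1 hQ
      refine (hmemS _).2 ⟨?_, smul_mem_tube (hM := hM) (hH hg) h2⟩
      rw [← hfix g hg, SemilinearAut.ord_smul]; exact h1
    · intro Q _ Q' _ h
      exact MulAction.injective g h
    · intro Q hQ
      obtain ⟨h1, h2⟩ := (hmemS Q).1 hQ
      refine ⟨g⁻¹ • Q, (hmemS _).2 ⟨?_, smul_mem_tube (hM := hM) (M.G.inv_mem (hH hg)) h2⟩,
        smul_inv_smul g Q⟩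
      rw [← hfix g⁻¹ (H.inv_mem hg), SemilinearAut.ord_smul]; exact h1
    · intro Q hQ
      obtain ⟨h1, h2⟩ := (hmemS Q).1 hQ
      rw [map_zpow₀, ← smul_def, smul_sub, SemilinearAut.smul_algebraMap, htfix g (hH hg),
        val_smul_fix (htfix g (hH hg)) (val_of_tube (hM := hM) h2 htL).1]
      congr 2
      conv_rhs => rw [← hfix g hg]
      rw [SemilinearAut.ord_smul]
  · intro v hv
    rw [ord_prod v S _ hSne]
    have h1 : ∀ Q ∈ S, Q ≠ v → v.ord ((t - algebraMap K F (val Q t)) ^ (Q.ord f / n)) = 0 := by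
      intro Q hQ hne
      rw [v.ord_zpow, ord_sub_of_ne (hM := hM) htL hv, mul_zero]
      intro h
      exact hne (hinj Q ((hmemS Q).1 hQ).2 v hv h).symm
    by_cases hvS : v ∈ S
    · rw [Finset.sum_eq_single v (fun Q hQ hne => h1 Q hQ hne) (fun h => absurd hvS h),
        v.ord_zpow, hsimple v hv, mul_one]
      exact (Int.mul_ediv_cancel' (hn v hv)).symm
    · rw [Finset.sum_eq_zero fun Q hQ => h1 Q hQ (by rintro rfl; exact hvS hQ), mul_zero]
      by_contra hne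
      exact hvS ((hmemS v).2 ⟨hne, hv⟩)

theorem ord_mul_const {v : Place K F} {d : F} {c : K} (hd : d ≠ 0) (hc : c ≠ 0) :
    v.ord (d * (algebraMap K F c)⁻¹) = v.ord d := by
  rw [v.ord_mul hd (inv_ne_zero ((_root_.map_ne_zero _).2 hc)), Place.ord_inv, ord_algebraMap]
  simp

theorem smul_scaled {g : SemilinearAut K F} {d : F} {c : K} (hd : g • d = d)
    (hc : baseAut g c = c) : g • (d * (algebraMap K F c)⁻¹) = d * (algebraMap K F c)⁻¹ :=
  smul_mul_fix hd (smul_inv_fix (smul_algebraMap_fix hc))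

/-- **Decomposition at a node.** -/
theorem node_dec {U : UnitData M} (C : Coord U hM P) (hon : ∀ i, i ∈ P.on)
    {H : Subgroup (SemilinearAut K F)} (hH : H ≤ M.G) {f : F} (f0 : f ≠ 0) (hO : f ∈ M.O 0)
    (hO' : f⁻¹ ∈ M.O 0) (hfix : ∀ g ∈ H, g • f = f) {n : ℕ}
    (hn : ∀ v ∈ P.tube, (n : ℤ) ∣ v.ord f) :
    ∃ (a : ℤ) (h d : F), h ≠ 0 ∧ h ∈ P.L hM ∧ h⁻¹ ∈ P.L hM ∧ (∀ g ∈ H, g • h = h) ∧
      d ≠ 0 ∧ (∀ g ∈ H, g • d = d) ∧ d ∈ M.O 0 ∧ d⁻¹ ∈ M.O 0 ∧ f = C.X ^ a * h * d ^ n ∧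
      (n : ℤ) ∣ (P.wOn hM 0).ord (M.red 0 f) - a := by
  have hpw0 : (M.p : K) ^ C.w ≠ 0 := pow_ne_zero _ M.p_ne_zero
  obtain ⟨d₀, hd₀0, hd₀fix, hd₀ord⟩ := exists_div (hM := hM) C.X_mem C.X_fix
    (fun Q hQ V hV h => unique_node (hM := hM) (hon 0) (hon 1) hpw0 C.X_mem (C.Y_mem hon)
      C.X_mul_Y C.ord_X C.red_X_one C.ord_X' (C.red_Y_zero hon) hV hQ h)
    (fun Q hQ => C.simple_node hon hQ) hH hfix hn
  obtain ⟨c, hc0, hc1, hc2, hc3⟩ := M.scale 0 d₀ hd₀0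
  have hcF : algebraMap K F c ≠ 0 := (_root_.map_ne_zero _).2 hc0
  have hdord : ∀ v : Place K F, v.ord (d₀ * (algebraMap K F c)⁻¹) = v.ord d₀ := fun v =>
    ord_mul_const hd₀0 hc0
  have hdfix : ∀ g ∈ H, g • (d₀ * (algebraMap K F c)⁻¹) = d₀ * (algebraMap K F c)⁻¹ :=
    fun g hg => smul_scaled (hd₀fix g hg) (hc3 g (hH hg) (hd₀fix g hg))
  have hd0 : d₀ * (algebraMap K F c)⁻¹ ≠ 0 := mul_ne_zero hd₀0 (inv_ne_zero hcF)
  set d := d₀ * (algebraMap K F c)⁻¹ with hd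
  have hdn0 : d ^ n ≠ 0 := pow_ne_zero _ hd0
  set f₂ := f * (d ^ n)⁻¹ with hf₂
  have hf₂0 : f₂ ≠ 0 := mul_ne_zero f0 (inv_ne_zero hdn0)
  have hf₂ord : ∀ v ∈ P.tube, v.ord f₂ = 0 := by
    intro v hv
    rw [hf₂, v.ord_mul f0 (inv_ne_zero hdn0), Place.ord_inv, ord_pow, hdord, hd₀ord v hv]; ring
  have hdnO : (d ^ n)⁻¹ ∈ M.O 0 := by rw [← inv_pow]; exact pow_mem hc2 n
  have hf₂O : f₂ ∈ M.O 0 := mul_mem hO hdnO
  have hf₂O' : f₂⁻¹ ∈ M.O 0 := by
    rw [hf₂, mul_inv, inv_inv]; exact mul_mem hO' (pow_mem hc1 n)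
  have hf₂fix : ∀ g ∈ H, g • f₂ = f₂ := fun g hg =>
    smul_mul_fix (hfix g hg) (smul_inv_fix (smul_pow_fix (hdfix g hg) n))
  have hrd : M.red 0 d ≠ 0 := (red_ne_zero_iff hc1).2 ⟨hd0, hc2⟩
  have hrf₂ : M.red 0 f₂ ≠ 0 := (red_ne_zero_iff hf₂O).2 ⟨hf₂0, hf₂O'⟩
  have hff₂ : f = f₂ * d ^ n := by rw [hf₂]; field_simp
  have hrf : M.red 0 f = M.red 0 f₂ * M.red 0 d ^ n := by
    conv_lhs => rw [hff₂]
    rw [red_mul hf₂O (pow_mem hc1 n), red_pow hc1]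
  obtain ⟨h1, h2⟩ := C.node_unit hon hf₂0 hf₂O hf₂O' hf₂ord rfl
  refine ⟨(P.wOn hM 0).ord (M.red 0 f₂), _, d, mul_ne_zero hf₂0 (zpow_ne_zero _ C.X_ne), h1, h2, fun g hg =>
    smul_mul_fix (hf₂fix g hg) (smul_zpow_fix (C.X_fix g (hH hg)) _), hd0, hdfix, hc1, hc2, ?_, ?_⟩
  · rw [zpow_neg]
    have := zpow_ne_zero ((P.wOn hM 0).ord (M.red 0 f₂)) C.X_ne
    rw [hff₂]; field_simp
  · rw [hrf, Place.ord_mul _ hrf₂ (pow_ne_zero _ hrd), ord_pow, add_sub_cancel_left]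
    exact dvd_mul_right _ _

/-- **Decomposition at a smooth point.** -/
theorem smooth_dec {i : Fin 2} (hon : P.on = {i})
    {H : Subgroup (SemilinearAut K F)} (hH : H ≤ M.G) {f : F} (f0 : f ≠ 0)
    (hfix : ∀ g ∈ H, g • f = f) {n : ℕ}
    (hn : ∀ v ∈ P.tube, (n : ℤ) ∣ v.ord f) :
    ∃ (c : K) (h d : F), c ≠ 0 ∧ (∀ g ∈ H, baseAut g c = c) ∧
      h ≠ 0 ∧ h ∈ P.L hM ∧ h⁻¹ ∈ P.L hM ∧ (∀ g ∈ H, g • h = h) ∧
      d ≠ 0 ∧ (∀ g ∈ H, g • d = d) ∧ d ∈ M.O i ∧ d⁻¹ ∈ M.O i ∧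
      f = algebraMap K F c * h * d ^ n := by
  have hi : i ∈ P.on := by rw [hon]; rfl
  obtain ⟨π, hπ0, hπ⟩ := exists_uniformizer (P.wOn hM i)
  obtain ⟨t, htL, htfix, htr⟩ := exists_lift (hM := hM) hi
    (mem_place_of_ord_nonneg _ (by rw [hπ]; exact zero_le_one))
  have htw : (P.wOn hM i).ord (M.red i t) = 1 := by rw [htr, hπ]
  obtain ⟨d₀, hd₀0, hd₀fix, hd₀ord⟩ := exists_div (hM := hM) htL htfix
    (fun Q hQ V hV h => unique_smooth (hM := hM) hon htL htw hV hQ h)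
    (fun Q hQ => simple_smooth (hM := hM) hon htL htw hQ) hH hfix hn
  obtain ⟨c, hc0, hc1, hc2, hc3⟩ := M.scale i d₀ hd₀0
  have hcF : algebraMap K F c ≠ 0 := (_root_.map_ne_zero _).2 hc0
  have hdord : ∀ v : Place K F, v.ord (d₀ * (algebraMap K F c)⁻¹) = v.ord d₀ := fun v =>
    ord_mul_const hd₀0 hc0
  have hdfix : ∀ g ∈ H, g • (d₀ * (algebraMap K F c)⁻¹) = d₀ * (algebraMap K F c)⁻¹ :=
    fun g hg => smul_scaled (hd₀fix g hg) (hc3 g (hH hg) (hd₀fix g hg))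
  have hd0 : d₀ * (algebraMap K F c)⁻¹ ≠ 0 := mul_ne_zero hd₀0 (inv_ne_zero hcF)
  set d := d₀ * (algebraMap K F c)⁻¹ with hd
  have hdn0 : d ^ n ≠ 0 := pow_ne_zero _ hd0
  set f₂ := f * (d ^ n)⁻¹ with hf₂
  have hf₂0 : f₂ ≠ 0 := mul_ne_zero f0 (inv_ne_zero hdn0)
  have hf₂ord : ∀ v ∈ P.tube, v.ord f₂ = 0 := by
    intro v hv
    rw [hf₂, v.ord_mul f0 (inv_ne_zero hdn0), Place.ord_inv, ord_pow, hdord, hd₀ord v hv]; ring
  have hf₂fix : ∀ g ∈ H, g • f₂ = f₂ := fun g hg =>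
    smul_mul_fix (hfix g hg) (smul_inv_fix (smul_pow_fix (hdfix g hg) n))
  obtain ⟨b, hb0, hb1, hb2, hb3⟩ := M.scale i f₂ hf₂0
  have hbF : algebraMap K F b ≠ 0 := (_root_.map_ne_zero _).2 hb0
  have hbfix : ∀ g ∈ H, baseAut g b = b := fun g hg => hb3 g (hH hg) (hf₂fix g hg)
  have hh0 : f₂ * (algebraMap K F b)⁻¹ ≠ 0 := mul_ne_zero hf₂0 (inv_ne_zero hbF)
  have hhord : ∀ v ∈ P.tube, v.ord (f₂ * (algebraMap K F b)⁻¹) = 0 := fun v hv => by
    rw [ord_mul_const hf₂0 hb0, hf₂ord v hv]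
  refine ⟨b, f₂ * (algebraMap K F b)⁻¹, d, hb0, hbfix, hh0, ?_, ?_, fun g hg =>
    smul_scaled (hf₂fix g hg) (hbfix g hg), hd0, hdfix, hc1, hc2, ?_⟩
  · exact mem_L_of_regular hM (fun i' hi' => by
      have : i' = i := by rw [hon] at hi'; exact hi'
      subst this; exact hb1) fun v hv => mem_place_of_ord_nonneg v (hhord v hv).ge
  · exact mem_L_of_regular hM (fun i' hi' => by
      have : i' = i := by rw [hon] at hi'; exact hi'
      subst this; exact hb2) fun v hv => mem_place_of_ord_nonneg v (by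
        rw [Place.ord_inv, hhord v hv]; simp)
  · rw [hf₂]; field_simp

/-- divisibility at smooth points -/
theorem dvd_smooth {i : Fin 2} (hon : P.on = {i}) {f : F} (f0 : f ≠ 0) (hO : f ∈ M.O i)
    (hO' : f⁻¹ ∈ M.O i) {n : ℕ}
    (hn : ∀ v ∈ P.tube, (n : ℤ) ∣ v.ord f) : (n : ℤ) ∣ (P.wOn hM i).ord (M.red i f) := by
  have hi : i ∈ P.on := by rw [hon]; rfl
  obtain ⟨c, h, d, hc0, -, hh0, hh, hh', -, hd0, -, hd, hd', hf⟩ := smooth_dec (hM := hM) hon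
    (H := ⊥) bot_le f0 (fun g hg => by rw [Subgroup.mem_bot.1 hg, one_smul]) hn
  have hcF : algebraMap K F c ≠ 0 := (_root_.map_ne_zero _).2 hc0
  have hdn0 := pow_ne_zero n hd0
  have hhO := L_le_O (hM := hM) hi hh
  have hhO' := L_le_O (hM := hM) hi hh'
  have hcO : algebraMap K F c ∈ M.O i := by
    have : algebraMap K F c = f * h⁻¹ * (d⁻¹) ^ n := by rw [hf, inv_pow]; field_simp
    rw [this]; exact mul_mem (mul_mem hO hhO') (pow_mem hd' n)
  have hcO' : (algebraMap K F c)⁻¹ ∈ M.O i := by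
    have : (algebraMap K F c)⁻¹ = f⁻¹ * h * d ^ n := by rw [hf]; field_simp
    rw [this]; exact mul_mem (mul_mem hO' hhO) (pow_mem hd n)
  have hcA : c ∈ M.A := (M.mem_O_iff i c).1 hcO
  have hrc : M.red i (algebraMap K F c) ≠ 0 := (red_ne_zero_iff hcO).2 ⟨hcF, hcO'⟩
  obtain ⟨hrh, hrh'⟩ := red_ne_zero_of_unit (hM := hM) hi hh0 hh hh'
  have hrd : M.red i d ≠ 0 := (red_ne_zero_iff hd).2 ⟨hd0, hd'⟩
  rw [hf, red_mul (mul_mem hcO hhO) (pow_mem hd n), red_mul hcO hhO, red_pow hd,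
    Place.ord_mul _ (mul_ne_zero hrc hrh) (pow_ne_zero _ hrd), Place.ord_mul _ hrc hrh, hrh',
    ord_pow, red_algebraMap hcA, ord_algebraMap]
  simp

theorem on_cases : (∀ i, i ∈ P.on) ∨ P.on = {P.i} := by
  by_cases h : ∀ i, i ∈ P.on
  · exact Or.inl h
  · right
    push Not at h
    obtain ⟨i, hi⟩ := h
    ext i'
    rw [Set.mem_singleton_iff]
    constructor
    · intro h'
      by_contra hne
      have : i = i' := by
        have hiP : i ≠ P.i := fun h => hi (h ▸ i_mem_on)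
        omega
      exact hi (this ▸ h')
    · rintro rfl; exact i_mem_on

/-- the unit has no zero at a smooth point of the component `0` outside the cusps -/
theorem ord_unit_smooth (U : UnitData M) (hon : P.on = {0}) (he : P.e = 0) :
    (P.wOn hM 0).ord (M.red 0 U.u) = 0 := by
  have hi : (0 : Fin 2) ∈ P.on := by rw [hon]; rfl
  have hord : ∀ v ∈ P.tube, v.ord U.u = 0 := fun v hv => U.ord_u v (by
    have := x_mem_of_tube hv
    rwa [he] at this)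
  have h1 : U.u ∈ P.L hM := mem_L_of_regular hM (fun i' hi' => by
      have : i' = 0 := by rw [hon] at hi'; exact hi'
      subst this; exact U.u_mem) fun v hv => mem_place_of_ord_nonneg v (hord v hv).ge
  have h2 : U.u⁻¹ ∈ P.L hM := mem_L_of_regular hM (fun i' hi' => by
      have : i' = 0 := by rw [hon] at hi'; exact hi'
      subst this; exact U.u_inv_mem) fun v hv => mem_place_of_ord_nonneg v (by
        rw [Place.ord_inv, hord v hv]; simp)
  exact (red_ne_zero_of_unit (hM := hM) hi U.u_ne h1 h2).2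

end Pt

end Model

end Fermat.Agent.Star
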