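import Fermat.Agent.Star.Reg

/-!
# Discreteness of the constants fixed by a subgroup of finite index
-/

set_option autoImplicit false
set_option linter.unusedSectionVars false

noncomputable section

open AlgebraicCurve WithZero Module
open Fermat.Agent.RR Fermat.Agent.FF

namespace Fermat.Agent.Star

variable {K F k F' : Type*} [Field K] [Field F] [Algebra K F] [Field k] [Field F']
    [Algebra k F']

namespace Model

variable {M : Model K F k F'}

open SemilinearAut

theorem baseAut_inv_apply (g : SemilinearAut K F) (a : K) :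
    baseAut g⁻¹ (baseAut g a) = a := by
  rw [baseAut_inv]; exact (baseAut g).symm_apply_apply a

theorem baseAut_apply_inv (g : SemilinearAut K F) (a : K) :
    baseAut g (baseAut g⁻¹ a) = a := by
  rw [baseAut_inv]; exact (baseAut g).apply_symm_apply a

theorem baseAut_mul_apply (g h : SemilinearAut K F) (a : K) :
    baseAut (g * h) a = baseAut g (baseAut h a) := rfl

theorem finite_orbit_const (a : K) : {x : K | ∃ g ∈ M.G, baseAut g a = x}.Finite := by
  have h := M.finite_orbit (algebraMap K F a)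
  refine Set.Finite.of_finite_image (f := algebraMap K F) ?_ (algebraMap K F).injective.injOn
  refine h.subset ?_
  rintro _ ⟨x, ⟨g, hg, rfl⟩, rfl⟩
  exact ⟨g, hg, SemilinearAut.smul_algebraMap g a⟩

theorem exists_pow_fix {g : SemilinearAut K F} (hg : g ∈ M.G) (a : K) :
    ∃ n : ℕ, 0 < n ∧ baseAut (g ^ n) a = a := by
  have h := finite_orbit_const (M := M) a
  have h1 : ¬ Function.Injective (fun n : ℕ => baseAut (g ^ n) a) := by
    intro hinj
    have h2 : (Set.range fun n : ℕ => baseAut (g ^ n) a).Finite :=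
      h.subset (by rintro _ ⟨n, rfl⟩; exact ⟨g ^ n, M.G.pow_mem hg n, rfl⟩)
    exact Set.infinite_range_of_injective hinj h2
  rw [Function.Injective] at h1
  push Not at h1
  obtain ⟨m, n, hmn, hne⟩ := h1
  wlog hlt : m < n generalizing m n
  · exact this n m hmn.symm (Ne.symm hne) (by omega)
  refine ⟨n - m, by omega, ?_⟩
  have h2 : g ^ n = g ^ m * g ^ (n - m) := by rw [← pow_add]; congr 1; omega
  rw [h2, baseAut_mul_apply] at hmn
  exact ((baseAut (g ^ m)).injective hmn).symm

theorem mem_nonunits_smul {g : SemilinearAut K F} (hg : g ∈ M.G) {a : K}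
    (ha : a ∈ M.A.nonunits) : baseAut g a ∈ M.A.nonunits := by
  have haA : a ∈ M.A := ValuationSubring.nonunits_subset (A := M.A) ha
  rw [← cres_eq_zero_iff (smul_mem_A hg haA), cres_smul hg haA, cres_eq_zero_iff haA]
  exact ha

/-- The valuation is invariant. -/
theorem valuation_smul {g : SemilinearAut K F} (hg : g ∈ M.G) (a : K) :
    M.A.valuation (baseAut g a) = M.A.valuation a := by
  rcases eq_or_ne a 0 with rfl | ha0
  · rw [map_zero]
  have key : ∀ g ∈ M.G, ¬ M.A.valuation (baseAut g a) < M.A.valuation a := by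
    intro g hg hlt
    have hva : M.A.valuation a ≠ 0 := (Valuation.ne_zero_iff _).2 ha0
    have h1 : baseAut g a * a⁻¹ ∈ M.A.nonunits := by
      rw [ValuationSubring.mem_nonunits_iff, map_mul, map_inv₀]
      calc M.A.valuation (baseAut g a) * (M.A.valuation a)⁻¹
          < M.A.valuation a * (M.A.valuation a)⁻¹ :=
            mul_lt_mul_of_pos_right hlt (zero_lt_iff.2 (inv_ne_zero hva))
        _ = 1 := mul_inv_cancel₀ hva
    have h2 : ∀ n : ℕ, baseAut (g ^ (n + 1)) a * (baseAut (g ^ n) a)⁻¹ ∈ M.A.nonunits := by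
      intro n
      have := mem_nonunits_smul (M := M) (M.G.pow_mem hg n) h1
      rw [map_mul, map_inv₀, ← baseAut_mul_apply, ← pow_succ] at this
      exact this
    have h3 : ∀ n : ℕ, 0 < n → M.A.valuation (baseAut (g ^ n) a) < M.A.valuation a := by
      intro n hn
      induction n, hn using Nat.le_induction with
      | base => simpa using hlt
      | succ n _ ih =>
        refine lt_trans ?_ ih
        have h4 := h2 n
        have h5 : baseAut (g ^ n) a ≠ 0 := by simpa using ha0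
        have h6 : M.A.valuation (baseAut (g ^ n) a) ≠ 0 := (Valuation.ne_zero_iff _).2 h5
        rw [ValuationSubring.mem_nonunits_iff, map_mul, map_inv₀] at h4
        calc M.A.valuation (baseAut (g ^ (n + 1)) a)
            = M.A.valuation (baseAut (g ^ (n + 1)) a) * (M.A.valuation (baseAut (g ^ n) a))⁻¹ *
              M.A.valuation (baseAut (g ^ n) a) := by
                rw [inv_mul_cancel_right₀ h6]
          _ < 1 * M.A.valuation (baseAut (g ^ n) a) :=
              mul_lt_mul_of_pos_right h4 (zero_lt_iff.2 h6)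
          _ = _ := one_mul _
    obtain ⟨n, hn, hfix⟩ := exists_pow_fix (M := M) hg a
    have := h3 n hn
    rw [hfix] at this
    exact lt_irrefl _ this
  refine le_antisymm ?_ (not_lt.1 (key g hg))
  -- apply the inverse
  by_contra hcon
  rw [not_le] at hcon
  have hva : M.A.valuation a ≠ 0 := (Valuation.ne_zero_iff _).2 ha0
  have hb0 : baseAut g a ≠ 0 := by simpa using ha0
  have hvb : M.A.valuation (baseAut g a) ≠ 0 := (Valuation.ne_zero_iff _).2 hb0
  have h1 : a * (baseAut g a)⁻¹ ∈ M.A.nonunits := by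
    rw [ValuationSubring.mem_nonunits_iff, map_mul, map_inv₀]
    calc M.A.valuation a * (M.A.valuation (baseAut g a))⁻¹
        < M.A.valuation (baseAut g a) * (M.A.valuation (baseAut g a))⁻¹ :=
          mul_lt_mul_of_pos_right hcon (zero_lt_iff.2 (inv_ne_zero hvb))
      _ = 1 := mul_inv_cancel₀ hvb
  have h2 := mem_nonunits_smul (M := M) (M.G.inv_mem hg) h1
  rw [map_mul, map_inv₀, baseAut_inv_apply, ValuationSubring.mem_nonunits_iff, map_mul,
    map_inv₀] at h2
  apply key g⁻¹ (M.G.inv_mem hg)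
  calc M.A.valuation (baseAut g⁻¹ a)
      = M.A.valuation (baseAut g⁻¹ a) * (M.A.valuation a)⁻¹ * M.A.valuation a := by
        rw [inv_mul_cancel_right₀ hva]
    _ < 1 * M.A.valuation a := mul_lt_mul_of_pos_right h2 (zero_lt_iff.2 hva)
    _ = _ := one_mul _

/-- the subgroup of `G` fixing a finite set of functions -/
def Fix (M : Model K F k F') (s : Finset F) : Subgroup (SemilinearAut K F) where
  carrier := {g | g ∈ M.G ∧ ∀ y ∈ s, g • y = y}
  one_mem' := ⟨M.G.one_mem, fun y _ => one_smul _ y⟩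
  mul_mem' := fun {a b} ha hb => ⟨M.G.mul_mem ha.1 hb.1, fun y hy => by
    rw [mul_smul, hb.2 y hy, ha.2 y hy]⟩
  inv_mem' := fun {a} ha => ⟨M.G.inv_mem ha.1, fun y hy => by
    conv_lhs => rw [← ha.2 y hy]
    exact inv_smul_smul a y⟩

theorem mem_Fix {s : Finset F} {g : SemilinearAut K F} :
    g ∈ M.Fix s ↔ g ∈ M.G ∧ ∀ y ∈ s, g • y = y := Iff.rfl

theorem Fix_anti {s t : Finset F} (h : s ⊆ t) : M.Fix t ≤ M.Fix s :=
  fun _ hg => ⟨hg.1, fun y hy => hg.2 y (h hy)⟩

theorem valuation_p_lt : M.A.valuation (M.p : K) < 1 :=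
  (ValuationSubring.mem_nonunits_iff (A := M.A)).1 M.p_mem

theorem valuation_p_ne : M.A.valuation (M.p : K) ≠ 0 := (Valuation.ne_zero_iff _).2 M.p_ne_zero

/-- for `G`-fixed constants the valuation is a power of that of `p`. -/
theorem valuation_of_fixed {a : K} (ha0 : a ≠ 0) (ha : ∀ g ∈ M.G, baseAut g a = a) :
    ∃ n : ℤ, M.A.valuation a = M.A.valuation (M.p : K) ^ n := by
  obtain ⟨n, h1, h2⟩ := M.disc a ha0 ha
  refine ⟨-n, ?_⟩
  have h3 : M.A.valuation (a * (M.p : K) ^ n) = 1 := by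
    apply le_antisymm ((M.A.valuation_le_one_iff _).2 h1)
    have h4 := (M.A.valuation_le_one_iff _).2 h2
    rw [map_inv₀] at h4
    have h5 : M.A.valuation (a * (M.p : K) ^ n) ≠ 0 :=
      (Valuation.ne_zero_iff _).2 (mul_ne_zero ha0 (zpow_ne_zero _ M.p_ne_zero))
    exact (inv_le_one₀ (zero_lt_iff.2 h5)).1 h4
  rw [map_mul, map_zpow₀] at h3
  rw [zpow_neg]
  exact eq_inv_of_mul_eq_one_left h3

/-- uniform exponent -/
theorem exists_exponent (s : Finset F) : ∃ D : ℕ, 0 < D ∧ ∀ a : K, a ≠ 0 →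
    (∀ g ∈ M.Fix s, baseAut g a = a) →
      ∃ n : ℤ, M.A.valuation a ^ D = M.A.valuation (M.p : K) ^ n := by
  classical
  -- the orbit of the tuple
  set T : Set (s → F) := {t | ∃ g ∈ M.G, ∀ y : s, g • (y : F) = t y} with hT
  have hTfin : T.Finite := by
    have h1 : (Set.univ.pi fun y : s => {x : F | ∃ g ∈ M.G, g • (y : F) = x}).Finite :=
      Set.Finite.pi (fun y => M.finite_orbit y)
    refine h1.subset ?_
    rintro t ⟨g, hg, ht⟩ y _
    exact ⟨g, hg, ht y⟩
  have : Fintype T := hTfin.fintype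
  refine ⟨(Fintype.card T).factorial, Nat.factorial_pos _, fun a ha0 ha => ?_⟩
  set O : Finset K := (finite_orbit_const (M := M) a).toFinset with hO
  have hmemO : ∀ x, x ∈ O ↔ ∃ g ∈ M.G, baseAut g a = x := by
    intro x; rw [hO, Set.Finite.mem_toFinset]; rfl
  have hOcard : O.card ≤ Fintype.card T := by
    -- choose a representative for each element of the orbit
    have hch : ∀ x : O, ∃ g ∈ M.G, baseAut g a = (x : K) := fun x => (hmemO x).1 x.2
    choose g hg hgx using hch
    have hinj : Function.Injective (fun x : O => (⟨fun y => g x • (y : F), g x, hg x,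
        fun _ => rfl⟩ : T)) := by
      intro x x' hxx
      have h1 : ∀ y : s, g x • (y : F) = g x' • (y : F) := fun y =>
        congrFun (congrArg Subtype.val hxx) y
      have h2 : (g x')⁻¹ * g x ∈ M.Fix s := by
        refine ⟨M.G.mul_mem (M.G.inv_mem (hg x')) (hg x), fun y hy => ?_⟩
        rw [mul_smul, h1 ⟨y, hy⟩]
        exact inv_smul_smul _ _
      have h3 := ha _ h2
      apply Subtype.ext
      rw [← hgx x, ← hgx x']
      conv_rhs => rw [← h3]
      rw [baseAut_mul_apply, baseAut_apply_inv]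
    have := Fintype.card_le_of_injective _ hinj
    rwa [Fintype.card_coe] at this
  have hOpos : 0 < O.card := Finset.card_pos.2 ⟨a, (hmemO a).2 ⟨1, M.G.one_mem, rfl⟩⟩
  -- the norm
  set N := ∏ x ∈ O, x with hN
  have hxne : ∀ x ∈ O, x ≠ 0 := by
    intro x hx
    obtain ⟨g, -, rfl⟩ := (hmemO x).1 hx
    simpa using ha0
  have hN0 : N ≠ 0 := Finset.prod_ne_zero_iff.2 hxne
  have hNfix : ∀ g ∈ M.G, baseAut g N = N := by
    intro g hg
    rw [hN, map_prod]
    refine Finset.prod_bij (fun x _ => baseAut g x) ?_ ?_ ?_ ?_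
    · intro x hx
      obtain ⟨h, hh, rfl⟩ := (hmemO x).1 hx
      exact (hmemO _).2 ⟨g * h, M.G.mul_mem hg hh, rfl⟩
    · intro x _ x' _ h
      exact (baseAut g).injective h
    · intro x hx
      obtain ⟨h, hh, rfl⟩ := (hmemO x).1 hx
      exact ⟨baseAut (g⁻¹ * h) a, (hmemO _).2 ⟨g⁻¹ * h, M.G.mul_mem (M.G.inv_mem hg) hh, rfl⟩,
        by rw [baseAut_mul_apply, baseAut_apply_inv]⟩
    · intro x _; rfl
  obtain ⟨n, hn⟩ := valuation_of_fixed hN0 hNfix
  have hNval : M.A.valuation N = M.A.valuation a ^ O.card := by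
    rw [hN, map_prod]
    rw [Finset.prod_congr rfl (g := fun _ => M.A.valuation a) ?_, Finset.prod_const]
    intro x hx
    obtain ⟨g, hg, rfl⟩ := (hmemO x).1 hx
    exact valuation_smul hg a
  obtain ⟨m, hm⟩ := Nat.dvd_factorial hOpos hOcard
  refine ⟨n * m, ?_⟩
  rw [hm, pow_mul, ← hNval, hn, zpow_mul, zpow_natCast]

/-- **Uniformisers.** -/
theorem exists_unif (s : Finset F) : ∃ π : K, π ≠ 0 ∧ π ∈ M.A.nonunits ∧
    (∀ g ∈ M.Fix s, baseAut g π = π) ∧
      ∀ a ∈ M.A.nonunits, (∀ g ∈ M.Fix s, baseAut g a = a) → a * π⁻¹ ∈ M.A := by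
  classical
  obtain ⟨D, hD, hval⟩ := exists_exponent (M := M) s
  have hp1 := valuation_p_lt (M := M)
  have hp0 := valuation_p_ne (M := M)
  have hp0' : 0 < M.A.valuation (M.p : K) := zero_lt_iff.2 hp0
  let Pr : ℕ → Prop := fun n => 0 < n ∧ ∃ a : K, a ≠ 0 ∧ a ∈ M.A.nonunits ∧
    (∀ g ∈ M.Fix s, baseAut g a = a) ∧ M.A.valuation a ^ D = M.A.valuation (M.p : K) ^ n
  have hex : ∃ n, Pr n := ⟨D, hD, M.p, M.p_ne_zero, M.p_mem, fun g _ => map_natCast _ _, rfl⟩
  obtain ⟨hn0, π, hπ0, hπ, hπfix, hπval⟩ := Nat.find_spec hex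
  refine ⟨π, hπ0, hπ, hπfix, fun a ha hafix => ?_⟩
  rcases eq_or_ne a 0 with rfl | ha0
  · rw [zero_mul]; exact zero_mem _
  obtain ⟨m, hm⟩ := hval a ha0 hafix
  have hva0 : M.A.valuation a ≠ 0 := (Valuation.ne_zero_iff _).2 ha0
  have hva1 : M.A.valuation a < 1 := (ValuationSubring.mem_nonunits_iff (A := M.A)).1 ha
  have hm0 : 0 < m := by
    by_contra hcon
    push Not at hcon
    have h1 : M.A.valuation a ^ D < 1 := pow_lt_one₀ zero_le hva1 hD.ne'
    rw [hm] at h1
    have h2 : (1 : _) ≤ M.A.valuation (M.p : K) ^ m := by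
      obtain ⟨l, rfl⟩ : ∃ l : ℕ, m = -(l : ℤ) := ⟨(-m).toNat, by omega⟩
      rw [zpow_neg, zpow_natCast]
      exact (one_le_inv₀ (pow_pos hp0' l)).2 (pow_le_one₀ zero_le hp1.le)
    exact absurd h1 (not_lt.2 h2)
  obtain ⟨l, rfl⟩ : ∃ l : ℕ, m = (l : ℤ) := ⟨m.toNat, by omega⟩
  rw [zpow_natCast] at hm
  have hle : Nat.find hex ≤ l := Nat.find_min' hex ⟨by omega, a, ha0, ha, hafix, hm⟩
  have h1 : M.A.valuation a ^ D ≤ M.A.valuation π ^ D := by
    rw [hm, hπval]
    exact pow_le_pow_of_le_one zero_le hp1.le hle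
  have h2 : M.A.valuation a ≤ M.A.valuation π := (pow_le_pow_iff_left₀ zero_le zero_le hD.ne').1 h1
  rw [← ValuationSubring.valuation_le_one_iff, map_mul, map_inv₀]
  have h3 : M.A.valuation π ≠ 0 := (Valuation.ne_zero_iff _).2 hπ0
  calc M.A.valuation a * (M.A.valuation π)⁻¹ ≤ M.A.valuation π * (M.A.valuation π)⁻¹ :=
        mul_le_mul_left h2 _
    _ = 1 := mul_inv_cancel₀ h3

end Model

end Fermat.Agent.Star
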