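import Fermat.Agent.Star.Dec
import Fermat.Agent.Star.Abstract

/-!
# Constancy of the orders at the nodes
-/

set_option autoImplicit false
set_option linter.unusedSectionVars false

noncomputable section

open AlgebraicCurve WithZero Module
open Fermat.Agent.RR Fermat.Agent.FF

namespace Fermat.Agent.Star

variable {K F k F' : Type*} [Field K] [Field F] [Algebra K F] [Field k] [Field F']
    [Algebra k F'] [IsAlgClosed K] [IsFF K F] [IsAlgClosed k] [IsFF k F']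

open SemilinearAut

/-- the subfield fixed by a subgroup -/
def FixF (H : Subgroup (SemilinearAut K F)) : Subfield F where
  carrier := {y | ∀ g ∈ H, g • y = y}
  mul_mem' := fun ha hb g hg => by rw [smul_mul', ha g hg, hb g hg]
  one_mem' := fun g _ => smul_one g
  add_mem' := fun ha hb g hg => by rw [smul_add, ha g hg, hb g hg]
  zero_mem' := fun g _ => smul_zero g
  neg_mem' := fun ha g hg => by rw [smul_neg, ha g hg]
  inv_mem' := fun a ha g hg => by rw [smul_inv'', ha g hg]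

theorem mem_FixF {H : Subgroup (SemilinearAut K F)} {y : F} :
    y ∈ FixF H ↔ ∀ g ∈ H, g • y = y := Iff.rfl

namespace Model

variable {M : Model K F k F'} {hM : M.Good}

theorem red_x_one (i : Fin 2) : M.red i (M.x 1) = (M.red i (M.x 0))⁻¹ := by
  rw [M.x_inv, red_inv (M.x_mem 0 i) (by rw [← M.x_inv]; exact M.x_mem 1 i) (x_ne_zero 0)]

theorem red_x_ne (i : Fin 2) : M.red i (M.x 0) ≠ 0 :=
  (red_ne_zero_iff (M.x_mem 0 i)).2 ⟨x_ne_zero 0, by rw [← M.x_inv]; exact M.x_mem 1 i⟩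

/-- every place is on one of the two charts -/
theorem isGood_zero {i : Fin 2} {w : Place k F'} (h : M.red i (M.x 0) ∈ w.toValuationSubring) :
    M.IsGood 0 i w := ⟨h, fun h => absurd h (by decide)⟩

theorem isGood_one {i : Fin 2} {w : Place k F'} (h : M.red i (M.x 0) ∉ w.toValuationSubring) :
    M.IsGood 1 i w := by
  have h0 := red_x_ne (M := M) i
  have h1 : 0 < w.ord (M.red i (M.x 1)) := by
    rw [red_x_one, Place.ord_inv]
    by_contra hcon
    push Not at hcon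
    exact h (mem_place_of_ord_nonneg w (by omega))
  have h2 := mem_place_of_ord_nonneg w h1.le
  exact ⟨h2, fun _ => (val_eq_zero_iff w h2).2 (Or.inr h1)⟩

open Classical in
/-- the point associated with a place of the component `i` -/
def ptOf (M : Model K F k F') (i : Fin 2) (w : Place k F') : M.Pt :=
  if h : M.red i (M.x 0) ∈ w.toValuationSubring then ⟨0, i, w, isGood_zero h⟩
  else ⟨1, i, w, isGood_one h⟩

theorem ptOf_i (i : Fin 2) (w : Place k F') : (M.ptOf i w).i = i := by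
  rw [ptOf]; split_ifs <;> rfl

theorem ptOf_w (i : Fin 2) (w : Place k F') : (M.ptOf i w).w = w := by
  rw [ptOf]; split_ifs <;> rfl

theorem ptOf_e (i : Fin 2) (w : Place k F') : (M.ptOf i w).e = 0 ↔
    M.red i (M.x 0) ∈ w.toValuationSubring := by
  rw [ptOf]; split_ifs with h
  · simp [h]
  · simp [h]

theorem Pt.wOn_self (P : M.Pt) : P.wOn hM P.i = P.w := by
  rw [Pt.wOn]
  split_ifs with h
  · exact absurd rfl h.1
  · rfl

theorem wOn_ptOf (i : Fin 2) (w : Place k F') : (M.ptOf i w).wOn hM i = w := by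
  have h := Pt.wOn_self (hM := hM) (M.ptOf i w)
  rw [ptOf_w] at h
  conv_lhs at h => rw [ptOf_i]
  exact h

theorem mem_on_ptOf (i : Fin 2) (w : Place k F') : i ∈ (M.ptOf i w).on := by
  have := Pt.i_mem_on (P := M.ptOf i w)
  rwa [ptOf_i] at this

include hM in
/-- rational lifts to the valuation rings -/
theorem exists_lift_O (i : Fin 2) (a : F') :
    ∃ b ∈ M.O i, (∀ g ∈ M.G, g • b = b) ∧ M.red i b = a := by
  obtain ⟨w⟩ : Nonempty (Place k F') := inferInstance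
  set P := M.ptOf i w with hP
  have hi : i ∈ P.on := mem_on_ptOf i w
  rcases (P.wOn hM i).toValuationSubring.mem_or_inv_mem a with h | h
  · obtain ⟨b, hb, hbG, hbr⟩ := Pt.exists_lift (hM := hM) hi h
    exact ⟨b, Pt.L_le_O hi hb, hbG, hbr⟩
  · rcases eq_or_ne a 0 with rfl | ha
    · exact ⟨0, zero_mem _, fun g _ => smul_zero g, red_zero i⟩
    obtain ⟨b, hb, hbG, hbr⟩ := Pt.exists_lift (hM := hM) hi h
    have hb0 : M.red i b ≠ 0 := by rw [hbr]; exact inv_ne_zero ha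
    have hbO := Pt.L_le_O hi hb
    have hb' := inv_mem_of_red_ne_zero hbO hb0
    have hbne : b ≠ 0 := ((red_ne_zero_iff hbO).1 hb0).1
    exact ⟨b⁻¹, hb', fun g hg => smul_inv_fix (hbG g hg), by
      rw [red_inv hbO hb' hbne, hbr, inv_inv]⟩

/-- An extension `F ^ H` of the rational functions which is obtained from a wildly ramified
extension of the constants, of ramification break one. -/
structure Wild (M : Model K F k F') (H : Subgroup (SemilinearAut K F)) where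
  le : H ≤ M.G
  ϖ : K
  ϖ_ne : ϖ ≠ 0
  ϖ_mem : ϖ ∈ M.A.nonunits
  ϖ_fix : ∀ g ∈ H, baseAut g ϖ = ϖ
  unif : ∀ a : K, a ≠ 0 → (∀ g ∈ H, baseAut g a = a) →
    ∃ n : ℤ, a * ϖ ^ n ∈ M.A ∧ (a * ϖ ^ n)⁻¹ ∈ M.A
  τ : SemilinearAut K F
  τ_mem : τ ∈ M.G
  τ_norm : ∀ g ∈ H, τ⁻¹ * g * τ ∈ H
  τ_norm' : ∀ g ∈ H, τ * g * τ⁻¹ ∈ H
  γ : K
  γ_mem : γ ∈ M.A
  γ_res : M.cres γ ≠ 0
  τ_ϖ : baseAut τ ϖ = ϖ * (1 + ϖ * γ)
  ε : K
  ε_mem : ε ∈ M.A
  ε_inv_mem : ε⁻¹ ∈ M.A
  p_eq : (M.p : K) = ϖ ^ (M.p * (M.p - 1)) * ε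

namespace Wild

variable {H : Subgroup (SemilinearAut K F)} (W : Wild M H)

theorem smul_mem_FixF {y : F} (hy : y ∈ FixF H) : W.τ • y ∈ FixF H := by
  intro g hg
  have h1 := hy _ (W.τ_norm g hg)
  rw [mul_smul, mul_smul] at h1
  calc g • W.τ • y = W.τ • (W.τ⁻¹ • (g • (W.τ • y))) := by rw [smul_inv_smul]
    _ = W.τ • y := by rw [h1]

theorem inv_smul_mem_FixF {y : F} (hy : y ∈ FixF H) : W.τ⁻¹ • y ∈ FixF H := by
  intro g hg
  have h1 := hy _ (W.τ_norm' g hg)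
  rw [mul_smul, mul_smul] at h1
  calc g • W.τ⁻¹ • y = W.τ⁻¹ • (W.τ • (g • (W.τ⁻¹ • y))) := by rw [inv_smul_smul]
    _ = W.τ⁻¹ • y := by rw [h1]

theorem algebraMap_mem_FixF {a : K} : algebraMap K F a ∈ FixF H ↔ ∀ g ∈ H, baseAut g a = a := by
  constructor
  · intro h g hg
    exact Pt.baseAut_fix_of_smul (h g hg)
  · intro h g hg
    exact Pt.smul_algebraMap_fix (h g hg)

/-- the automorphism of the fixed field -/
def auto : FixF H ≃+* FixF H where
  toFun y := ⟨W.τ • (y : F), W.smul_mem_FixF y.2⟩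
  invFun y := ⟨W.τ⁻¹ • (y : F), W.inv_smul_mem_FixF y.2⟩
  left_inv _ := Subtype.ext (inv_smul_smul _ _)
  right_inv _ := Subtype.ext (smul_inv_smul _ _)
  map_mul' _ _ := Subtype.ext (smul_mul' _ _ _)
  map_add' _ _ := Subtype.ext (smul_add _ _ _)

theorem coe_auto (y : FixF H) : (W.auto y : F) = W.τ • (y : F) := rfl

/-- the uniformiser in the fixed field -/
def ϖF : FixF H := ⟨algebraMap K F W.ϖ, algebraMap_mem_FixF.2 W.ϖ_fix⟩

theorem coe_ϖF : (W.ϖF : F) = algebraMap K F W.ϖ := rfl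

theorem ϖF_ne : W.ϖF ≠ 0 := by
  intro h
  have : algebraMap K F W.ϖ = 0 := congrArg Subtype.val h
  exact W.ϖ_ne ((_root_.map_eq_zero _).1 this)

theorem ϖA : W.ϖ ∈ M.A := ValuationSubring.nonunits_subset (A := M.A) W.ϖ_mem

theorem cres_ϖ : M.cres W.ϖ = 0 := (cres_eq_zero_iff W.ϖA).2 W.ϖ_mem

theorem ϖF_mem (i : Fin 2) : algebraMap K F W.ϖ ∈ M.O i := algebraMap_mem W.ϖA i

theorem red_ϖ (i : Fin 2) : M.red i (algebraMap K F W.ϖ) = 0 := by
  rw [red_algebraMap W.ϖA, W.cres_ϖ, map_zero]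

/-- writing a fixed function as a power of the uniformiser times a unit -/
theorem exists_unit_form (i : Fin 2) {a : F} (ha : a ∈ FixF H) (ha0 : a ≠ 0) :
    ∃ (n : ℤ) (u : F), u ∈ FixF H ∧ u ∈ M.O i ∧ u⁻¹ ∈ M.O i ∧ u ≠ 0 ∧
      a = (algebraMap K F W.ϖ) ^ n * u := by
  obtain ⟨c, hc0, hc1, hc2, hc3⟩ := M.scale i a ha0
  have hcfix : ∀ g ∈ H, baseAut g c = c := fun g hg => hc3 g (W.le hg) (ha g hg)
  obtain ⟨n, hn1, hn2⟩ := W.unif c hc0 hcfix
  have hϖF : algebraMap K F W.ϖ ≠ 0 := (_root_.map_ne_zero _).2 W.ϖ_ne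
  have hcF : algebraMap K F c ≠ 0 := (_root_.map_ne_zero _).2 hc0
  have hwn := zpow_ne_zero n hϖF
  refine ⟨-n, a * (algebraMap K F W.ϖ) ^ n, ?_, ?_, ?_, mul_ne_zero ha0 hwn, ?_⟩
  · exact mul_mem ha (zpow_mem (algebraMap_mem_FixF.2 W.ϖ_fix) n)
  · have h1 : a * (algebraMap K F W.ϖ) ^ n =
        algebraMap K F (c * W.ϖ ^ n) * (a * (algebraMap K F c)⁻¹) := by
      rw [map_mul, map_zpow₀]; field_simp
    rw [h1]; exact mul_mem (algebraMap_mem hn1 i) hc1
  · have h1 : (a * (algebraMap K F W.ϖ) ^ n)⁻¹ =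
        algebraMap K F (c * W.ϖ ^ n)⁻¹ * (a * (algebraMap K F c)⁻¹)⁻¹ := by
      rw [map_inv₀, map_mul, map_zpow₀]; field_simp
    rw [h1]; exact mul_mem (algebraMap_mem hn2 i) hc2
  · rw [zpow_neg]; field_simp

/-- the valuations of the fixed field -/
def D (i : Fin 2) : DRes (FixF H) F' W.ϖF where
  O := (M.O i).toSubring.comap (FixF H).subtype
  r :=
    { toFun := fun a => M.ρ i ⟨((a : FixF H) : F), a.2⟩
      map_one' := map_one (M.ρ i)
      map_mul' := fun a b => map_mul (M.ρ i) ⟨((a : FixF H) : F), a.2⟩ ⟨((b : FixF H) : F), b.2⟩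
      map_zero' := map_zero (M.ρ i)
      map_add' := fun a b => map_add (M.ρ i) ⟨((a : FixF H) : F), a.2⟩ ⟨((b : FixF H) : F), b.2⟩ }
  unif_mem := W.ϖF_mem i
  r_eq_zero := by
    intro a ha
    have haO : ((a : FixF H) : F) ∈ M.O i := a.2
    have ha1 : M.red i ((a : FixF H) : F) = 0 := by
      rw [red, tred_of_mem haO]; exact ha
    rcases eq_or_ne ((a : FixF H) : F) 0 with h0 | h0
    · exact ⟨0, zero_mem _, by rw [mul_zero]; exact Subtype.ext h0⟩
    obtain ⟨n, u, huH, hu, hu', hu0, hau⟩ := W.exists_unit_form i (a : FixF H).2 h0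
    have hϖF : algebraMap K F W.ϖ ≠ 0 := (_root_.map_ne_zero _).2 W.ϖ_ne
    have hru : M.red i u ≠ 0 := (red_ne_zero_iff hu).2 ⟨hu0, hu'⟩
    have hn : 1 ≤ n := by
      by_contra hcon
      push Not at hcon
      obtain ⟨l, rfl⟩ : ∃ l : ℕ, n = -(l : ℤ) := ⟨(-n).toNat, by omega⟩
      have h1 : u = (algebraMap K F W.ϖ) ^ l * ((a : FixF H) : F) := by
        rw [hau, zpow_neg, zpow_natCast]
        have := pow_ne_zero l hϖF
        field_simp
      apply hru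
      rw [h1, red_mul (pow_mem (W.ϖF_mem i) l) haO, ha1, mul_zero]
    obtain ⟨l, rfl⟩ : ∃ l : ℕ, n = (l : ℤ) + 1 := ⟨(n - 1).toNat, by omega⟩
    refine ⟨⟨(algebraMap K F W.ϖ) ^ l * u, mul_mem (pow_mem (algebraMap_mem_FixF.2 W.ϖ_fix) l) huH⟩,
      mul_mem (pow_mem (W.ϖF_mem i) l) hu, Subtype.ext ?_⟩
    change ((a : FixF H) : F) = algebraMap K F W.ϖ * ((algebraMap K F W.ϖ) ^ l * u)
    rw [hau, zpow_add_one₀ hϖF, zpow_natCast]; ring
  r_unif := by
    have := W.red_ϖ i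
    rw [red, tred_of_mem (W.ϖF_mem i)] at this
    exact this
  exists_unit := by
    intro a ha
    have ha0 : (a : F) ≠ 0 := fun h => ha (Subtype.ext h)
    obtain ⟨n, u, huH, hu, hu', hu0, hau⟩ := W.exists_unit_form i a.2 ha0
    refine ⟨n, ⟨u, huH⟩, hu, hu', fun h => hu0 (congrArg Subtype.val h), Subtype.ext ?_⟩
    rw [hau]; rfl

theorem mem_D {i : Fin 2} {a : FixF H} : a ∈ (W.D i).O ↔ (a : F) ∈ M.O i := Iff.rfl

theorem red_D (i : Fin 2) (a : FixF H) : (W.D i).red a = M.red i (a : F) := by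
  classical
  by_cases h : (a : F) ∈ M.O i
  · have h' : a ∈ (W.D i).O := h
    rw [DRes.red_of_mem h', red, tred_of_mem h]; rfl
  · have h' : a ∉ (W.D i).O := h
    rw [DRes.red, dif_neg h', red, tred, dif_neg h]

/-- the ring of constants of the fixed field -/
def C (_W : Wild M H) : Subring (FixF H) where
  carrier := {y | ∃ a : K, a ∈ M.A ∧ (y : F) = algebraMap K F a}
  mul_mem' := by
    rintro x y ⟨a, ha, hxa⟩ ⟨b, hb, hyb⟩
    exact ⟨a * b, mul_mem ha hb, by rw [map_mul, ← hxa, ← hyb]; rfl⟩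
  one_mem' := ⟨1, one_mem _, by rw [map_one]; rfl⟩
  add_mem' := by
    rintro x y ⟨a, ha, hxa⟩ ⟨b, hb, hyb⟩
    exact ⟨a + b, add_mem ha hb, by rw [map_add, ← hxa, ← hyb]; rfl⟩
  zero_mem' := ⟨0, zero_mem _, by rw [map_zero]; rfl⟩
  neg_mem' := by
    rintro x ⟨a, ha, hxa⟩
    exact ⟨-a, neg_mem ha, by rw [map_neg, ← hxa]; rfl⟩

theorem mem_C {y : FixF H} : y ∈ W.C ↔ ∃ a : K, a ∈ M.A ∧ (y : F) = algebraMap K F a := Iff.rfl

theorem algebraMap_ne : algebraMap K F W.ϖ ≠ 0 := (_root_.map_ne_zero _).2 W.ϖ_ne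

theorem smul_ϖ : W.τ • algebraMap K F W.ϖ =
    algebraMap K F W.ϖ * (1 + algebraMap K F W.ϖ * algebraMap K F W.γ) := by
  rw [SemilinearAut.smul_algebraMap, W.τ_ϖ]; simp

theorem γ_memF : algebraMap K F W.γ ∈ FixF H := by
  have h1 : algebraMap K F W.ϖ ∈ FixF H := algebraMap_mem_FixF.2 W.ϖ_fix
  have h2 := W.smul_mem_FixF h1
  have h3 : algebraMap K F W.γ =
      (W.τ • algebraMap K F W.ϖ * (algebraMap K F W.ϖ)⁻¹ - 1) * (algebraMap K F W.ϖ)⁻¹ := by
    rw [W.smul_ϖ]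
    have := W.algebraMap_ne
    field_simp
    ring
  rw [h3]
  exact mul_mem (sub_mem (mul_mem h2 (inv_mem h1)) (one_mem _)) (inv_mem h1)

/-- division by the uniformiser -/
theorem exists_div_unif (i : Fin 2) {a : F} (ha : a ∈ FixF H) (haO : a ∈ M.O i)
    (hr : M.red i a = 0) : ∃ b ∈ FixF H, b ∈ M.O i ∧ a = algebraMap K F W.ϖ * b := by
  have h1 : (W.D i).red ⟨a, ha⟩ = 0 := by rw [W.red_D]; exact hr
  obtain ⟨b, hb, hab⟩ := DRes.exists_of_red_eq_zero (D := W.D i) (a := ⟨a, ha⟩) haO h1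
  exact ⟨b, b.2, hb, congrArg Subtype.val hab⟩

include hM in
/-- `τ` acts trivially modulo `ϖ ^ 2` -/
theorem exists_τ_sub (i : Fin 2) {a : F} (ha : a ∈ FixF H) (haO : a ∈ M.O i) :
    ∃ b ∈ FixF H, b ∈ M.O i ∧ W.τ • a - a = (algebraMap K F W.ϖ) ^ 2 * b := by
  obtain ⟨a₀, ha₀, haG, har⟩ := exists_lift_O (hM := hM) i (M.red i a)
  have ha₀F : a₀ ∈ FixF H := fun g hg => haG g (W.le hg)
  obtain ⟨b, hb, hbO, hab⟩ := W.exists_div_unif i (sub_mem ha ha₀F) (sub_mem haO ha₀)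
    (by rw [red_sub haO ha₀, har, sub_self])
  have hτb := M.smul_mem_O _ W.τ_mem i _ hbO
  obtain ⟨b', hb', hbO', hab'⟩ := W.exists_div_unif i (sub_mem (W.smul_mem_FixF hb) hb)
    (sub_mem hτb hbO) (by rw [red_sub hτb hbO, red_smul hbO W.τ_mem, sub_self])
  refine ⟨b' + algebraMap K F W.γ * W.τ • b, add_mem hb' (mul_mem W.γ_memF (W.smul_mem_FixF hb)),
    add_mem hbO' (mul_mem (algebraMap_mem W.γ_mem i) hτb), ?_⟩
  have h1 : a = a₀ + algebraMap K F W.ϖ * b := by rw [← hab]; ring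
  have h2 : W.τ • a = a₀ + (algebraMap K F W.ϖ *
      (1 + algebraMap K F W.ϖ * algebraMap K F W.γ)) * W.τ • b := by
    rw [h1, smul_add, smul_mul', haG _ W.τ_mem, W.smul_ϖ]
  rw [h2, h1]
  linear_combination (algebraMap K F W.ϖ) * hab'

theorem red_coe_eq {i : Fin 2} {a : FixF H} {b : K} (hb : b ∈ M.A)
    (h : (a : F) = algebraMap K F b) : (W.D i).red a = algebraMap k F' (M.cres b) := by
  rw [W.red_D, h, red_algebraMap hb]

variable (hM) in
/-- the abstract datum -/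
def datum : Datum M.p (FixF H) F' k where
  ϖ := W.ϖF
  unif_ne_zero := W.ϖF_ne
  D := W.D
  τ := W.auto
  τ_mem := fun i a ha => M.smul_mem_O _ W.τ_mem i _ ha
  τ_sub := fun i a ha => by
    obtain ⟨b, hb, hbO, h⟩ := W.exists_τ_sub (hM := hM) i a.2 ha
    exact ⟨⟨b, hb⟩, hbO, Subtype.ext h⟩
  C := W.C
  C_le := by
    rintro i y ⟨a, ha, hya⟩
    rw [mem_D, hya]
    exact algebraMap_mem ha i
  unif_mem_C := ⟨W.ϖ, W.ϖA, rfl⟩
  τ_C := by
    rintro y ⟨a, ha, hya⟩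
    refine ⟨baseAut W.τ a, smul_mem_A W.τ_mem ha, ?_⟩
    rw [coe_auto, hya, SemilinearAut.smul_algebraMap]
  inv_mem_C := by
    rintro y ⟨a, ha, hya⟩ ⟨i, hi⟩
    rw [W.red_coe_eq ha hya] at hi
    refine ⟨a⁻¹, ?_, by rw [map_inv₀, ← hya]; rfl⟩
    have h3 : ¬ a ∈ M.A.nonunits := fun h => hi (by rw [(cres_eq_zero_iff ha).2 h, map_zero])
    rw [ValuationSubring.mem_nonunits_iff, not_lt] at h3
    rw [← ValuationSubring.valuation_le_one_iff, map_inv₀]
    exact inv_le_one_of_one_le₀ h3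
  lift := by
    intro c
    obtain ⟨a, ha, haG, hac⟩ := exists_cres (M := M) c
    refine ⟨⟨algebraMap K F a, algebraMap_mem_FixF.2 fun g hg => haG g (W.le hg)⟩,
      ⟨a, ha, rfl⟩, Subtype.ext ?_, fun i => ?_⟩
    · rw [coe_auto, SemilinearAut.smul_algebraMap, haG _ W.τ_mem]
    · rw [W.red_coe_eq ha rfl, hac]
  c := M.cres W.γ
  c_ne_zero := W.γ_res
  τ_unif := by
    refine ⟨⟨algebraMap K F W.γ, W.γ_memF⟩, ⟨W.γ, W.γ_mem, rfl⟩, Subtype.ext ?_, fun i =>
      W.red_coe_eq W.γ_mem rfl⟩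
    exact W.smul_ϖ
  p_eq := by
    have hϖp := pow_ne_zero M.p W.ϖF_ne
    refine ⟨(M.p : FixF H) * (W.ϖF ^ M.p)⁻¹, ⟨W.ϖ ^ (M.p * (M.p - 1) - M.p) * W.ε,
      mul_mem (pow_mem W.ϖA _) W.ε_mem, ?_⟩, by field_simp⟩
    have h1 : M.p * (M.p - 1) = M.p + (M.p * (M.p - 1) - M.p) := by
      have h2 := M.hp.two_le
      have : M.p * 1 ≤ M.p * (M.p - 1) := Nat.mul_le_mul_left _ (by omega)
      omega
    have h2 : (M.p : K) = W.ϖ ^ M.p * (W.ϖ ^ (M.p * (M.p - 1) - M.p) * W.ε) := by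
      conv_lhs => rw [W.p_eq, h1, pow_add]
      ring
    have h3 : algebraMap K F (M.p : K) = (M.p : F) := map_natCast _ _
    have h4 : (((M.p : FixF H) * (W.ϖF ^ M.p)⁻¹ : FixF H) : F) =
        (M.p : F) * ((algebraMap K F W.ϖ) ^ M.p)⁻¹ := by
      push_cast
      rfl
    rw [h4, ← h3]
    conv_lhs => rw [h2]
    rw [map_mul, map_pow]
    have := pow_ne_zero M.p W.algebraMap_ne
    field_simp
  Pt := M.Pt
  on := fun P => P.on
  B := fun P => (P.L hM).comap (FixF H).subtype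
  B_le := fun P i hi a ha => Pt.L_le_O (hM := hM) hi ha
  C_le_B := by
    rintro P y ⟨a, ha, hya⟩
    change (y : F) ∈ P.L hM
    rw [hya]
    exact Pt.algebraMap_mem_L ha
  τ_B := fun P a ha => Pt.smul_mem_L (hM := hM) W.τ_mem ha
  reg := by
    rintro P a hO ⟨m, hm⟩
    have hm' : (algebraMap K F W.ϖ) ^ m * (a : F) ∈ P.L hM := hm
    change (a : F) ∈ P.L hM
    refine Pt.mem_L_of_regular hM hO fun v hv => ?_
    have h1 := (Pt.val_of_tube (hM := hM) hv hm').1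
    have h2 := mul_mem (v.algebraMap_mem' (W.ϖ ^ m)⁻¹) h1
    have h3 : (a : F) = algebraMap K F (W.ϖ ^ m)⁻¹ * ((algebraMap K F W.ϖ) ^ m * (a : F)) := by
      rw [map_inv₀, map_pow]
      have := pow_ne_zero m W.algebraMap_ne
      field_simp
    rw [h3]; exact h2
  R := fun i P => {a | a ∈ (P.wOn hM i).toValuationSubring}
  red_mem_R := fun P i hi a ha => by
    have h1 := (Pt.red_mem_wOn (hM := hM) hi ha).1
    rw [W.red_D]
    exact h1
  R_add := fun P i _ a ha b => add_mem ha ((P.wOn hM i).algebraMap_mem' b)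
  global := by
    intro i a ha
    have h1 : ∀ w : Place k F', 0 ≤ w.ord a := by
      intro w
      have h2 : a ∈ ((M.ptOf i w).wOn hM i).toValuationSubring :=
        ha (M.ptOf i w) (mem_on_ptOf i w)
      rw [wOn_ptOf] at h2
      exact ord_nonneg_of_mem w h2
    obtain ⟨c, hc⟩ := RedInj.exists_eq_algebraMap_of_ord_nonneg h1
    exact ⟨c, by rw [hc]⟩
  IsNode := fun P => ∀ i, i ∈ P.on
  on_node := fun P h => h
  agree := by
    intro P hP a ha b hb
    have h1 : ∀ i, P.φ (a : F) = b i := by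
      intro i
      have h2 := (Pt.red_mem_wOn (hM := hM) (hP i) ha).2
      have h3 := hb i
      rw [W.red_D] at h3
      change val (P.wOn hM i) (M.red i (a : F)) = P.φ (a : F) at h2
      rw [h3, val_algebraMap] at h2
      exact h2.symm
    rw [← h1 0, ← h1 1]

end Wild

end Model

end Fermat.Agent.Star
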