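import Fermat.Agent.Star.GeoCusp

/-!
# Models coming from two-component data are good, up to rational lifting
-/

set_option autoImplicit false
set_option linter.unusedSectionVars false

noncomputable section

open AlgebraicCurve WithZero Module Polynomial
open scoped IntermediateField
open Fermat.Agent.RR Fermat.Agent.Deuring Fermat.Agent.FF Fermat.Agent.TwoComp

namespace Fermat.Agent.Star.Geo

variable {K Fm F k F' : Type*} [Field K] [Field Fm] [Algebra K Fm] [Field F]
    [Algebra K F] [Field k] [Field F'] [Algebra k F'] {q : ℕ}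
    [IsAlgClosed k] [IsFF k F'] [IsAlgClosed K] [IsFF K F] [IsFF K Fm]

/-- the lifting property -/
def Lifts (M : Model K F k F') : Prop :=
  ∀ e, ∀ f ∈ M.B e, ∃ f₀ ∈ M.B e, (∀ g ∈ M.G, g • f₀ = f₀) ∧ ∀ i, M.red i f₀ = M.red i f

theorem Match.good {M : Model K F k F'} {D : Data K Fm F k F' q} (h : Match M D) (hq : 2 ≤ q)
    (hl : Lifts M) : M.Good where
  eval_mem := fun e f hf v hv hA => h.eval_mem (by omega) e f hf v hv hA
  lift := hl
  red_mem := fun e i f hf w hw => h.red_mem (by omega) e i f hf w hw
  surj := by
    intro e i w hw a ha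
    match e with
    | 0 => exact h.surj_zero (by omega) i w hw a ha
    | 1 =>
      obtain ⟨b, hb, s, hs, -, h1, h2⟩ := h.exists_cusp hq i w (h.isGood_one (by omega) hw) a ha
      exact ⟨b, hb, s, hs, h1, h2⟩
  exists_node := by
    intro e i w hw i' hi' hv
    match e with
    | 0 => exact h.exists_node_zero hq i w hw i' hi' hv
    | 1 =>
      obtain ⟨b, hb, s, hs, h0, h1, h2⟩ := h.exists_cusp hq i w (h.isGood_one (by omega) hw) 1
        w.toValuationSubring.one_mem
      exact absurd (hv s hs (h0 i' hi')) h1
  node := by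
    intro e w hw hv a ha
    match e with
    | 0 => exact h.node_zero hq w hw hv a ha
    | 1 =>
      obtain ⟨b, hb, s, hs, h0, h1, h2⟩ := h.exists_cusp hq 0 (w 0)
        (h.isGood_one (by omega) (hw 0)) 1 (w 0).toValuationSubring.one_mem
      have := hv s hs
      rw [h0 1 (by decide), val_zero] at this
      exact absurd this h1
  no_node_one := by
    intro i w hw i' hi'
    obtain ⟨b, hb, s, hs, h0, h1, h2⟩ := h.exists_cusp hq i w (h.isGood_one (by omega) hw) 1
      w.toValuationSubring.one_mem
    exact ⟨s, hs, h0 i' hi', h1⟩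

end Fermat.Agent.Star.Geo
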