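import Fermat.Agent.Star.GeoMatch

/-!
# The affine chart of the special fibre: nodes
-/

set_option autoImplicit false
set_option linter.unusedSectionVars false

noncomputable section

open AlgebraicCurve WithZero Module Polynomial
open scoped IntermediateField
open Fermat.Agent.RR Fermat.Agent.Deuring Fermat.Agent.FF Fermat.Agent.TwoComp

namespace Fermat.Agent.Star.Geo

/-- avoidance for points -/
theorem mem_of_vanish {k R : Type*} [Field k] [CommRing R] [Algebra k R]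
    (Nd : Finset (R →ₐ[k] k)) (t : R →ₐ[k] k)
    (h : ∀ a : R, (∀ s ∈ Nd, s a = 0) → t a = 0) : t ∈ Nd := by
  classical
  by_contra ht
  have h1 : ∀ s : R →ₐ[k] k, ∃ a : R, s ∈ Nd → s a = 0 ∧ t a ≠ 0 := by
    intro s
    by_cases hs : s ∈ Nd
    · have hne : t ≠ s := by rintro rfl; exact ht hs
      obtain ⟨r, hr⟩ : ∃ r, t r ≠ s r := by
        by_contra hcon
        push Not at hcon
        exact hne (AlgHom.ext hcon)
      refine ⟨r - algebraMap k R (s r), fun _ => ⟨?_, ?_⟩⟩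
      · rw [map_sub, AlgHom.commutes]; exact sub_self _
      · rw [map_sub, AlgHom.commutes]
        exact sub_ne_zero.mpr hr
    · exact ⟨0, fun h => absurd h hs⟩
  choose a ha using h1
  have h2 := h (∏ s ∈ Nd, a s) (fun s hs => by
    rw [map_prod]
    exact Finset.prod_eq_zero hs (ha s hs).1)
  rw [map_prod, Finset.prod_eq_zero_iff] at h2
  obtain ⟨s, hs, h0⟩ := h2
  exact (ha s hs).2 h0

variable {K Fm F k F' : Type*} [Field K] [Field Fm] [Algebra K Fm] [Field F]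
    [Algebra K F] [Field k] [Field F'] [Algebra k F'] {q : ℕ}
    [IsAlgClosed k] [IsFF k F'] [IsAlgClosed K] [IsFF K F] [IsFF K Fm]

section S

variable (D : Data K Fm F k F' q)

theorem mem_S_iff {w : D.Rb × D.Rb} : w ∈ D.S ↔ ∃ f : D.R.O,
    (∀ v : Place K F, D.α D.j ∈ v.toValuationSubring → (f : F) ∈ v.toValuationSubring) ∧
      D.R.ρ f = ((w.1 : F'), (w.2 : F')) := by
  constructor
  · rintro ⟨N, f, hf, hρ⟩
    refine ⟨f, fun v hv => ?_, hρ⟩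
    rw [mem_iff_val_le_one]
    have h1 := hf v
    rwa [Finsupp.smul_apply, D.E₀_eq_zero (ord_nonneg_of_mem v hv), smul_zero, exp_zero] at h1
  · rintro ⟨f, hf, hρ⟩
    obtain ⟨n, hn⟩ := exists_mem_Lp (K := K) D.αj_ne_zero
      (isIntegral_adjoin_iff.mpr hf : (f : F) ∈ integralClosure (Algebra.adjoin K {D.α D.j}) F)
    exact ⟨n, f, D.Lp_le_L n hn, hρ⟩

end S

namespace Match

variable {M : Model K F k F'} {D : Data K Fm F k F' q} (h : Match M D)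

include h

theorem mem_B_zero {f : D.R.O} : (f : F) ∈ M.B 0 ↔
    ∀ v : Place K F, D.α D.j ∈ v.toValuationSubring → (f : F) ∈ v.toValuationSubring := by
  rw [Model.mem_B, h.x₀]
  exact ⟨fun h => h.2, fun hf => ⟨h.mem_O f, hf⟩⟩

/-- lifting elements of `S` -/
theorem exists_of_mem_S {a b : D.Rb} (hab : (a, b) ∈ D.S) :
    ∃ f ∈ M.B 0, M.red 0 f = a ∧ M.red 1 f = b := by
  obtain ⟨f, hf, hρ⟩ := (mem_S_iff D).mp hab
  refine ⟨f, h.mem_B_zero.mpr hf, ?_, ?_⟩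
  · rw [h.red_zero_eq, hρ]
  · rw [h.red_one_eq, hρ]

theorem mem_S_of_mem (hq : 0 < q) {f : F} (hf : f ∈ M.B 0) :
    ∃ a b : D.Rb, (a, b) ∈ D.S ∧ M.red 0 f = a ∧ M.red 1 f = b := by
  have h1 : ∀ w : Place k F', D.jb ∈ w.toValuationSubring →
      M.red 0 f ∈ w.toValuationSubring ∧ M.red 1 f ∈ w.toValuationSubring :=
    fun w hw => h.red_mem_aux hq 0 f hf w hw
  refine ⟨⟨M.red 0 f, isIntegral_adjoin_iff.mpr fun w hw => (h1 w hw).1⟩,
    ⟨M.red 1 f, isIntegral_adjoin_iff.mpr fun w hw => (h1 w hw).2⟩, ?_, rfl, rfl⟩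
  refine (mem_S_iff D).mpr ⟨⟨f, h.mem_RO hf.1⟩, ?_, h.ρ_eq _⟩
  exact (h.mem_B_zero (f := ⟨f, h.mem_RO hf.1⟩)).mp hf

theorem surj_zero (hq : 0 < q) (i : Fin 2) (w : Place k F') (hw : M.IsGood 0 i w) (a : F')
    (ha : a ∈ w.toValuationSubring) :
    ∃ b ∈ M.B 0, ∃ s ∈ M.B 0, val w (M.red i s) ≠ 0 ∧ M.red i b = a * M.red i s := by
  rw [h.isGood_zero_iff hq] at hw
  obtain ⟨N₀, hN₀⟩ := exists_mult D.jb_transcendental w ha ∅ (Finset.notMem_empty _)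
    (fun v hv => absurd hv (Finset.notMem_empty _))
  obtain ⟨s, hs0, hsw, hs, has, -, -⟩ := hN₀ N₀ le_rfl
  rw [poleD_eq_zero hw, mul_zero, neg_zero] at hsw
  have hvs : val w s ≠ 0 := by
    rw [Ne, val_eq_zero_iff w (mem_place_of_ord_nonneg w hsw.ge), not_or]
    exact ⟨hs0, by omega⟩
  have hs' := mem_of_mem_Lp hs
  have has' := mem_of_mem_Lp has
  match i with
  | 0 =>
    obtain ⟨b, hb, hb0, -⟩ := h.exists_of_mem_S (D.graph_mem_S ⟨_, has'⟩)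
    obtain ⟨t, ht, ht0, -⟩ := h.exists_of_mem_S (D.graph_mem_S ⟨_, hs'⟩)
    exact ⟨b, hb, t, ht, by rw [ht0]; exact hvs, by rw [hb0, ht0]⟩
  | 1 =>
    obtain ⟨b, hb, -, hb0⟩ := h.exists_of_mem_S (D.graph_mem_S' ⟨_, has'⟩)
    obtain ⟨t, ht, -, ht0⟩ := h.exists_of_mem_S (D.graph_mem_S' ⟨_, hs'⟩)
    exact ⟨b, hb, t, ht, by rw [ht0]; exact hvs, by rw [hb0, ht0]⟩

end Match

/-- The list of nodes. -/
structure Nodes (D : Data K Fm F k F' q) where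
  Nd : Finset (D.Rb →ₐ[k] k)
  inv : ∀ s ∈ Nd, s.comp (D.Vb.comp D.Vb) = s
  mem : ∀ a b : D.Rb, (a, b) ∈ D.S ↔ ∀ s ∈ Nd, s a = s (D.Vb b)
  surj : ∀ c : (D.Rb →ₐ[k] k) → k, ∃ r : D.Rb, ∀ s ∈ Nd, s r = c s

theorem nonempty_nodes (D : Data K Fm F k F' q) (hq : 2 ≤ q) : Nonempty (Nodes D) := by
  obtain ⟨Nd, h1, h2, h3⟩ := D.exists_nodes hq
  exact ⟨⟨Nd, h1, h2, h3⟩⟩

namespace Nodes

variable {D : Data K Fm F k F' q} (N : Nodes D)

theorem inv_apply {s : D.Rb →ₐ[k] k} (hs : s ∈ N.Nd) (r : D.Rb) : s (D.Vb (D.Vb r)) = s r :=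
  DFunLike.congr_fun (N.inv s hs) r

theorem mem_of_fst {t : D.Rb →ₐ[k] k} (ht : ∀ a, (a, 0) ∈ D.S → t a = 0) : t ∈ N.Nd := by
  refine mem_of_vanish N.Nd t fun a ha => ht a ((N.mem a 0).mpr fun s hs => ?_)
  rw [ha s hs, map_zero, map_zero]

theorem mem_of_snd {t : D.Rb →ₐ[k] k} (ht : ∀ b, (0, b) ∈ D.S → t b = 0) :
    ∃ s ∈ N.Nd, t = s.comp D.Vb := by
  classical
  have h1 : t ∈ N.Nd.image (fun s => s.comp D.Vb) := by
    refine mem_of_vanish _ t fun b hb => ht b ((N.mem 0 b).mpr fun s hs => ?_)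
    rw [map_zero]
    exact (hb _ (Finset.mem_image_of_mem _ hs)).symm
  obtain ⟨s, hs, rfl⟩ := Finset.mem_image.mp h1
  exact ⟨s, hs, rfl⟩

/-- Separate a node from the other ones. -/
theorem exists_sep {s₀ : D.Rb →ₐ[k] k} (hs₀ : s₀ ∈ N.Nd) (c : k) :
    ∃ r : D.Rb, s₀ r = c ∧ ∀ s ∈ N.Nd, s ≠ s₀ → s r = 0 := by
  classical
  obtain ⟨r, hr⟩ := N.surj fun s => if s = s₀ then c else 0
  refine ⟨r, ?_, fun s hs hne => ?_⟩
  · rw [hr s₀ hs₀, if_pos rfl]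
  · rw [hr s hs, if_neg hne]

end Nodes

namespace Match

variable {M : Model K F k F'} {D : Data K Fm F k F' q} (h : Match M D)

include h

/-- The two points of a node. -/
theorem exists_node_zero (hq : 2 ≤ q) (i : Fin 2) (w : Place k F') (hw : M.IsGood 0 i w)
    (i' : Fin 2) (hi' : i' ≠ i) (hv : ∀ b ∈ M.B 0, M.red i' b = 0 → val w (M.red i b) = 0) :
    ∃ w', M.IsGood 0 i' w' ∧ ∀ b ∈ M.B 0, val w (M.red i b) = val w' (M.red i' b) := by
  obtain ⟨N⟩ := nonempty_nodes D hq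
  have hq0 : 0 < q := by omega
  rw [h.isGood_zero_iff hq0] at hw
  match i, i' with
  | 0, 0 => exact absurd rfl hi'
  | 1, 1 => exact absurd rfl hi'
  | 0, 1 =>
    have h1 : ptw w hw ∈ N.Nd := by
      apply N.mem_of_fst
      intro a ha
      obtain ⟨f, hf, hf0, hf1⟩ := h.exists_of_mem_S ha
      have := hv f hf hf1
      rwa [hf0] at this
    obtain ⟨w', hw', hs⟩ := exists_ptw D.jb_transcendental ((ptw w hw).comp D.Vb)
    refine ⟨w', (h.isGood_zero_iff hq0 _ _).mpr hw', fun f hf => ?_⟩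
    obtain ⟨a, b, hab, ha, hb⟩ := h.mem_S_of_mem hq0 hf
    rw [ha, hb]
    have h2 := (N.mem a b).mp hab _ h1
    have h3 := DFunLike.congr_fun hs b
    exact h2.trans h3.symm
  | 1, 0 =>
    obtain ⟨s, hs, hst⟩ : ∃ s ∈ N.Nd, ptw w hw = s.comp D.Vb := by
      apply N.mem_of_snd
      intro a ha
      obtain ⟨f, hf, hf0, hf1⟩ := h.exists_of_mem_S ha
      have := hv f hf hf0
      rwa [hf1] at this
    obtain ⟨w', hw', hs'⟩ := exists_ptw D.jb_transcendental s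
    refine ⟨w', (h.isGood_zero_iff hq0 _ _).mpr hw', fun f hf => ?_⟩
    obtain ⟨a, b, hab, ha, hb⟩ := h.mem_S_of_mem hq0 hf
    rw [ha, hb]
    have h2 := (N.mem a b).mp hab _ hs
    have h3 := DFunLike.congr_fun hs' a
    have h4 := DFunLike.congr_fun hst b
    exact h4.trans (h2.symm.trans h3.symm)

/-- Lifting pairs of functions vanishing at a node. -/
theorem node_zero (hq : 2 ≤ q) (w : Fin 2 → Place k F') (hw : ∀ i, M.IsGood 0 i (w i))
    (hv : ∀ b ∈ M.B 0, val (w 0) (M.red 0 b) = val (w 1) (M.red 1 b))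
    (a : Fin 2 → F') (ha : ∀ i, a i ∈ (w i).toValuationSubring ∧ val (w i) (a i) = 0) :
    ∃ b ∈ M.B 0, ∃ s ∈ M.B 0, val (w 0) (M.red 0 s) ≠ 0 ∧
      ∀ i, M.red i b = a i * M.red i s := by
  obtain ⟨N⟩ := nonempty_nodes D hq
  have hq0 : 0 < q := by omega
  have hw0 := (h.isGood_zero_iff hq0 0 _).mp (hw 0)
  have hw1 := (h.isGood_zero_iff hq0 1 _).mp (hw 1)
  have hval : ∀ a b : D.Rb, (a, b) ∈ D.S → val (w 0) (a : F') = val (w 1) (b : F') := by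
    intro a b hab
    obtain ⟨f, hf, hf0, hf1⟩ := h.exists_of_mem_S hab
    have := hv f hf
    rwa [hf0, hf1] at this
  have hs : ptw (w 0) hw0 ∈ N.Nd := by
    apply N.mem_of_fst
    intro a ha
    have := hval a 0 ha
    rw [ptw_apply, this]
    exact val_zero _
  set s₀ := ptw (w 0) hw0 with hs₀
  have hs1 : ∀ b : D.Rb, val (w 1) (b : F') = s₀ (D.Vb b) := by
    intro b
    rw [← hval _ _ (D.graph_mem_S' b)]
    rfl
  -- multipliers
  have key : ∀ (i : Fin 2) (hwi : D.jb ∈ (w i).toValuationSubring),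
      ∃ (σ b : D.Rb), (b : F') = a i * (σ : F') ∧ val (w i) (σ : F') ≠ 0 ∧
        val (w i) (b : F') = 0 := by
    intro i hwi
    obtain ⟨N₀, hN₀⟩ := exists_mult D.jb_transcendental (w i) (ha i).1 ∅ (Finset.notMem_empty _)
      (fun v hv => absurd hv (Finset.notMem_empty _))
    obtain ⟨s, hs0, hsw, hs, has, -, -⟩ := hN₀ N₀ le_rfl
    rw [poleD_eq_zero hwi, mul_zero, neg_zero] at hsw
    have hsm := mem_place_of_ord_nonneg (w i) hsw.ge
    have hvs : val (w i) s ≠ 0 := by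
      rw [Ne, val_eq_zero_iff (w i) hsm, not_or]
      exact ⟨hs0, by omega⟩
    refine ⟨⟨s, mem_of_mem_Lp hs⟩, ⟨_, mem_of_mem_Lp has⟩, rfl, hvs, ?_⟩
    change val (w i) (a i * s) = 0
    rw [val_mul _ (ha i).1 hsm, (ha i).2, zero_mul]
  obtain ⟨σ₀, b₀, hb₀, hσ₀, hb₀'⟩ := key 0 hw0
  obtain ⟨σ₁, b₁, hb₁, hσ₁, hb₁'⟩ := key 1 hw1
  obtain ⟨r₀, hr₀, hr₀'⟩ := N.exists_sep hs (val (w 0) (σ₀ : F'))⁻¹
  obtain ⟨r₁, hr₁, hr₁'⟩ := N.exists_sep hs (val (w 1) (σ₁ : F'))⁻¹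
  have hS : (r₀ * σ₀, D.Vb r₁ * σ₁) ∈ D.S := by
    refine (N.mem _ _).mpr fun s hsN => ?_
    by_cases hne : s = s₀
    · subst hne
      rw [map_mul, map_mul, map_mul, N.inv_apply hsN, hr₀, hr₁, ← hs1 σ₁,
        inv_mul_cancel₀ hσ₁]
      exact inv_mul_cancel₀ hσ₀
    · rw [map_mul, map_mul, map_mul, N.inv_apply hsN, hr₀' s hsN hne, hr₁' s hsN hne,
        zero_mul, zero_mul]
  have hb : (r₀ * b₀, D.Vb r₁ * b₁) ∈ D.S := by
    refine (N.mem _ _).mpr fun s hsN => ?_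
    by_cases hne : s = s₀
    · subst hne
      rw [map_mul, map_mul, map_mul, ← hs1 b₁, hb₁', mul_zero]
      have : s₀ b₀ = 0 := hb₀'
      rw [this, mul_zero]
    · rw [map_mul, map_mul, map_mul, N.inv_apply hsN, hr₀' s hsN hne, hr₁' s hsN hne,
        zero_mul, zero_mul]
  obtain ⟨t, ht, ht0, ht1⟩ := h.exists_of_mem_S hS
  obtain ⟨b, hb, hb0, hb1⟩ := h.exists_of_mem_S hb
  refine ⟨b, hb, t, ht, ?_, fun i => ?_⟩
  · rw [ht0]
    have : val (w 0) ((r₀ * σ₀ : D.Rb) : F') = s₀ (r₀ * σ₀) := rfl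
    rw [this, map_mul, hr₀]
    have h2 : s₀ σ₀ = val (w 0) (σ₀ : F') := rfl
    rw [h2, inv_mul_cancel₀ hσ₀]
    exact one_ne_zero
  · match i with
    | 0 =>
      rw [hb0, ht0]
      change (r₀ : F') * (b₀ : F') = a 0 * ((r₀ : F') * (σ₀ : F'))
      rw [hb₀]; ring
    | 1 =>
      rw [hb1, ht1]
      change ((D.Vb r₁ : D.Rb) : F') * (b₁ : F') = a 1 * (((D.Vb r₁ : D.Rb) : F') * (σ₁ : F'))
      rw [hb₁]; ring

end Match

end Fermat.Agent.Star.Geo
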