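import Fermat.Agent.Star.GeoAff
import Fermat.Agent.FF.Norm

/-!
# The cusps of the special fibre
-/

set_option autoImplicit false
set_option linter.unusedSectionVars false

noncomputable section

open AlgebraicCurve WithZero Module Polynomial
open scoped IntermediateField
open Fermat.Agent.RR Fermat.Agent.Deuring Fermat.Agent.FF Fermat.Agent.TwoComp

namespace Fermat.Agent.Star.Geo

variable {K Fm F k F' : Type*} [Field K] [Field Fm] [Algebra K Fm] [Field F]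
    [Algebra K F] [Field k] [Field F'] [Algebra k F'] {q : ℕ}

section Defs

variable (D : Data K Fm F k F' q)

/-- the two projections -/
def pr (i : Fin 2) : F' × F' →+* F' := if i = 0 then RingHom.fst F' F' else RingHom.snd F' F'

/-- the two inclusions -/
def sgl (i : Fin 2) (r : F') : F' × F' := if i = 0 then (r, 0) else (0, r)

theorem pr_sgl (i : Fin 2) (r : F') : pr i (sgl i r) = r := by
  match i with
  | 0 => rfl
  | 1 => rfl

theorem pr_sgl_of_ne {i i' : Fin 2} (h : i' ≠ i) (r : F') : pr i' (sgl i r) = 0 := by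
  match i, i' with
  | 0, 0 => exact absurd rfl h
  | 1, 1 => exact absurd rfl h
  | 0, 1 => rfl
  | 1, 0 => rfl

/-- reduction on the component `i` -/
def ρi (i : Fin 2) : D.R.O →+* F' := (pr i).comp D.R.ρ

/-- `1/j_q` -/
def xβ' : D.R.O := ⟨(D.β D.j)⁻¹, D.swap.xα'.2.2, D.swap.xα'.2.1⟩

theorem ρ_xβ' : D.R.ρ (xβ' D) = (D.jb⁻¹ ^ q, D.jb⁻¹) := by
  have h := D.swap.ρ_xα'
  exact congrArg Prod.swap h

theorem ρi_xα' (i : Fin 2) : ρi D i D.xα' = D.jb⁻¹ ^ (if i = 0 then 1 else q) := by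
  change pr i (D.R.ρ D.xα') = _
  rw [D.ρ_xα']
  match i with
  | 0 => exact (pow_one _).symm
  | 1 => rfl

theorem ρi_xβ' (i : Fin 2) : ρi D i (xβ' D) = D.jb⁻¹ ^ (if i = 0 then q else 1) := by
  change pr i (D.R.ρ (xβ' D)) = _
  rw [ρ_xβ']
  match i with
  | 0 => rfl
  | 1 => exact (pow_one _).symm

theorem Match.red_eq {M : Model K F k F'} {D : Data K Fm F k F' q} (h : Match M D) (i : Fin 2)
    (f : D.R.O) : M.red i f = ρi D i f := by
  match i with
  | 0 => exact h.red_zero_eq f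
  | 1 => exact h.red_one_eq f

end Defs

variable [IsAlgClosed k] [IsFF k F'] [IsAlgClosed K] [IsFF K F] [IsFF K Fm]

section Sat

variable (D : Data K Fm F k F' q)

theorem exists_Z (hq : 2 ≤ q) (i : Fin 2) : ∃ Z : Finset (Place k F'),
    (∀ v ∈ Z, D.jb ∈ v.toValuationSubring) ∧
    ∀ r : D.Rb, (∀ v ∈ Z, (r : F') = 0 ∨ 0 < v.ord (r : F')) →
      ∃ N : ℕ, sgl i (r : F') ∈ D.Λ N := by
  classical
  obtain ⟨N⟩ := nonempty_nodes D hq
  have hP : ∀ s : D.Rb →ₐ[k] k, ∃ w : Place k F', D.jb ∈ w.toValuationSubring ∧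
      ∀ r : D.Rb, val w (r : F') = s r := fun s => by
    obtain ⟨w, hw, h⟩ := exists_ptw D.jb_transcendental s
    exact ⟨w, hw, fun r => DFunLike.congr_fun h r⟩
  choose pl hpl hpl' using hP
  match i with
  | 0 =>
    refine ⟨N.Nd.image pl, ?_, fun r hr => ?_⟩
    · intro v hv
      obtain ⟨s, -, rfl⟩ := Finset.mem_image.mp hv
      exact hpl s
    · have : (r, (0 : D.Rb)) ∈ D.S := (N.mem r 0).mpr fun s hs => by
        rw [map_zero, map_zero, ← hpl' s r]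
        exact (val_eq_zero_iff _ (mem_of_mem_closure _ (hpl s) r)).mpr
          (hr _ (Finset.mem_image_of_mem _ hs))
      obtain ⟨n, hn⟩ := this
      exact ⟨n, hn⟩
  | 1 =>
    refine ⟨N.Nd.image (fun s => pl (s.comp D.Vb)), ?_, fun r hr => ?_⟩
    · intro v hv
      obtain ⟨s, -, rfl⟩ := Finset.mem_image.mp hv
      exact hpl _
    · have : ((0 : D.Rb), r) ∈ D.S := (N.mem 0 r).mpr fun s hs => by
        rw [map_zero]
        have h1 := hpl' (s.comp D.Vb) r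
        have h2 : val (pl (s.comp D.Vb)) (r : F') = 0 :=
          (val_eq_zero_iff _ (mem_of_mem_closure _ (hpl _) r)).mpr
            (hr _ (Finset.mem_image_of_mem _ hs))
        rw [h2] at h1
        exact h1
      obtain ⟨n, hn⟩ := this
      exact ⟨n, hn⟩

theorem exists_Λ (hq : 2 ≤ q) (i : Fin 2) : ∃ Z : Finset (Place k F'),
    (∀ v ∈ Z, D.jb ∈ v.toValuationSubring) ∧ ∃ N₂ : ℕ, ∀ N : ℕ, N₂ ≤ N →
    ∀ r ∈ Lp (K := k) D.jb (N * (q + 1) : ℕ), (∀ v ∈ Z, r = 0 ∨ 0 < v.ord r) →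
      sgl i r ∈ D.Λ N := by
  obtain ⟨Z, hZ, hS⟩ := exists_Z D hq i
  obtain ⟨N₂, hN₂⟩ := D.exists_saturated hq
  refine ⟨Z, hZ, N₂, fun N hN r hr hv => ?_⟩
  obtain ⟨n, hn⟩ := hS ⟨r, mem_of_mem_Lp hr⟩ hv
  have h1 : sgl i r ∈ D.Λ (max N n) := D.Λ_mono (le_max_right _ _) hn
  rw [← hN₂ N hN (max N n) (le_max_left _ _)]
  refine ⟨h1, ?_⟩
  rw [SetLike.mem_coe, Data.mem_U]
  match i with
  | 0 => exact ⟨hr, Submodule.zero_mem _⟩
  | 1 => exact ⟨Submodule.zero_mem _, hr⟩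

end Sat

section H

variable (D : Data K Fm F k F' q)

theorem ord_β_nonneg {v : Place K F} (hv : 0 ≤ v.ord (D.α D.j)) : 0 ≤ v.ord (D.β D.j) := by
  by_contra h
  rw [not_le] at h
  have := (D.cusp_β v h).1
  omega

theorem ord_α_nonneg {v : Place K F} (hv : 0 ≤ v.ord (D.β D.j)) : 0 ≤ v.ord (D.α D.j) := by
  by_contra h
  rw [not_le] at h
  have := (D.cusp_α v h).1
  omega

theorem val_α_mem (hq : 0 < q) {v : Place K F} (hv : 0 < v.ord (D.β D.j)) :
    val v (D.α D.j) ∈ D.G.A := by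
  have h1 := val_mem hq D.swap.good_xα (⟨D.α D.j, D.α_mem₂ _ D.j_mem, D.α_mem₁ _ D.j_mem⟩ :
    D.swap.R.O) ?_ v ?_ ?_
  · exact h1
  · intro u hu
    exact mem_place_of_ord_nonneg u (ord_α_nonneg D (ord_nonneg_of_mem u hu))
  · exact mem_place_of_ord_nonneg v hv.le
  · have : val v (D.β D.j) = 0 :=
      (val_eq_zero_iff v (mem_place_of_ord_nonneg v hv.le)).mpr (Or.inr hv)
    change val v (D.β D.j) ∈ D.G.A
    rw [this]
    exact D.G.A.zero_mem

/-- the zeros of `j_q` -/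
def zeros : Finset (Place K F) :=
  (finite_ord_ne_zero (K := K) (D.β D.j)).toFinset.filter fun v => 0 < v.ord (D.β D.j)

theorem mem_zeros {v : Place K F} : v ∈ zeros D ↔ 0 < v.ord (D.β D.j) := by
  rw [zeros, Finset.mem_filter, Set.Finite.mem_toFinset]
  exact ⟨fun h => h.2, fun h => ⟨ne_of_gt h, h⟩⟩

/-- the linear factors -/
def lin (hq : 0 < q) (v : zeros D) : D.R.O :=
  1 - D.R.algA ⟨val v.1 (D.α D.j), val_α_mem D hq ((mem_zeros D).mp v.2)⟩ * D.xα'

/-- `h = j_q⁻¹ ∏ (1 - c_v / j) ^ m_v` -/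
def hh (hq : 0 < q) : D.R.O :=
  xβ' D * ∏ v : zeros D, lin D hq v ^ (v.1.ord (D.β D.j)).toNat

/-- a one unit -/
theorem ord_one_sub {k F' : Type*} [Field k] [Field F'] [Algebra k F'] [IsAlgClosed k] [IsFF k F']
    (w : Place k F') {z : F'} (hz : z = 0 ∨ 0 < w.ord z) : 1 - z ≠ 0 ∧ w.ord (1 - z) = 0 := by
  have hzm : z ∈ w.toValuationSubring := (mem_place_iff w).mpr (hz.imp id le_of_lt)
  have h1 : val w (1 - z) = 1 := by
    rw [val_sub w w.toValuationSubring.one_mem hzm, val_one, (val_eq_zero_iff w hzm).mpr hz,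
      sub_zero]
  have hm : 1 - z ∈ w.toValuationSubring := sub_mem w.toValuationSubring.one_mem hzm
  have h2 : val w (1 - z) ≠ 0 := by rw [h1]; exact one_ne_zero
  rw [Ne, val_eq_zero_iff w hm, not_or, not_lt] at h2
  exact ⟨h2.1, le_antisymm h2.2 (ord_nonneg_of_mem w hm)⟩

variable {D}

theorem coe_lin (hq : 0 < q) (v : zeros D) : ((lin D hq v : D.R.O) : F) =
    1 - algebraMap K F (val v.1 (D.α D.j)) * (D.α D.j)⁻¹ := rfl

theorem lin_mem (hq : 0 < q) (v : zeros D) {u : Place K F}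
    (hu : (D.α D.j)⁻¹ ∈ u.toValuationSubring) : ((lin D hq v : D.R.O) : F) ∈
      u.toValuationSubring := by
  rw [coe_lin]
  exact sub_mem u.toValuationSubring.one_mem (mul_mem (u.algebraMap_mem' _) hu)

theorem ord_lin_cusp (hq : 0 < q) (v : zeros D) {u : Place K F} (hu : u.ord (D.α D.j) < 0) :
    ((lin D hq v : D.R.O) : F) ≠ 0 ∧ u.ord ((lin D hq v : D.R.O) : F) = 0 := by
  rw [coe_lin]
  apply ord_one_sub
  by_cases h0 : algebraMap K F (val v.1 (D.α D.j)) = 0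
  · left; rw [h0, zero_mul]
  · right
    rw [u.ord_mul h0 (inv_ne_zero D.αj_ne_zero), u.ord_inv, ord_algebraMap]
    omega

theorem coe_hh (hq : 0 < q) : ((hh D hq : D.R.O) : F) = (D.β D.j)⁻¹ *
    ∏ v : zeros D, ((lin D hq v : D.R.O) : F) ^ (v.1.ord (D.β D.j)).toNat := by
  rw [hh, Subring.coe_mul]
  congr 1
  rw [← Subring.coe_subtype, map_prod]
  rfl

theorem ord_hh_cusp (hq : 0 < q) {u : Place K F} (hu : u.ord (D.α D.j) < 0) :
    ((hh D hq : D.R.O) : F) ≠ 0 ∧ u.ord ((hh D hq : D.R.O) : F) = - u.ord (D.β D.j) := by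
  have h1 : ∀ v ∈ (Finset.univ : Finset (zeros D)),
      ((lin D hq v : D.R.O) : F) ^ (v.1.ord (D.β D.j)).toNat ≠ 0 :=
    fun v _ => pow_ne_zero _ (ord_lin_cusp hq v hu).1
  have h2 := Finset.prod_ne_zero_iff.mpr h1
  rw [coe_hh]
  refine ⟨mul_ne_zero (inv_ne_zero D.βj_ne_zero) h2, ?_⟩
  rw [u.ord_mul (inv_ne_zero D.βj_ne_zero) h2, u.ord_inv, ord_prod u _ _ h1,
    Finset.sum_eq_zero, add_zero]
  intro v _
  rw [ord_pow, (ord_lin_cusp hq v hu).2, mul_zero]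

theorem hh_mem (hq : 0 < q) {u : Place K F} (hu : u.ord (D.α D.j) = 0) :
    ((hh D hq : D.R.O) : F) ∈ u.toValuationSubring := by
  have hui : (D.α D.j)⁻¹ ∈ u.toValuationSubring :=
    mem_place_of_ord_nonneg u (by rw [u.ord_inv]; omega)
  have hua : D.α D.j ∈ u.toValuationSubring := mem_place_of_ord_nonneg u hu.ge
  have hub := ord_β_nonneg D hu.ge
  have hl : ∀ v : zeros D, ((lin D hq v : D.R.O) : F) ^ (v.1.ord (D.β D.j)).toNat ∈
      u.toValuationSubring := fun v => pow_mem (lin_mem hq v hui) _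
  rw [coe_hh]
  rcases hub.eq_or_lt with h0 | h0
  · refine mul_mem (mem_place_of_ord_nonneg u (by rw [u.ord_inv]; omega)) ?_
    exact prod_mem fun v _ => hl v
  · classical
    have huz : u ∈ zeros D := (mem_zeros D).mpr h0
    rw [← Finset.mul_prod_erase Finset.univ _ (Finset.mem_univ (⟨u, huz⟩ : zeros D)), ← mul_assoc]
    refine mul_mem ?_ (prod_mem fun v _ => hl v)
    have h1 : val u ((lin D hq ⟨u, huz⟩ : D.R.O) : F) = 0 := by
      rw [coe_lin, val_sub u u.toValuationSubring.one_mem (mul_mem (u.algebraMap_mem' _) hui),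
        val_mul u (u.algebraMap_mem' _) hui, val_algebraMap, ← val_mul u hua hui,
        mul_inv_cancel₀ D.αj_ne_zero, sub_self]
    rcases (val_eq_zero_iff u (lin_mem hq _ hui)).mp h1 with h2 | h2
    · rw [h2]
      have : (u.ord (D.β D.j)).toNat ≠ 0 := by omega
      change (D.β D.j)⁻¹ * 0 ^ (u.ord (D.β D.j)).toNat ∈ _
      rw [zero_pow this, mul_zero]
      exact u.toValuationSubring.zero_mem
    · have h3 : ((lin D hq ⟨u, huz⟩ : D.R.O) : F) ≠ 0 := by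
        intro h; rw [h, Place.ord_zero] at h2; exact lt_irrefl _ h2
      apply mem_place_of_ord_nonneg
      rw [u.ord_mul (inv_ne_zero D.βj_ne_zero) (pow_ne_zero _ h3), u.ord_inv, ord_pow]
      change 0 ≤ -u.ord (D.β D.j) + ((u.ord (D.β D.j)).toNat : ℤ) * _
      rw [Int.toNat_of_nonneg hub]
      nlinarith

variable (D) in
/-- The multiplier. -/
def TT (hq : 0 < q) (N : ℕ) : D.R.O := D.xα' ^ N * hh D hq ^ N

theorem coe_TT (hq : 0 < q) (N : ℕ) : ((TT D hq N : D.R.O) : F) =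
    (D.α D.j)⁻¹ ^ N * ((hh D hq : D.R.O) : F) ^ N := rfl

theorem TT_mul_mem (hq : 0 < q) (N : ℕ) {f : F} (hf : f ∈ riemannRochSpace (N • D.E₀))
    {u : Place K F} (hu : (D.α D.j)⁻¹ ∈ u.toValuationSubring) :
    ((TT D hq N : D.R.O) : F) * f ∈ u.toValuationSubring := by
  rcases eq_or_ne f 0 with rfl | hf0
  · rw [mul_zero]; exact u.toValuationSubring.zero_mem
  have h1 := ord_nonneg_of_mem u hu
  rw [u.ord_inv] at h1
  have hfu := (mem_L_iff hf0).mp hf u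
  rw [Finsupp.smul_apply, nsmul_eq_mul] at hfu
  rw [coe_TT]
  rcases h1.eq_or_lt with h2 | h2
  · rw [D.E₀_eq_zero (by omega), mul_zero, neg_zero] at hfu
    exact mul_mem (mul_mem (pow_mem hu N) (pow_mem (hh_mem hq (by omega)) N))
      (mem_place_of_ord_nonneg u hfu)
  · obtain ⟨h3, h4⟩ := ord_hh_cusp (D := D) hq (u := u) (by omega)
    have hb := (D.cusp_α u (by omega)).1
    rw [D.E₀_apply, max_eq_left (by omega : (0 : ℤ) ≤ -u.ord (D.α D.j)),
      max_eq_left (by omega : (0 : ℤ) ≤ -u.ord (D.β D.j))] at hfu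
    apply mem_place_of_ord_nonneg
    have ha := inv_ne_zero D.αj_ne_zero
    rw [u.ord_mul (mul_ne_zero (pow_ne_zero _ ha) (pow_ne_zero _ h3)) hf0,
      u.ord_mul (pow_ne_zero _ ha) (pow_ne_zero _ h3), ord_pow, ord_pow, u.ord_inv, h4]
    linarith

theorem ρi_lin (hq : 0 < q) (i : Fin 2) (v : zeros D) : ρi D i (lin D hq v) =
    1 - algebraMap k F' (D.R.res ⟨val v.1 (D.α D.j), val_α_mem D hq ((mem_zeros D).mp v.2)⟩) *
      D.jb⁻¹ ^ (if i = 0 then 1 else q) := by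
  rw [lin, map_sub, map_one, map_mul, ρi_xα']
  congr 2
  change pr i (D.R.ρ (D.R.algA _)) = _
  rw [RedRing.ρ_algA]
  match i with
  | 0 => rfl
  | 1 => rfl

theorem ord_ρi_lin (hq : 0 < q) (i : Fin 2) (v : zeros D) {w : Place k F'}
    (hw : w.ord D.jb < 0) : ρi D i (lin D hq v) ≠ 0 ∧ w.ord (ρi D i (lin D hq v)) = 0 := by
  rw [ρi_lin]
  apply ord_one_sub
  set c := algebraMap k F' (D.R.res ⟨val v.1 (D.α D.j), val_α_mem D hq ((mem_zeros D).mp v.2)⟩)
    with hc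
  by_cases h0 : c = 0
  · left; rw [h0, zero_mul]
  · right
    have hj := inv_ne_zero D.jb_ne_zero
    rw [w.ord_mul h0 (pow_ne_zero _ hj), hc, ord_algebraMap, ord_pow, w.ord_inv, zero_add]
    have : (0 : ℤ) < ((if i = 0 then 1 else q : ℕ) : ℤ) := by
      split_ifs <;> omega
    exact mul_pos this (by omega)

theorem ord_ρi_TT (hq : 0 < q) (i : Fin 2) (N : ℕ) {w : Place k F'} (hw : w.ord D.jb < 0) :
    ρi D i (TT D hq N) ≠ 0 ∧
      w.ord (ρi D i (TT D hq N)) = ((N * (q + 1) : ℕ) : ℤ) * (-w.ord D.jb) := by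
  have hj := inv_ne_zero D.jb_ne_zero
  have h1 : ∀ v ∈ (Finset.univ : Finset (zeros D)),
      ρi D i (lin D hq v) ^ (v.1.ord (D.β D.j)).toNat ≠ 0 :=
    fun v _ => pow_ne_zero _ (ord_ρi_lin hq i v hw).1
  have h2 := Finset.prod_ne_zero_iff.mpr h1
  have hA : ρi D i D.xα' ≠ 0 := by rw [ρi_xα']; exact pow_ne_zero _ hj
  have hB : ρi D i (xβ' D) ≠ 0 := by rw [ρi_xβ']; exact pow_ne_zero _ hj
  have hh : ρi D i (hh D hq) = ρi D i (xβ' D) *
      ∏ v : zeros D, ρi D i (lin D hq v) ^ (v.1.ord (D.β D.j)).toNat := by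
    rw [hh, map_mul, map_prod]
    simp only [map_pow]
  have hh0 : ρi D i (Geo.hh D hq) ≠ 0 := by rw [hh]; exact mul_ne_zero hB h2
  have hho : w.ord (ρi D i (Geo.hh D hq)) = w.ord (ρi D i (xβ' D)) := by
    rw [hh, w.ord_mul hB h2, ord_prod w _ _ h1, Finset.sum_eq_zero, add_zero]
    intro v _
    rw [ord_pow, (ord_ρi_lin hq i v hw).2, mul_zero]
  rw [TT, map_mul, map_pow, map_pow]
  refine ⟨mul_ne_zero (pow_ne_zero _ hA) (pow_ne_zero _ hh0), ?_⟩
  rw [w.ord_mul (pow_ne_zero _ hA) (pow_ne_zero _ hh0), ord_pow, ord_pow, hho, ρi_xα', ρi_xβ',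
    ord_pow, ord_pow, w.ord_inv]
  match i with
  | 0 => push_cast; simp; ring
  | 1 => push_cast; simp; ring

end H

/-- **Lifting at the cusps.** -/
theorem Match.exists_cusp {M : Model K F k F'} {D : Data K Fm F k F' q} (h : Match M D)
    (hq : 2 ≤ q) (i : Fin 2) (w : Place k F') (hw : w.ord D.jb < 0) (c : F')
    (hc : c ∈ w.toValuationSubring) :
    ∃ b ∈ M.B 1, ∃ s ∈ M.B 1, (∀ i', i' ≠ i → M.red i' s = 0) ∧ val w (M.red i s) ≠ 0 ∧
      M.red i b = c * M.red i s := by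
  have hq0 : 0 < q := by omega
  obtain ⟨Z, hZ, N₂, hN₂⟩ := exists_Λ D hq i
  have hwZ : w ∉ Z := fun hwZ => by
    have := ord_nonneg_of_mem w (hZ w hwZ)
    omega
  obtain ⟨N₀, hN₀⟩ := exists_mult D.jb_transcendental w hc Z hwZ hZ
  set N := max N₀ N₂ with hN
  have hNN : N ≤ N * (q + 1) := Nat.le_mul_of_pos_right _ (by omega)
  obtain ⟨r, hr0, hrw, hr, hcr, hrZ, hcrZ⟩ := hN₀ (N * (q + 1)) ((le_max_left _ _).trans hNN)
  obtain ⟨G, hG, hGρ⟩ := hN₂ N (le_max_right _ _) r hr (fun v hv => Or.inr (hrZ v hv))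
  obtain ⟨H, hH, hHρ⟩ := hN₂ N (le_max_right _ _) (c * r) hcr hcrZ
  have hB : ∀ G : D.R.O, (G : F) ∈ riemannRochSpace (N • D.E₀) →
      ((TT D hq0 N * G : D.R.O) : F) ∈ M.B 1 := by
    intro G hG
    refine ⟨fun i => h.mem_O _ i, fun v hv => ?_⟩
    rw [h.x₁] at hv
    exact TT_mul_mem hq0 N hG hv
  have hred : ∀ (G : D.R.O) (g : F'), D.R.ρ G = sgl i g → ∀ i', M.red i'
      ((TT D hq0 N * G : D.R.O) : F) = ρi D i' (TT D hq0 N) * pr i' (sgl i g) := by
    intro G g hg i'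
    rw [h.red_eq, map_mul]
    congr 1
    exact congrArg (pr i') hg
  obtain ⟨hT0, hTw⟩ := ord_ρi_TT hq0 i N hw
  refine ⟨_, hB H hH, _, hB G hG, fun i' hi' => ?_, ?_, ?_⟩
  · rw [hred G r hGρ, pr_sgl_of_ne hi', mul_zero]
  · rw [hred G r hGρ, pr_sgl]
    have h0 : w.ord (ρi D i (TT D hq0 N) * r) = 0 := by
      rw [w.ord_mul hT0 hr0, hTw, hrw, poleD_apply, max_eq_left (by omega)]
      push_cast; ring
    rw [Ne, val_eq_zero_iff w (mem_place_of_ord_nonneg w h0.ge), not_or]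
    exact ⟨mul_ne_zero hT0 hr0, by omega⟩
  · rw [hred G r hGρ, hred H _ hHρ, pr_sgl, pr_sgl]
    ring

end Fermat.Agent.Star.Geo
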