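import Fermat.Agent.Star.Model

/-!
# Local rings of the two-component model
-/

set_option autoImplicit false
set_option linter.unusedSectionVars false

noncomputable section

open AlgebraicCurve WithZero Module
open Fermat.Agent.RR Fermat.Agent.FF

namespace Fermat.Agent.Star

variable {K F k F' : Type*} [Field K] [Field F] [Algebra K F] [Field k] [Field F']
    [Algebra k F'] [IsAlgClosed K] [IsFF K F] [IsAlgClosed k] [IsFF k F'] (M : Model K F k F')

namespace Model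

/-- The place `w` of the component `i` belongs to the chart `e` (and is a cusp if `e = 1`). -/
def IsGood (e i : Fin 2) (w : Place k F') : Prop :=
  M.red i (M.x e) ∈ w.toValuationSubring ∧ (e = 1 → val w (M.red i (M.x e)) = 0)

/-- The structural properties of the model. -/
structure Good : Prop where
  eval_mem : ∀ e, ∀ f ∈ M.B e, ∀ v : Place K F, M.x e ∈ v.toValuationSubring →
    val v (M.x e) ∈ M.A → val v f ∈ M.A
  lift : ∀ e, ∀ f ∈ M.B e, ∃ f₀ ∈ M.B e, (∀ g ∈ M.G, g • f₀ = f₀) ∧ ∀ i, M.red i f₀ = M.red i f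
  red_mem : ∀ e i, ∀ f ∈ M.B e, ∀ w : Place k F', M.red i (M.x e) ∈ w.toValuationSubring →
    M.red i f ∈ w.toValuationSubring
  surj : ∀ e i (w : Place k F'), M.IsGood e i w → ∀ a ∈ w.toValuationSubring,
    ∃ b ∈ M.B e, ∃ s ∈ M.B e, val w (M.red i s) ≠ 0 ∧ M.red i b = a * M.red i s
  exists_node : ∀ e i (w : Place k F'), M.IsGood e i w → ∀ i', i' ≠ i →
    (∀ b ∈ M.B e, M.red i' b = 0 → val w (M.red i b) = 0) →
      ∃ w', M.IsGood e i' w' ∧ ∀ b ∈ M.B e, val w (M.red i b) = val w' (M.red i' b)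
  node : ∀ e (w : Fin 2 → Place k F'), (∀ i, M.IsGood e i (w i)) →
    (∀ b ∈ M.B e, val (w 0) (M.red 0 b) = val (w 1) (M.red 1 b)) →
      ∀ a : Fin 2 → F', (∀ i, a i ∈ (w i).toValuationSubring ∧ val (w i) (a i) = 0) →
        ∃ b ∈ M.B e, ∃ s ∈ M.B e, val (w 0) (M.red 0 s) ≠ 0 ∧ ∀ i, M.red i b = a i * M.red i s
  no_node_one : ∀ i (w : Place k F'), M.IsGood 1 i w → ∀ i', i' ≠ i →
    ∃ b ∈ M.B 1, M.red i' b = 0 ∧ val w (M.red i b) ≠ 0

/-- A point of the special fibre. -/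
structure Pt where
  e : Fin 2
  i : Fin 2
  w : Place k F'
  good : M.IsGood e i w

variable {M}

namespace Pt

variable (P : M.Pt)

/-- evaluation at the point -/
def φ (b : F) : k := val P.w (M.red P.i b)

/-- components through the point -/
def on : Set (Fin 2) := {i' | ∀ b ∈ M.B P.e, M.red i' b = 0 → P.φ b = 0}

/-- the tube of the point -/
def tube : Set (Place K F) := {v | M.x P.e ∈ v.toValuationSubring ∧
  val v (M.x P.e) ∈ M.A ∧ ∀ b ∈ M.B P.e, M.cres (val v b) = P.φ b}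

variable {P}

theorem i_mem_on : P.i ∈ P.on := by
  intro b _ h
  rw [φ, h, val_zero]

theorem φ_add (hM : M.Good) {a b : F} (ha : a ∈ M.B P.e) (hb : b ∈ M.B P.e) :
    P.φ (a + b) = P.φ a + P.φ b := by
  rw [φ, red_add (ha.1 _) (hb.1 _), val_add _ (hM.red_mem _ _ _ ha _ P.good.1)
    (hM.red_mem _ _ _ hb _ P.good.1)]; rfl

theorem φ_sub (hM : M.Good) {a b : F} (ha : a ∈ M.B P.e) (hb : b ∈ M.B P.e) :
    P.φ (a - b) = P.φ a - P.φ b := by
  rw [φ, red_sub (ha.1 _) (hb.1 _), val_sub _ (hM.red_mem _ _ _ ha _ P.good.1)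
    (hM.red_mem _ _ _ hb _ P.good.1)]; rfl

theorem φ_mul (hM : M.Good) {a b : F} (ha : a ∈ M.B P.e) (hb : b ∈ M.B P.e) :
    P.φ (a * b) = P.φ a * P.φ b := by
  rw [φ, red_mul (ha.1 _) (hb.1 _), val_mul _ (hM.red_mem _ _ _ ha _ P.good.1)
    (hM.red_mem _ _ _ hb _ P.good.1)]; rfl

theorem φ_algebraMap {a : K} (ha : a ∈ M.A) : P.φ (algebraMap K F a) = M.cres a := by
  rw [φ, red_algebraMap ha, val_algebraMap]

theorem φ_one : P.φ 1 = 1 := by rw [φ, red_one, val_one]

theorem φ_smul {g : SemilinearAut K F} (hg : g ∈ M.G) {b : F} (hb : b ∈ M.B P.e) :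
    P.φ (g • b) = P.φ b := by
  rw [φ, red_smul (hb.1 _) hg]; rfl

theorem φ_prod (hM : M.Good) {ι : Type*} (s : Finset ι) (f : ι → F)
    (hf : ∀ i ∈ s, f i ∈ M.B P.e) : P.φ (∏ i ∈ s, f i) = ∏ i ∈ s, P.φ (f i) := by
  classical
  induction s using Finset.induction_on with
  | empty => simpa using φ_one
  | insert a s ha ih =>
    rw [Finset.prod_insert ha, Finset.prod_insert ha,
      φ_mul hM (hf a (Finset.mem_insert_self _ _))
      (prod_mem fun i hi => hf i (Finset.mem_insert_of_mem hi)),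
      ih fun i hi => hf i (Finset.mem_insert_of_mem hi)]

theorem φ_pow (hM : M.Good) {a : F} (ha : a ∈ M.B P.e) (n : ℕ) : P.φ (a ^ n) = P.φ a ^ n := by
  induction n with
  | zero => simpa using φ_one
  | succ n ih => rw [pow_succ, φ_mul hM (pow_mem ha n) ha, ih, pow_succ]

theorem φ_x_one (h : P.e = 1) : P.φ (M.x P.e) = 0 := P.good.2 h

variable (P)

/-- the local ring -/
def L (hM : M.Good) : Subring F where
  carrier := {h | ∃ s ∈ M.B P.e, P.φ s ≠ 0 ∧ s * h ∈ M.B P.e}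
  mul_mem' := by
    rintro a b ⟨s, hs, hs0, hsa⟩ ⟨t, ht, ht0, htb⟩
    refine ⟨s * t, mul_mem hs ht, ?_, ?_⟩
    · rw [φ_mul hM hs ht]; exact mul_ne_zero hs0 ht0
    · have := mul_mem hsa htb
      rwa [show s * a * (t * b) = s * t * (a * b) by ring] at this
  one_mem' := ⟨1, one_mem _, by rw [φ_one]; exact one_ne_zero, by simp⟩
  add_mem' := by
    rintro a b ⟨s, hs, hs0, hsa⟩ ⟨t, ht, ht0, htb⟩
    refine ⟨s * t, mul_mem hs ht, ?_, ?_⟩
    · rw [φ_mul hM hs ht]; exact mul_ne_zero hs0 ht0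
    · have := add_mem (mul_mem hsa ht) (mul_mem htb hs)
      rwa [show s * a * t + t * b * s = s * t * (a + b) by ring] at this
  zero_mem' := ⟨1, one_mem _, by rw [φ_one]; exact one_ne_zero, by simp⟩
  neg_mem' := by
    rintro a ⟨s, hs, hs0, hsa⟩
    exact ⟨s, hs, hs0, by rw [mul_neg]; exact neg_mem hsa⟩

variable {P}

theorem mem_L {hM : M.Good} {h : F} : h ∈ P.L hM ↔ ∃ s ∈ M.B P.e, P.φ s ≠ 0 ∧ s * h ∈ M.B P.e :=
  Iff.rfl

theorem B_le_L {hM : M.Good} : M.B P.e ≤ P.L hM := fun b hb =>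
  ⟨1, one_mem _, by rw [φ_one]; exact one_ne_zero, by simpa using hb⟩

theorem red_ne_zero_of_φ {i : Fin 2} (hi : i ∈ P.on) {s : F} (hs : s ∈ M.B P.e)
    (h : P.φ s ≠ 0) : M.red i s ≠ 0 := fun h0 => h (hi s hs h0)

theorem L_le_O {hM : M.Good} {i : Fin 2} (hi : i ∈ P.on) {h : F} (hh : h ∈ P.L hM) :
    h ∈ M.O i := by
  obtain ⟨s, hs, hs0, hsh⟩ := hh
  have h1 := red_ne_zero_of_φ hi hs hs0
  obtain ⟨h2, h3⟩ := (red_ne_zero_iff (hs.1 i)).1 h1
  have h4 := mul_mem h3 (hsh.1 i)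
  rwa [inv_mul_cancel_left₀ h2] at h4

/-- Elements of the local ring are regular at the places of the tube, with the right value. -/
theorem val_of_tube {hM : M.Good} {v : Place K F} (hv : v ∈ P.tube) {h : F} (hh : h ∈ P.L hM) :
    h ∈ v.toValuationSubring ∧ val v h ∈ M.A ∧ M.cres (val v h) = P.φ h := by
  obtain ⟨s, hs, hs0, hsh⟩ := hh
  obtain ⟨hv1, hv2, hv3⟩ := hv
  have hsA := hM.eval_mem _ _ hs v hv1 hv2
  have hshA := hM.eval_mem _ _ hsh v hv1 hv2
  have h1 : M.cres (val v s) ≠ 0 := by rw [hv3 s hs]; exact hs0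
  have h2 : val v s ≠ 0 := by
    intro h; rw [h, cres_zero] at h1; exact h1 rfl
  obtain ⟨hs1, hs2⟩ := (val_ne_zero_iff v (hs.2 v hv1)).1 h2
  have hvinv : (val v s)⁻¹ ∈ M.A := by
    have h3 : ¬ (val v s) ∈ M.A.nonunits := fun h => h1 ((cres_eq_zero_iff hsA).2 h)
    rw [ValuationSubring.mem_nonunits_iff, not_lt] at h3
    rw [← ValuationSubring.valuation_le_one_iff, map_inv₀]
    exact inv_le_one_of_one_le₀ h3
  have hhv : h ∈ v.toValuationSubring := by
    rcases eq_or_ne h 0 with rfl | hh0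
    · exact zero_mem _
    · have h3 := ord_nonneg_of_mem v (hsh.2 v hv1)
      rw [v.ord_mul hs1 hh0, hs2, zero_add] at h3
      exact mem_place_of_ord_nonneg v h3
  have hmul : val v (s * h) = val v s * val v h := val_mul v (hs.2 v hv1) hhv
  have hval : val v h = (val v s)⁻¹ * val v (s * h) := by
    rw [hmul, inv_mul_cancel_left₀ h2]
  have hA : val v h ∈ M.A := by rw [hval]; exact mul_mem hvinv hshA
  refine ⟨hhv, hA, ?_⟩
  have h5 : M.cres (val v s) * M.cres (val v h) = P.φ (s * h) := by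
    rw [← cres_mul hsA hA, ← hmul, hv3 _ hsh]
  have hhO : h ∈ M.O P.i := L_le_O (hM := hM) i_mem_on ⟨s, hs, hs0, hsh⟩
  have hhw : M.red P.i h ∈ P.w.toValuationSubring := by
    have h6 : M.red P.i (s * h) = M.red P.i s * M.red P.i h := red_mul (hs.1 _) hhO
    obtain ⟨h7, h8⟩ := (val_ne_zero_iff P.w (hM.red_mem _ _ _ hs _ P.good.1)).1 hs0
    have h9 := hM.red_mem _ _ _ hsh P.w P.good.1
    rcases eq_or_ne (M.red P.i h) 0 with h10 | h10
    · rw [h10]; exact zero_mem _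
    · have h11 := ord_nonneg_of_mem P.w h9
      rw [h6, P.w.ord_mul h7 h10, h8, zero_add] at h11
      exact mem_place_of_ord_nonneg _ h11
  have h6 : P.φ (s * h) = P.φ s * P.φ h := by
    rw [φ, red_mul (hs.1 _) hhO, val_mul _ (hM.red_mem _ _ _ hs _ P.good.1) hhw]; rfl
  rw [h6, hv3 s hs] at h5
  exact mul_left_cancel₀ hs0 h5

theorem red_mem_place {hM : M.Good} {h : F} (hh : h ∈ P.L hM) :
    M.red P.i h ∈ P.w.toValuationSubring := by
  obtain ⟨s, hs, hs0, hsh⟩ := hh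
  have hhO : h ∈ M.O P.i := L_le_O (hM := hM) i_mem_on ⟨s, hs, hs0, hsh⟩
  have h6 : M.red P.i (s * h) = M.red P.i s * M.red P.i h := red_mul (hs.1 _) hhO
  obtain ⟨h7, h8⟩ := (val_ne_zero_iff P.w (hM.red_mem _ _ _ hs _ P.good.1)).1 hs0
  have h9 := hM.red_mem _ _ _ hsh P.w P.good.1
  rcases eq_or_ne (M.red P.i h) 0 with h10 | h10
  · rw [h10]; exact zero_mem _
  · have h11 := ord_nonneg_of_mem P.w h9
    rw [h6, P.w.ord_mul h7 h10, h8, zero_add] at h11
    exact mem_place_of_ord_nonneg _ h11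

theorem φ_add' {hM : M.Good} {a b : F} (ha : a ∈ P.L hM) (hb : b ∈ P.L hM) :
    P.φ (a + b) = P.φ a + P.φ b := by
  rw [φ, red_add (L_le_O i_mem_on ha) (L_le_O i_mem_on hb),
    val_add _ (red_mem_place ha) (red_mem_place hb)]; rfl

theorem φ_sub' {hM : M.Good} {a b : F} (ha : a ∈ P.L hM) (hb : b ∈ P.L hM) :
    P.φ (a - b) = P.φ a - P.φ b := by
  rw [φ, red_sub (L_le_O i_mem_on ha) (L_le_O i_mem_on hb),
    val_sub _ (red_mem_place ha) (red_mem_place hb)]; rfl

theorem φ_mul' {hM : M.Good} {a b : F} (ha : a ∈ P.L hM) (hb : b ∈ P.L hM) :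
    P.φ (a * b) = P.φ a * P.φ b := by
  rw [φ, red_mul (L_le_O i_mem_on ha) (L_le_O i_mem_on hb),
    val_mul _ (red_mem_place ha) (red_mem_place hb)]; rfl

theorem inv_mem_L {hM : M.Good} {h : F} (hh : h ∈ P.L hM) (h0 : P.φ h ≠ 0) : h⁻¹ ∈ P.L hM := by
  have hh' := hh
  obtain ⟨s, hs, hs0, hsh⟩ := hh
  have hne : h ≠ 0 := by
    rintro rfl; apply h0; rw [φ, red_zero, val_zero]
  refine ⟨s * h, hsh, ?_, ?_⟩
  · rw [φ_mul' (B_le_L hs) hh']; exact mul_ne_zero hs0 h0
  · rw [mul_inv_cancel_right₀ hne]; exact hs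

theorem φ_smul' {hM : M.Good} {g : SemilinearAut K F} (hg : g ∈ M.G) {h : F} (hh : h ∈ P.L hM) :
    P.φ (g • h) = P.φ h := by
  rw [φ, red_smul (L_le_O i_mem_on hh) hg]; rfl

theorem smul_mem_L {hM : M.Good} {g : SemilinearAut K F} (hg : g ∈ M.G) {h : F}
    (hh : h ∈ P.L hM) : g • h ∈ P.L hM := by
  obtain ⟨s, hs, hs0, hsh⟩ := hh
  refine ⟨g • s, smul_mem_B hg hs, ?_, ?_⟩
  · rwa [φ_smul hg hs]
  · rw [← smul_mul']; exact smul_mem_B hg hsh

/-- A place outside the tube is killed by a function not vanishing at the point. -/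
theorem exists_killer (hM : M.Good) {v : Place K F} (hv : v ∉ P.tube)
    (hx : M.x P.e ∈ v.toValuationSubring) :
    ∃ b ∈ M.B P.e, P.φ b ≠ 0 ∧ 0 < v.ord b := by
  suffices h : ∃ b ∈ M.B P.e, P.φ b ≠ 0 ∧ val v b = 0 by
    obtain ⟨b, hb, hb0, hvb⟩ := h
    refine ⟨b, hb, hb0, ?_⟩
    rcases (val_eq_zero_iff v (hb.2 v hx)).1 hvb with h | h
    · exfalso; apply hb0; rw [h, φ, red_zero, val_zero]
    · exact h
  by_cases hA : val v (M.x P.e) ∈ M.A
  · have h1 : ∃ b ∈ M.B P.e, M.cres (val v b) ≠ P.φ b := by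
      by_contra hcon
      push Not at hcon
      exact hv ⟨hx, hA, hcon⟩
    obtain ⟨b, hb, hne⟩ := h1
    have hbA := hM.eval_mem _ _ hb v hx hA
    refine ⟨b - algebraMap K F (val v b), sub_mem hb (algebraMap_mem_B hbA _), ?_, ?_⟩
    · rw [φ_sub hM hb (algebraMap_mem_B hbA _), φ_algebraMap hbA]
      exact sub_ne_zero.2 (Ne.symm hne)
    · exact val_sub_val v (hb.2 v hx)
  · set c := val v (M.x P.e) with hc
    have hcinv : c⁻¹ ∈ M.A := (M.A.mem_or_inv_mem c).resolve_left hA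
    have hc0 : c ≠ 0 := fun h => hA (h ▸ zero_mem _)
    have hcn : c⁻¹ ∈ M.A.nonunits := by
      rw [ValuationSubring.mem_nonunits_iff, map_inv₀]
      apply inv_lt_one_of_one_lt₀
      rw [← not_le, ValuationSubring.valuation_le_one_iff]
      exact hA
    refine ⟨1 - algebraMap K F c⁻¹ * M.x P.e, sub_mem (one_mem _)
      (mul_mem (algebraMap_mem_B hcinv _) (x_mem_B _)), ?_, ?_⟩
    · rw [φ_sub hM (one_mem _) (mul_mem (algebraMap_mem_B hcinv _) (x_mem_B _)),
        φ_mul hM (algebraMap_mem_B hcinv _) (x_mem_B _), φ_algebraMap hcinv,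
        (cres_eq_zero_iff hcinv).2 hcn, zero_mul, sub_zero, φ_one]
      exact one_ne_zero
    · rw [val_sub v (one_mem _) (mul_mem (v.algebraMap_mem' _) hx),
        val_mul v (v.algebraMap_mem' _) hx, val_algebraMap, val_one, ← hc,
        inv_mul_cancel₀ hc0, sub_self]

/-- archimedean property of the valuations `O i`. -/
theorem exists_pow_mul_mem {i : Fin 2} {b : F} (hb : b ∈ M.O i) (hb0 : M.red i b = 0) (h : F) :
    ∃ n : ℕ, b ^ n * h ∈ M.O i := by
  rcases eq_or_ne b 0 with rfl | hbne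
  · exact ⟨1, by simp⟩
  rcases eq_or_ne h 0 with rfl | hhne
  · exact ⟨1, by simp⟩
  obtain ⟨c, hc0, hc1, hc2, -⟩ := M.scale i b hbne
  obtain ⟨d, hd0, hd1, hd2, -⟩ := M.scale i h hhne
  have hcF : algebraMap K F c ≠ 0 := (_root_.map_ne_zero _).2 hc0
  have hdF : algebraMap K F d ≠ 0 := (_root_.map_ne_zero _).2 hd0
  set u := b * (algebraMap K F c)⁻¹ with hu
  set u' := h * (algebraMap K F d)⁻¹ with hu'
  have hb' : b = algebraMap K F c * u := by rw [hu]; field_simp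
  have hh' : h = algebraMap K F d * u' := by rw [hu']; field_simp
  have hcn : c ∈ M.A.nonunits := by
    have hcA : c ∈ M.A := by
      rw [← M.mem_O_iff i]
      have : algebraMap K F c = b * u⁻¹ := by rw [hu]; field_simp
      rw [this]; exact mul_mem hb hc2
    rw [← cres_eq_zero_iff hcA]
    apply (algebraMap k F').injective
    rw [map_zero, ← red_algebraMap hcA i]
    have h1 : M.red i b = M.red i (algebraMap K F c) * M.red i u := by
      conv_lhs => rw [hb']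
      exact red_mul (algebraMap_mem hcA i) hc1
    rw [hb0] at h1
    have h2 : M.red i u ≠ 0 := (red_ne_zero_iff hc1).2 ⟨by
      rw [hu]; exact mul_ne_zero hbne (inv_ne_zero hcF), hc2⟩
    exact (mul_eq_zero.1 h1.symm).resolve_right h2
  obtain ⟨n, hn⟩ := M.arch c hcn d
  refine ⟨n, ?_⟩
  have h1 : b ^ n * h = algebraMap K F (c ^ n * d) * (u ^ n * u') := by
    conv_lhs => rw [hb', hh']
    rw [mul_pow, map_mul, map_pow]; ring
  rw [h1]
  exact mul_mem (algebraMap_mem hn i) (mul_mem (pow_mem hc1 n) hd1)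

/-- **Regularity criterion**. -/
theorem mem_L_of_regular (hM : M.Good) {h : F} (hO : ∀ i ∈ P.on, h ∈ M.O i)
    (ht : ∀ v ∈ P.tube, h ∈ v.toValuationSubring) : h ∈ P.L hM := by
  classical
  rcases eq_or_ne h 0 with rfl | hh0
  · exact zero_mem _
  -- Step 1
  have step1 : ∃ s ∈ M.B P.e, P.φ s ≠ 0 ∧ ∀ v : Place K F, M.x P.e ∈ v.toValuationSubring →
      s * h ∈ v.toValuationSubring := by
    set S : Finset (Place K F) := (finite_ord_ne_zero (K := K) h).toFinset with hS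
    have hch : ∀ v : Place K F, ∃ b ∈ M.B P.e, P.φ b ≠ 0 ∧
        (v ∉ P.tube → M.x P.e ∈ v.toValuationSubring → 0 < v.ord b) := by
      intro v
      by_cases hv : v ∉ P.tube ∧ M.x P.e ∈ v.toValuationSubring
      · obtain ⟨b, h1, h2, h3⟩ := exists_killer hM hv.1 hv.2
        exact ⟨b, h1, h2, fun _ _ => h3⟩
      · refine ⟨1, one_mem _, by rw [φ_one]; exact one_ne_zero, fun h1 h2 => absurd ⟨h1, h2⟩ hv⟩
    choose b hb1 hb2 hb3 using hch
    have hbpow : ∀ v, b v ^ (v.ord h).natAbs ∈ M.B P.e := fun v => pow_mem (hb1 v) _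
    refine ⟨∏ v ∈ S, b v ^ (v.ord h).natAbs, prod_mem fun v _ => hbpow v, ?_, ?_⟩
    · rw [φ_prod hM _ _ fun v _ => hbpow v]
      exact Finset.prod_ne_zero_iff.2 fun v _ => by
        rw [φ_pow hM (hb1 v)]; exact pow_ne_zero _ (hb2 v)
    · intro v hv
      by_cases hvt : v ∈ P.tube
      · exact mul_mem ((prod_mem fun v _ => hbpow v : (∏ v ∈ S, b v ^ (v.ord h).natAbs) ∈
          M.B P.e).2 v hv) (ht v hvt)
      · by_cases hvS : v ∈ S
        · rw [← Finset.mul_prod_erase S _ hvS, mul_right_comm]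
          refine mul_mem ?_ ((prod_mem fun v _ => hbpow v :
            (∏ x ∈ S.erase v, b x ^ (x.ord h).natAbs) ∈ M.B P.e).2 v hv)
          have hbv := hb3 v hvt hv
          have hbne : b v ≠ 0 := by
            intro h0; rw [h0, v.ord_zero] at hbv; exact lt_irrefl _ hbv
          apply mem_place_of_ord_nonneg
          rw [v.ord_mul (pow_ne_zero _ hbne) hh0, ord_pow]
          have h1 : (1 : ℤ) ≤ v.ord (b v) := hbv
          have h2 : ((v.ord h).natAbs : ℤ) ≤ ((v.ord h).natAbs : ℤ) * v.ord (b v) := by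
            nlinarith [Int.natCast_nonneg (v.ord h).natAbs]
          have h3 : -(v.ord h) ≤ ((v.ord h).natAbs : ℤ) := by omega
          omega
        · refine mul_mem ((prod_mem fun v _ => hbpow v : (∏ v ∈ S, b v ^ (v.ord h).natAbs) ∈
            M.B P.e).2 v hv) ?_
          have : v.ord h = 0 := by
            by_contra hne
            exact hvS (by rw [hS]; simpa using hne)
          exact mem_place_of_ord_nonneg v this.ge
  obtain ⟨s, hs, hs0, hsv⟩ := step1
  -- Step 2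
  have step2 : ∀ i : Fin 2, ∃ t ∈ M.B P.e, P.φ t ≠ 0 ∧ t * (s * h) ∈ M.O i := by
    intro i
    by_cases hi : i ∈ P.on
    · exact ⟨1, one_mem _, by rw [φ_one]; exact one_ne_zero, by
        rw [one_mul]; exact mul_mem (hs.1 i) (hO i hi)⟩
    · have h1 : ∃ b ∈ M.B P.e, M.red i b = 0 ∧ P.φ b ≠ 0 := by
        by_contra hcon
        push Not at hcon
        exact hi hcon
      obtain ⟨b, hb, hb0, hb1⟩ := h1
      obtain ⟨n, hn⟩ := exists_pow_mul_mem (hb.1 i) hb0 (s * h)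
      exact ⟨b ^ n, pow_mem hb n, by rw [φ_pow hM hb]; exact pow_ne_zero _ hb1, hn⟩
  choose t ht1 ht2 ht3 using step2
  refine ⟨t 0 * t 1 * s, mul_mem (mul_mem (ht1 0) (ht1 1)) hs, ?_, ?_, ?_⟩
  · rw [φ_mul hM (mul_mem (ht1 0) (ht1 1)) hs, φ_mul hM (ht1 0) (ht1 1)]
    exact mul_ne_zero (mul_ne_zero (ht2 0) (ht2 1)) hs0
  · intro i
    fin_cases i
    · have := mul_mem ((ht1 1).1 0) (ht3 0)
      convert this using 1
      simp only [Fin.isValue, Fin.zero_eta]; ring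
    · have := mul_mem ((ht1 0).1 1) (ht3 1)
      convert this using 1
      simp only [Fin.isValue, Fin.mk_one]; ring
  · intro v hv
    rw [mul_assoc]
    exact mul_mem ((mul_mem (ht1 0) (ht1 1)).2 v hv) (hsv v hv)

end Pt

end Model

end Fermat.Agent.Star
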