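import Fermat.Agent.Star.GeoPts
import Fermat.Agent.Star.Reg

/-!
# Models coming from two-component data: evaluation and integrality
-/

set_option autoImplicit false
set_option linter.unusedSectionVars false

noncomputable section

open AlgebraicCurve WithZero Module Polynomial
open scoped IntermediateField
open Fermat.Agent.RR Fermat.Agent.Deuring Fermat.Agent.FF Fermat.Agent.TwoComp

namespace Fermat.Agent.Star.Geo

variable {K Fm F k F' : Type*} [Field K] [Field Fm] [Algebra K Fm] [Field F]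
    [Algebra K F] [Field k] [Field F'] [Algebra k F'] {q : ℕ}

/-- The model `M` comes from the two-component data `D`. -/
structure Match (M : Model K F k F') (D : Data K Fm F k F' q) : Prop where
  A : M.A = D.G.A
  O₁ : M.O 0 = D.O₁
  O₂ : M.O 1 = D.O₂
  red₁ : ∀ (f : F) (h : f ∈ D.O₁), M.red 0 f = D.ρ₁ ⟨f, h⟩
  red₂ : ∀ (f : F) (h : f ∈ D.O₂), M.red 1 f = D.ρ₂ ⟨f, h⟩
  x₀ : M.x 0 = D.α D.j
  cres : ∀ (a : K) (h : a ∈ D.G.A), M.cres a = D.G.res ⟨a, h⟩

namespace Match

variable {M : Model K F k F'} {D : Data K Fm F k F' q} (h : Match M D)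

include h

theorem x₁ : M.x 1 = (D.α D.j)⁻¹ := by rw [M.x_inv, h.x₀]

theorem mem_RO {f : F} (hf : ∀ i, f ∈ M.O i) : f ∈ D.R.O :=
  ⟨by have := hf 0; rwa [h.O₁] at this, by have := hf 1; rwa [h.O₂] at this⟩

theorem mem_O (f : D.R.O) (i : Fin 2) : (f : F) ∈ M.O i := by
  match i with
  | 0 => rw [h.O₁]; exact f.2.1
  | 1 => rw [h.O₂]; exact f.2.2

theorem ρ_eq (f : D.R.O) : D.R.ρ f = (M.red 0 f, M.red 1 f) :=
  Prod.ext (h.red₁ f f.2.1).symm (h.red₂ f f.2.2).symm

theorem red_zero_eq (f : D.R.O) : M.red 0 f = (D.R.ρ f).1 := by rw [h.ρ_eq]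

theorem red_one_eq (f : D.R.O) : M.red 1 f = (D.R.ρ f).2 := by rw [h.ρ_eq]

omit h in
variable (D) in
/-- reduction of the chart coordinate -/
def yb (e : Fin 2) : F' := if e = 0 then D.jb else D.jb⁻¹

omit h in
variable (D) in
/-- the chart coordinate -/
def xb (e : Fin 2) : D.R.O := if e = 0 then D.xα else D.xα'

omit h in
theorem good_xb (e : Fin 2) : D.Good (xb D e) (yb D e) := by
  match e with
  | 0 => exact D.good_xα
  | 1 => exact D.good_xα'

theorem coe_xb (e : Fin 2) : ((xb D e : D.R.O) : F) = M.x e := by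
  match e with
  | 0 => exact h.x₀.symm
  | 1 => exact h.x₁.symm

theorem red_x_zero (e : Fin 2) : M.red 0 (M.x e) = yb D e := by
  rw [← h.coe_xb, h.red_zero_eq, (good_xb e).eq]

theorem red_x_one (e : Fin 2) : M.red 1 (M.x e) = yb D e ^ q := by
  rw [← h.coe_xb, h.red_one_eq, (good_xb e).eq]

variable [IsAlgClosed k] [IsFF k F']

omit h [IsAlgClosed k] [IsFF k F'] in
theorem pow_mem_place_iff {w : Place k F'} {y : F'} (hq : 0 < q) :
    y ^ q ∈ w.toValuationSubring ↔ y ∈ w.toValuationSubring := by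
  refine ⟨fun hy => ?_, fun hy => pow_mem hy q⟩
  rcases eq_or_ne y 0 with rfl | hy0
  · exact w.toValuationSubring.zero_mem
  apply mem_place_of_ord_nonneg
  have h1 := ord_nonneg_of_mem w hy
  rw [ord_pow] at h1
  have : (0 : ℤ) < q := by exact_mod_cast hq
  exact nonneg_of_mul_nonneg_right h1 this

theorem red_x_mem_iff (hq : 0 < q) (e i : Fin 2) (w : Place k F') :
    M.red i (M.x e) ∈ w.toValuationSubring ↔ yb D e ∈ w.toValuationSubring := by
  match i with
  | 0 => rw [h.red_x_zero]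
  | 1 => rw [h.red_x_one, pow_mem_place_iff hq]

theorem isGood_zero_iff (hq : 0 < q) (i : Fin 2) (w : Place k F') :
    M.IsGood 0 i w ↔ D.jb ∈ w.toValuationSubring := by
  rw [Model.IsGood, h.red_x_mem_iff hq]
  exact ⟨fun h => h.1, fun h => ⟨h, fun h0 => absurd h0 (by decide)⟩⟩

theorem isGood_one (hq : 0 < q) {i : Fin 2} {w : Place k F'} (hw : M.IsGood 1 i w) :
    w.ord D.jb < 0 := by
  obtain ⟨h1, h2⟩ := hw
  have h3 := h2 rfl
  have h1' := (h.red_x_mem_iff hq 1 i w).mp h1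
  have hy : yb D 1 ≠ 0 := inv_ne_zero D.jb_ne_zero
  have h4 : val w (yb D 1) = 0 := by
    match i, h3 with
    | 0, h3 => rwa [h.red_x_zero] at h3
    | 1, h3 =>
      rw [h.red_x_one, val_pow w h1'] at h3
      exact pow_eq_zero_iff (by omega) |>.mp h3
  have h5 := ((val_eq_zero_iff w h1').mp h4).resolve_left hy
  have h6 : w.ord (yb D 1) = - w.ord D.jb := w.ord_inv _
  omega

variable [IsAlgClosed K] [IsFF K F]

theorem eval_mem (hq : 0 < q) (e : Fin 2) (f : F) (hf : f ∈ M.B e) (v : Place K F)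
    (hv : M.x e ∈ v.toValuationSubring) (hA : val v (M.x e) ∈ M.A) : val v f ∈ M.A := by
  rw [h.A] at hA ⊢
  exact val_mem hq (good_xb e) ⟨f, h.mem_RO hf.1⟩
    (fun v hv => hf.2 v (by rwa [h.coe_xb] at hv)) v (by rwa [h.coe_xb])
    (by rwa [h.coe_xb])

theorem red_mem_aux (hq : 0 < q) (e : Fin 2) (f : F) (hf : f ∈ M.B e) (w : Place k F')
    (hw : yb D e ∈ w.toValuationSubring) :
    M.red 0 f ∈ w.toValuationSubring ∧ M.red 1 f ∈ w.toValuationSubring := by
  have := (good_xb e).places hq ⟨f, h.mem_RO hf.1⟩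
    (fun v hv => hf.2 v (by rwa [h.coe_xb] at hv)) w hw
  rwa [h.ρ_eq] at this

theorem red_mem (hq : 0 < q) (e i : Fin 2) (f : F) (hf : f ∈ M.B e) (w : Place k F')
    (hw : M.red i (M.x e) ∈ w.toValuationSubring) : M.red i f ∈ w.toValuationSubring := by
  have h1 := h.red_mem_aux hq e f hf w ((h.red_x_mem_iff hq e i w).mp hw)
  match i with
  | 0 => exact h1.1
  | 1 => exact h1.2

end Match

end Fermat.Agent.Star.Geo
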