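import Fermat.Agent.Star.GeoRel
import Fermat.Agent.TwoComp.NodeData

/-!
# Points of affine charts and places
-/

set_option autoImplicit false
set_option linter.unusedSectionVars false

noncomputable section

open AlgebraicCurve WithZero Module Polynomial
open scoped IntermediateField
open Fermat.Agent.RR Fermat.Agent.Deuring Fermat.Agent.FF Fermat.Agent.TwoComp

namespace Fermat.Agent.Star.Geo

section Pts

variable {k F' : Type*} [Field k] [Field F'] [Algebra k F'] [IsAlgClosed k] [IsFF k F'] {y : F'}

theorem mem_of_mem_closure (w : Place k F') (hw : y ∈ w.toValuationSubring)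
    (r : integralClosure (Algebra.adjoin k {y}) F') : (r : F') ∈ w.toValuationSubring :=
  isIntegral_adjoin_iff.mp r.2 w hw

/-- The point of the affine chart attached to a place. -/
def ptw (w : Place k F') (hw : y ∈ w.toValuationSubring) :
    integralClosure (Algebra.adjoin k {y}) F' →ₐ[k] k where
  toFun r := val w (r : F')
  map_one' := val_one w
  map_mul' a b := val_mul w (mem_of_mem_closure w hw a) (mem_of_mem_closure w hw b)
  map_zero' := val_zero w
  map_add' a b := val_add w (mem_of_mem_closure w hw a) (mem_of_mem_closure w hw b)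
  commutes' c := val_algebraMap w c

theorem ptw_apply (w : Place k F') (hw : y ∈ w.toValuationSubring)
    (r : integralClosure (Algebra.adjoin k {y}) F') : ptw w hw r = val w (r : F') := rfl

/-- Every point of the chart comes from a place. -/
theorem exists_ptw (hy : Transcendental k y)
    (s : integralClosure (Algebra.adjoin k {y}) F' →ₐ[k] k) :
    ∃ (w : Place k F') (hw : y ∈ w.toValuationSubring), ptw w hw = s := by
  let I : Ideal (integralClosure (Algebra.adjoin k {y}) F').toSubring :=
    (RingHom.ker (s : integralClosure (Algebra.adjoin k {y}) F' →+* k) :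
      Ideal (integralClosure (Algebra.adjoin k {y}) F'))
  have hI : I ≠ ⊤ := by
    intro h
    have h1 : (1 : integralClosure (Algebra.adjoin k {y}) F') ∈
        RingHom.ker (s : integralClosure (Algebra.adjoin k {y}) F' →+* k) := by
      have : (1 : (integralClosure (Algebra.adjoin k {y}) F').toSubring) ∈ I := by rw [h]; trivial
      exact this
    rw [RingHom.mem_ker] at h1
    have h2 : (s : integralClosure (Algebra.adjoin k {y}) F' →+* k) 1 = 1 := map_one _
    rw [h2] at h1
    exact one_ne_zero h1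
  obtain ⟨B, hAB, hIB⟩ := Ideal.image_subset_nonunits_valuationSubring I hI
  have hmem : ∀ r : integralClosure (Algebra.adjoin k {y}) F', (r : F') ∈ B := fun r => hAB r.2
  have hKB : ∀ a : k, algebraMap k F' a ∈ B := fun a =>
    hmem (algebraMap k (integralClosure (Algebra.adjoin k {y}) F') a)
  have hnu : ∀ r : integralClosure (Algebra.adjoin k {y}) F', s r = 0 →
      (r : F') ∈ B.nonunits := by
    intro r hr
    exact hIB ⟨⟨r, r.2⟩, hr, rfl⟩
  let y' : integralClosure (Algebra.adjoin k {y}) F' :=
    ⟨y, isIntegral_algebraMap (x := (⟨y, Algebra.self_mem_adjoin_singleton k y⟩ :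
    Algebra.adjoin k {y}))⟩
  have hz : ∀ r : integralClosure (Algebra.adjoin k {y}) F',
      s (r - algebraMap k (integralClosure (Algebra.adjoin k {y}) F') (s r)) = 0 := by
    intro r
    rw [map_sub, AlgHom.commutes]
    exact sub_self _
  have hy0 : y - algebraMap k F' (s y') ≠ 0 := by
    intro h
    apply hy
    rw [sub_eq_zero.mp h]
    exact isAlgebraic_algebraMap _
  have hBtop : B ≠ ⊤ := by
    rintro rfl
    have h1 := hnu _ (hz y')
    rw [ValuationSubring.mem_nonunits_iff] at h1
    have h2 : (y - algebraMap k F' (s y'))⁻¹ ∈ (⊤ : ValuationSubring F') :=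
      ValuationSubring.mem_top _
    rw [← ValuationSubring.valuation_le_one_iff, map_inv₀] at h2
    have h3 : (⊤ : ValuationSubring F').valuation (y - algebraMap k F' (s y')) ≠ 0 :=
      (Valuation.ne_zero_iff _).mpr hy0
    rw [inv_le_one₀ (zero_lt_iff.mpr h3)] at h2
    exact absurd h1 (not_lt.mpr h2)
  have hyB : y ∈ (placeOf B hKB hBtop).toValuationSubring := hmem y'
  refine ⟨placeOf B hKB hBtop, hyB, AlgHom.ext fun r => ?_⟩
  rw [ptw_apply]
  refine (val_unique _ ?_).2
  by_cases h0 : (r : F') = algebraMap k F' (s r)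
  · exact Or.inl h0
  · right
    have h2 : (r : F') - algebraMap k F' (s r) ∈ B.nonunits := hnu _ (hz r)
    have h3 : (r : F') - algebraMap k F' (s r) ≠ 0 := sub_ne_zero.mpr h0
    by_contra hle
    rw [not_lt] at hle
    have h4 : ((r : F') - algebraMap k F' (s r))⁻¹ ∈
        (placeOf B hKB hBtop).toValuationSubring :=
      mem_place_of_ord_nonneg _ (by rw [Place.ord_inv]; omega)
    have h5 : ((r : F') - algebraMap k F' (s r))⁻¹ ∈ B := h4
    rw [ValuationSubring.mem_nonunits_iff] at h2
    rw [← ValuationSubring.valuation_le_one_iff, map_inv₀] at h5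
    have h6 : B.valuation ((r : F') - algebraMap k F' (s r)) ≠ 0 :=
      (Valuation.ne_zero_iff _).mpr h3
    rw [inv_le_one₀ (zero_lt_iff.mpr h6)] at h5
    exact absurd h2 (not_lt.mpr h5)

omit [IsAlgClosed k] in
theorem poleD_eq_zero {w : Place k F'} (hw : y ∈ w.toValuationSubring) :
    poleD (K := k) y w = 0 := by
  rw [poleD_apply]
  have := ord_nonneg_of_mem w hw
  exact max_eq_right (by omega)

/-- Multipliers with prescribed exact order. -/
theorem exists_mult (hy : Transcendental k y) (w : Place k F') {a : F'}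
    (ha : a ∈ w.toValuationSubring) (Z : Finset (Place k F')) (hZ : w ∉ Z)
    (hZy : ∀ v ∈ Z, y ∈ v.toValuationSubring) :
    ∃ N₀ : ℕ, ∀ N : ℕ, N₀ ≤ N → ∃ s : F', s ≠ 0 ∧ w.ord s = -(N * poleD (K := k) y w) ∧
      s ∈ Lp (K := k) y N ∧ a * s ∈ Lp (K := k) y N ∧
      (∀ v ∈ Z, 0 < v.ord s) ∧ ∀ v ∈ Z, a * s = 0 ∨ 0 < v.ord (a * s) := by
  classical
  have hfd := IsFF.finite_adjoin y hy
  have hpos : 0 < finrank k⟮y⟯ F' := finrank_pos
  set E : Divisor k F' := poleD a + ∑ v ∈ Z, Finsupp.single v 1 with hE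
  have hEapp : ∀ v, E v = poleD (K := k) a v + if v ∈ Z then 1 else 0 := by
    intro v
    rw [hE, Finsupp.add_apply, Finsupp.finsetSum_apply]
    congr 1
    simp only [Finsupp.single_apply]
    rw [Finset.sum_ite_eq' Z v (fun _ => (1 : ℤ))]
  refine ⟨(2 * (genusFF k F' : ℤ) + Divisor.degree E).toNat, fun N hN => ?_⟩
  set D : Divisor k F' := (N : ℤ) • poleD y - E with hD
  have hDapp : ∀ v, D v = N * poleD (K := k) y v - E v := by
    intro v
    rw [hD, Finsupp.sub_apply, Finsupp.smul_apply, smul_eq_mul]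
  have hdeg : 2 * (genusFF k F' : ℤ) - 1 < Divisor.degree D := by
    rw [hD, map_sub, map_zsmul, degree_poleD hy, smul_eq_mul]
    have h1 : 2 * (genusFF k F' : ℤ) + Divisor.degree E ≤ N :=
      (Int.self_le_toNat _).trans (by exact_mod_cast hN)
    have h2 : (N : ℤ) * 1 ≤ N * finrank k⟮y⟯ F' :=
      mul_le_mul_of_nonneg_left (by exact_mod_cast hpos) (Int.natCast_nonneg N)
    linarith
  obtain ⟨s, hs, hs0, hsw⟩ := RedInj.exists_exact hdeg w
  have hsv : ∀ v, -D v ≤ v.ord s := (mem_L_iff hs0).mp hs
  have hpa : ∀ v, 0 ≤ poleD (K := k) a v := fun v => poleD_nonneg a v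
  have hpa' : ∀ v, -v.ord a ≤ poleD (K := k) a v := fun v => by
    rw [poleD_apply]; exact le_max_left _ _
  have hite : ∀ v, (0 : ℤ) ≤ if v ∈ Z then 1 else 0 := fun v => by split_ifs <;> omega
  refine ⟨s, hs0, ?_, ?_, ?_, ?_, ?_⟩
  · rw [hsw, hDapp, hEapp, poleD_eq_zero ha, if_neg hZ]
    ring
  · rw [mem_Lp' hs0]
    intro v
    have h1 := hsv v
    rw [hDapp, hEapp, poleD_apply (K := k) y] at h1
    have h2 := hpa v
    have h3 := hite v
    linarith
  · rcases eq_or_ne a 0 with rfl | ha0
    · rw [zero_mul]; exact Submodule.zero_mem _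
    rw [mem_Lp' (mul_ne_zero ha0 hs0)]
    intro v
    rw [v.ord_mul ha0 hs0]
    have h1 := hsv v
    rw [hDapp, hEapp, poleD_apply (K := k) y] at h1
    have h2 := hpa' v
    have h3 := hite v
    linarith
  · intro v hv
    have h1 := hsv v
    rw [hDapp, hEapp, if_pos hv, poleD_eq_zero (hZy v hv)] at h1
    have h2 := hpa v
    linarith
  · intro v hv
    rcases eq_or_ne a 0 with rfl | ha0
    · left; rw [zero_mul]
    right
    have h1 := hsv v
    rw [hDapp, hEapp, if_pos hv, poleD_eq_zero (hZy v hv)] at h1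
    have h2 := hpa' v
    rw [v.ord_mul ha0 hs0]
    linarith

end Pts

end Fermat.Agent.Star.Geo
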