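import Fermat.Agent.RedInj.RRAux
import Fermat.Agent.FF.AlgClosed
import Fermat.Prelude.Def_AlgebraicCurve_BaseChangeGalois

/-!
# Evaluation of functions at a place, algebraically closed constant field
-/

set_option autoImplicit false

noncomputable section

open AlgebraicCurve WithZero Module
open Fermat.Agent.RR Fermat.Agent.FF

namespace Fermat.Agent.Star

variable {K F : Type*} [Field K] [Field F] [Algebra K F]

theorem mem_place_iff (v : Place K F) {a : F} : a ∈ v.toValuationSubring ↔ a = 0 ∨ 0 ≤ v.ord a := by
  rcases eq_or_ne a 0 with rfl | ha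
  · simp
  · rw [mem_iff_ord_nonneg v ha]; simp [ha]

theorem ord_nonneg_of_mem (v : Place K F) {a : F} (h : a ∈ v.toValuationSubring) : 0 ≤ v.ord a := by
  rcases (mem_place_iff v).1 h with rfl | h
  · simp
  · exact h

theorem mem_place_of_ord_nonneg (v : Place K F) {a : F} (h : 0 ≤ v.ord a) :
    a ∈ v.toValuationSubring := (mem_place_iff v).2 (Or.inr h)

variable [IsAlgClosed K] [IsFF K F]

/-- Evaluation at a place as a ring hom. -/
def evalHom (v : Place K F) : v.toValuationSubring →+* K :=
  ((RingEquiv.ofBijective (algebraMap K v.ResidueField)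
    (algebraMap_residueField_bijective v)).symm : v.ResidueField →+* K).comp
    (IsLocalRing.residue v.toValuationSubring)

theorem evalHom_spec (v : Place K F) (a : v.toValuationSubring) :
    algebraMap K v.ResidueField (evalHom v a) = IsLocalRing.residue v.toValuationSubring a := by
  exact (RingEquiv.ofBijective (algebraMap K v.ResidueField)
    (algebraMap_residueField_bijective v)).apply_symm_apply _

theorem evalHom_algebraMap (v : Place K F) (c : K) :
    evalHom v (algebraMap K v.toValuationSubring c) = c := by
  apply (algebraMap_residueField_bijective v).1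
  rw [evalHom_spec]; rfl

theorem evalHom_eq_zero_iff (v : Place K F) (a : v.toValuationSubring) :
    evalHom v a = 0 ↔ (a : F) = 0 ∨ 0 < v.ord (a : F) := by
  have h1 : evalHom v a = 0 ↔ IsLocalRing.residue v.toValuationSubring a = 0 := by
    rw [← evalHom_spec]
    exact (map_eq_zero (algebraMap K v.ResidueField)).symm
  rw [h1, IsLocalRing.residue_eq_zero_iff, IsLocalRing.mem_maximalIdeal, mem_nonunits_iff,
    ← v.adicValuation_coe_eq_one_iff]
  rcases eq_or_ne (a : F) 0 with h0 | h0
  · simp [h0]
  · have h2 := (mem_iff_ord_nonneg v h0).1 a.2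
    have h3 : v.adicValuation (a : F) = 1 ↔ v.ord (a : F) = 0 := by
      rw [Place.ord, neg_eq_zero]
      constructor
      · intro h; rw [h, WithZero.log_one]
      · intro h
        have := WithZero.exp_log (v.adicValuation_ne_zero h0)
        rw [h] at this
        simpa using this.symm
    rw [h3]
    simp only [h0, false_or]
    omega

open Classical in
/-- Evaluation at a place, total function. -/
def val (v : Place K F) (a : F) : K := if h : a ∈ v.toValuationSubring then evalHom v ⟨a, h⟩ else 0

theorem val_of_mem (v : Place K F) {a : F} (h : a ∈ v.toValuationSubring) :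
    val v a = evalHom v ⟨a, h⟩ := dif_pos h

theorem val_add (v : Place K F) {a b : F} (ha : a ∈ v.toValuationSubring)
    (hb : b ∈ v.toValuationSubring) : val v (a + b) = val v a + val v b := by
  rw [val_of_mem v ha, val_of_mem v hb, val_of_mem v (add_mem ha hb), ← map_add]; rfl

theorem val_sub (v : Place K F) {a b : F} (ha : a ∈ v.toValuationSubring)
    (hb : b ∈ v.toValuationSubring) : val v (a - b) = val v a - val v b := by
  rw [val_of_mem v ha, val_of_mem v hb, val_of_mem v (sub_mem ha hb), ← map_sub]; rfl

theorem val_mul (v : Place K F) {a b : F} (ha : a ∈ v.toValuationSubring)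
    (hb : b ∈ v.toValuationSubring) : val v (a * b) = val v a * val v b := by
  rw [val_of_mem v ha, val_of_mem v hb, val_of_mem v (mul_mem ha hb), ← map_mul]; rfl

theorem val_algebraMap (v : Place K F) (c : K) : val v (algebraMap K F c) = c := by
  rw [val_of_mem v (v.algebraMap_mem' c)]
  exact evalHom_algebraMap v c

theorem val_one (v : Place K F) : val v 1 = 1 := by
  simpa using val_algebraMap v (1 : K)

theorem val_zero (v : Place K F) : val v 0 = 0 := by
  simpa using val_algebraMap v (0 : K)

theorem val_eq_zero_iff (v : Place K F) {a : F} (ha : a ∈ v.toValuationSubring) :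
    val v a = 0 ↔ a = 0 ∨ 0 < v.ord a := by
  rw [val_of_mem v ha, evalHom_eq_zero_iff]

theorem val_ne_zero_iff (v : Place K F) {a : F} (ha : a ∈ v.toValuationSubring) :
    val v a ≠ 0 ↔ a ≠ 0 ∧ v.ord a = 0 := by
  rw [ne_eq, val_eq_zero_iff v ha]
  have := ord_nonneg_of_mem v ha
  push Not
  constructor
  · rintro ⟨h1, h2⟩; exact ⟨h1, le_antisymm h2 this⟩
  · rintro ⟨h1, h2⟩; exact ⟨h1, h2.le⟩

theorem val_sub_val (v : Place K F) {a : F} (ha : a ∈ v.toValuationSubring) :
    val v (a - algebraMap K F (val v a)) = 0 := by
  rw [val_sub v ha (v.algebraMap_mem' _), val_algebraMap, sub_self]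

theorem ord_sub_val (v : Place K F) {a : F} (ha : a ∈ v.toValuationSubring) :
    a = algebraMap K F (val v a) ∨ 0 < v.ord (a - algebraMap K F (val v a)) := by
  rcases (val_eq_zero_iff v (sub_mem ha (v.algebraMap_mem' _))).1 (val_sub_val v ha) with h | h
  · left; exact sub_eq_zero.1 h
  · exact Or.inr h

theorem val_unique (v : Place K F) {a : F} {c : K} (h : a = algebraMap K F c ∨
    0 < v.ord (a - algebraMap K F c)) : a ∈ v.toValuationSubring ∧ val v a = c := by
  have hm : a - algebraMap K F c ∈ v.toValuationSubring := by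
    rcases h with h | h
    · rw [h, sub_self]; exact zero_mem _
    · exact mem_place_of_ord_nonneg v h.le
  have ha : a ∈ v.toValuationSubring := by
    have := add_mem hm (v.algebraMap_mem' c)
    rwa [sub_add_cancel] at this
  refine ⟨ha, ?_⟩
  have h1 : val v (a - algebraMap K F c) = 0 := by
    rw [val_eq_zero_iff v hm, sub_eq_zero]; exact h
  rw [val_sub v ha (v.algebraMap_mem' c), val_algebraMap] at h1
  exact sub_eq_zero.1 h1

/-- the total function `val` commutes with semilinear automorphisms -/
theorem val_smul (v : Place K F) (g : SemilinearAut K F) (a : F)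
    (ha : a ∈ v.toValuationSubring) :
    g • a ∈ (g • v).toValuationSubring ∧
      val (g • v) (g • a) = SemilinearAut.baseAut g (val v a) := by
  apply val_unique
  rw [← SemilinearAut.smul_algebraMap]
  rcases ord_sub_val v ha with h | h
  · left; rw [← h]
  · right; rw [← smul_sub, SemilinearAut.ord_smul]; exact h

/-- There is a function with poles at most at `u`, vanishing at `v` and not at `w`. -/
theorem exists_separating (u v w : Place K F) (huv : u ≠ v) (hvw : v ≠ w) (huw : u ≠ w) :
    ∃ f : F, f ≠ 0 ∧ (∀ x : Place K F, x ≠ u → 0 ≤ x.ord f) ∧ 0 < v.ord f ∧ w.ord f = 0 := by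
  classical
  set n : ℕ := 2 * genusFF K F + 1 with hn
  set D : Divisor K F := Finsupp.single u (n : ℤ) - Finsupp.single v 1 with hD
  have hdeg : 2 * (genusFF K F : ℤ) - 1 < Divisor.degree D := by
    rw [hD, map_sub, RedInj.degree_single_one, RedInj.degree_single_one, hn]
    push_cast; omega
  obtain ⟨f, hf, hf0, hfw⟩ := RedInj.exists_exact hdeg w
  rw [mem_riemannRochSpace_iff] at hf
  refine ⟨f, hf0, fun x hx => ?_, ?_, ?_⟩
  · have := (hf x).resolve_left hf0
    rw [hD, Finsupp.sub_apply, Finsupp.single_eq_of_ne hx] at this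
    by_cases hxv : x = v
    · subst hxv
      rw [Finsupp.single_eq_same] at this
      omega
    · rw [Finsupp.single_eq_of_ne hxv] at this
      omega
  · have := (hf v).resolve_left hf0
    rw [hD, Finsupp.sub_apply, Finsupp.single_eq_of_ne (Ne.symm huv), Finsupp.single_eq_same] at this
    omega
  · rw [hfw, hD, Finsupp.sub_apply, Finsupp.single_eq_of_ne (Ne.symm huw),
      Finsupp.single_eq_of_ne (Ne.symm hvw)]
    omega

/-- There is a function with poles at most at `u`, with a simple zero at `v`. -/
theorem exists_simple_zero (u v : Place K F) (huv : u ≠ v) :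
    ∃ f : F, f ≠ 0 ∧ (∀ x : Place K F, x ≠ u → 0 ≤ x.ord f) ∧ v.ord f = 1 := by
  classical
  set n : ℕ := 2 * genusFF K F + 1 with hn
  set D : Divisor K F := Finsupp.single u (n : ℤ) - Finsupp.single v 1 with hD
  have hdeg : 2 * (genusFF K F : ℤ) - 1 < Divisor.degree D := by
    rw [hD, map_sub, RedInj.degree_single_one, RedInj.degree_single_one, hn]
    push_cast; omega
  obtain ⟨f, hf, hf0, hfv⟩ := RedInj.exists_exact hdeg v
  rw [mem_riemannRochSpace_iff] at hf
  refine ⟨f, hf0, fun x hx => ?_, ?_⟩
  · have := (hf x).resolve_left hf0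
    rw [hD, Finsupp.sub_apply, Finsupp.single_eq_of_ne hx] at this
    by_cases hxv : x = v
    · subst hxv
      rw [Finsupp.single_eq_same] at this
      omega
    · rw [Finsupp.single_eq_of_ne hxv] at this
      omega
  · rw [hfv, hD, Finsupp.sub_apply, Finsupp.single_eq_of_ne (Ne.symm huv), Finsupp.single_eq_same]
    omega

end Fermat.Agent.Star
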