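import Fermat.Agent.TwoComp.Ortho
import Fermat.Agent.TwoComp.Places
import Fermat.Agent.Star.PlaceEval

/-!
# Integral relations over `A[x]`, values at places
-/

set_option autoImplicit false
set_option linter.unusedSectionVars false

noncomputable section

open AlgebraicCurve WithZero Module Polynomial
open scoped IntermediateField
open Fermat.Agent.RR Fermat.Agent.FF Fermat.Agent.TwoComp

namespace Fermat.Agent.Star.Geo

section Rel

variable {K F k E : Type*} [Field K] [Field F] [Algebra K F] [Field k] [CommRing E]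
  [Algebra k E] {R : RedRing K F k E}

/-- Elements of `O` integral over `K[x]` are integral over `A[x]`. -/
theorem exists_rel [Nontrivial E] {x : R.O} (hx : R.Generic x) {ι : Type*} [Fintype ι]
    [Nonempty ι] {f : ι → R.O} (hf : RedRing.Indep x f)
    (hcard : Fintype.card ι = finrank K⟮(x : F)⟯ F)
    (g : R.O) (hg : IsIntegral (Algebra.adjoin K {(x : F)}) (g : F)) :
    ∃ (d : ℕ) (p : ℕ → R.A[X]), g ^ d + ∑ i ∈ Finset.range d, R.ev x (p i) * g ^ i = 0 := by
  classical
  let B := basisOfLinearIndependentOfCardEqFinrank (hf.linearIndependent hx) hcard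
  have hB : ∀ i, B i = (f i : F) := fun i => by simp [B]
  let _ : Algebra hx.valL F := ((algebraMap K⟮(x : F)⟯ F).comp (algebraMap hx.valL _)).toAlgebra
  have : IsScalarTower hx.valL K⟮(x : F)⟯ F := IsScalarTower.of_algebraMap_eq fun _ => rfl
  have hint : IsIntegral hx.valL (g : F) := by
    refine isIntegral_of_smul_mem_submodule (M := F)
      (Submodule.span hx.valL (Set.range fun i => ((f i : R.O) : F))) ?_ ?_ (g : F) ?_
    · rw [Submodule.ne_bot_iff]
      obtain ⟨i⟩ := ‹Nonempty ι›
      exact ⟨_, Submodule.subset_span ⟨i, rfl⟩, (hf.linearIndependent hx).ne_zero i⟩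
    · exact Submodule.fg_span (Set.finite_range _)
    · intro n hn
      induction hn using Submodule.span_induction with
      | mem n hn =>
        obtain ⟨l, rfl⟩ := hn
        have h1 : (g : F) * (f l : F) = ∑ i, (B.repr ((g : F) * (f l : F)) i : F) * (f i : F) := by
          conv_lhs => rw [← B.sum_repr ((g : F) * (f l : F))]
          refine Finset.sum_congr rfl fun i _ => ?_
          rw [Algebra.smul_def, hB]
          rfl
        have h2 : ∀ i, (B.repr ((g : F) * (f l : F)) i : F) ∈ R.O := by
          apply hf.mem_of_sum_mem hx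
          rw [← h1]
          exact (g * f l).2
        rw [smul_eq_mul, h1]
        refine Submodule.sum_mem _ fun i _ => ?_
        have h3 : (B.repr ((g : F) * (f l : F)) i : F) * (f i : F) =
            (⟨_, (hx.mem_valL _).mpr (h2 i)⟩ : hx.valL) • (f i : F) := by
          rw [Algebra.smul_def]; rfl
        rw [h3]
        exact Submodule.smul_mem _ _ (Submodule.subset_span ⟨i, rfl⟩)
      | zero => simp
      | add a b _ _ ha hb => rw [smul_add]; exact Submodule.add_mem _ ha hb
      | smul c a _ ha =>
        rw [smul_comm]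
        exact Submodule.smul_mem _ _ ha
  set P := minpoly K⟮(x : F)⟯ (g : F) with hP
  have hPO : ∀ i, (P.coeff i : F) ∈ R.O := by
    intro i
    have h1 := minpoly.isIntegrallyClosed_eq_field_fractions' K⟮(x : F)⟯ hint
    rw [← hP] at h1
    rw [h1, coeff_map]
    exact ((minpoly hx.valL (g : F)).coeff i).2
  have hPK : ∀ i, (P.coeff i : F) ∈ Algebra.adjoin K {(x : F)} := by
    intro i
    open IntermediateField.algebraAdjoinAdjoin in
    have hpid : IsPrincipalIdealRing (Algebra.adjoin K {(x : F)}) :=
      IsPrincipalIdealRing.of_surjective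
        (Polynomial.algEquivOfTranscendental K _ hx.transcendental : K[X] →+* _)
        (Polynomial.algEquivOfTranscendental K _ hx.transcendental).surjective
    open IntermediateField.algebraAdjoinAdjoin in
    have h1 := minpoly.isIntegrallyClosed_eq_field_fractions' K⟮(x : F)⟯ hg
    rw [← hP] at h1
    rw [h1, coeff_map]
    exact ((minpoly (Algebra.adjoin K {(x : F)}) (g : F)).coeff i).2
  have hcoef : ∀ i, ∃ p : R.A[X], (P.coeff i : F) = ((R.ev x p : R.O) : F) := by
    intro i
    have h1 := hPK i
    rw [Algebra.adjoin_singleton_eq_range_aeval] at h1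
    obtain ⟨r, hr⟩ := h1
    replace hr : aeval (x : F) r = (P.coeff i : F) := hr
    rcases eq_or_ne r 0 with rfl | hr0
    · exact ⟨0, by rw [← hr]; simp⟩
    obtain ⟨c, p₀, hc, hpc, hp₀⟩ := exists_primitive R.A R.res hr0
    have h2 : (P.coeff i : F) = algebraMap K F c * ((R.ev x p₀ : R.O) : F) := by
      rw [← hr, hpc, map_mul, aeval_C, RedRing.coe_ev]
    have hcA : c ∈ R.A := by
      rw [← R.mem_O_iff]
      have h3 : algebraMap K F c = (P.coeff i : F) * ((R.ev x p₀ : R.O) : F)⁻¹ := by
        rw [h2, mul_assoc, mul_inv_cancel₀ (hx.ev_ne_zero hp₀), mul_one]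
      rw [h3]
      exact R.O.mul_mem (hPO i) (hx.inv_ev_mem hp₀)
    refine ⟨C ⟨c, hcA⟩ * p₀, ?_⟩
    rw [h2, map_mul, Subring.coe_mul]
    congr 1
    simp [RedRing.ev]
  choose p hp using hcoef
  have hint' : IsIntegral K⟮(x : F)⟯ (g : F) := hint.tower_top
  have hmonic : P.Monic := minpoly.monic hint'
  refine ⟨P.natDegree, p, ?_⟩
  apply Subtype.ext
  have h1 : aeval (g : F) P = 0 := minpoly.aeval _ _
  rw [hmonic.as_sum, map_add, map_pow, aeval_X, map_sum] at h1
  rw [Subring.coe_zero, ← h1, Subring.coe_add, Subring.coe_pow, AddSubmonoidClass.coe_finsetSum]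
  congr 1
  refine Finset.sum_congr rfl fun i _ => ?_
  rw [Subring.coe_mul, Subring.coe_pow, ← hp, map_mul, map_pow, aeval_C, aeval_X]
  rfl

end Rel

section Eval

variable {K F : Type*} [Field K] [Field F] [Algebra K F] [IsAlgClosed K] [IsFF K F]

theorem val_pow (v : Place K F) {a : F} (ha : a ∈ v.toValuationSubring) (n : ℕ) :
    val v (a ^ n) = val v a ^ n := by
  induction n with
  | zero => rw [pow_zero, pow_zero, val_one]
  | succ n ih => rw [pow_succ, val_mul v (pow_mem ha n) ha, ih, pow_succ]

theorem val_sum (v : Place K F) {ι : Type*} (s : Finset ι) (f : ι → F)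
    (hf : ∀ i ∈ s, f i ∈ v.toValuationSubring) : val v (∑ i ∈ s, f i) = ∑ i ∈ s, val v (f i) := by
  classical
  induction s using Finset.induction_on with
  | empty => simpa using val_zero v
  | insert a s ha ih =>
    rw [Finset.sum_insert ha, Finset.sum_insert ha, val_add v (hf a (Finset.mem_insert_self _ _))
      (sum_mem fun i hi => hf i (Finset.mem_insert_of_mem hi)),
      ih fun i hi => hf i (Finset.mem_insert_of_mem hi)]

theorem aeval_mem_place (v : Place K F) {x : F} (hx : x ∈ v.toValuationSubring) (p : K[X]) :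
    aeval x p ∈ v.toValuationSubring := by
  rw [aeval_eq_sum_range]
  refine sum_mem fun i _ => ?_
  rw [Algebra.smul_def]
  exact mul_mem (v.algebraMap_mem' _) (pow_mem hx i)

theorem val_aeval (v : Place K F) {x : F} (hx : x ∈ v.toValuationSubring) (p : K[X]) :
    val v (aeval x p) = eval (val v x) p := by
  rw [aeval_eq_sum_range, val_sum, eval_eq_sum_range]
  · refine Finset.sum_congr rfl fun i _ => ?_
    rw [Algebra.smul_def, val_mul v (v.algebraMap_mem' _) (pow_mem hx i), val_algebraMap,
      val_pow v hx]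
  · intro i _
    rw [Algebra.smul_def]
    exact mul_mem (v.algebraMap_mem' _) (pow_mem hx i)

/-- A root of a monic polynomial with coefficients in a valuation ring. -/
theorem mem_of_rel (A : ValuationSubring K) {c : K} {d : ℕ} (b : ℕ → K) (hb : ∀ i, b i ∈ A)
    (h : c ^ d + ∑ i ∈ Finset.range d, b i * c ^ i = 0) : c ∈ A := by
  have hint : IsIntegral A c := by
    refine ⟨X ^ d + ∑ i ∈ Finset.range d, C (⟨b i, hb i⟩ : A) * X ^ i, ?_, ?_⟩
    · apply monic_X_pow_add
      rcases Nat.eq_zero_or_pos d with h0 | h0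
      · rw [h0]; simp
      · rw [degree_lt_iff_coeff_zero]
        intro m hm
        rw [finsetSum_coeff]
        refine Finset.sum_eq_zero fun i hi => ?_
        rw [coeff_C_mul, coeff_X_pow, if_neg, mul_zero]
        rw [Finset.mem_range] at hi
        omega
    · rw [eval₂_add, eval₂_pow, eval₂_X, eval₂_finsetSum, ← h]
      congr 1
      refine Finset.sum_congr rfl fun i _ => ?_
      rw [eval₂_mul, eval₂_C, eval₂_pow, eval₂_X]
      rfl
  obtain ⟨a, ha⟩ := IsIntegrallyClosed.isIntegral_iff.mp hint
  rw [← ha]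
  exact a.2

end Eval

section EvalMem

variable {K F k E : Type*} [Field K] [Field F] [Algebra K F] [Field k] [CommRing E]
  [Algebra k E] {R : RedRing K F k E} [IsAlgClosed K] [IsFF K F]

/-- values of functions integral over `A[x]` -/
theorem val_mem_of_rel {x g : R.O} {d : ℕ} {p : ℕ → R.A[X]}
    (h : g ^ d + ∑ i ∈ Finset.range d, R.ev x (p i) * g ^ i = 0) (v : Place K F)
    (hx : (x : F) ∈ v.toValuationSubring) (hg : (g : F) ∈ v.toValuationSubring)
    (hxA : val v (x : F) ∈ R.A) : val v (g : F) ∈ R.A := by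
  have hev : ∀ p : R.A[X], ((R.ev x p : R.O) : F) ∈ v.toValuationSubring := fun p => by
    rw [RedRing.coe_ev]; exact aeval_mem_place v hx _
  refine mem_of_rel R.A (d := d) (fun i => val v ((R.ev x (p i) : R.O) : F)) (fun i => ?_) ?_
  · rw [RedRing.coe_ev, val_aeval v hx, eval_map]
    have : eval₂ R.A.subtype (val v (x : F)) (p i) =
        ((eval (⟨val v (x : F), hxA⟩ : R.A) (p i) : R.A) : K) :=
      eval₂_at_apply R.A.subtype (⟨val v (x : F), hxA⟩ : R.A)
    rw [this]
    exact SetLike.coe_mem _
  · have h1 := congrArg (fun z : R.O => val v (z : F)) h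
    simp only [Subring.coe_add, Subring.coe_pow, AddSubmonoidClass.coe_finsetSum,
      Subring.coe_mul, Subring.coe_zero] at h1
    rw [val_zero, val_add v (pow_mem hg d) (sum_mem fun i _ => mul_mem (hev _) (pow_mem hg i)),
      val_pow v hg, val_sum v _ _ (fun i _ => mul_mem (hev _) (pow_mem hg i))] at h1
    rw [← h1]
    congr 1
    refine Finset.sum_congr rfl fun i _ => ?_
    rw [val_mul v (hev _) (pow_mem hg i), val_pow v hg]

end EvalMem

section Data

variable {K Fm F k F' : Type*} [Field K] [Field Fm] [Algebra K Fm] [Field F]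
    [Algebra K F] [Field k] [Field F'] [Algebra k F'] {q : ℕ} {D : Data K Fm F k F' q}
    [IsAlgClosed K] [IsFF K F]

/-- values of functions integral over `A[x]` are in `A`. -/
theorem val_mem (hq : 0 < q) {x : D.R.O} {y : F'} (h : D.Good x y) (g : D.R.O)
    (hg : ∀ v : Place K F, (x : F) ∈ v.toValuationSubring → (g : F) ∈ v.toValuationSubring)
    (v : Place K F) (hv : (x : F) ∈ v.toValuationSubring) (hxA : val v (x : F) ∈ D.G.A) :
    val v (g : F) ∈ D.G.A := by
  obtain ⟨f, hf⟩ := h.exists_indep hq
  have : Nonempty (Fin D.ψ ⊕ Fin D.ψ × Fin q) := ⟨Sum.inl ⟨0, D.ψ_pos⟩⟩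
  obtain ⟨d, p, hrel⟩ := exists_rel (h.generic hq) hf (by
    rw [h.fin']
    simp only [Fintype.card_sum, Fintype.card_fin, Fintype.card_prod]
    ring) g (isIntegral_adjoin_iff.mpr hg)
  exact val_mem_of_rel hrel v hv (hg v hv) hxA

end Data

end Fermat.Agent.Star.Geo
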