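import Fermat.Agent.Star.Node

/-!
# Functions without zeros on the tube of a node, simple zeros
-/

set_option autoImplicit false
set_option linter.unusedSectionVars false

noncomputable section

open AlgebraicCurve WithZero Module
open Fermat.Agent.RR Fermat.Agent.FF

namespace Fermat.Agent.Star

variable {K F k F' : Type*} [Field K] [Field F] [Algebra K F] [Field k] [Field F']
    [Algebra k F'] [IsAlgClosed K] [IsFF K F] [IsAlgClosed k] [IsFF k F']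

namespace Model

variable {M : Model K F k F'}

open SemilinearAut

namespace Pt

variable {P : M.Pt} {hM : M.Good} {U : UnitData M}

/-- units on the component `0`, without zeros on the tube, and of order `0` at the node, are units
of the local ring. -/
theorem unit_of_node (hon : ∀ i, i ∈ P.on) {g : F} (g0 : g ≠ 0) (hO : g ∈ M.O 0)
    (hO' : g⁻¹ ∈ M.O 0) (hord : (P.wOn hM 0).ord (M.red 0 g) = 0)
    (ht : ∀ v ∈ P.tube, v.ord g = 0) : g ∈ P.L hM ∧ g⁻¹ ∈ P.L hM := by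
  have hr : M.red 0 g ≠ 0 := (red_ne_zero_iff hO).2 ⟨g0, hO'⟩
  obtain ⟨c, hc0, hc1, hc2, -⟩ := M.scale 1 g g0
  have hcF : algebraMap K F c ≠ 0 := (_root_.map_ne_zero _).2 hc0
  by_cases hcA : c ∈ M.A
  · have hO1 : g ∈ M.O 1 := by
      have : g = algebraMap K F c * (g * (algebraMap K F c)⁻¹) := by field_simp
      rw [this]; exact mul_mem (algebraMap_mem hcA 1) hc1
    have hL : g ∈ P.L hM := mem_L_of_regular hM (fun i _ => by
        rcases fin2_cases (i := 0) (i' := 1) (by decide) i with rfl | rfl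
        · exact hO
        · exact hO1) fun v hv => mem_place_of_ord_nonneg v (ht v hv).ge
    exact ⟨hL, inv_mem_L hL ((φ_ne_zero_iff (hon 0) hL).2 ⟨hr, hord⟩)⟩
  · exfalso
    have hcinv : c⁻¹ ∈ M.A := (M.A.mem_or_inv_mem c).resolve_left hcA
    have hcn : c⁻¹ ∈ M.A.nonunits := by
      rw [ValuationSubring.mem_nonunits_iff, map_inv₀]
      apply inv_lt_one_of_one_lt₀
      rw [← not_le, ValuationSubring.valuation_le_one_iff]
      exact hcA
    have hg1 : g⁻¹ = algebraMap K F c⁻¹ * (g * (algebraMap K F c)⁻¹)⁻¹ := by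
      rw [map_inv₀]; field_simp
    have hO1 : g⁻¹ ∈ M.O 1 := by
      rw [hg1]; exact mul_mem (algebraMap_mem hcinv 1) hc2
    have hr1 : M.red 1 g⁻¹ = 0 := by
      rw [hg1, red_mul (algebraMap_mem hcinv 1) hc2, red_algebraMap hcinv,
        (cres_eq_zero_iff hcinv).2 hcn, map_zero, zero_mul]
    have hL : g⁻¹ ∈ P.L hM := mem_L_of_regular hM (fun i _ => by
        rcases fin2_cases (i := 0) (i' := 1) (by decide) i with rfl | rfl
        · exact hO'
        · exact hO1) fun v hv => mem_place_of_ord_nonneg v (by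
          rw [Place.ord_inv, ht v hv]; simp)
    have h1 : P.φ g⁻¹ = 0 := (φ_eq_zero_iff (hon 1) hL).2 (Or.inl hr1)
    refine (φ_ne_zero_iff (hon 0) hL).2 ⟨?_, ?_⟩ h1
    · rw [red_inv hO hO' g0]; exact inv_ne_zero hr
    · rw [red_inv hO hO' g0, Place.ord_inv, hord]; simp

namespace Coord

variable (C : Coord U hM P)

theorem pw_ne : M.pF ^ C.w ≠ 0 := pow_ne_zero _ pF_ne_zero

/-- the other coordinate -/
def Y : F := C.X⁻¹ * M.pF ^ C.w

theorem X_mul_Y : C.X * C.Y = algebraMap K F ((M.p : K) ^ C.w) := by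
  rw [Y, mul_inv_cancel_left₀ C.X_ne, map_pow]; rfl

theorem red_X_ne : M.red 0 C.X ≠ 0 := by
  intro h0; have := C.ord_X; rw [h0, Place.ord_zero] at this; exact zero_ne_one this

theorem red_Y_ne : M.red 1 C.Y ≠ 0 := by
  intro h0; have := C.ord_X'; rw [Y] at h0; rw [h0, Place.ord_zero] at this
  exact zero_ne_one this

theorem X_mem_O (hon : ∀ i, i ∈ P.on) : C.X ∈ M.O 0 := L_le_O (hM := hM) (hon 0) C.X_mem

theorem X_inv_mem_O (hon : ∀ i, i ∈ P.on) : C.X⁻¹ ∈ M.O 0 :=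
  inv_mem_of_red_ne_zero (C.X_mem_O hon) C.red_X_ne

theorem Y_mem (hon : ∀ i, i ∈ P.on) : C.Y ∈ P.L hM := by
  refine mem_L_of_regular hM (fun i _ => ?_) fun v hv => mem_place_of_ord_nonneg v ?_
  · rcases fin2_cases (i := 0) (i' := 1) (by decide) i with rfl | rfl
    · exact mul_mem (C.X_inv_mem_O hon) (pow_mem (pF_mem 0) _)
    · exact C.X_inv_mem'
  · rw [Y, v.ord_mul (inv_ne_zero C.X_ne) C.pw_ne, Place.ord_inv, C.tube_X v hv, ord_pow, ord_pF]
    simp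

theorem Y_fix {g : SemilinearAut K F} (hg : g ∈ M.G) : g • C.Y = C.Y := by
  rw [Y, smul_mul', smul_pow', pF_fix, smul_inv_fix (C.X_fix g hg)]

theorem red_X_one : M.red 1 C.X = 0 := by
  have h1 : C.X = M.pF ^ C.w * (C.X * (M.pF ^ C.w)⁻¹) := by
    have := C.pw_ne
    field_simp
  rw [h1]
  exact (red_of_pF_mul C.X_mem' C.w_pos).2

theorem red_Y_zero (hon : ∀ i, i ∈ P.on) : M.red 0 C.Y = 0 := by
  rw [Y, mul_comm]
  exact (red_of_pF_mul (C.X_inv_mem_O hon) C.w_pos).2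

theorem val_X_ne {v : Place K F} (hv : v ∈ P.tube) : val v C.X ≠ 0 :=
  (val_ne_zero_iff v (val_of_tube (hM := hM) hv C.X_mem).1).2 ⟨C.X_ne, C.tube_X v hv⟩

/-- **functions without zeros and poles on the tube of a node**. -/
theorem node_unit (hon : ∀ i, i ∈ P.on) {h : F} (h0 : h ≠ 0) (hO : h ∈ M.O 0) (hO' : h⁻¹ ∈ M.O 0)
    (ht : ∀ v ∈ P.tube, v.ord h = 0) {r : ℤ} (hr : (P.wOn hM 0).ord (M.red 0 h) = r) :
    h * C.X ^ (-r) ∈ P.L hM ∧ (h * C.X ^ (-r))⁻¹ ∈ P.L hM := by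
  have hX := C.X_mem_O hon
  have hX' := C.X_inv_mem_O hon
  have hXz : ∀ n : ℤ, C.X ^ n ∈ M.O 0 ∧ M.red 0 (C.X ^ n) = M.red 0 C.X ^ n := by
    intro n
    obtain ⟨m, rfl | rfl⟩ := n.eq_nat_or_neg
    · rw [zpow_natCast, zpow_natCast]
      exact ⟨pow_mem hX m, red_pow hX m⟩
    · rw [zpow_neg, zpow_natCast, zpow_neg, zpow_natCast, ← inv_pow, ← inv_pow]
      refine ⟨pow_mem hX' m, ?_⟩
      rw [red_pow hX', red_inv hX hX' C.X_ne]
  have hrh : M.red 0 h ≠ 0 := (red_ne_zero_iff hO).2 ⟨h0, hO'⟩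
  refine unit_of_node hon (mul_ne_zero h0 (zpow_ne_zero _ C.X_ne)) (mul_mem hO (hXz _).1) ?_ ?_ ?_
  · rw [mul_inv, ← zpow_neg]; exact mul_mem hO' (hXz _).1
  · rw [red_mul hO (hXz _).1, (hXz _).2, Place.ord_mul _ hrh (zpow_ne_zero _ C.red_X_ne),
      Place.ord_zpow, C.ord_X, hr]; ring
  · intro v hv
    rw [v.ord_mul h0 (zpow_ne_zero _ C.X_ne), v.ord_zpow, C.tube_X v hv, ht v hv]; ring

/-- **simple zeros at nodes** -/
theorem simple_node (hon : ∀ i, i ∈ P.on) {Q : Place K F} (hQ : Q ∈ P.tube) :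
    Q.ord (C.X - algebraMap K F (val Q C.X)) = 1 := by
  have hXL := C.X_mem
  have hYL := C.Y_mem hon
  have hφX : P.φ C.X = 0 :=
    (φ_eq_zero_iff (hon 0) hXL).2 (Or.inr (by rw [C.ord_X]; exact one_pos))
  obtain ⟨hr1, hne1⟩ := sub_val_ne_zero (hon 0) hXL hφX C.red_X_ne hQ
  obtain ⟨hXQ, hcA, hcφ⟩ := val_of_tube (hM := hM) hQ hXL
  obtain ⟨hYQ, hcA', hcφ'⟩ := val_of_tube (hM := hM) hQ hYL
  have hc0 := C.val_X_ne hQ
  have hpos := ord_sub_pos hXL hQ hne1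
  set c := val Q C.X with hc
  set c' := val Q C.Y with hc'
  have hφY : P.φ C.Y = 0 := (φ_eq_zero_iff (hon 0) hYL).2 (Or.inl (C.red_Y_zero hon))
  have hcres' : M.cres c' = 0 := by rw [hcφ', hφY]
  have hcc' : c * c' = (M.p : K) ^ C.w := by
    rw [hc, hc', ← val_mul Q hXQ hYQ, C.X_mul_Y, val_algebraMap]
  have hcF : algebraMap K F c ≠ 0 := (_root_.map_ne_zero _).2 hc0
  by_contra hm1
  set m := Q.ord (C.X - algebraMap K F c) with hm
  have hm2 : 2 ≤ m := by omega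
  obtain ⟨g, hg, hg0, hgQ⟩ := exists_simple (M := M) hQ.1
  set y := M.pF * g with hy
  have hpF := pF_ne_zero (M := M)
  have hyL : y ∈ P.L hM := mul_mem (algebraMap_mem_L p_mem_A) (B_le_L hg)
  have hy0 : y ≠ 0 := mul_ne_zero hpF hg0
  have hyQ : Q.ord y = 1 := by rw [hy, Q.ord_mul hpF hg0, ord_pF, hgQ, zero_add]
  have hyr : ∀ i, M.red i y = 0 := fun i => by
    have := (red_of_pF_mul (i := i) (hg.1 i) one_pos).2
    rwa [pow_one] at this
  have hyQm := (val_of_tube (hM := hM) hQ hyL).1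
  have hyval : val Q y = 0 := (val_eq_zero_iff Q hyQm).2 (Or.inr (by rw [hyQ]; exact one_pos))
  -- the perturbation
  have hoyL : 1 + y ∈ P.L hM := add_mem (one_mem _) hyL
  have hoyr : ∀ i, M.red i (1 + y) = 1 := fun i => by
    rw [red_add (one_mem _) (L_le_O (hM := hM) (hon i) hyL), red_one, hyr, add_zero]
  have hoyφ : P.φ (1 + y) ≠ 0 := (φ_ne_zero_iff (hon 0) hoyL).2
    ⟨by rw [hoyr]; exact one_ne_zero, by rw [hoyr, Place.ord_one]⟩
  have hoyL' : (1 + y)⁻¹ ∈ P.L hM := inv_mem_L hoyL hoyφ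
  have hoy0 : 1 + y ≠ 0 := by
    intro h; apply hoyφ; rw [h, φ, red_zero, val_zero]
  set X' := C.X * (1 + y) with hX'
  set Y' := C.Y * (1 + y)⁻¹ with hY'
  have hX'L : X' ∈ P.L hM := mul_mem hXL hoyL
  have hY'L : Y' ∈ P.L hM := mul_mem hYL hoyL'
  have hXY' : X' * Y' = algebraMap K F ((M.p : K) ^ C.w) := by
    rw [hX', hY', ← C.X_mul_Y]; field_simp
  have hX'r0 : M.red 0 X' = M.red 0 C.X := by
    rw [hX', red_mul (L_le_O (hon 0) hXL) (L_le_O (hon 0) hoyL), hoyr, mul_one]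
  have hX'r1 : M.red 1 X' = 0 := by
    rw [hX', red_mul (L_le_O (hon 1) hXL) (L_le_O (hon 1) hoyL), C.red_X_one, zero_mul]
  have hoyr' : ∀ i, M.red i (1 + y)⁻¹ = 1 := fun i => by
    rw [red_inv (L_le_O (hon i) hoyL) (L_le_O (hM := hM) (hon i) hoyL') hoy0, hoyr, inv_one]
  have hY'r1 : M.red 1 Y' = M.red 1 C.Y := by
    rw [hY', red_mul (L_le_O (hon 1) hYL) (L_le_O (hM := hM) (hon 1) hoyL'), hoyr', mul_one]
  have hY'r0 : M.red 0 Y' = 0 := by
    rw [hY', red_mul (L_le_O (hon 0) hYL) (L_le_O (hM := hM) (hon 0) hoyL'), C.red_Y_zero hon,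
      zero_mul]
  have hpw0 : (M.p : K) ^ C.w ≠ 0 := pow_ne_zero _ M.p_ne_zero
  have hX'c : val Q X' = c := by
    rw [hX', val_mul Q hXQ (add_mem (one_mem _) hyQm), val_add Q (one_mem _) hyQm, hyval, val_one,
      add_zero, mul_one]
  have uniq1 : ∀ V ∈ P.tube, V ≠ Q → val V C.X ≠ c := fun V hV hVQ h =>
    hVQ (unique_node (hM := hM) (hon 0) (hon 1) hpw0 hXL hYL C.X_mul_Y C.ord_X C.red_X_one
      C.ord_X' (C.red_Y_zero hon) hV hQ h)
  have uniq2 : ∀ V ∈ P.tube, V ≠ Q → val V X' ≠ c := fun V hV hVQ h =>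
    hVQ (unique_node (hM := hM) (hon 0) (hon 1) hpw0 hX'L hY'L hXY'
      (by rw [hX'r0]; exact C.ord_X) hX'r1 (by rw [hY'r1]; exact C.ord_X') hY'r0 hV hQ
      (by rw [h, hX'c]))
  have hφX' : P.φ X' = 0 :=
    (φ_eq_zero_iff (hon 1) hX'L).2 (Or.inl hX'r1)
  obtain ⟨hr2, hne2⟩ := sub_val_ne_zero (hon 0) hX'L hφX' (by rw [hX'r0]; exact C.red_X_ne) hQ
  rw [hX'c] at hr2 hne2
  have hord' : Q.ord (X' - algebraMap K F c) = 1 := by
    have h1 : X' - algebraMap K F c = C.X * y + (C.X - algebraMap K F c) := by rw [hX']; ring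
    have h2 : Q.ord (C.X * y) = 1 := by rw [Q.ord_mul C.X_ne hy0, C.tube_X Q hQ, hyQ, zero_add]
    rw [h1, (ord_add_eq_of_lt Q (mul_ne_zero C.X_ne hy0) hne1 (by omega)).2, h2]
  set a := C.X - algebraMap K F c with ha
  set b := X' - algebraMap K F c with hb
  set g₂ := a * b ^ (-m) with hg₂
  have hg₂0 : g₂ ≠ 0 := mul_ne_zero hne1 (zpow_ne_zero _ hne2)
  have htube : ∀ V ∈ P.tube, V.ord g₂ = 0 := by
    intro V hV
    rw [hg₂, V.ord_mul hne1 (zpow_ne_zero _ hne2), V.ord_zpow]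
    by_cases hVQ : V = Q
    · subst hVQ
      rw [hord', ← hm]; ring
    · have e1 : V.ord a = 0 := ord_sub_of_ne (hM := hM) hXL hV (uniq1 V hV hVQ)
      have e2 : V.ord b = 0 := by
        have := ord_sub_of_ne (hM := hM) (Q := Q) hX'L hV (by rw [hX'c]; exact uniq2 V hV hVQ)
        rw [hX'c] at this
        exact this
      rw [e1, e2]; ring
  have hcL : algebraMap K F c ∈ P.L hM := algebraMap_mem_L hcA
  have haO : a ∈ M.O 0 := L_le_O (hM := hM) (hon 0) (sub_mem hXL hcL)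
  have hbO : b ∈ M.O 0 := L_le_O (hM := hM) (hon 0) (sub_mem hX'L hcL)
  have haO' : a⁻¹ ∈ M.O 0 := inv_mem_of_red_ne_zero haO (by rw [hr1]; exact C.red_X_ne)
  have hbr : M.red 0 b = M.red 0 C.X := by rw [hr2, hX'r0]
  have hbO' : b⁻¹ ∈ M.O 0 := inv_mem_of_red_ne_zero hbO (by rw [hbr]; exact C.red_X_ne)
  obtain ⟨l, hl⟩ : ∃ l : ℕ, m = l + 1 := ⟨(m - 1).toNat, by omega⟩
  have hl1 : 1 ≤ l := by omega
  have hg₂' : g₂ = a * b⁻¹ ^ (l + 1) := by
    rw [hg₂, hl, zpow_neg, ← Nat.cast_add_one, zpow_natCast, inv_pow]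
  have hg₂inv : g₂⁻¹ = a⁻¹ * b ^ (l + 1) := by rw [hg₂', mul_inv, inv_pow, inv_inv]
  have hbi : M.red 0 b⁻¹ = (M.red 0 C.X)⁻¹ := by
    rw [red_inv hbO hbO' hne2, hbr]
  have h5 : (P.wOn hM 0).ord (M.red 0 g₂) = -(l : ℤ) := by
    rw [hg₂', red_mul haO (pow_mem hbO' _), red_pow hbO', hr1, hbi,
      Place.ord_mul _ C.red_X_ne (pow_ne_zero _ (inv_ne_zero C.red_X_ne)), ord_pow, Place.ord_inv,
      C.ord_X]
    push_cast; ring
  obtain ⟨h6, h7⟩ := C.node_unit hon hg₂0 (by rw [hg₂']; exact mul_mem haO (pow_mem hbO' _))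
    (by rw [hg₂inv]; exact mul_mem haO' (pow_mem hbO _)) htube h5
  obtain ⟨h8, -⟩ := red_ne_zero_of_unit (hM := hM) (hon 1)
    (mul_ne_zero hg₂0 (zpow_ne_zero _ C.X_ne)) h6 h7
  apply h8
  -- computation at the other component
  set ξ := algebraMap K F c' * C.Y⁻¹ with hξ
  have hY0 : C.Y ≠ 0 := by
    intro h; apply C.red_Y_ne; rw [h, red_zero]
  have hYinv : C.Y⁻¹ ∈ M.O 1 := inv_mem_of_red_ne_zero (L_le_O (hM := hM) (hon 1) hYL) C.red_Y_ne
  have hξO : ξ ∈ M.O 1 := mul_mem (algebraMap_mem hcA' 1) hYinv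
  have hξr : M.red 1 ξ = 0 := by
    rw [hξ, red_mul (algebraMap_mem hcA' 1) hYinv, red_algebraMap hcA', hcres', map_zero, zero_mul]
  have hXξ : C.X = algebraMap K F c * ξ := by
    rw [hξ, ← mul_assoc, ← map_mul, hcc', ← C.X_mul_Y, mul_inv_cancel_right₀ hY0]
  have hoyO : 1 + y ∈ M.O 1 := L_le_O (hM := hM) (hon 1) hoyL
  set A₁ := 1 - ξ with hA₁
  set B₁ := 1 - ξ * (1 + y) with hB₁
  have hA₁O : A₁ ∈ M.O 1 := sub_mem (one_mem _) hξO
  have hB₁O : B₁ ∈ M.O 1 := sub_mem (one_mem _) (mul_mem hξO hoyO)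
  have hB₁r : M.red 1 B₁ = 1 := by
    rw [hB₁, red_sub (one_mem _) (mul_mem hξO hoyO), red_mul hξO hoyO, hξr, zero_mul, red_one,
      sub_zero]
  have hB₁O' : B₁⁻¹ ∈ M.O 1 := inv_mem_of_red_ne_zero hB₁O (by rw [hB₁r]; exact one_ne_zero)
  have hB₁0 : B₁ ≠ 0 := by
    intro h; rw [h, red_zero] at hB₁r; exact zero_ne_one hB₁r
  have haA : a = -algebraMap K F c * A₁ := by rw [ha, hA₁]; conv_lhs => rw [hXξ]
                                              ring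
  have hbB : b = -algebraMap K F c * B₁ := by
    rw [hb, hX', hB₁]; conv_lhs => rw [hXξ]
    ring
  have hfin : g₂ * C.X ^ (-(-(l : ℤ))) = (-1) ^ l * (ξ ^ l * (A₁ * B₁⁻¹ ^ (l + 1))) := by
    rw [neg_neg, zpow_natCast, hg₂', haA, hbB, hXξ, mul_pow, mul_inv, mul_pow, inv_neg]
    have e1 : ((-(algebraMap K F c)⁻¹) ^ (l + 1) : F) =
        (-1) ^ (l + 1) * ((algebraMap K F c) ^ (l + 1))⁻¹ := by
      rw [neg_pow, inv_pow]
    rw [e1, pow_succ (algebraMap K F c) l, pow_succ (-1 : F) l]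
    have := pow_ne_zero l hcF
    field_simp
  have hm1O : ((-1 : F) ^ l) ∈ M.O 1 := pow_mem (neg_mem (one_mem _)) _
  have hABO : A₁ * B₁⁻¹ ^ (l + 1) ∈ M.O 1 := mul_mem hA₁O (pow_mem hB₁O' _)
  rw [hfin, red_mul hm1O (mul_mem (pow_mem hξO l) hABO), red_mul (pow_mem hξO l) hABO,
    red_pow hξO, hξr, zero_pow (by omega), zero_mul, mul_zero]

end Coord

end Pt

end Model

end Fermat.Agent.Star
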