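import Fermat.Agent.Star.Tube

/-!
# Simple zeros of local coordinates, smooth points
-/

set_option autoImplicit false
set_option linter.unusedSectionVars false

noncomputable section

open AlgebraicCurve WithZero Module
open Fermat.Agent.RR Fermat.Agent.FF

namespace Fermat.Agent.Star

variable {K F k F' : Type*} [Field K] [Field F] [Algebra K F] [Field k] [Field F']
    [Algebra k F'] [IsAlgClosed K] [IsFF K F] [IsAlgClosed k] [IsFF k F']

namespace Model

variable {M : Model K F k F'}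

open SemilinearAut

theorem ne_algebraMap_of_red {i : Fin 2} {a : F} {c : K}
    (h : M.red i (a - algebraMap K F c) ≠ 0) : a - algebraMap K F c ≠ 0 := by
  intro h0; rw [h0, red_zero] at h; exact h rfl

namespace Pt

variable {P : M.Pt} {hM : M.Good}

/-- order at a place of the tube of a unit of the local ring -/
theorem ord_eq_zero_of_unit {h : F} (hh : h ∈ P.L hM) (hh' : h⁻¹ ∈ P.L hM)
    {v : Place K F} (hv : v ∈ P.tube) : v.ord h = 0 := by
  have h1 := ord_nonneg_of_mem v (val_of_tube (hM := hM) hv hh).1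
  have h2 := ord_nonneg_of_mem v (val_of_tube (hM := hM) hv hh').1
  rw [Place.ord_inv] at h2
  omega

theorem φ_ne_zero_of_unit {h : F} (h0 : h ≠ 0) (hh : h ∈ P.L hM) (hh' : h⁻¹ ∈ P.L hM) :
    P.φ h ≠ 0 := by
  intro hz
  have h1 : P.φ (h * h⁻¹) = 0 := by rw [φ_mul' hh hh', hz, zero_mul]
  rw [mul_inv_cancel₀ h0, φ_one] at h1
  exact one_ne_zero h1

theorem red_ne_zero_of_unit {i : Fin 2} (hi : i ∈ P.on) {h : F} (h0 : h ≠ 0) (hh : h ∈ P.L hM)
    (hh' : h⁻¹ ∈ P.L hM) : M.red i h ≠ 0 ∧ (P.wOn hM i).ord (M.red i h) = 0 :=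
  (φ_ne_zero_iff hi hh).1 (φ_ne_zero_of_unit h0 hh hh')

/-- orders of `t - val Q t` on the tube, away from `Q` -/
theorem ord_sub_of_ne {t : F} (ht : t ∈ P.L hM) {Q V : Place K F} (hV : V ∈ P.tube)
    (hval : val V t ≠ val Q t) : V.ord (t - algebraMap K F (val Q t)) = 0 := by
  have hm := (val_of_tube (hM := hM) hV ht).1
  refine ((val_ne_zero_iff V (sub_mem hm (V.algebraMap_mem' _))).1 ?_).2
  rw [val_sub V hm (V.algebraMap_mem' _), val_algebraMap]
  exact sub_ne_zero.2 hval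

theorem sub_val_ne_zero {i : Fin 2} (hi : i ∈ P.on) {t : F} (ht : t ∈ P.L hM)
    (hφt : P.φ t = 0) (htr : M.red i t ≠ 0) {Q : Place K F} (hQ : Q ∈ P.tube) :
    M.red i (t - algebraMap K F (val Q t)) = M.red i t ∧ t - algebraMap K F (val Q t) ≠ 0 := by
  obtain ⟨-, hcA, hcφ⟩ := val_of_tube (hM := hM) hQ ht
  have h1 : M.red i (t - algebraMap K F (val Q t)) = M.red i t := by
    rw [red_sub (L_le_O (hM := hM) hi ht) (algebraMap_mem hcA i), red_algebraMap hcA, hcφ, hφt,
      map_zero, sub_zero]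
  refine ⟨h1, ?_⟩
  refine ne_algebraMap_of_red (M := M) (i := i) ?_
  rw [h1]; exact htr

theorem ord_sub_pos {t : F} (ht : t ∈ P.L hM) {Q : Place K F} (hQ : Q ∈ P.tube)
    (h0 : t - algebraMap K F (val Q t) ≠ 0) : 0 < Q.ord (t - algebraMap K F (val Q t)) := by
  rcases ord_sub_val Q (val_of_tube (hM := hM) hQ ht).1 with h | h
  · exact absurd (sub_eq_zero.2 h) h0
  · exact h

/-- **Simple zeros, smooth case.** -/
theorem simple_smooth {i : Fin 2} (hon : P.on = {i}) {t : F} (ht : t ∈ P.L hM)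
    (htw : (P.wOn hM i).ord (M.red i t) = 1) {Q : Place K F} (hQ : Q ∈ P.tube) :
    Q.ord (t - algebraMap K F (val Q t)) = 1 := by
  have hi : i ∈ P.on := by rw [hon]; rfl
  have htr : M.red i t ≠ 0 := by
    intro h0; rw [h0, Place.ord_zero] at htw; exact zero_ne_one htw
  have hφt : P.φ t = 0 := (φ_eq_zero_iff hi ht).2 (Or.inr (by rw [htw]; exact one_pos))
  obtain ⟨hr1, hne1⟩ := sub_val_ne_zero hi ht hφt htr hQ
  obtain ⟨htQ, hcA, hcφ⟩ := val_of_tube (hM := hM) hQ ht
  set c := val Q t with hc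
  have hpos := ord_sub_pos ht hQ hne1
  rw [← hc] at hpos
  by_contra hm1
  set m := Q.ord (t - algebraMap K F c) with hm
  have hm2 : 2 ≤ m := by omega
  -- perturbation
  obtain ⟨g, hg, hg0, hgQ⟩ := exists_simple (M := M) hQ.1
  have hpF : algebraMap K F (M.p : K) ≠ 0 := (_root_.map_ne_zero _).2 M.p_ne_zero
  have hpA : (M.p : K) ∈ M.A := ValuationSubring.nonunits_subset (A := M.A) M.p_mem
  set y := algebraMap K F (M.p : K) * g with hy
  have hyL : y ∈ P.L hM := mul_mem (algebraMap_mem_L hpA) (B_le_L hg)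
  have hyQ : Q.ord y = 1 := by rw [hy, Q.ord_mul hpF hg0, ord_algebraMap, hgQ, zero_add]
  have hyr : M.red i y = 0 := by
    rw [hy, red_mul (algebraMap_mem hpA i) (hg.1 i), red_algebraMap hpA,
      (cres_eq_zero_iff hpA).2 M.p_mem, map_zero, zero_mul]
  have hyval : val Q y = 0 :=
    (val_eq_zero_iff Q (val_of_tube (hM := hM) hQ hyL).1).2 (Or.inr (by rw [hyQ]; exact one_pos))
  set t' := t + y with ht'
  have ht'L : t' ∈ P.L hM := add_mem ht hyL
  have ht'r : M.red i t' = M.red i t := by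
    rw [ht', red_add (L_le_O hi ht) (L_le_O hi hyL), hyr, add_zero]
  have ht'w : (P.wOn hM i).ord (M.red i t') = 1 := by rw [ht'r]; exact htw
  have ht'c : val Q t' = c := by
    rw [ht', val_add Q htQ (val_of_tube (hM := hM) hQ hyL).1, hyval, add_zero]
  have ht'r0 : M.red i t' ≠ 0 := by rw [ht'r]; exact htr
  have hφt' : P.φ t' = 0 := (φ_eq_zero_iff hi ht'L).2 (Or.inr (by rw [ht'w]; exact one_pos))
  obtain ⟨hr2, hne2⟩ := sub_val_ne_zero hi ht'L hφt' ht'r0 hQ
  rw [ht'c] at hr2 hne2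
  have hy0 : y ≠ 0 := mul_ne_zero hpF hg0
  have hord' : Q.ord (t' - algebraMap K F c) = 1 := by
    have h1 : t' - algebraMap K F c = y + (t - algebraMap K F c) := by rw [ht']; ring
    rw [h1, (ord_add_eq_of_lt Q hy0 hne1 (by omega)).2, hyQ]
  -- the quotient
  set a := t - algebraMap K F c with ha
  set b := t' - algebraMap K F c with hb
  set g₂ := a * b ^ (-m) with hg₂
  have hg₂0 : g₂ ≠ 0 := mul_ne_zero hne1 (zpow_ne_zero _ hne2)
  have htube : ∀ V ∈ P.tube, V.ord g₂ = 0 := by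
    intro V hV
    rw [hg₂, V.ord_mul hne1 (zpow_ne_zero _ hne2), V.ord_zpow]
    by_cases hVQ : V = Q
    · subst hVQ
      rw [hord', ← hm]; ring
    · have e1 : V.ord a = 0 := by
        apply ord_sub_of_ne ht hV
        exact fun h => hVQ (unique_smooth hon ht htw hV hQ h)
      have e2 : V.ord b = 0 := by
        have := ord_sub_of_ne (Q := Q) ht'L hV
          (fun h => hVQ (unique_smooth hon ht'L ht'w hV hQ h))
        rw [ht'c] at this
        exact this
      rw [e1, e2]; ring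
  have hcL : algebraMap K F c ∈ P.L hM := algebraMap_mem_L hcA
  have haO : a ∈ M.O i := L_le_O hi (sub_mem ht hcL)
  have hbO : b ∈ M.O i := L_le_O hi (sub_mem ht'L hcL)
  have haO' : a⁻¹ ∈ M.O i := inv_mem_of_red_ne_zero haO (by rw [hr1]; exact htr)
  have hbO' : b⁻¹ ∈ M.O i := inv_mem_of_red_ne_zero hbO (by rw [hr2]; exact ht'r0)
  obtain ⟨l, hl⟩ : ∃ l : ℕ, m = l := ⟨m.toNat, by omega⟩
  have hg₂' : g₂ = a * b⁻¹ ^ l := by rw [hg₂, hl, zpow_neg, zpow_natCast, inv_pow]
  have hg₂inv : g₂⁻¹ = a⁻¹ * b ^ l := by rw [hg₂', mul_inv, inv_pow, inv_inv]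
  have hL1 : g₂ ∈ P.L hM := mem_L_of_regular hM
    (fun i' hi' => by
      have : i' = i := by rw [hon] at hi'; exact hi'
      subst this
      rw [hg₂']; exact mul_mem haO (pow_mem hbO' l))
    (fun v hv => mem_place_of_ord_nonneg v (htube v hv).ge)
  have hL2 : g₂⁻¹ ∈ P.L hM := mem_L_of_regular hM
    (fun i' hi' => by
      have : i' = i := by rw [hon] at hi'; exact hi'
      subst this
      rw [hg₂inv]; exact mul_mem haO' (pow_mem hbO l))
    (fun v hv => mem_place_of_ord_nonneg v (by rw [Place.ord_inv, htube v hv]; simp))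
  obtain ⟨-, h5⟩ := red_ne_zero_of_unit hi hg₂0 hL1 hL2
  have hbi : M.red i b⁻¹ = (M.red i t)⁻¹ := by
    rw [red_inv hbO hbO' hne2, hr2, ht'r]
  have h6 : M.red i g₂ = M.red i t * (M.red i t)⁻¹ ^ l := by
    rw [hg₂', red_mul haO (pow_mem hbO' l), red_pow hbO', hr1, hbi]
  rw [h6, Place.ord_mul _ htr (pow_ne_zero _ (inv_ne_zero htr)), ord_pow, Place.ord_inv, htw] at h5
  omega

end Pt

end Model

end Fermat.Agent.Star
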