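import Fermat.Agent.Star.Disc

/-!
# Points of the tubes are separated by the local coordinates
-/

set_option autoImplicit false
set_option linter.unusedSectionVars false

noncomputable section

open AlgebraicCurve WithZero Module
open Fermat.Agent.RR Fermat.Agent.FF

namespace Fermat.Agent.Star

variable {K F k F' : Type*} [Field K] [Field F] [Algebra K F] [Field k] [Field F']
    [Algebra k F'] [IsAlgClosed K] [IsFF K F] [IsAlgClosed k] [IsFF k F']

namespace Model

variable {M : Model K F k F'}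

open SemilinearAut

theorem smul_inv_fix {g : SemilinearAut K F} {y : F} (h : g • y = y) : g • y⁻¹ = y⁻¹ := by
  rw [smul_inv'', h]

/-- a function regular on a chart, up to scaling -/
theorem exists_scale_B {e : Fin 2} {h : F} (hh : ∀ v : Place K F, M.x e ∈ v.toValuationSubring →
    h ∈ v.toValuationSubring) : ∃ c : K, c ≠ 0 ∧ algebraMap K F c * h ∈ M.B e := by
  rcases eq_or_ne h 0 with rfl | h0
  · exact ⟨1, one_ne_zero, by rw [mul_zero]; exact zero_mem _⟩
  obtain ⟨c₀, h1, h2, -, -⟩ := M.scale 0 h h0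
  obtain ⟨c₁, h3, h4, -, -⟩ := M.scale 1 h h0
  have key : ∃ c : K, c ≠ 0 ∧ c * c₀ ∈ M.A ∧ c * c₁ ∈ M.A := by
    rcases M.A.mem_or_inv_mem (c₀ / c₁) with h | h
    · exact ⟨c₁⁻¹, inv_ne_zero h3, by rwa [mul_comm, ← div_eq_mul_inv], by
        rw [inv_mul_cancel₀ h3]; exact one_mem _⟩
    · refine ⟨c₀⁻¹, inv_ne_zero h1, by rw [inv_mul_cancel₀ h1]; exact one_mem _, ?_⟩
      rwa [inv_div, div_eq_mul_inv, mul_comm] at h
  obtain ⟨c, hc0, hc1, hc2⟩ := key
  refine ⟨c, hc0, ?_, fun v hv => mul_mem (v.algebraMap_mem' c) (hh v hv)⟩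
  have hF0 : algebraMap K F c₀ ≠ 0 := (_root_.map_ne_zero _).2 h1
  have hF1 : algebraMap K F c₁ ≠ 0 := (_root_.map_ne_zero _).2 h3
  intro i
  fin_cases i
  · have := mul_mem (algebraMap_mem (M := M) hc1 0) h2
    rw [map_mul] at this
    have e1 : algebraMap K F c * h =
      algebraMap K F c * algebraMap K F c₀ * (h * (algebraMap K F c₀)⁻¹) := by field_simp
    change algebraMap K F c * h ∈ M.O 0
    rw [e1]; exact this
  · have := mul_mem (algebraMap_mem (M := M) hc2 1) h4
    rw [map_mul] at this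
    have e1 : algebraMap K F c * h =
      algebraMap K F c * algebraMap K F c₁ * (h * (algebraMap K F c₁)⁻¹) := by field_simp
    change algebraMap K F c * h ∈ M.O 1
    rw [e1]; exact this

theorem exists_pole (e : Fin 2) : ∃ u : Place K F, M.x e ∉ u.toValuationSubring := by
  obtain ⟨u, hu⟩ := exists_zero (K := K) (transcendental_inv (M.x_transcendental e))
  refine ⟨u, fun h => ?_⟩
  have := ord_nonneg_of_mem u h
  rw [Place.ord_inv] at hu
  omega

/-- separation of places by functions of `B e` -/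
theorem exists_sep {e : Fin 2} {v w : Place K F} (hv : M.x e ∈ v.toValuationSubring)
    (hw : M.x e ∈ w.toValuationSubring) (hvw : v ≠ w) :
    ∃ h ∈ M.B e, val v h = 0 ∧ val w h ≠ 0 := by
  obtain ⟨u, hu⟩ := exists_pole (M := M) e
  have huv : u ≠ v := by rintro rfl; exact hu hv
  have huw : u ≠ w := by rintro rfl; exact hu hw
  obtain ⟨f, hf0, hf1, hf2, hf3⟩ := exists_separating u v w huv hvw huw
  have hreg : ∀ x : Place K F, M.x e ∈ x.toValuationSubring → f ∈ x.toValuationSubring := by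
    intro x hx
    apply mem_place_of_ord_nonneg
    apply hf1
    rintro rfl
    exact hu hx
  obtain ⟨c, hc0, hc⟩ := exists_scale_B (M := M) hreg
  refine ⟨_, hc, ?_, ?_⟩
  · rw [val_mul v (v.algebraMap_mem' c) (hreg v hv), (val_eq_zero_iff v (hreg v hv)).2 (Or.inr hf2),
      mul_zero]
  · rw [val_mul w (w.algebraMap_mem' c) (hreg w hw), val_algebraMap]
    exact mul_ne_zero hc0 ((val_ne_zero_iff w (hreg w hw)).2 ⟨hf0, hf3⟩)

/-- a function of `B e` with a simple zero at a given place -/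
theorem exists_simple {e : Fin 2} {v : Place K F} (hv : M.x e ∈ v.toValuationSubring) :
    ∃ h ∈ M.B e, h ≠ 0 ∧ v.ord h = 1 := by
  obtain ⟨u, hu⟩ := exists_pole (M := M) e
  have huv : u ≠ v := by rintro rfl; exact hu hv
  obtain ⟨f, hf0, hf1, hf2⟩ := exists_simple_zero u v huv
  have hreg : ∀ x : Place K F, M.x e ∈ x.toValuationSubring → f ∈ x.toValuationSubring := by
    intro x hx
    apply mem_place_of_ord_nonneg
    apply hf1
    rintro rfl
    exact hu hx
  obtain ⟨c, hc0, hc⟩ := exists_scale_B (M := M) hreg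
  have hcF : algebraMap K F c ≠ 0 := (_root_.map_ne_zero _).2 hc0
  refine ⟨_, hc, mul_ne_zero hcF hf0, ?_⟩
  rw [v.ord_mul hcF hf0, ord_algebraMap, zero_add, hf2]

namespace Pt

variable {P : M.Pt}

variable (P) in
open Classical in
/-- the place of the component `i` at the point `P` -/
def wOn (hM : M.Good) (i : Fin 2) : Place k F' :=
  if h : i ≠ P.i ∧ i ∈ P.on then
    Classical.choose (hM.exists_node P.e P.i P.w P.good i h.1 h.2)
  else P.w

theorem wOn_spec (hM : M.Good) {i : Fin 2} (hi : i ∈ P.on) :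
    M.IsGood P.e i (P.wOn hM i) ∧ ∀ b ∈ M.B P.e, P.φ b = val (P.wOn hM i) (M.red i b) := by
  rw [wOn]
  split_ifs with h
  · exact Classical.choose_spec (hM.exists_node P.e P.i P.w P.good i h.1 h.2)
  · have : i = P.i := by
      by_contra hne
      exact h ⟨hne, hi⟩
    subst this
    exact ⟨P.good, fun b _ => rfl⟩

variable {hM : M.Good}

theorem red_mem_wOn {i : Fin 2} (hi : i ∈ P.on) {h : F} (hh : h ∈ P.L hM) :
    M.red i h ∈ (P.wOn hM i).toValuationSubring ∧ val (P.wOn hM i) (M.red i h) = P.φ h := by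
  have hh' := hh
  obtain ⟨s, hs, hs0, hsh⟩ := hh
  obtain ⟨hg, hφ⟩ := wOn_spec hM hi
  have hhO : h ∈ M.O i := L_le_O hi hh'
  have h6 : M.red i (s * h) = M.red i s * M.red i h := red_mul (hs.1 _) hhO
  have hsm := hM.red_mem _ _ _ hs _ hg.1
  have h9 := hM.red_mem _ _ _ hsh _ hg.1
  have hs0' : val (P.wOn hM i) (M.red i s) ≠ 0 := by rwa [← hφ s hs]
  obtain ⟨h7, h8⟩ := (val_ne_zero_iff _ hsm).1 hs0'
  have hm : M.red i h ∈ (P.wOn hM i).toValuationSubring := by
    rcases eq_or_ne (M.red i h) 0 with h10 | h10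
    · rw [h10]; exact zero_mem _
    · have h11 := ord_nonneg_of_mem _ h9
      rw [h6, Place.ord_mul _ h7 h10, h8, zero_add] at h11
      exact mem_place_of_ord_nonneg _ h11
  refine ⟨hm, ?_⟩
  have h12 : val (P.wOn hM i) (M.red i (s * h)) = P.φ s * val (P.wOn hM i) (M.red i h) := by
    rw [h6, val_mul _ hsm hm, hφ s hs]
  rw [← hφ _ hsh, φ_mul' (B_le_L hs) hh'] at h12
  exact (mul_left_cancel₀ hs0 h12).symm

theorem φ_eq_zero_iff {i : Fin 2} (hi : i ∈ P.on) {h : F} (hh : h ∈ P.L hM) :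
    P.φ h = 0 ↔ M.red i h = 0 ∨ 0 < (P.wOn hM i).ord (M.red i h) := by
  obtain ⟨h1, h2⟩ := red_mem_wOn hi hh
  rw [← h2, val_eq_zero_iff _ h1]

theorem φ_ne_zero_iff {i : Fin 2} (hi : i ∈ P.on) {h : F} (hh : h ∈ P.L hM) :
    P.φ h ≠ 0 ↔ M.red i h ≠ 0 ∧ (P.wOn hM i).ord (M.red i h) = 0 := by
  obtain ⟨h1, h2⟩ := red_mem_wOn hi hh
  rw [← h2, val_ne_zero_iff _ h1]

theorem algebraMap_mem_L {a : K} (ha : a ∈ M.A) : algebraMap K F a ∈ P.L hM :=
  B_le_L (algebraMap_mem_B ha _)

/-- rational lifts to the local ring -/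
theorem exists_lift {i : Fin 2} (hi : i ∈ P.on) {a : F'}
    (ha : a ∈ (P.wOn hM i).toValuationSubring) :
    ∃ b ∈ P.L hM, (∀ g ∈ M.G, g • b = b) ∧ M.red i b = a := by
  obtain ⟨hg, hφ⟩ := wOn_spec hM hi
  obtain ⟨b, hb, s, hs, hs0, hbs⟩ := hM.surj P.e i _ hg a ha
  obtain ⟨b₀, hb₀, hbG, hbr⟩ := hM.lift _ b hb
  obtain ⟨s₀, hs₀, hsG, hsr⟩ := hM.lift _ s hs
  have hφs : P.φ s₀ ≠ 0 := by
    rw [hφ s₀ hs₀, hsr]; exact hs0
  have hsinv : s₀⁻¹ ∈ P.L hM := inv_mem_L (B_le_L hs₀) hφs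
  have hs₀0 : s₀ ≠ 0 := by
    rintro rfl; apply hφs; rw [φ, red_zero, val_zero]
  refine ⟨b₀ * s₀⁻¹, mul_mem (B_le_L hb₀) hsinv, fun g hg => ?_, ?_⟩
  · rw [smul_mul', hbG g hg, smul_inv_fix (hsG g hg)]
  · have h1 : M.red i s₀ ≠ 0 := red_ne_zero_of_φ hi hs₀ hφs
    rw [red_mul (hb₀.1 i) (L_le_O hi hsinv), red_inv (hs₀.1 i) (L_le_O hi hsinv) hs₀0, hbr, hbs,
      hsr]
    rw [hsr] at h1
    rw [mul_inv_cancel_right₀ h1]

/-- Division by a uniformiser of the constants. -/
theorem mul_inv_unif_mem {s : Finset F} {π : K}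
    (hπ : ∀ a ∈ M.A.nonunits, (∀ g ∈ M.Fix s, baseAut g a = a) → a * π⁻¹ ∈ M.A)
    {h : F} (hh : h ∈ P.L hM) (hfix : ∀ g ∈ M.Fix s, g • h = h)
    (hred : ∀ i ∈ P.on, M.red i h = 0) : h * algebraMap K F π⁻¹ ∈ P.L hM := by
  rcases eq_or_ne h 0 with rfl | h0
  · rw [zero_mul]; exact zero_mem _
  apply mem_L_of_regular hM
  · intro i hi
    obtain ⟨c, hc0, hc1, hc2, hc3⟩ := M.scale i h h0
    have hcF : algebraMap K F c ≠ 0 := (_root_.map_ne_zero _).2 hc0
    set u := h * (algebraMap K F c)⁻¹ with hu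
    have hh' : h = algebraMap K F c * u := by rw [hu]; field_simp
    have hhO : h ∈ M.O i := L_le_O hi hh
    have hcA : c ∈ M.A := by
      rw [← M.mem_O_iff i]
      have : algebraMap K F c = h * u⁻¹ := by rw [hu]; field_simp
      rw [this]; exact mul_mem hhO hc2
    have hcn : c ∈ M.A.nonunits := by
      rw [← cres_eq_zero_iff hcA]
      apply (algebraMap k F').injective
      rw [map_zero, ← red_algebraMap hcA i]
      have h1 : M.red i h = M.red i (algebraMap K F c) * M.red i u := by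
        conv_lhs => rw [hh']
        exact red_mul (algebraMap_mem hcA i) hc1
      rw [hred i hi] at h1
      have h2 : M.red i u ≠ 0 := (red_ne_zero_iff hc1).2 ⟨by
        rw [hu]; exact mul_ne_zero h0 (inv_ne_zero hcF), hc2⟩
      exact (mul_eq_zero.1 h1.symm).resolve_right h2
    have h3 := hπ c hcn fun g hg => hc3 g hg.1 (hfix g hg)
    have h4 : h * algebraMap K F π⁻¹ = algebraMap K F (c * π⁻¹) * u := by
      rw [map_mul]; conv_lhs => rw [hh']
      ring
    rw [h4]
    exact mul_mem (algebraMap_mem h3 i) hc1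
  · intro v hv
    exact mul_mem (val_of_tube (hM := hM) hv hh).1 (v.algebraMap_mem' _)

/-- The iteration. -/
theorem val_eq_of_step {Q Q' : Place K F} (hQ : Q ∈ P.tube) (hQ' : Q' ∈ P.tube) {s : Finset F}
    {π : K} (hπn : π ∈ M.A.nonunits)
    (step : ∀ h ∈ P.L hM, (∀ g ∈ M.Fix s, g • h = h) → ∃ h₁ ∈ P.L hM,
      (∀ g ∈ M.Fix s, g • h₁ = h₁) ∧ val Q h - val Q' h = π * (val Q h₁ - val Q' h₁))
    {h : F} (hh : h ∈ P.L hM) (hfix : ∀ g ∈ M.Fix s, g • h = h) : val Q h = val Q' h := by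
  by_contra hne
  have hd : val Q h - val Q' h ≠ 0 := sub_ne_zero.2 hne
  have key : ∀ n : ℕ, ∃ h₁ ∈ P.L hM, (∀ g ∈ M.Fix s, g • h₁ = h₁) ∧
      val Q h - val Q' h = π ^ n * (val Q h₁ - val Q' h₁) := by
    intro n
    induction n with
    | zero => exact ⟨h, hh, hfix, by rw [pow_zero, one_mul]⟩
    | succ n ih =>
      obtain ⟨h₁, h1, h2, h3⟩ := ih
      obtain ⟨h₂, h4, h5, h6⟩ := step h₁ h1 h2
      exact ⟨h₂, h4, h5, by rw [h3, h6]; ring⟩
  obtain ⟨n, hn⟩ := M.arch π hπn (val Q h - val Q' h)⁻¹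
  obtain ⟨h₁, h1, h2, h3⟩ := key (n + 1)
  have hb : val Q h₁ - val Q' h₁ ∈ M.A :=
    sub_mem (val_of_tube (hM := hM) hQ h1).2.1 (val_of_tube (hM := hM) hQ' h1).2.1
  -- π ^ (n+1) * b * (π^n * d⁻¹) ...
  have h4 : π * ((val Q h₁ - val Q' h₁) * (π ^ n * (val Q h - val Q' h)⁻¹)) = 1 := by
    have : π * ((val Q h₁ - val Q' h₁) * (π ^ n * (val Q h - val Q' h)⁻¹)) =
        (π ^ (n + 1) * (val Q h₁ - val Q' h₁)) * (val Q h - val Q' h)⁻¹ := by ring
    rw [this, ← h3, mul_inv_cancel₀ hd]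
  have h5 : (val Q h₁ - val Q' h₁) * (π ^ n * (val Q h - val Q' h)⁻¹) ∈ M.A := mul_mem hb hn
  have h6 : M.A.valuation 1 < 1 := by
    rw [← h4, map_mul]
    have h7 := (M.A.valuation_le_one_iff _).2 h5
    have h8 := (ValuationSubring.mem_nonunits_iff (A := M.A)).1 hπn
    calc M.A.valuation π * _ ≤ M.A.valuation π * 1 := mul_le_mul_right h7 _
      _ < 1 := by rw [mul_one]; exact h8
  rw [map_one] at h6
  exact lt_irrefl _ h6

theorem smul_sub_fix {g : SemilinearAut K F} {a b : F} (ha : g • a = a) (hb : g • b = b) :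
    g • (a - b) = a - b := by rw [smul_sub, ha, hb]

theorem smul_mul_fix {g : SemilinearAut K F} {a b : F} (ha : g • a = a) (hb : g • b = b) :
    g • (a * b) = a * b := by rw [smul_mul', ha, hb]

theorem baseAut_fix_of_smul {g : SemilinearAut K F} {c : K}
    (h : g • algebraMap K F c = algebraMap K F c) : baseAut g c = c := by
  rw [SemilinearAut.smul_algebraMap] at h
  exact (algebraMap K F).injective h

theorem smul_algebraMap_fix {g : SemilinearAut K F} {c : K} (h : baseAut g c = c) :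
    g • algebraMap K F c = algebraMap K F c := by
  rw [SemilinearAut.smul_algebraMap, h]

/-- The quotient `(red h - α) / red t`. -/
theorem quot_mem {i : Fin 2} (hi : i ∈ P.on) {t h : F}
    (htw : (P.wOn hM i).ord (M.red i t) = 1) (hh : h ∈ P.L hM) {a : K} (haA : a ∈ M.A)
    (ha : M.cres a = P.φ h) :
    (M.red i h - algebraMap k F' (M.cres a)) * (M.red i t)⁻¹ ∈ (P.wOn hM i).toValuationSubring := by
  have h1 : M.red i (h - algebraMap K F a) = M.red i h - algebraMap k F' (M.cres a) := by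
    rw [red_sub (L_le_O hi hh) (algebraMap_mem haA i), red_algebraMap haA]
  have h2 : h - algebraMap K F a ∈ P.L hM := sub_mem hh (algebraMap_mem_L haA)
  have h3 : P.φ (h - algebraMap K F a) = 0 := by
    rw [φ_sub' hh (algebraMap_mem_L haA), φ_algebraMap haA, ha, sub_self]
  rw [← h1]
  rcases (φ_eq_zero_iff hi h2).1 h3 with h4 | h4
  · rw [h4, zero_mul]; exact zero_mem _
  · have ht0 : M.red i t ≠ 0 := by
      intro h0; rw [h0, Place.ord_zero] at htw; exact zero_ne_one htw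
    have h5 : M.red i (h - algebraMap K F a) ≠ 0 := by
      intro h0; rw [h0, Place.ord_zero] at h4; exact lt_irrefl _ h4
    apply mem_place_of_ord_nonneg
    rw [Place.ord_mul _ h5 (inv_ne_zero ht0), Place.ord_inv, htw]
    omega

/-- **Uniqueness, smooth case.** -/
theorem unique_smooth {i : Fin 2} (hon : P.on = {i}) {t : F} (ht : t ∈ P.L hM)
    (htw : (P.wOn hM i).ord (M.red i t) = 1) {Q Q' : Place K F} (hQ : Q ∈ P.tube)
    (hQ' : Q' ∈ P.tube) (hval : val Q t = val Q' t) : Q = Q' := by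
  classical
  by_contra hne
  have hi : i ∈ P.on := by rw [hon]; rfl
  obtain ⟨h, hhB, hh1, hh2⟩ := exists_sep (M := M) hQ.1 hQ'.1 hne
  set c := val Q t with hc
  obtain ⟨htQ, hcA, hcφ⟩ := val_of_tube (hM := hM) hQ ht
  obtain ⟨htQ', -, -⟩ := val_of_tube (hM := hM) hQ' ht
  have ht0 : M.red i t ≠ 0 := by
    intro h0; rw [h0, Place.ord_zero] at htw; exact zero_ne_one htw
  have hφt : P.φ t = 0 := (φ_eq_zero_iff hi ht).2 (Or.inr (by rw [htw]; exact one_pos))
  have hcres : M.cres c = 0 := by rw [hcφ, hφt]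
  set s : Finset F := {h, t, algebraMap K F c} with hs
  obtain ⟨π, hπ0, hπn, hπfix, hπ⟩ := exists_unif (M := M) s
  have hsh : ∀ g ∈ M.Fix s, g • h = h := fun g hg => hg.2 h (by simp [hs])
  have hst : ∀ g ∈ M.Fix s, g • t = t := fun g hg => hg.2 t (by simp [hs])
  have hsc : ∀ g ∈ M.Fix s, g • algebraMap K F c = algebraMap K F c :=
    fun g hg => hg.2 _ (by simp [hs])
  have := val_eq_of_step (hM := hM) hQ hQ' (s := s) hπn ?_ (B_le_L hhB) hsh
  · rw [hh1] at this; exact hh2 this.symm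
  · intro h' hh' hfix'
    obtain ⟨a, haA, haG, ha⟩ := exists_cres (M := M) (P.φ h')
    obtain ⟨b, hbL, hbG, hb⟩ := exists_lift hi (quot_mem hi htw hh' haA ha)
    have hcL : algebraMap K F c ∈ P.L hM := algebraMap_mem_L hcA
    have haL : algebraMap K F a ∈ P.L hM := algebraMap_mem_L haA
    set g₁ := h' - algebraMap K F a - (t - algebraMap K F c) * b with hg₁
    have hg₁L : g₁ ∈ P.L hM := sub_mem (sub_mem hh' haL) (mul_mem (sub_mem ht hcL) hbL)
    have hg₁fix : ∀ g ∈ M.Fix s, g • g₁ = g₁ := fun g hg =>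
      smul_sub_fix (smul_sub_fix (hfix' g hg) (smul_algebraMap_fix (haG g hg.1)))
        (smul_mul_fix (smul_sub_fix (hst g hg) (hsc g hg)) (hbG g hg.1))
    have hred : ∀ i' ∈ P.on, M.red i' g₁ = 0 := by
      intro i' hi'
      have : i' = i := by rw [hon] at hi'; exact hi'
      subst this
      have hO := fun {y : F} (hy : y ∈ P.L hM) => L_le_O (hM := hM) hi' hy
      rw [hg₁, red_sub (hO (sub_mem hh' haL)) (hO (mul_mem (sub_mem ht hcL) hbL)),
        red_sub (hO hh') (hO haL), red_mul (hO (sub_mem ht hcL)) (hO hbL),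
        red_sub (hO ht) (hO hcL), red_algebraMap haA, red_algebraMap hcA, hcres, map_zero,
        sub_zero, hb]
      field_simp
      ring
    refine ⟨g₁ * algebraMap K F π⁻¹, mul_inv_unif_mem hπ hg₁L hg₁fix hred, fun g hg =>
      smul_mul_fix (hg₁fix g hg) (smul_algebraMap_fix (by rw [map_inv₀, hπfix g hg])), ?_⟩
    have hv : ∀ {V : Place K F}, V ∈ P.tube → val V t = c →
        val V h' = a + π * val V (g₁ * algebraMap K F π⁻¹) := by
      intro V hV hVc
      have hm := fun {y : F} (hy : y ∈ P.L hM) => (val_of_tube (hM := hM) hV hy).1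
      have h1 : h' = algebraMap K F a + ((t - algebraMap K F c) * b +
          algebraMap K F π * (g₁ * algebraMap K F π⁻¹)) := by
        have : algebraMap K F π * (g₁ * algebraMap K F π⁻¹) = g₁ := by
          rw [map_inv₀]
          have : algebraMap K F π ≠ 0 := (_root_.map_ne_zero _).2 hπ0
          field_simp
        rw [this, hg₁]; ring
      have hgm := hm (mul_inv_unif_mem hπ hg₁L hg₁fix hred)
      conv_lhs => rw [h1]
      rw [val_add V (V.algebraMap_mem' a) (add_mem (hm (mul_mem (sub_mem ht hcL) hbL))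
        (mul_mem (V.algebraMap_mem' π) hgm)), val_add V (hm (mul_mem (sub_mem ht hcL) hbL))
        (mul_mem (V.algebraMap_mem' π) hgm), val_mul V (hm (sub_mem ht hcL)) (hm hbL),
        val_sub V (hm ht) (V.algebraMap_mem' c), val_algebraMap, val_algebraMap, hVc, sub_self,
        zero_mul, zero_add, val_mul V (V.algebraMap_mem' π) hgm, val_algebraMap]
    rw [hv hQ rfl, hv hQ' hval.symm]; ring

/-- **Uniqueness, node case.** -/
theorem unique_node (h0 : (0 : Fin 2) ∈ P.on) (h1 : (1 : Fin 2) ∈ P.on) {X Y : F} {κ : K}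
    (hκ : κ ≠ 0)
    (hX : X ∈ P.L hM) (hY : Y ∈ P.L hM) (hXY : X * Y = algebraMap K F κ)
    (hX0 : (P.wOn hM 0).ord (M.red 0 X) = 1) (hX1 : M.red 1 X = 0)
    (hY1 : (P.wOn hM 1).ord (M.red 1 Y) = 1) (hY0 : M.red 0 Y = 0)
    {Q Q' : Place K F} (hQ : Q ∈ P.tube)
    (hQ' : Q' ∈ P.tube) (hval : val Q X = val Q' X) : Q = Q' := by
  classical
  by_contra hne
  obtain ⟨h, hhB, hh1, hh2⟩ := exists_sep (M := M) hQ.1 hQ'.1 hne
  set c := val Q X with hc
  set c' := val Q Y with hc'
  obtain ⟨hXQ, hcA, hcφ⟩ := val_of_tube (hM := hM) hQ hX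
  obtain ⟨hYQ, hcA', hcφ'⟩ := val_of_tube (hM := hM) hQ hY
  have hprod : ∀ V ∈ P.tube, val V X * val V Y = κ := by
    intro V hV
    rw [← val_mul V (val_of_tube (hM := hM) hV hX).1 (val_of_tube (hM := hM) hV hY).1, hXY,
      val_algebraMap]
  have hc0 : c ≠ 0 := by
    intro h0; have := hprod Q hQ; rw [← hc, h0, zero_mul] at this; exact hκ this.symm
  have hval' : val Q' Y = c' := by
    have e1 := hprod Q hQ
    have e2 := hprod Q' hQ'
    rw [← hval, ← e1] at e2
    exact mul_left_cancel₀ hc0 e2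
  have hφX : P.φ X = 0 := (φ_eq_zero_iff h0 hX).2 (Or.inr (by rw [hX0]; exact one_pos))
  have hφY : P.φ Y = 0 := (φ_eq_zero_iff h1 hY).2 (Or.inr (by rw [hY1]; exact one_pos))
  have hcres : M.cres c = 0 := by rw [hcφ, hφX]
  have hcres' : M.cres c' = 0 := by rw [hcφ', hφY]
  have hX00 : M.red 0 X ≠ 0 := by
    intro h0; rw [h0, Place.ord_zero] at hX0; exact zero_ne_one hX0
  have hY10 : M.red 1 Y ≠ 0 := by
    intro h0; rw [h0, Place.ord_zero] at hY1; exact zero_ne_one hY1
  set s : Finset F := {h, X, Y, algebraMap K F c, algebraMap K F c'} with hs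
  obtain ⟨π, hπ0, hπn, hπfix, hπ⟩ := exists_unif (M := M) s
  have hsh : ∀ g ∈ M.Fix s, g • h = h := fun g hg => hg.2 h (by simp [hs])
  have hsX : ∀ g ∈ M.Fix s, g • X = X := fun g hg => hg.2 X (by simp [hs])
  have hsY : ∀ g ∈ M.Fix s, g • Y = Y := fun g hg => hg.2 Y (by simp [hs])
  have hsc : ∀ g ∈ M.Fix s, g • algebraMap K F c = algebraMap K F c :=
    fun g hg => hg.2 _ (by simp [hs])
  have hsc' : ∀ g ∈ M.Fix s, g • algebraMap K F c' = algebraMap K F c' :=
    fun g hg => hg.2 _ (by simp [hs])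
  have := val_eq_of_step (hM := hM) hQ hQ' (s := s) hπn ?_ (B_le_L hhB) hsh
  · rw [hh1] at this; exact hh2 this.symm
  · intro h' hh' hfix'
    obtain ⟨a, haA, haG, ha⟩ := exists_cres (M := M) (P.φ h')
    obtain ⟨b, hbL, hbG, hb⟩ := exists_lift h0 (quot_mem h0 hX0 hh' haA ha)
    obtain ⟨b', hbL', hbG', hb'⟩ := exists_lift h1 (quot_mem h1 hY1 hh' haA ha)
    have hcL : algebraMap K F c ∈ P.L hM := algebraMap_mem_L hcA
    have hcL' : algebraMap K F c' ∈ P.L hM := algebraMap_mem_L hcA'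
    have haL : algebraMap K F a ∈ P.L hM := algebraMap_mem_L haA
    set g₁ := h' - algebraMap K F a - (X - algebraMap K F c) * b -
      (Y - algebraMap K F c') * b' with hg₁
    have m1 := sub_mem hX hcL
    have m2 := sub_mem hY hcL'
    have m3 := mul_mem m1 hbL
    have m4 := mul_mem m2 hbL'
    have m5 := sub_mem hh' haL
    have m6 := sub_mem m5 m3
    have hg₁L : g₁ ∈ P.L hM := sub_mem m6 m4
    have hg₁fix : ∀ g ∈ M.Fix s, g • g₁ = g₁ := fun g hg =>
      smul_sub_fix (smul_sub_fix (smul_sub_fix (hfix' g hg) (smul_algebraMap_fix (haG g hg.1)))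
        (smul_mul_fix (smul_sub_fix (hsX g hg) (hsc g hg)) (hbG g hg.1)))
        (smul_mul_fix (smul_sub_fix (hsY g hg) (hsc' g hg)) (hbG' g hg.1))
    have hred : ∀ i' ∈ P.on, M.red i' g₁ = 0 := by
      intro i' hi'
      have hO := fun {y : F} (hy : y ∈ P.L hM) => L_le_O (hM := hM) hi' hy
      rw [hg₁, red_sub (hO m6) (hO m4), red_sub (hO m5) (hO m3), red_sub (hO hh') (hO haL),
        red_mul (hO m1) (hO hbL), red_mul (hO m2) (hO hbL'),
        red_sub (hO hX) (hO hcL), red_sub (hO hY) (hO hcL'), red_algebraMap haA,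
        red_algebraMap hcA, red_algebraMap hcA', hcres, hcres', map_zero,
        sub_zero, sub_zero]
      fin_cases i'
      · simp only [Fin.zero_eta, Fin.isValue, hY0, zero_mul, sub_zero, hb]
        field_simp
        ring
      · simp only [Fin.mk_one, Fin.isValue, hX1, zero_mul, sub_zero, hb']
        field_simp
        ring
    refine ⟨g₁ * algebraMap K F π⁻¹, mul_inv_unif_mem hπ hg₁L hg₁fix hred, fun g hg =>
      smul_mul_fix (hg₁fix g hg) (smul_algebraMap_fix (by rw [map_inv₀, hπfix g hg])), ?_⟩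
    have hv : ∀ {V : Place K F}, V ∈ P.tube → val V X = c → val V Y = c' →
        val V h' = a + π * val V (g₁ * algebraMap K F π⁻¹) := by
      intro V hV hVc hVc'
      have hm := fun {y : F} (hy : y ∈ P.L hM) => (val_of_tube (hM := hM) hV hy).1
      have e1 : h' = algebraMap K F a + ((X - algebraMap K F c) * b +
          ((Y - algebraMap K F c') * b' + algebraMap K F π * (g₁ * algebraMap K F π⁻¹))) := by
        have : algebraMap K F π * (g₁ * algebraMap K F π⁻¹) = g₁ := by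
          rw [map_inv₀]
          have : algebraMap K F π ≠ 0 := (_root_.map_ne_zero _).2 hπ0
          field_simp
        rw [this, hg₁]; ring
      have hgm := hm (mul_inv_unif_mem hπ hg₁L hg₁fix hred)
      have hπm := V.algebraMap_mem' π
      conv_lhs => rw [e1]
      rw [val_add V (V.algebraMap_mem' a) (add_mem (hm m3) (add_mem (hm m4) (mul_mem hπm hgm))),
        val_add V (hm m3) (add_mem (hm m4) (mul_mem hπm hgm)),
        val_add V (hm m4) (mul_mem hπm hgm),
        val_mul V (hm m1) (hm hbL), val_mul V (hm m2) (hm hbL'),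
        val_sub V (hm hX) (V.algebraMap_mem' c), val_sub V (hm hY) (V.algebraMap_mem' c'),
        val_algebraMap, val_algebraMap, val_algebraMap, hVc, hVc', sub_self, sub_self,
        zero_mul, zero_mul, zero_add, zero_add, val_mul V hπm hgm, val_algebraMap]
    rw [hv hQ rfl rfl, hv hQ' hval.symm hval']; ring

end Pt

end Model

end Fermat.Agent.Star
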