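import Fermat.Agent.Star.TVersion

/-!
# The constancy of node orders when all widths are one
-/

set_option autoImplicit false
set_option linter.unusedSectionVars false

noncomputable section

open AlgebraicCurve WithZero Module
open Fermat.Agent.RR Fermat.Agent.FF

namespace Fermat.Agent.Star

variable {K F k F' : Type*} [Field K] [Field F] [Algebra K F] [Field k] [Field F']
    [Algebra k F'] [IsAlgClosed K] [IsFF K F] [IsAlgClosed k] [IsFF k F']

namespace Model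

variable {M : Model K F k F'}

open Classical in
/-- the multiplicity one at the nodes of the component `0` -/
def nodeMult (M : Model K F k F') (w : Place k F') : ℤ :=
  if ∀ i, i ∈ (M.ptOf 0 w).on then 1 else 0

/-- The general shape of `(STAR)`: `E` and `μ` are `(U.E, ord_w ū)` or `(1, nodeMult)`. -/
def StarShape (M : Model K F k F') (E : ℤ) (μ : Place k F' → ℤ) (f : F) : Prop :=
  ∃ n : ℤ, ((∀ w : Place k F', M.red 0 (M.x 0) ∈ w.toValuationSubring →
      (M.p : ℤ) ∣ E * w.ord (M.red 0 f) - n * μ w) ∧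
      ∀ w : Place k F', M.red 0 (M.x 0) ∉ w.toValuationSubring →
        (M.p : ℤ) ∣ w.ord (M.red 0 f)) ∧
      ∀ (T : F →* F) (e : ℕ), M.TOp T e →
        ∀ w : Place k F', M.red 0 (M.x 0) ∈ w.toValuationSubring →
          (M.p : ℤ) ∣ E * w.ord (M.red 0 (T f)) - e * n * μ w

/-- the unit version -/
theorem starShape_unit (hM : M.Good) (U : UnitData M) {H : Subgroup (SemilinearAut K F)}
    (W : Nonempty (Wild M H) ∨ Nonempty (Tame M H)) {f : F} (f0 : f ≠ 0)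
    (hfix : ∀ g ∈ H, g • f = f) (hO : f ∈ M.O 0)
    (hO' : f⁻¹ ∈ M.O 0) (hdiv : ∀ v : Place K F, (M.p : ℤ) ∣ v.ord f) :
    M.StarShape U.E (fun w => w.ord (M.red 0 U.u)) f :=
  starT hM U W f0 hfix hO hO' hdiv

/-- The width version: here `p` may divide `U.E`. -/
theorem starShape_width (hM : M.Good) (U : UnitData M)
    (hw1 : ∀ {P : M.Pt} (_ : ∀ i, i ∈ P.on) (C : Pt.Coord U hM P), C.w = 1)
    {H : Subgroup (SemilinearAut K F)}
    (W : Nonempty (Wild M H) ∨ Nonempty (Tame M H)) {f : F} (f0 : f ≠ 0)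
    (hfix : ∀ g ∈ H, g • f = f) (hO : f ∈ M.O 0)
    (hO' : f⁻¹ ∈ M.O 0) (hdiv : ∀ v : Place K F, (M.p : ℤ) ∣ v.ord f) :
    M.StarShape 1 M.nodeMult f := by
  classical
  have smooth : ∀ {f : F} (_ : f ≠ 0) (_ : f ∈ M.O 0) (_ : f⁻¹ ∈ M.O 0)
      (_ : ∀ v : Place K F, (M.p : ℤ) ∣ v.ord f) (w : Place k F'),
      ¬ (∀ i, i ∈ (M.ptOf 0 w).on) → (M.p : ℤ) ∣ w.ord (M.red 0 f) := by
    intro f f0 hO hO' hdiv w hw
    have h1 : (M.ptOf 0 w).on = {0} := by
      have := (Pt.on_cases (P := M.ptOf 0 w)).resolve_left hw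
      rwa [ptOf_i] at this
    have := Pt.dvd_smooth (hM := hM) h1 f0 hO hO' (fun v _ => hdiv v)
    rwa [wOn_ptOf] at this
  have cusp : ∀ w : Place k F', M.red 0 (M.x 0) ∉ w.toValuationSubring →
      (M.p : ℤ) ∣ w.ord (M.red 0 f) := by
    intro w hw
    refine smooth f0 hO hO' hdiv w fun h => hw ?_
    have := Pt.e_eq_zero hM h
    exact (ptOf_e 0 w).1 this
  have hconst : ∀ {P Q : M.Pt} (_ : ∀ i, i ∈ P.on) (_ : ∀ i, i ∈ Q.on) (C : Pt.Coord U hM P)
      (C' : Pt.Coord U hM Q), (M.p : ℤ) ∣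
        C.w * (P.wOn hM 0).ord (M.red 0 f) - C'.w * (Q.wOn hM 0).ord (M.red 0 f) := by
    intro P Q hP hQ C C'
    rcases W with ⟨⟨W⟩⟩ | ⟨⟨W⟩⟩
    · exact W.node_const f0 hfix hO hO' hdiv hP hQ C C'
    · exact W.node_const f0 hfix hO hO' hdiv hP hQ C C'
  have hconstT : ∀ (T : F →* F) (e : ℕ), M.TOp T e →
      ∀ {P Q : M.Pt} (_ : ∀ i, i ∈ P.on) (_ : ∀ i, i ∈ Q.on) (C : Pt.Coord U hM P)
        (C' : Pt.Coord U hM Q), (M.p : ℤ) ∣ e * (C.w * (P.wOn hM 0).ord (M.red 0 f)) -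
          C'.w * (Q.wOn hM 0).ord (M.red 0 (T f)) := by
    intro T e hT P Q hP hQ C C'
    rcases W with ⟨⟨W⟩⟩ | ⟨⟨W⟩⟩
    · exact W.node_constT hT f0 hfix hO hO' hdiv hP hQ C C'
    · exact W.node_constT hT f0 hfix hO hO' hdiv hP hQ C C'
  by_cases hex : ∃ P : M.Pt, ∀ i, i ∈ P.on
  · obtain ⟨P, hP⟩ := hex
    obtain ⟨C⟩ := Pt.exists_coord (hM := hM) U hP
    have hC := hw1 hP C
    refine ⟨(P.wOn hM 0).ord (M.red 0 f), ⟨fun w _ => ?_, cusp⟩, ?_⟩
    · by_cases hwn : ∀ i, i ∈ (M.ptOf 0 w).on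
      · obtain ⟨D⟩ := Pt.exists_coord (hM := hM) U hwn
        have h1 := hconst hwn hP D C
        rw [wOn_ptOf, hw1 hwn D, hC] at h1
        rw [nodeMult, if_pos hwn]
        simpa using h1
      · rw [nodeMult, if_neg hwn, one_mul, mul_zero, sub_zero]
        exact smooth f0 hO hO' hdiv w hwn
    · intro T e hT w _
      by_cases hwn : ∀ i, i ∈ (M.ptOf 0 w).on
      · obtain ⟨D⟩ := Pt.exists_coord (hM := hM) U hwn
        have h1 := hconstT T e hT hP hwn C D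
        rw [wOn_ptOf, hw1 hwn D, hC] at h1
        rw [nodeMult, if_pos hwn]
        obtain ⟨r, hr⟩ := h1
        refine ⟨-r, ?_⟩
        push_cast at hr
        linear_combination -hr
      · rw [nodeMult, if_neg hwn, one_mul, mul_zero, sub_zero]
        obtain ⟨TO, TO'⟩ := hT.unit 0 f hO hO' f0
        exact smooth (Datum.T_ne_zero T f0) TO TO' (hT.dvd f f0 hdiv) w hwn
  · refine ⟨0, ⟨fun w _ => ?_, cusp⟩, ?_⟩
    · rw [one_mul, zero_mul, sub_zero]
      exact smooth f0 hO hO' hdiv w fun h => hex ⟨_, h⟩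
    · intro T e hT w _
      rw [one_mul, mul_zero, zero_mul, sub_zero]
      obtain ⟨TO, TO'⟩ := hT.unit 0 f hO hO' f0
      exact smooth (Datum.T_ne_zero T f0) TO TO' (hT.dvd f f0 hdiv) w fun h => hex ⟨_, h⟩

/-- **The Eisenstein step**, pointwise: if `T f` and `f ^ a` agree at `w` up to a `p`-th power
and `e ≢ a` then `p` divides the order. -/
theorem StarShape.dvd {E : ℤ} {μ : Place k F' → ℤ} {f : F} (h : M.StarShape E μ f)
    (hE : IsCoprime (M.p : ℤ) E) {T : F →* F} {e : ℕ} (hT : M.TOp T e) {a : ℤ}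
    (hTf : ∀ w : Place k F', (M.p : ℤ) ∣ w.ord (M.red 0 (T f)) - a * w.ord (M.red 0 f))
    (hea : IsCoprime (M.p : ℤ) (e - a)) (w : Place k F') : (M.p : ℤ) ∣ w.ord (M.red 0 f) := by
  obtain ⟨n, ⟨h1, h2⟩, h3⟩ := h
  by_cases hw : M.red 0 (M.x 0) ∈ w.toValuationSubring
  · obtain ⟨r, hr⟩ := h1 w hw
    obtain ⟨s, hs⟩ := h3 T e hT w hw
    obtain ⟨t, ht⟩ := hTf w
    have h4 : (M.p : ℤ) ∣ (e - a) * (E * w.ord (M.red 0 f)) := by
      refine ⟨e * r - s + E * t, ?_⟩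
      linear_combination (e : ℤ) * hr - hs + E * ht
    exact hE.dvd_of_dvd_mul_left (hea.dvd_of_dvd_mul_left h4)
  · exact h2 w hw

end Model

end Fermat.Agent.Star
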