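import Fermat.Agent.Star.Geo
import Fermat.Agent.Star.Dec
import Fermat.Agent.Star.Final
import Fermat.Agent.TwoComp.Full3
import Fermat.Agent.Deuring.Bounded

/-!
# All widths are one: the counting argument
-/

set_option autoImplicit false
set_option linter.unusedSectionVars false

noncomputable section

open AlgebraicCurve WithZero Module Polynomial
open scoped IntermediateField
open Fermat.Agent.RR Fermat.Agent.Deuring Fermat.Agent.FF Fermat.Agent.TwoComp

namespace Fermat.Agent.Star.Geo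

section Pts

variable {k F' : Type*} [Field k] [Field F'] [Algebra k F'] [IsAlgClosed k] [IsFF k F'] {y : F'}

/-- A place of the chart is determined by its point. -/
theorem ptw_inj (hy : Transcendental k y) {w w' : Place k F'} (hw : y ∈ w.toValuationSubring)
    (hw' : y ∈ w'.toValuationSubring) (h : ptw w hw = ptw w' hw') : w = w' := by
  by_contra hne
  obtain ⟨N₀, hN₀⟩ := exists_mult hy w (one_mem w.toValuationSubring) {w'}
    (by simpa using hne) (fun v hv => by rw [Finset.mem_singleton.1 hv]; exact hw')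
  obtain ⟨s, hs0, hsw, hs, -, hZ, -⟩ := hN₀ N₀ le_rfl
  have hs' := mem_of_mem_Lp hs
  have h1 := DFunLike.congr_fun h ⟨s, hs'⟩
  rw [ptw_apply, ptw_apply] at h1
  have h2 : 0 < w'.ord s := hZ w' (Finset.mem_singleton_self _)
  rw [poleD_eq_zero hw, mul_zero, neg_zero] at hsw
  have h3 : val w' s = 0 := (val_eq_zero_iff w' (mem_place_of_ord_nonneg w' h2.le)).2 (Or.inr h2)
  have h4 : val w s = 0 := h1.trans h3
  rw [val_eq_zero_iff w (mem_place_of_ord_nonneg w hsw.ge)] at h4
  rcases h4 with h4 | h4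
  · exact hs0 h4
  · omega

theorem ord_aeval_neg (P : Place k F') {y : F'} (hy : P.ord y < 0) {p : k[X]} (hp : p ≠ 0) :
    aeval y p ≠ 0 ∧ P.ord (aeval y p) = p.natDegree * P.ord y := by
  have hy0 : y ≠ 0 := by rintro rfl; simp at hy
  have h1 : 0 < P.ord y⁻¹ := by rw [P.ord_inv]; omega
  have h2 : (reverse p).coeff 0 ≠ 0 := by
    rw [coeff_zero_reverse]; exact leadingCoeff_ne_zero.2 hp
  obtain ⟨h3, h4⟩ := FF.ord_aeval_eq_zero P h1 h2
  have h5 : aeval y p = aeval y⁻¹ (reverse p) * y ^ p.natDegree := by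
    rw [aeval_def, aeval_def]
    let _ : Invertible y := invertibleOfNonzero hy0
    have := eval₂_reverse_mul_pow (algebraMap k F') y p
    rw [invOf_eq_inv] at this
    exact this.symm
  have h6 : y ^ p.natDegree ≠ 0 := pow_ne_zero _ hy0
  rw [h5]
  refine ⟨mul_ne_zero h3 h6, ?_⟩
  rw [P.ord_mul h3 h6, h4, FF.ord_pow, zero_add]

/-- The total order of vanishing of a polynomial in `y`. -/
theorem sum_ord_aeval (hy : Transcendental k y) {p : k[X]} (hp : p.natDegree ≠ 0) :
    ∃ Z : Finset (Place k F'), (∀ w, w ∈ Z ↔ 0 < w.ord (aeval y p)) ∧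
      (∀ w ∈ Z, y ∈ w.toValuationSubring) ∧
      ∑ w ∈ Z, w.ord (aeval y p) = p.natDegree * finrank k⟮y⟯ F' := by
  classical
  have hp0 : p ≠ 0 := by rintro rfl; exact hp natDegree_zero
  have hy0 : y ≠ 0 := by
    rintro rfl; exact hy isAlgebraic_zero
  set u := aeval y p with hu
  have hu0 : Transcendental k u := hy.aeval p hp
    (mem_nonZeroDivisors_of_ne_zero (leadingCoeff_ne_zero.2 hp0))
  have hu0' : u ≠ 0 := by
    intro h0; rw [h0] at hu0; exact hu0 isAlgebraic_zero
  have hreg : ∀ w : Place k F', y ∈ w.toValuationSubring → 0 ≤ w.ord u := fun w hw =>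
    ord_nonneg_of_mem w (aeval_mem_place w hw p)
  have hpole : ∀ w : Place k F', w.ord y < 0 → w.ord u = p.natDegree * w.ord y :=
    fun w hw => (ord_aeval_neg w hw hp0).2
  have hmem : ∀ w : Place k F', y ∈ w.toValuationSubring ↔ 0 ≤ w.ord y := fun w =>
    ⟨ord_nonneg_of_mem w, mem_place_of_ord_nonneg w⟩
  -- the pole divisor
  have hD : poleD (K := k) u = p.natDegree • poleD (K := k) y := by
    ext w
    rw [Finsupp.smul_apply, poleD_apply, poleD_apply, nsmul_eq_mul]
    by_cases hw : 0 ≤ w.ord y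
    · have := hreg w ((hmem w).2 hw)
      rw [max_eq_right (by omega), max_eq_right (by omega), mul_zero]
    · rw [not_le] at hw
      rw [hpole w hw, max_eq_left (by nlinarith [Int.natCast_nonneg p.natDegree]),
        max_eq_left (by omega)]
      ring
  have hdeg : Divisor.degree (poleD (K := k) u) = p.natDegree * finrank k⟮y⟯ F' := by
    rw [hD, map_nsmul, degree_poleD hy, nsmul_eq_mul]
  have hdeg' : Divisor.degree (poleD (K := k) u⁻¹) = p.natDegree * finrank k⟮y⟯ F' := by
    rw [degree_poleD (FF.transcendental_inv hu0), finrank_adjoin_inv, ← degree_poleD hu0, hdeg]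
  refine ⟨(poleD (K := k) u⁻¹).support, fun w => ?_, fun w hw => ?_, ?_⟩
  · rw [Finsupp.mem_support_iff, poleD_apply, w.ord_inv, neg_neg]
    constructor
    · intro h
      by_contra hcon
      exact h (max_eq_right (not_lt.1 hcon))
    · intro h
      rw [max_eq_left h.le]; omega
  · rw [Finsupp.mem_support_iff, poleD_apply, w.ord_inv, neg_neg] at hw
    rw [hmem]
    by_contra hcon
    rw [not_le] at hcon
    apply hw
    rw [hpole w hcon]
    exact max_eq_right (by nlinarith [Int.natCast_nonneg p.natDegree])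
  · rw [← hdeg', degree_eq_sum_one]
    refine Finset.sum_congr rfl fun w hw => ?_
    rw [Finsupp.mem_support_iff, poleD_apply, w.ord_inv, neg_neg] at hw
    rw [poleD_apply, w.ord_inv, neg_neg]
    refine (max_eq_left ?_).symm
    by_contra hcon
    exact hw (max_eq_right (not_le.1 hcon).le)

end Pts

variable {K Fm F k F' : Type*} [Field K] [Field Fm] [Algebra K Fm] [Field F]
    [Algebra K F] [Field k] [Field F'] [Algebra k F'] {q : ℕ}
    [IsAlgClosed k] [IsFF k F'] [IsAlgClosed K] [IsFF K F] [IsFF K Fm]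

namespace Match

variable {M : Model K F k F'} {D : Data K Fm F k F' q} (h : Match M D)

include h

/-- A place of the first component lying on both components is a node. -/
theorem ptw_mem_Nd (T : D.NodeSet) {w : Place k F'} (hw : D.jb ∈ w.toValuationSubring)
    (hon : ∀ b ∈ M.B 0, M.red 1 b = 0 → val w (M.red 0 b) = 0) : ptw w hw ∈ T.Nd := by
  refine mem_of_vanish T.Nd _ fun a ha => ?_
  obtain ⟨f, hf, hf0, hf1⟩ := h.exists_of_mem_S (a := a) (b := 0)
    ((T.mem_S_iff a 0).mpr fun s hs => by rw [ha s hs, map_zero, map_zero])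
  have := hon f hf hf1
  rwa [hf0] at this

/-- **All widths are one**, if the unit has as many zeros as allowed by the number of nodes. -/
theorem width_eq_one (hq : 2 ≤ q) (hM : M.Good) (U : Model.UnitData M) {p : k[X]}
    (hp : p.natDegree ≠ 0) (hu : M.red 0 U.u = aeval D.jb p)
    (hcount : ∀ T : D.NodeSet, (U.E : ℤ) * T.Nd.card ≤ p.natDegree * finrank k⟮D.jb⟯ F')
    {P : M.Pt} (C : Model.Pt.Coord U hM P) (hP : ∀ i, i ∈ P.on) : C.w = 1 := by
  classical
  have hq0 : 0 < q := by omega
  obtain ⟨T⟩ := D.nonempty_nodeSet hq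
  obtain ⟨Z, hZ, hZy, hsum⟩ := sum_ord_aeval D.jb_transcendental hp
  rw [← hu] at hZ hsum
  -- the zeros of the unit are nodes
  have hnode : ∀ w ∈ Z, ∀ i, i ∈ (M.ptOf 0 w).on := by
    intro w hw
    by_contra hcon
    have h1 : (M.ptOf 0 w).on = {0} := by
      have := (Model.Pt.on_cases (P := M.ptOf 0 w)).resolve_left hcon
      rwa [Model.ptOf_i] at this
    have h2 : M.red 0 (M.x 0) ∈ w.toValuationSubring :=
      (h.red_x_mem_iff hq0 0 0 w).mpr (hZy w hw)
    have h3 := Model.Pt.ord_unit_smooth (hM := hM) U h1 ((Model.ptOf_e 0 w).2 h2)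
    rw [Model.wOn_ptOf] at h3
    have := (hZ w).1 hw
    omega
  have hle : ∀ w ∈ Z, w.ord (M.red 0 U.u) ≤ U.E := by
    intro w hw
    obtain ⟨C'⟩ := Model.Pt.exists_coord (hM := hM) U (hnode w hw)
    have h1 := C'.o_eq
    rw [Model.wOn_ptOf] at h1
    rw [h1, ← C'.o_mul]
    exact_mod_cast Nat.le_mul_of_pos_right _ C'.w_pos
  -- counting
  have hcard : Z.card ≤ T.Nd.card := by
    rw [← Finset.card_attach]
    refine Finset.card_le_card_of_injOn (fun w => ptw w.1 (hZy w.1 w.2)) (fun w _ => ?_)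
      (fun w _ w' _ hww => Subtype.ext (ptw_inj D.jb_transcendental _ _ hww))
    refine h.ptw_mem_Nd T _ fun b hb hb1 => ?_
    have h1 := hnode w.1 w.2 1
    have h2 : M.red 0 (M.x 0) ∈ w.1.toValuationSubring :=
      (h.red_x_mem_iff hq0 0 0 w.1).mpr (hZy w.1 w.2)
    have he := (Model.ptOf_e (M := M) 0 w.1).2 h2
    have h3 := h1 b (by rw [he]; exact hb) hb1
    rwa [Model.Pt.φ, Model.ptOf_w, Model.ptOf_i] at h3
  have hE : ∀ w ∈ Z, w.ord (M.red 0 U.u) = U.E := by
    have h1 : ∑ w ∈ Z, w.ord (M.red 0 U.u) ≤ ∑ w ∈ Z, (U.E : ℤ) := Finset.sum_le_sum hle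
    have h2 : ∑ w ∈ Z, (U.E : ℤ) ≤ ∑ w ∈ Z, w.ord (M.red 0 U.u) := by
      rw [hsum, Finset.sum_const, nsmul_eq_mul]
      refine le_trans ?_ (hcount T)
      rw [mul_comm]
      exact mul_le_mul_of_nonneg_left (by exact_mod_cast hcard) (Int.natCast_nonneg _)
    exact (Finset.sum_eq_sum_iff_of_le hle).1 (le_antisymm h1 h2)
  -- conclusion
  have hspec := Model.Pt.wOn_spec hM (hP 0)
  have ho : 0 < C.o := by
    have := C.o_mul
    have h2 := U.E_pos
    rcases Nat.eq_zero_or_pos C.o with h0 | h0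
    · rw [h0, zero_mul] at this; omega
    · exact h0
  have hwZ : P.wOn hM 0 ∈ Z := by
    rw [hZ, C.o_eq]; exact_mod_cast ho
  have h1 := hE _ hwZ
  rw [C.o_eq] at h1
  have h2 : C.o = U.E := by exact_mod_cast h1
  have h3 := C.o_mul
  rw [← h2] at h3
  exact Nat.eq_of_mul_eq_mul_left ho (by rw [h3, mul_one])

end Match

end Fermat.Agent.Star.Geo
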